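import Fermat.Agent.S35.Defs
import Fermat.Agent.ES.EEig

/-!
# S35, package NF-CHI : the eigensystem of a normalised eigenform
-/

set_option autoImplicit false

noncomputable section

namespace Fermat.Agent.S35

open CuspForm CongruenceSubgroup ModularFormClass Fermat.Agent.ES

namespace Chi0

/-- a normalised eigenform is an eigenvector of the `T_ℓ`, `ℓ ∤ N`. -/
theorem heckeTLin_apply {N : ℕ} [NeZero N] {g : CuspForm (Gamma0 N) 2}
    (hg : g.IsNormalizedEigenform) {ℓ : ℕ} (hℓ : ℓ.Prime) (hℓN : ¬ ℓ ∣ N) :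
    CuspForm.heckeTLin 2 hℓ hℓN g = qCoeff g ℓ • g := by
  have h0 : qCoeff g 0 = 0 := S49.qCoeff_cusp_zero g
  rw [← sub_eq_zero]
  apply S49.eq_zero_of_qCoeff
  intro n
  have e1 : CuspForm.heckeTLin 2 hℓ hℓN g - qCoeff g ℓ • g
      = CuspForm.heckeTLin 2 hℓ hℓN g + (-(qCoeff g ℓ)) • g := by
    rw [_root_.neg_smul, sub_eq_add_neg]
  rw [e1, S49.qCoeff_add, S49.qCoeff_smul, S49.qCoeff_heckeTLin, EEig.coeff_rel hg h0 hℓ hℓN n]
  ring

end Chi0

/-- NF-CHI : the eigensystem of a normalised eigenform. -/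
theorem exists_chi0 {N : ℕ} [NeZero N] {g : CuspForm (Gamma0 N) 2} (hg : g.IsNormalizedEigenform)
    (S : Set ℕ) (hNS : ∀ q : ℕ, q.Prime → q ∣ N → q ∈ S) :
    ∃ c : heckeAlgebra N 2 S →+* ℂ, (∀ t : heckeAlgebra N 2 S, t.1 g = c t • g) ∧
      ∀ (ℓ : ℕ) (hℓ : ℓ.Prime) (hℓN : ¬ ℓ ∣ N) (hℓS : ℓ ∉ S),
        c (heckeAlgebra.T hℓ hℓN hℓS) = ModularFormClass.qCoeff g ℓ := by
  have hg0 : g ≠ 0 := by
    rintro rfl
    have h0 : qCoeff (0 : CuspForm (Gamma0 N) 2) 1 = 0 := by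
      have := S49.qCoeff_smul (0 : ℂ) (0 : CuspForm (Gamma0 N) 2) 1
      rwa [zero_smul, zero_mul] at this
    exact zero_ne_one (h0 ▸ hg.qCoeff_one)
  have key : ∀ t ∈ heckeAlgebra N 2 S, ∃ c : ℂ, t g = c • g := by
    intro t ht
    induction ht using Algebra.adjoin_induction with
    | mem x hx =>
      rcases hx with ⟨ℓ, hℓ, hℓN, -, rfl⟩ | ⟨q, hqN, hq, hqS, rfl⟩
      · exact ⟨_, Chi0.heckeTLin_apply hg hℓ hℓN⟩
      · exact absurd (hNS q hq hqN) hqS
    | algebraMap r =>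
      refine ⟨(r : ℂ), ?_⟩
      rw [Algebra.algebraMap_eq_smul_one, LinearMap.smul_apply, Module.End.one_apply,
        Int.cast_smul_eq_zsmul]
    | add x y _ _ hx hy =>
      obtain ⟨a, ha⟩ := hx
      obtain ⟨b, hb⟩ := hy
      exact ⟨a + b, by rw [LinearMap.add_apply, ha, hb, add_smul]⟩
    | mul x y _ _ hx hy =>
      obtain ⟨a, ha⟩ := hx
      obtain ⟨b, hb⟩ := hy
      exact ⟨a * b, by rw [Module.End.mul_apply, hb, map_smul, ha, smul_smul, mul_comm]⟩
  have key' : ∀ t : heckeAlgebra N 2 S, ∃ c : ℂ, t.1 g = c • g := fun t => key t.1 t.2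
  choose μ hμ using key'
  have hinj : ∀ c d : ℂ, c • g = d • g → c = d := fun c d h => smul_left_injective ℂ hg0 h
  let c : heckeAlgebra N 2 S →+* ℂ :=
    { toFun := μ
      map_one' := hinj _ _ (by
        rw [← hμ, one_smul]
        rfl)
      map_mul' := fun s t => hinj _ _ (by
        rw [← hμ]
        show s.1 (t.1 g) = _
        rw [hμ t, map_smul, hμ s, smul_smul, mul_comm])
      map_zero' := hinj _ _ (by
        rw [← hμ, zero_smul]
        rfl)
      map_add' := fun s t => hinj _ _ (by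
        rw [← hμ]
        show s.1 g + t.1 g = _
        rw [hμ s, hμ t, add_smul]) }
  refine ⟨c, hμ, fun ℓ hℓ hℓN hℓS => ?_⟩
  refine hinj _ _ ?_
  show μ (heckeAlgebra.T hℓ hℓN hℓS) • g = _
  rw [← hμ]
  exact Chi0.heckeTLin_apply hg hℓ hℓN

end Fermat.Agent.S35
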