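import Fermat.Agent.S35.Defs

/-!
# S35 : the algebra part (variant of `S30/Main.lean`)
-/

set_option autoImplicit false
set_option linter.overlappingInstances false

namespace Fermat.Agent.S35

open Fermat.Agent.ES Fermat.Agent.S24 Fermat.Agent.S30 CuspForm Polynomial IsLocalRing

open Fermat.Agent.S30.Tate in
theorem exists_tate35 {p N : ℕ} [NeZero N] {S : Set ℕ} (D : FinData p N S)
    (𝒪 : Type) [CommRing 𝒪] [IsLocalRing 𝒪] [IsAdicComplete (maximalIdeal 𝒪) 𝒪]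
    (hp : (p : 𝒪) ∈ maximalIdeal 𝒪) :
    ∃ R : GQ →* Matrix (Fin D.d) (Fin D.d) 𝒪,
      (∀ (g : GQ) (t : heckeAlgebra N 2 S), R g * toO 𝒪 (D.τ t) = toO 𝒪 (D.τ t) * R g) ∧
      (∀ n : ℕ, ∃ L : IntermediateField ℚ Kb, FiniteDimensional ℚ L ∧
        ∀ σ : GQ, (∀ x ∈ L, σ x = x) → ∀ i j, (R σ - 1) i j ∈ maximalIdeal 𝒪 ^ n) ∧
      (∀ (ℓ : ℕ) (hℓ : ℓ.Prime) (hℓN : ¬ ℓ ∣ N) (hℓS : ℓ ∉ S), ℓ ≠ p →
        ∀ A : ValuationSubring Kb, A.LiesOverPrime ℓ → ∀ σ : GQ, A.IsFrobeniusAt σ ℓ →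
          R σ * R σ - toO 𝒪 (D.τ (heckeAlgebra.T hℓ hℓN hℓS)) * R σ
            + (ℓ : Matrix (Fin D.d) (Fin D.d) 𝒪) = 0) ∧
      (∀ q : ℕ, q.Prime → ¬ q ∣ N → q ≠ p →
        ∀ A : ValuationSubring Kb, A.LiesOverPrime q → ∀ σ ∈ A.inertiaSubgroupIn ℚ, R σ = 1) ∧
      (∀ (θ : Matrix (Fin D.d) (Fin D.d) ℤ) (c : ℕ) (σ : GQ),
        (∀ r : ℕ, (D.α r σ * D.α r σ - (c : Matrix (Fin D.d) (Fin D.d) (ZMod (p ^ r))))
          * ((D.α r σ * D.α r σ - 1) * (D.α r σ * D.α r σ - 1)) * toO (ZMod (p ^ r)) θ = 0) →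
        (R σ * R σ - (c : Matrix (Fin D.d) (Fin D.d) 𝒪)) * ((R σ * R σ - 1) * (R σ * R σ - 1))
          * toO 𝒪 θ = 0) := by
  obtain ⟨R, hR⟩ := exists_limit (maximalIdeal 𝒪) p hp D.α D.compat
  have hR' : ∀ (r : ℕ) (g : GQ), (Ideal.Quotient.mk (maximalIdeal 𝒪 ^ r)).mapMatrix (R g)
      = (zq (maximalIdeal 𝒪) p hp r).mapMatrix (D.α r g) := hR
  have hext : ∀ X Y : Matrix (Fin D.d) (Fin D.d) 𝒪,
      (∀ r : ℕ, (Ideal.Quotient.mk (maximalIdeal 𝒪 ^ r)).mapMatrix X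
        = (Ideal.Quotient.mk (maximalIdeal 𝒪 ^ r)).mapMatrix Y) → X = Y :=
    fun X Y h => eq_of_forall_map_mk (maximalIdeal 𝒪) X Y h
  refine ⟨R, ?_, ?_, ?_, ?_, ?_⟩
  · intro g t
    refine hext _ _ fun r => ?_
    rw [map_mul, map_mul, hR', mapMatrix_toO _ p hp, ← map_mul, ← map_mul, D.comm]
  · intro n
    obtain ⟨L, hL, h⟩ := D.smooth n
    refine ⟨L, hL, fun σ hσ i j => ?_⟩
    have h1 := hR' n σ
    rw [h σ hσ, map_one, ← map_one (Ideal.Quotient.mk (maximalIdeal 𝒪 ^ n)).mapMatrix] at h1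
    have h2 := congrFun (congrFun h1 i) j
    rw [RingHom.mapMatrix_apply, RingHom.mapMatrix_apply, Matrix.map_apply, Matrix.map_apply,
      Ideal.Quotient.eq] at h2
    exact h2
  · intro ℓ hℓ hℓN hℓS hℓp A hA σ hσ
    refine hext _ _ fun r => ?_
    have h := congrArg (zq (maximalIdeal 𝒪) p hp r).mapMatrix (D.es r ℓ hℓ hℓN hℓS hℓp A hA σ hσ)
    rw [map_add, map_sub, map_mul, map_mul, map_natCast, map_zero] at h
    rw [map_add, map_sub, map_mul, map_mul, hR', mapMatrix_toO _ p hp, map_natCast, map_zero]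
    exact h
  · intro q hq hqN hqp A hA σ hσ
    refine hext _ _ fun r => ?_
    rw [hR', D.inert r q hq hqN hqp A hA σ hσ, map_one, map_one]
  · intro θ c σ h
    refine hext _ _ fun r => ?_
    have h1 := congrArg (zq (maximalIdeal 𝒪) p hp r).mapMatrix (h r)
    rw [map_mul, map_mul, map_mul, map_sub, map_sub, map_mul, map_natCast, map_one, map_zero] at h1
    rw [map_mul, map_mul, map_mul, map_sub, map_sub, map_mul, hR', mapMatrix_toO _ p hp,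
      map_natCast, map_one, map_zero]
    exact h1


/-- the identity `(x² - q²)(x² - 1) = (t² - (q + 1)²) x²` modulo `x² - t x + q`. -/
theorem sq_eq_of {𝒪 : Type*} [CommRing 𝒪] [IsDomain 𝒪] {d : ℕ} (X Y : Matrix (Fin d) (Fin d) 𝒪)
    (hYX : Y * X = 1) (t q : 𝒪) (w : Fin d → 𝒪) (hw : w ≠ 0)
    (h0 : X.mulVec (X.mulVec w) - t • X.mulVec w + q • w = 0)
    (h1 : X.mulVec (X.mulVec (X.mulVec w)) - t • X.mulVec (X.mulVec w) + q • X.mulVec w = 0)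
    (h2 : X.mulVec (X.mulVec (X.mulVec (X.mulVec w))) - t • X.mulVec (X.mulVec (X.mulVec w))
      + q • X.mulVec (X.mulVec w) = 0)
    (h : X.mulVec (X.mulVec (X.mulVec (X.mulVec w))) - (q ^ 2 + 1) • X.mulVec (X.mulVec w)
        + q ^ 2 • w = 0) :
    t = q + 1 ∨ t = -(q + 1) := by
  have hinj : ∀ u : Fin d → 𝒪, X.mulVec u = 0 → u = 0 := fun u hu => by
    have := congrArg Y.mulVec hu
    rwa [Matrix.mulVec_mulVec, hYX, Matrix.one_mulVec, Matrix.mulVec_zero] at this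
  have hw2 : X.mulVec (X.mulVec w) ≠ 0 := fun h' => hw (hinj _ (hinj _ h'))
  have h3 : (t ^ 2 - (q + 1) ^ 2) • X.mulVec (X.mulVec w) = 0 := by
    have e : (t ^ 2 - (q + 1) ^ 2) • X.mulVec (X.mulVec w)
        = (X.mulVec (X.mulVec (X.mulVec (X.mulVec w))) - (q ^ 2 + 1) • X.mulVec (X.mulVec w)
            + q ^ 2 • w)
          - (X.mulVec (X.mulVec (X.mulVec (X.mulVec w))) - t • X.mulVec (X.mulVec (X.mulVec w))
            + q • X.mulVec (X.mulVec w))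
          - t • (X.mulVec (X.mulVec (X.mulVec w)) - t • X.mulVec (X.mulVec w) + q • X.mulVec w)
          - q • (X.mulVec (X.mulVec w) - t • X.mulVec w + q • w) := by
      module
    rw [e, h, h2, h1, h0]
    simp
  rcases smul_eq_zero.mp h3 with h4 | h4
  · have : (t - (q + 1)) * (t + (q + 1)) = 0 := by linear_combination h4
    rcases mul_eq_zero.mp this with h5 | h5
    · left; linear_combination h5
    · right; linear_combination h5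
  · exact absurd h4 hw2

open Fermat.Agent.S30.Main in
/-- **S35 from the finite level data.** -/
theorem main35_of (p : ℕ) [Fact p.Prime] (N : ℕ) [NeZero N] (S : Finset ℕ)
    (hpS : p ∈ S) (hNS : ∀ q : ℕ, q.Prime → q ∣ N → q ∈ S) (D : FinData p N (↑S : Set ℕ))
    (𝒪' : Type) [CommRing 𝒪'] [IsDomain 𝒪'] [IsDiscreteValuationRing 𝒪']
    [IsAdicComplete (IsLocalRing.maximalIdeal 𝒪') 𝒪'] [Finite (IsLocalRing.ResidueField 𝒪')]
    [CharZero 𝒪'] (hp : (p : 𝒪') ∈ IsLocalRing.maximalIdeal 𝒪')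
    (χ : CuspForm.heckeAlgebra N 2 (↑S : Set ℕ) →+* 𝒪')
    (hG : ∀ q : ℕ, q.Prime → q ≠ p → q ∣ N → ¬ q ^ 2 ∣ N → Good D 𝒪' χ q) :
    ∃ (O'' : Type) (_ : CommRing O'') (_ : IsDomain O'') (_ : IsDiscreteValuationRing O'')
      (_ : IsAdicComplete (IsLocalRing.maximalIdeal O'') O'') (_ : Finite (IsLocalRing.ResidueField O''))
      (_ : CharZero O'') (_ : Algebra 𝒪' O'') (_ : Module.Finite 𝒪' O'') (_ : IsLocalHom (algebraMap 𝒪' O'')),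
      Function.Injective (algebraMap 𝒪' O'') ∧
      ∃ ρ : GaloisRepAdic O'',
        (∀ (ℓ : ℕ) (hℓ : ℓ.Prime) (hℓM : ¬ ℓ ∣ N) (hℓS : ℓ ∉ (↑S : Set ℕ)),
          ∀ A : ValuationSubring (AlgebraicClosure ℚ), A.LiesOverPrime ℓ →
            ∀ σ : AlgebraicClosure ℚ ≃ₐ[ℚ] AlgebraicClosure ℚ, A.IsFrobeniusAt σ ℓ →
              LinearMap.charpoly (ρ.ρ σ) =
                X ^ 2 - C (algebraMap 𝒪' O'' (χ (CuspForm.heckeAlgebra.T hℓ hℓM hℓS))) * X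
                  + C ((ℓ : O''))) ∧
        (∀ q : ℕ, q.Prime → q ≠ p → q ∣ N → ¬ q ^ 2 ∣ N →
          ∀ A : ValuationSubring (AlgebraicClosure ℚ), A.LiesOverPrime q →
            ∀ σ : AlgebraicClosure ℚ ≃ₐ[ℚ] AlgebraicClosure ℚ, A.IsFrobeniusAt σ q →
              LinearMap.charpoly (ρ.ρ σ) = X ^ 2 - C ((q : O'') + 1) * X + C ((q : O'')) ∨
              LinearMap.charpoly (ρ.ρ σ) = X ^ 2 + C ((q : O'') + 1) * X + C ((q : O''))) := by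
  obtain ⟨R, hcomm, hcont, hes, hinert, hlim⟩ := exists_tate35 D 𝒪' hp
  obtain ⟨δ, -, hδcont', hδ, cc, hcc, hδc⟩ := exists_adicCyc p 𝒪' hp
  have hδcont : ∀ n : ℕ, ∃ L : IntermediateField ℚ Kb, FiniteDimensional ℚ L ∧
      ∀ σ : GQ, (∀ x ∈ L, σ x = x) → ((δ σ : 𝒪'ˣ) : 𝒪') - 1 ∈ maximalIdeal 𝒪' ^ n := by
    intro n
    obtain ⟨L, hL, h⟩ := hδcont' n
    refine ⟨L, hL, fun σ hσ => ?_⟩
    have hle : Ideal.span {((p ^ n : ℕ) : 𝒪')} ≤ maximalIdeal 𝒪' ^ n := by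
      rw [Ideal.span_singleton_le_iff_mem]
      push_cast
      exact Ideal.pow_mem_pow hp n
    exact hle (h σ hσ)
  obtain ⟨v₀, hv₀, hv₀e⟩ := exists_eigen D.τ D.τ_inj χ
  -- the eigenlattice
  let W : Submodule 𝒪' (Fin D.d → 𝒪') :=
    { carrier := {v | ∀ t, (toO 𝒪' (D.τ t)).mulVec v = χ t • v}
      zero_mem' := fun t => by simp
      add_mem' := fun {a b} ha hb t => by
        rw [Matrix.mulVec_add, ha t, hb t, smul_add]
      smul_mem' := fun a v hv t => by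
        rw [Matrix.mulVec_smul, hv t, smul_comm] }
  have hW0 : W ≠ ⊥ := fun h => hv₀ ((Submodule.eq_bot_iff W).mp h v₀ hv₀e)
  have hsat : ∀ (a : 𝒪') (v : Fin D.d → 𝒪'), a ≠ 0 → a • v ∈ W → v ∈ W := by
    intro a v ha hv t
    have := hv t
    rw [Matrix.mulVec_smul, smul_comm] at this
    exact smul_right_injective _ ha this
  have hWR : ∀ g : GQ, ∀ v ∈ W, (R g).mulVec v ∈ W := by
    intro g v hv t
    rw [Matrix.mulVec_mulVec, ← hcomm g t, ← Matrix.mulVec_mulVec, hv t, Matrix.mulVec_smul]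
  classical
  let c : ℕ → 𝒪' := fun ℓ =>
    if h : ℓ.Prime ∧ ¬ ℓ ∣ N ∧ ℓ ∉ (↑S : Set ℕ) then χ (heckeAlgebra.T h.1 h.2.1 h.2.2) else 0
  have hne : ∀ ℓ : ℕ, ℓ ∉ S → ℓ ≠ p := fun ℓ hℓ h => hℓ (h ▸ hpS)
  have hF : ∀ ℓ : ℕ, ℓ.Prime → ℓ ∉ S → ∀ A : ValuationSubring Kb, A.LiesOverPrime ℓ →
      ∀ σ : GQ, A.IsFrobeniusAt σ ℓ → ((δ σ : 𝒪'ˣ) : 𝒪') = (ℓ : 𝒪') ∧
        ∀ v ∈ W, (R σ).mulVec ((R σ).mulVec v) - c ℓ • (R σ).mulVec v + (ℓ : 𝒪') • v = 0 := by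
    intro ℓ hℓ hℓS A hA σ hσ
    have hℓN : ¬ ℓ ∣ N := fun h => hℓS (hNS ℓ hℓ h)
    have hℓS' : ℓ ∉ (↑S : Set ℕ) := hℓS
    refine ⟨((hδ ℓ hℓ (hne ℓ hℓS) A hA).2 σ hσ), fun v hv => ?_⟩
    have h1 := hes ℓ hℓ hℓN hℓS' (hne ℓ hℓS) A hA σ hσ
    have h2 := congrArg (fun M => M.mulVec v) h1
    simp only [Matrix.add_mulVec, Matrix.sub_mulVec, Matrix.zero_mulVec] at h2
    have hc : c ℓ = χ (heckeAlgebra.T hℓ hℓN hℓS') := dif_pos ⟨hℓ, hℓN, hℓS'⟩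
    rw [← Matrix.mulVec_mulVec, ← Matrix.mulVec_mulVec, hWR σ v hv _] at h2
    rw [hc]
    have h3 : (ℓ : Matrix (Fin D.d) (Fin D.d) 𝒪').mulVec v = (ℓ : 𝒪') • v := by
      rw [← Matrix.diagonal_natCast]
      ext i
      simp [Matrix.mulVec_diagonal]
    rw [h3] at h2
    exact h2
  obtain ⟨tr, htr, htrF⟩ := exists_trace 𝒪' R hcont δ hδcont W hW0 hsat hWR S c hF
  have hnt : Nontrivial W := (Submodule.nontrivial_iff_ne_bot).mpr hW0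
  obtain ⟨V, i1, i2, i3, i4, ρ, hrk, hchar, hcong⟩ := CC.exists_rep (𝒪 := 𝒪')
    (by exact_mod_cast (two_ne_zero : ((2 : ℕ) : 𝒪') ≠ 0)) (resW R W hWR) δ tr
    (fun g => LinearMap.ext fun v => Subtype.ext (htr g v.1 v.2)) hcc (Units.ext hδc)
  refine ⟨𝒪', inferInstance, inferInstance, inferInstance, inferInstance, inferInstance,
    inferInstance, Algebra.id 𝒪', inferInstance, ⟨fun a ha => ha⟩, fun a b h => h, ?_⟩
  refine ⟨{ V := V, finrank_eq := hrk, ρ := ρ, isAdicContinuous := ?_ }, ?_, ?_⟩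
  · intro n
    obtain ⟨L₁, hL₁, h₁⟩ := hcont n
    obtain ⟨L₂, hL₂, h₂⟩ := hδcont n
    refine ⟨L₁ ⊔ L₂, IntermediateField.finiteDimensional_sup L₁ L₂, fun σ hσ v => ?_⟩
    exact hcong σ _ (resW_cong R W hWR hsat n σ
      (h₁ σ fun x hx => hσ x ((le_sup_left : L₁ ≤ L₁ ⊔ L₂) hx)))
      (h₂ σ fun x hx => hσ x ((le_sup_right : L₂ ≤ L₁ ⊔ L₂) hx)) v
  · intro ℓ hℓ hℓN hℓS A hA σ hσ
    have hℓS' : ℓ ∉ S := hℓS
    show (ρ σ).charpoly = _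
    rw [hchar σ, htrF ℓ hℓ hℓS' A hA σ hσ, (hδ ℓ hℓ (hne ℓ hℓS') A hA).2 σ hσ]
    have hc : c ℓ = χ (heckeAlgebra.T hℓ hℓN hℓS) := dif_pos ⟨hℓ, hℓN, hℓS⟩
    rw [hc]
    rfl
  · intro q hq hqp hqN hq2 A hA σ hσ
    obtain ⟨θ, hθc, ⟨v, hvW, hθv⟩, hθ3⟩ := hG q hq hqp hqN hq2
    have hid := hlim θ (q ^ 2) σ (fun r => hθ3 r A hA σ hσ)
    have hδq : ((δ σ : 𝒪'ˣ) : 𝒪') = (q : 𝒪') := (hδ q hq hqp A hA).2 σ hσ
    have hw0W : (toO 𝒪' θ).mulVec v ∈ W := fun t => by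
      have hc : toO 𝒪' (D.τ t) * toO 𝒪' θ = toO 𝒪' θ * toO 𝒪' (D.τ t) := by
        have := congrArg (toO 𝒪') (hθc t)
        rw [toO, toO, Matrix.map_mul, Matrix.map_mul] at this
        exact this.symm
      rw [Matrix.mulVec_mulVec, hc, ← Matrix.mulVec_mulVec, hvW t, Matrix.mulVec_smul]
    have hrel : ∀ w ∈ W, (R σ).mulVec ((R σ).mulVec w) - tr σ • (R σ).mulVec w + (q : 𝒪') • w = 0 :=
      fun w hw => by have := htr σ w hw; rw [hδq] at this; exact this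
    have hYX : R σ⁻¹ * R σ = 1 := by rw [← map_mul, inv_mul_cancel, map_one]
    have h6 : ∀ u : Fin D.d → 𝒪', (((q ^ 2 : ℕ) : Matrix (Fin D.d) (Fin D.d) 𝒪')).mulVec u
        = ((q : 𝒪') ^ 2) • u := fun u => by
      rw [← Matrix.diagonal_natCast]
      ext i
      simp [Matrix.mulVec_diagonal]
    have h5 := congrArg (fun M => M.mulVec v) hid
    simp only [Matrix.zero_mulVec, ← Matrix.mulVec_mulVec, Matrix.sub_mulVec,
      Matrix.one_mulVec, Matrix.mulVec_sub, h6] at h5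
    have key : tr σ = (q : 𝒪') + 1 ∨ tr σ = -((q : 𝒪') + 1) := by
      by_cases hw1 : (R σ).mulVec ((R σ).mulVec ((toO 𝒪' θ).mulVec v)) - (toO 𝒪' θ).mulVec v = 0
      · refine sq_eq_of (R σ) (R σ⁻¹) hYX (tr σ) (q : 𝒪') ((toO 𝒪' θ).mulVec v) hθv
          (hrel _ hw0W) (hrel _ (hWR σ _ hw0W)) (hrel _ (hWR σ _ (hWR σ _ hw0W))) ?_
        have e1 : (R σ).mulVec ((R σ).mulVec ((toO 𝒪' θ).mulVec v)) = (toO 𝒪' θ).mulVec v :=
          sub_eq_zero.mp hw1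
        rw [e1, e1]
        module
      · have hw1W : (R σ).mulVec ((R σ).mulVec ((toO 𝒪' θ).mulVec v)) - (toO 𝒪' θ).mulVec v ∈ W :=
          W.sub_mem (hWR σ _ (hWR σ _ hw0W)) hw0W
        refine sq_eq_of (R σ) (R σ⁻¹) hYX (tr σ) (q : 𝒪') _ hw1
          (hrel _ hw1W) (hrel _ (hWR σ _ hw1W)) (hrel _ (hWR σ _ (hWR σ _ hw1W))) ?_
        simp only [Matrix.mulVec_sub]
        rw [← h5]
        module
    show (ρ σ).charpoly = _ ∨ (ρ σ).charpoly = _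
    rw [hchar σ, hδq]
    rcases key with h | h
    · left
      rw [h]
    · right
      rw [h]
      simp only [map_neg, neg_mul, sub_neg_eq_add]

end Fermat.Agent.S35
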