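import Fermat.Agent.S49.Eigenform
import Fermat.Agent.S49.Abstract
import Fermat.Agent.S30.Eig
import Fermat.Agent.S23
import Fermat.Prelude.Def_CuspForm_HeckeLocal
import Fermat.Prelude.Def_CuspForm_Newforms

/-!
# S35, package NF2 : every character of a Hecke algebra comes from a normalised eigenform

`ψ : heckeAlgebra M₀ 2 S₀ →+* ℂ` any ring homomorphism.  Then there is a normalised eigenform `g'`
of level `M₀` with `a_ℓ(g') = ψ (T_ℓ)` for all primes `ℓ ∤ M₀`, `ℓ ∉ S₀`.
-/

set_option autoImplicit false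

noncomputable section

namespace Fermat.Agent.S35

open Module CuspForm ModularFormClass CongruenceSubgroup

namespace NF2

/-- vectors with integer coordinates which are independent over `ℤ` are independent over any field
of characteristic zero. -/
theorem linearIndependent_of_int_coords {ι I K : Type*} [Field K] [CharZero K] (x : ι → I → K)
    (hint : ∀ i n, ∃ m : ℤ, x i n = m) (h : LinearIndependent ℤ x) : LinearIndependent K x := by
  classical
  have hQ : LinearIndependent ℚ x := h.localization ℚ (nonZeroDivisors ℤ)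
  let e := Basis.ofVectorSpace ℚ K
  rw [linearIndependent_iff'] at hQ ⊢
  intro s g hg i hi
  have key : ∀ j, e.coord j (g i) = 0 := by
    intro j
    refine hQ s (fun i => e.coord j (g i)) ?_ i hi
    funext n
    have h1 := congrFun hg n
    simp only [Finset.sum_apply, Pi.smul_apply, smul_eq_mul, Pi.zero_apply] at h1 ⊢
    have h2 := congrArg (e.coord j) h1
    rw [map_sum, map_zero] at h2
    have h3 : ∀ i', e.coord j (g i' * x i' n) • (1 : K) = e.coord j (g i') • x i' n := by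
      intro i'
      obtain ⟨m, hm⟩ := hint i' n
      rw [hm]
      have : g i' * (m : K) = (m : ℚ) • g i' := by
        rw [Algebra.smul_def, mul_comm]
        simp
      rw [this, map_smul, smul_eq_mul, mul_comm, mul_smul]
      congr 1
      rw [Algebra.smul_def, mul_one]
      simp
    calc ∑ i' ∈ s, e.coord j (g i') • x i' n = ∑ i' ∈ s, e.coord j (g i' * x i' n) • (1 : K) :=
          Finset.sum_congr rfl fun i' _ => (h3 i').symm
      _ = (∑ i' ∈ s, e.coord j (g i' * x i' n)) • (1 : K) := by rw [Finset.sum_smul]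
      _ = 0 := by rw [h2, zero_smul]
  have : e.repr (g i) = 0 := by
    ext j
    exact key j
  simpa using this


variable {N : ℕ}

/-- the `q`-expansion map. -/
def qMap (N : ℕ) : CuspForm (Gamma0 N) 2 →ₗ[ℂ] (ℕ → ℂ) where
  toFun f n := qCoeff ⇑f n
  map_add' f g := funext fun n => S49.qCoeff_add f g n
  map_smul' c f := funext fun n => S49.qCoeff_smul c f n

theorem qMap_injective [NeZero N] : Function.Injective (qMap N) := by
  rw [injective_iff_map_eq_zero]
  intro f hf
  exact S49.eq_zero_of_qCoeff f fun n => congrFun hf n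

/-- a `ℤ`-basis of the lattice of forms with integral `q`-expansion is independent over `ℂ`. -/
theorem linearIndependent_basis [NeZero N] {ι : Type*} (b : Basis ι ℤ (intLattice N 2)) :
    LinearIndependent ℂ (fun i => ((b i : intLattice N 2) : CuspForm (Gamma0 N) 2)) := by
  refine LinearIndependent.of_comp (qMap N) ?_
  refine linearIndependent_of_int_coords _ (fun i n => ?_) ?_
  · exact (S49.mem_intLattice_iff _).1 (b i).2 n
  · have h1 : LinearIndependent ℤ (fun i => ((b i : intLattice N 2) : CuspForm (Gamma0 N) 2)) :=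
      b.linearIndependent.map' (intLattice N 2).subtype (Submodule.ker_subtype _)
    exact h1.map' ((qMap N).restrictScalars ℤ) (LinearMap.ker_eq_bot.2 qMap_injective)

theorem finiteDimensional (N : ℕ) [NeZero N] : FiniteDimensional ℂ (CuspForm (Gamma0 N) 2) := by
  obtain ⟨s, hs⟩ := CuspForm.intLattice_fg N 2
  refine ⟨⟨s, ?_⟩⟩
  have hint : HasIntegralStructure N 2 := S23.result N
  rw [eq_top_iff, ← hint, Submodule.span_le, ← hs]
  intro x hx
  exact Submodule.span_subset_span ℤ ℂ _ hx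

/-- the character `ψ` occurs in the space of cusp forms. -/
theorem exists_eigenvector [NeZero N] (S : Set ℕ) (ψ : heckeAlgebra N 2 S →+* ℂ) :
    ∃ w : CuspForm (Gamma0 N) 2, w ≠ 0 ∧
      ∀ t : heckeAlgebra N 2 S, (t : Module.End ℂ (CuspForm (Gamma0 N) 2)) w = ψ t • w := by
  classical
  have hint : HasIntegralStructure N 2 := S23.result N
  haveI := intLattice.moduleFinite N
  haveI := intLattice.moduleFree N
  let b := Module.finBasis ℤ (intLattice N 2)
  let τ : heckeAlgebra N 2 S →+* Matrix (Fin (finrank ℤ (intLattice N 2)))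
      (Fin (finrank ℤ (intLattice N 2))) ℤ :=
    ((LinearMap.toMatrixAlgEquiv b : Module.End ℤ (intLattice N 2) ≃ₐ[ℤ] _) : _ →+* _).comp
      (latticeActionHom N S)
  have hτ : Function.Injective τ :=
    (LinearMap.toMatrixAlgEquiv b).injective.comp (latticeActionHom_injective N S hint)
  obtain ⟨v, hv0, hv⟩ := S30.Eig.exists_eigen_field τ hτ ψ
  refine ⟨∑ i, v i • ((b i : intLattice N 2) : CuspForm (Gamma0 N) 2), ?_, ?_⟩
  · intro h0
    apply hv0
    funext i
    exact (Fintype.linearIndependent_iff.1 (linearIndependent_basis b)) v h0 i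
  · intro t
    have hb : ∀ i, (t : Module.End ℂ (CuspForm (Gamma0 N) 2))
        ((b i : intLattice N 2) : CuspForm (Gamma0 N) 2)
        = ∑ j, (τ t j i : ℂ) • ((b j : intLattice N 2) : CuspForm (Gamma0 N) 2) := by
      intro i
      have h1 : latticeActionHom N S t (b i) = ∑ j, (τ t j i) • b j := by
        have h2 := b.sum_repr (latticeActionHom N S t (b i))
        rw [← h2]
        refine Finset.sum_congr rfl fun j _ => ?_
        congr 1
        exact (LinearMap.toMatrixAlgEquiv_apply b (latticeActionHom N S t) j i).symm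
      have h3 := congrArg (fun z : intLattice N 2 => (z : CuspForm (Gamma0 N) 2)) h1
      simp only [AddSubmonoidClass.coe_finsetSum, Submodule.coe_smul] at h3
      rw [show (t : Module.End ℂ (CuspForm (Gamma0 N) 2))
        ((b i : intLattice N 2) : CuspForm (Gamma0 N) 2)
        = ((latticeActionHom N S t (b i) : intLattice N 2) : CuspForm (Gamma0 N) 2) from rfl, h3]
      refine Finset.sum_congr rfl fun j _ => ?_
      rw [Int.cast_smul_eq_zsmul]
    rw [map_sum, Finset.smul_sum]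
    simp only [map_smul, hb, Finset.smul_sum, smul_smul]
    rw [Finset.sum_comm]
    refine Finset.sum_congr rfl fun j _ => ?_
    rw [← Finset.sum_smul]
    congr 1
    have h4 := congrFun (hv t) j
    simp only [Matrix.mulVec, dotProduct, Pi.smul_apply, smul_eq_mul, Matrix.map_apply] at h4
    rw [← h4]
    refine Finset.sum_congr rfl fun i _ => ?_
    rw [mul_comm]
    simp

end NF2

open NF2

/-- **S35-NF2.**  Every character of the Hecke algebra away from `S₀` comes from a normalised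
eigenform of the same level. -/
theorem exists_eigenform_of_hom {M₀ : ℕ} [NeZero M₀] (S₀ : Set ℕ)
    (ψ : CuspForm.heckeAlgebra M₀ 2 S₀ →+* ℂ) :
    ∃ g' : CuspForm (CongruenceSubgroup.Gamma0 M₀) 2, g'.IsNormalizedEigenform ∧
      ∀ (ℓ : ℕ) (hℓ : ℓ.Prime) (hℓM : ¬ ℓ ∣ M₀) (hℓS : ℓ ∉ S₀),
        ModularFormClass.qCoeff g' ℓ = ψ (CuspForm.heckeAlgebra.T hℓ hℓM hℓS) := by
  classical
  haveI := finiteDimensional M₀
  obtain ⟨w, hw0, hw⟩ := exists_eigenvector S₀ ψ
  -- the eigenspace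
  let W : Submodule ℂ (CuspForm (Gamma0 M₀) 2) :=
    { carrier := {u | ∀ t : heckeAlgebra M₀ 2 S₀,
        (t : Module.End ℂ (CuspForm (Gamma0 M₀) 2)) u = ψ t • u}
      add_mem' := fun {a b} ha hb t => by rw [map_add, ha t, hb t, smul_add]
      zero_mem' := fun t => by rw [map_zero, smul_zero]
      smul_mem' := fun c a ha t => by rw [map_smul, ha t, smul_comm] }
  have hWbot : W ≠ ⊥ := by
    intro hb
    have : w ∈ W := hw
    rw [hb, Submodule.mem_bot] at this
    exact hw0 this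
  have hcomm : ∀ s ∈ heckeGenerators M₀ 2 ∅, ∀ t ∈ heckeGenerators M₀ 2 ∅, Commute s t :=
    fun s hs t ht => commute_of_mem_heckeGenerators hs ht
  have hstab : ∀ s ∈ heckeGenerators M₀ 2 ∅, ∀ u ∈ W, s u ∈ W := by
    intro s hs u hu t
    have hs' : s ∈ heckeAlgebra M₀ 2 ∅ := Algebra.subset_adjoin hs
    have ht' : (t : Module.End ℂ (CuspForm (Gamma0 M₀) 2)) ∈ heckeAlgebra M₀ 2 ∅ :=
      heckeAlgebra_mono (Set.empty_subset S₀) t.2
    have hc : (t : Module.End ℂ (CuspForm (Gamma0 M₀) 2)) * s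
        = s * (t : Module.End ℂ (CuspForm (Gamma0 M₀) 2)) :=
      congrArg Subtype.val (mul_comm (⟨_, ht'⟩ : heckeAlgebra M₀ 2 ∅) ⟨s, hs'⟩)
    have h1 := congrArg (fun e : Module.End ℂ (CuspForm (Gamma0 M₀) 2) => e u) hc
    simp only [Module.End.mul_apply] at h1
    rw [h1, hu t, map_smul]
  obtain ⟨w', hw'W, hw'0, hw'e⟩ :=
    S49.exists_common_eigenvector (heckeGenerators M₀ 2 ∅) hcomm _ W rfl hWbot hstab
  have hT : ∀ (ℓ : ℕ) (hℓ : ℓ.Prime) (hℓN : ¬ ℓ ∣ M₀), ∃ c : ℂ, heckeTLin 2 hℓ hℓN w' = c • w' :=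
    fun ℓ hℓ hℓN => hw'e _ (heckeTLin_mem_heckeGenerators hℓ hℓN (Set.notMem_empty ℓ))
  have hU : ∀ (q : ℕ) (hq : q.Prime) (hqN : q ∣ M₀), ∃ c : ℂ, heckeULin 2 hqN w' = c • w' :=
    fun q hq hqN => hw'e _ (heckeULin_mem_heckeGenerators hq hqN (Set.notMem_empty q))
  let lam : ℕ → ℂ := fun ℓ =>
    if hℓ : ℓ.Prime then
      if hℓN : ℓ ∣ M₀ then (hU ℓ hℓ hℓN).choose else (hT ℓ hℓ hℓN).choose
    else 0
  have hlamT : ∀ (ℓ : ℕ) (hℓ : ℓ.Prime) (hℓN : ¬ ℓ ∣ M₀),
      heckeTLin 2 hℓ hℓN w' = lam ℓ • w' := by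
    intro ℓ hℓ hℓN
    simp only [lam, dif_pos hℓ, dif_neg hℓN]
    exact (hT ℓ hℓ hℓN).choose_spec
  have hlamU : ∀ (q : ℕ) (_ : q.Prime) (hqN : q ∣ M₀), heckeULin 2 hqN w' = lam q • w' := by
    intro q hq hqN
    simp only [lam, dif_pos hq, dif_pos hqN]
    exact (hU q hq hqN).choose_spec
  obtain ⟨g', hg', hcoef⟩ := S49.exists_normalizedEigenform w' hw'0 lam hlamT hlamU
  refine ⟨g', hg', fun ℓ hℓ hℓM hℓS => ?_⟩
  rw [hcoef ℓ hℓ]
  have h1 := hw'W (heckeAlgebra.T hℓ hℓM hℓS)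
  have h2 : ((heckeAlgebra.T hℓ hℓM hℓS : heckeAlgebra M₀ 2 S₀) :
      Module.End ℂ (CuspForm (Gamma0 M₀) 2)) w' = heckeTLin 2 hℓ hℓM w' := rfl
  rw [h2, hlamT ℓ hℓ hℓM] at h1
  exact smul_left_injective ℂ hw'0 h1

/-- a newform of level `N` does not come from a proper divisor `M₀` of `N`, in terms of characters
of Hecke algebras. -/
theorem IsNewform.not_exists_hom {N : ℕ} {g : CuspForm (CongruenceSubgroup.Gamma0 N) 2}
    (hg : g.IsNewform) {M₀ : ℕ} [NeZero M₀] (hM : M₀ ∣ N) (hne : M₀ ≠ N) (S₀ : Set ℕ)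
    (hS : ∀ ℓ ∈ S₀, ℓ ∣ N) (ψ : CuspForm.heckeAlgebra M₀ 2 S₀ →+* ℂ)
    (hψ : ∀ (ℓ : ℕ) (hℓ : ℓ.Prime) (hℓM : ¬ ℓ ∣ M₀) (hℓS : ℓ ∉ S₀), ¬ ℓ ∣ N →
      ψ (CuspForm.heckeAlgebra.T hℓ hℓM hℓS) = ModularFormClass.qCoeff g ℓ) : False := by
  obtain ⟨g', hg', h⟩ := exists_eigenform_of_hom S₀ ψ
  refine hg.2 M₀ hM hne ⟨g', hg', fun ℓ hℓ hℓN => ?_⟩
  have hℓM : ¬ ℓ ∣ M₀ := fun h1 => hℓN (h1.trans hM)
  have hℓS : ℓ ∉ S₀ := fun h1 => hℓN (hS ℓ h1)
  rw [h ℓ hℓ hℓM hℓS, hψ ℓ hℓ hℓM hℓS hℓN]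

end Fermat.Agent.S35
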