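import Fermat.Agent.S35.Defs
import Fermat.Agent.S35.NF2

/-!
# S35, package NF-OLD : an eigensystem of `𝕋(M0)` comes from a normalised eigenform of level `M0`
-/

set_option autoImplicit false

noncomputable section

namespace Fermat.Agent.S35

open CuspForm CongruenceSubgroup

/-- NF-OLD : an eigensystem of `𝕋(M0)` (all `T_ℓ`, `ℓ ∤ M0 q`) with values in `ℂ` comes from a
normalised eigenform of level `M0`. -/
theorem exists_eigenform (M0 q : ℕ) [NeZero M0] (ψ : TM M0 q →+* ℂ) :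
    ∃ h : CuspForm (Gamma0 M0) 2, h.IsNormalizedEigenform ∧
      ∀ (ℓ : ℕ) (hℓ : ℓ.Prime) (hℓN : ¬ ℓ ∣ M0 * q),
        ModularFormClass.qCoeff h ℓ
          = ψ (heckeAlgebra.T hℓ (not_dvd_left hℓN) (notMem_S0 hℓN)) := by
  obtain ⟨h, hh, hc⟩ := exists_eigenform_of_hom (S0 (M0 * q)) ψ
  exact ⟨h, hh, fun ℓ hℓ hℓN => hc ℓ hℓ (not_dvd_left hℓN) (notMem_S0 hℓN)⟩

end Fermat.Agent.S35
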