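import Fermat.Agent.S30.Base

/-!
# S35, package NF-TRANSFER : transfer of an eigenvector from `ℂ` to a domain of characteristic zero
-/

set_option autoImplicit false

noncomputable section

namespace Fermat.Agent.S35

open Fermat.Agent.S30 Polynomial

namespace Transfer

/-- the values of a character of a ring of integer matrices are integral. -/
theorem isIntegral_apply {T : Type*} [CommRing T] {d : ℕ} (τ : T →+* Matrix (Fin d) (Fin d) ℤ)
    (hτ : Function.Injective τ) (c : T →+* ℂ) (t : T) : IsIntegral ℤ (c t) := by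
  have h1 : aeval (τ t) (τ t).charpoly = 0 := Matrix.aeval_self_charpoly (τ t)
  have h2 : aeval (τ t) (τ t).charpoly = τ (aeval t (τ t).charpoly) :=
    aeval_algHom_apply τ.toIntAlgHom t _
  have h3 : aeval t (τ t).charpoly = 0 := hτ (by rw [← h2, h1, map_zero])
  have h4 : aeval (c t) (τ t).charpoly = c (aeval t (τ t).charpoly) :=
    aeval_algHom_apply c.toIntAlgHom t _
  exact ⟨(τ t).charpoly, Matrix.charpoly_monic _, by rw [← aeval_def, h4, h3, map_zero]⟩

/-- a ring homomorphism from an integral domain, integral over `ℤ`, to a domain of characteristic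
zero is injective. -/
theorem injective_of_isIntegral {C 𝒪 : Type*} [CommRing C] [IsDomain C] [Algebra.IsIntegral ℤ C]
    [CommRing 𝒪] [CharZero 𝒪] (iota : C →+* 𝒪) : Function.Injective iota := by
  rw [RingHom.injective_iff_ker_eq_bot]
  apply Ideal.eq_bot_of_comap_eq_bot (R := ℤ)
  rw [eq_bot_iff]
  intro n hn
  rw [Ideal.mem_comap, RingHom.mem_ker, eq_intCast, map_intCast] at hn
  rw [Ideal.mem_bot]
  exact_mod_cast hn

/-- common denominators. -/
theorem exists_denom (C : Subring ℂ) {d : ℕ} (x : Fin d → ℂ)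
    (hx : ∀ i, x i ∈ Subfield.closure (C : Set ℂ)) :
    ∃ D ∈ C, D ≠ 0 ∧ ∀ i, D * x i ∈ C := by
  have h1 : ∀ i, ∃ z ∈ C, z ≠ 0 ∧ z * x i ∈ C := by
    intro i
    obtain ⟨y, hy, z, hz, e⟩ := Subfield.mem_closure_iff.mp (hx i)
    rw [Subring.closure_eq] at hy hz
    by_cases hz0 : z = 0
    · refine ⟨1, C.one_mem, one_ne_zero, ?_⟩
      rw [← e, hz0, div_zero, mul_zero]
      exact C.zero_mem
    · refine ⟨z, hz, hz0, ?_⟩
      rw [← e, mul_div_cancel₀ _ hz0]
      exact hy
  choose z hz hz0 hzx using h1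
  refine ⟨∏ i, z i, Subring.prod_mem _ fun i _ => hz i, Finset.prod_ne_zero_iff.mpr fun i _ => hz0 i,
    fun i => ?_⟩
  rw [← Finset.prod_erase_mul _ _ (Finset.mem_univ i), mul_assoc]
  exact C.mul_mem (Subring.prod_mem _ fun j _ => hz j) (hzx i)

end Transfer

open Transfer in
/-- NF-TRANSFER (pure algebra, Mathlib + `S30.Base`). -/
theorem transfer {T : Type*} [CommRing T] {d : ℕ} (τ : T →+* Matrix (Fin d) (Fin d) ℤ)
    (hτ : Function.Injective τ) (θ : Matrix (Fin d) (Fin d) ℤ) (c : T →+* ℂ) (v : Fin d → ℂ)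
    (hv : ∀ t, (toO ℂ (τ t)).mulVec v = c t • v) (hθ : (toO ℂ θ).mulVec v ≠ 0)
    {𝒪 : Type*} [CommRing 𝒪] [IsDomain 𝒪] [CharZero 𝒪] (iota : c.range →+* 𝒪) :
    ∃ w : Fin d → 𝒪, (∀ t, (toO 𝒪 (τ t)).mulVec w = (iota.comp c.rangeRestrict) t • w) ∧
      (toO 𝒪 θ).mulVec w ≠ 0 := by
  classical
  -- `iota` is injective
  have hint : Algebra.IsIntegral ℤ c.range := ⟨by
    rintro ⟨_, t, rfl⟩
    exact (isIntegral_algHom_iff (c.range.subtype.toIntAlgHom) Subtype.val_injective).mp
      (isIntegral_apply τ hτ c t)⟩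
  have hinj : Function.Injective iota := injective_of_isIntegral iota
  -- the field generated by the values
  set E : Subfield ℂ := Subfield.closure (c.range : Set ℂ) with hE
  have hcE : ∀ t, c t ∈ E := fun t => Subfield.subset_closure ⟨t, rfl⟩
  -- a linear form
  obtain ⟨i0, hi0⟩ : ∃ i, (toO ℂ θ).mulVec v i ≠ 0 := by
    by_contra h
    push Not at h
    exact hθ (funext h)
  obtain ⟨lam, hlam⟩ : ∃ lam : Module.Dual E ℂ, lam ((toO ℂ θ).mulVec v i0) ≠ 0 := by
    by_contra h
    push Not at h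
    exact hi0 ((Module.forall_dual_apply_eq_zero_iff E _).mp h)
  have hlin : ∀ (e : E) (z : ℂ), ((lam ((e : ℂ) * z) : E) : ℂ) = (e : ℂ) * ((lam z : E) : ℂ) := by
    intro e z
    have : (e : ℂ) * z = e • z := rfl
    rw [this, map_smul]
    rfl
  have hlinZ : ∀ (n : ℤ) (z : ℂ), ((lam ((n : ℂ) * z) : E) : ℂ) = (n : ℂ) * ((lam z : E) : ℂ) := by
    intro n z
    have := hlin (n : E) z
    simpa using this
  set x : Fin d → ℂ := fun i => ((lam (v i) : E) : ℂ) with hx
  have hmat : ∀ (X : Matrix (Fin d) (Fin d) ℤ) (i : Fin d),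
      ((lam ((toO ℂ X).mulVec v i) : E) : ℂ) = ∑ j, (X i j : ℂ) * x j := by
    intro X i
    simp only [Matrix.mulVec, dotProduct, Matrix.map_apply, eq_intCast, map_sum,
      AddSubmonoidClass.coe_finsetSum, hlinZ, hx]
  have hxeq : ∀ t i, ∑ j, (τ t i j : ℂ) * x j = c t * x i := by
    intro t i
    rw [← hmat, hv t]
    exact hlin ⟨c t, hcE t⟩ (v i)
  have hxθ : ∑ j, (θ i0 j : ℂ) * x j ≠ 0 := by
    rw [← hmat]
    exact fun h => hlam (Subtype.ext h)
  -- denominators
  obtain ⟨D, hD, hD0, hDx⟩ := exists_denom c.range x (fun i => (lam (v i)).2)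
  set w0 : Fin d → c.range := fun i => ⟨D * x i, hDx i⟩ with hw0
  refine ⟨fun i => iota (w0 i), fun t => ?_, fun h => ?_⟩
  · funext i
    have h1 : ∑ j, ((τ t i j : ℤ) : c.range) * w0 j = c.rangeRestrict t * w0 i := by
      apply Subtype.ext
      simp only [hw0, AddSubmonoidClass.coe_finsetSum, Subring.coe_mul, Subring.coe_intCast, RingHom.coe_rangeRestrict]
      calc ∑ j, (τ t i j : ℂ) * (D * x j) = D * ∑ j, (τ t i j : ℂ) * x j := by
            rw [Finset.mul_sum]
            exact Finset.sum_congr rfl fun j _ => by ring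
        _ = c t * (D * x i) := by rw [hxeq]; ring
    have h2 := congrArg iota h1
    simp only [map_sum, map_mul, map_intCast] at h2
    simpa [Matrix.mulVec, dotProduct] using h2
  · have h1 : ∑ j, ((θ i0 j : ℤ) : c.range) * w0 j ≠ 0 := by
      intro h0
      have h2 := congrArg (Subtype.val) h0
      simp only [hw0, AddSubmonoidClass.coe_finsetSum, Subring.coe_mul, Subring.coe_intCast, Subring.coe_zero] at h2
      have h3 : ∑ j, (θ i0 j : ℂ) * (D * x j) = D * ∑ j, (θ i0 j : ℂ) * x j := by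
        rw [Finset.mul_sum]
        exact Finset.sum_congr rfl fun j _ => by ring
      rw [h3] at h2
      exact (mul_ne_zero hD0 hxθ) h2
    apply h1
    apply hinj
    rw [map_zero]
    have h2 := congrFun h i0
    simpa [Matrix.mulVec, dotProduct] using h2

end Fermat.Agent.S35
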