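import Fermat.Agent.S35.Dich
import Fermat.Agent.S35.Old
import Fermat.Agent.S35.Chi0
import Fermat.Agent.S35.Transfer
import Fermat.Agent.S35.Main35
import Fermat.Agent.ES.InjAll
import Fermat.Agent.ES.EEig

/-!
# S35 : the assembly (everything except `good_h3`, which is a hypothesis here)
-/

set_option autoImplicit false
set_option linter.overlappingInstances false

noncomputable section

namespace Fermat.Agent.S35

open Fermat.Agent.ES Fermat.Agent.S24 Fermat.Agent.S16 Fermat.Agent.S31 Fermat.Agent.S30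
  Fermat.Agent.S30.FinLvl CuspForm CongruenceSubgroup ModularCurve AlgebraicCurve Polynomial

/-- the operator `θ`. -/
theorem exists_theta (M0 q : ℕ) [NeZero M0] [NeZero (M0 * q)] (hq : q.Prime)
    {g : CuspForm (Gamma0 (M0 * q)) 2} (hg : g.IsNewform)
    (c : TN M0 q →+* ℂ)
    (hc : ∀ (ℓ : ℕ) (hℓ : ℓ.Prime) (hℓN : ¬ ℓ ∣ M0 * q),
        c (heckeAlgebra.T hℓ hℓN (notMem_S0 hℓN)) = ModularFormClass.qCoeff g ℓ) :
    ∃ t0 : TN M0 q, (t0, 0) ∈ PP M0 q ∧ c t0 ≠ 0 := by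
  rcases dichotomy (PP M0 q) (PP_fst_surjective M0 q) (PP_snd_surjective M0 q) c
    with h | ⟨ψ, hψ⟩
  · exact h
  · exfalso
    obtain ⟨h, hh, hhc⟩ := exists_eigenform M0 q ψ
    have hM0 : M0 ≠ M0 * q := by
      intro e
      have h1 : M0 * 1 = M0 * q := by rw [mul_one]; exact e
      exact hq.one_lt.ne (Nat.eq_of_mul_eq_mul_left (Nat.pos_of_ne_zero (NeZero.ne M0)) h1)
    refine hg.2 M0 (dvd_mul_right M0 q) hM0 ⟨h, hh, fun ℓ hℓ hℓN => ?_⟩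
    rw [hhc ℓ hℓ hℓN, ← hc ℓ hℓ hℓN]
    exact hψ (_, _) (Subring.subset_closure ⟨ℓ, hℓ, hℓN, rfl⟩)

/-- two ring homomorphisms on the Hecke algebra agreeing on the `T_ℓ` are equal. -/
theorem hecke_ringHom_ext {N : ℕ} [NeZero N] {S : Set ℕ}
    (hNS : ∀ q : ℕ, q.Prime → q ∣ N → q ∈ S) {K : Type*} [Ring K]
    (c c' : heckeAlgebra N 2 S →+* K)
    (h : ∀ (ℓ : ℕ) (hℓ : ℓ.Prime) (hℓN : ¬ ℓ ∣ N) (hℓS : ℓ ∉ S),
      c (heckeAlgebra.T hℓ hℓN hℓS) = c' (heckeAlgebra.T hℓ hℓN hℓS)) : c = c' := by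
  refine RingHom.ext fun t => ?_
  obtain ⟨t, ht⟩ := t
  induction ht using Algebra.adjoin_induction with
  | mem T hT =>
    rcases hT with ⟨ℓ, hℓ, hℓN, hℓS, rfl⟩ | ⟨q, hqN, hq, hqS, rfl⟩
    · exact h ℓ hℓ hℓN hℓS
    · exact absurd (hNS q hq hqN) hqS
  | algebraMap r =>
    have h1 : (⟨algebraMap ℤ _ r, Subalgebra.algebraMap_mem _ r⟩ : heckeAlgebra N 2 S)
        = ((r : ℤ) : heckeAlgebra N 2 S) := by
      apply Subtype.ext
      simp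
    rw [h1, map_intCast, map_intCast]
  | add x y hx hy ihx ihy =>
    have h1 : (⟨x + y, Subalgebra.add_mem _ hx hy⟩ : heckeAlgebra N 2 S) = ⟨x, hx⟩ + ⟨y, hy⟩ := rfl
    rw [h1, map_add, map_add, ihx, ihy]
  | mul x y hx hy ihx ihy =>
    have h1 : (⟨x * y, Subalgebra.mul_mem _ hx hy⟩ : heckeAlgebra N 2 S) = ⟨x, hx⟩ * ⟨y, hy⟩ := rfl
    rw [h1, map_mul, map_mul, ihx, ihy]

theorem S0_subset {N : ℕ} {S : Set ℕ} (hNS : ∀ q : ℕ, q.Prime → q ∣ N → q ∈ S) : S0 N ⊆ S :=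
  fun r hr => hNS r hr.1 hr.2

/-- the inclusion of Hecke algebras. -/
def incl {N : ℕ} [NeZero N] {S : Set ℕ} (hNS : ∀ q : ℕ, q.Prime → q ∣ N → q ∈ S) :
    heckeAlgebra N 2 S →+* heckeAlgebra N 2 (S0 N) :=
  (Subalgebra.inclusion (heckeAlgebra_mono (S0_subset hNS))).toRingHom

theorem tau_incl {N : ℕ} [NeZero N] {S : Set ℕ} (hNS : ∀ q : ℕ, q.Prime → q ∣ N → q ∈ S)
    (t : heckeAlgebra N 2 S) : tau (bN N) (S0 N) (incl hNS t) = tau (bN N) S t := rfl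

/-- the statement of `good_h3` (package FIND). -/
def GoodH3 (p M0 q : ℕ) [Fact p.Prime] [NeZero M0] [NeZero (M0 * q)] : Prop :=
  ∀ (t0 : TN M0 q) (_ : (t0, 0) ∈ PP M0 q) (r : ℕ)
    (A : ValuationSubring Kb) (_ : A.LiesOverPrime q) (φ : GQ) (_ : A.IsFrobeniusAt φ q),
    haveI : NeZero (p ^ r) := ⟨pow_ne_zero _ (Fact.out : p.Prime).ne_zero⟩
    (alpha (bN (M0 * q)) (p ^ r) φ * alpha (bN (M0 * q)) (p ^ r) φ
        - ((q ^ 2 : ℕ) : Matrix (Fin (dN (M0 * q))) (Fin (dN (M0 * q))) (ZMod (p ^ r))))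
      * ((alpha (bN (M0 * q)) (p ^ r) φ * alpha (bN (M0 * q)) (p ^ r) φ - 1)
        * (alpha (bN (M0 * q)) (p ^ r) φ * alpha (bN (M0 * q)) (p ^ r) φ - 1))
      * toO (ZMod (p ^ r)) (tau (bN (M0 * q)) (S0 (M0 * q)) t0) = 0

theorem good_of (p : ℕ) [Fact p.Prime] (M0 q : ℕ) [NeZero M0] [NeZero (M0 * q)] (S : Finset ℕ)
    (hH3 : GoodH3 p M0 q)
    (hNS : ∀ r : ℕ, r.Prime → r ∣ M0 * q → r ∈ S)
    (hINJ : ∀ (r ℓ : ℕ), ℓ.Prime → ¬ ℓ ∣ M0 * q → ℓ ≠ p → ∀ A : ValuationSubring Kb,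
      A.LiesOverPrime ℓ → INJ (p ^ r) (M0 * q) A)
    (hq : q.Prime) (hqp : q ≠ p) (hqM0 : ¬ q ∣ M0)
    {g : CuspForm (Gamma0 (M0 * q)) 2} (hg : g.IsNewform)
    (𝒪' : Type) [CommRing 𝒪'] [IsDomain 𝒪'] [CharZero 𝒪']
    (chig : heckeAlgebra (M0 * q) 2 (↑S : Set ℕ) →+* ℂ)
    (hchig : ∀ (ℓ : ℕ) (hℓ : ℓ.Prime) (hℓM : ¬ ℓ ∣ M0 * q) (hℓS : ℓ ∉ (↑S : Set ℕ)),
      chig (heckeAlgebra.T hℓ hℓM hℓS) = ModularFormClass.qCoeff g ℓ)
    (iota : chig.range →+* 𝒪') :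
    Good (finD p (M0 * q) (↑S : Set ℕ) hNS hINJ) 𝒪' (iota.comp chig.rangeRestrict) q := by
  obtain ⟨c, hcg, hc⟩ := exists_chi0 hg.1 (S0 (M0 * q)) (fun r hr hrN => ⟨hr, hrN⟩)
  obtain ⟨t0, ht0, hct0⟩ := exists_theta M0 q hq hg c (fun ℓ hℓ hℓN => hc ℓ hℓ hℓN _)
  obtain ⟨v, hv0, hv⟩ := Eig.exists_eigen_field (tau (bN (M0 * q)) (S0 (M0 * q)))
    (tau_injective _ _) c
  -- `chig = c ∘ incl`
  obtain ⟨c', hc'g, hc'⟩ := exists_chi0 hg.1 (↑S : Set ℕ) hNS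
  have hg0 : g ≠ 0 := hg.ne_zero
  have e1 : ∀ t, c (incl hNS t) = c' t := fun t => by
    have h1 := hcg (incl hNS t)
    have h2 := hc'g t
    have h3 : (incl hNS t).1 g = t.1 g := rfl
    rw [h3, h2] at h1
    exact (smul_left_injective ℂ hg0 h1).symm
  have e2 : c' = chig := hecke_ringHom_ext hNS c' chig
    (fun ℓ hℓ hℓN hℓS => by rw [hc', hchig])
  have k1 : ∀ t, tau (bN (M0 * q)) (S0 (M0 * q)) t0 * tau (bN (M0 * q)) (↑S : Set ℕ) t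
      = tau (bN (M0 * q)) (↑S : Set ℕ) t * tau (bN (M0 * q)) (S0 (M0 * q)) t0 := fun t => by
    rw [← tau_incl hNS t]
    exact (map_mul _ _ _).symm.trans ((congrArg _ (mul_comm _ _)).trans (map_mul _ _ _))
  have k2 := transfer (tau (bN (M0 * q)) (↑S : Set ℕ)) (tau_injective _ _)
      (tau (bN (M0 * q)) (S0 (M0 * q)) t0) chig v
      (fun t => by rw [← tau_incl hNS t, hv, e1, e2])
      (by rw [hv]; exact smul_ne_zero hct0 hv0) iota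
  exact ⟨tau (bN (M0 * q)) (S0 (M0 * q)) t0, k1, k2,
    fun r A hA φ hφ => hH3 t0 ht0 r A hA φ hφ⟩

end Fermat.Agent.S35

namespace Fermat.Agent.S35

open Polynomial

theorem result_of
    (hH3 : ∀ (p : ℕ) [Fact p.Prime] (M0 q : ℕ) [NeZero M0] [NeZero (M0 * q)], q.Prime → ¬ q ∣ M0 →
      q ≠ p → GoodH3 p M0 q)
    {M : ℕ} [NeZero M] {g : CuspForm (CongruenceSubgroup.Gamma0 M) 2} (hg : g.IsNewform)
    (lam : ℕ) [Fact lam.Prime]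
    (S : Finset ℕ)
    (O' : Type) [CommRing O'] [IsDomain O'] [IsDiscreteValuationRing O']
    [IsAdicComplete (IsLocalRing.maximalIdeal O') O'] [Finite (IsLocalRing.ResidueField O')]
    [CharZero O'] (hlamO' : (lam : O') ∈ IsLocalRing.maximalIdeal O')
    (chig : CuspForm.heckeAlgebra M 2 (↑S : Set ℕ) →+* ℂ)
    (hchig : ∀ (ℓ : ℕ) (hℓ : ℓ.Prime) (hℓM : ¬ ℓ ∣ M) (hℓS : ℓ ∉ (↑S : Set ℕ)),
      chig (CuspForm.heckeAlgebra.T hℓ hℓM hℓS) = ModularFormClass.qCoeff g ℓ)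
    (iota : chig.range →+* O')
    (hlamS : lam ∈ S) (hMS : ∀ q : ℕ, q.Prime → q ∣ M → q ∈ S)
    :
    ∃ (O'' : Type) (_ : CommRing O'') (_ : IsDomain O'') (_ : IsDiscreteValuationRing O'')
      (_ : IsAdicComplete (IsLocalRing.maximalIdeal O'') O'') (_ : Finite (IsLocalRing.ResidueField O''))
      (_ : CharZero O'') (_ : Algebra O' O'') (_ : Module.Finite O' O'') (_ : IsLocalHom (algebraMap O' O'')),
      Function.Injective (algebraMap O' O'') ∧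
      ∃ ρ : GaloisRepAdic O'',
        (∀ (ℓ : ℕ) (hℓ : ℓ.Prime) (hℓM : ¬ ℓ ∣ M) (hℓS : ℓ ∉ (↑S : Set ℕ)),
          ∀ A : ValuationSubring (AlgebraicClosure ℚ), A.LiesOverPrime ℓ →
            ∀ σ : AlgebraicClosure ℚ ≃ₐ[ℚ] AlgebraicClosure ℚ, A.IsFrobeniusAt σ ℓ →
              LinearMap.charpoly (ρ.ρ σ) =
                X ^ 2 - C (algebraMap O' O'' ((iota.comp chig.rangeRestrict) (CuspForm.heckeAlgebra.T hℓ hℓM hℓS))) * X
                  + C ((ℓ : O''))) ∧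
        (∀ q : ℕ, q.Prime → q ≠ lam → q ∣ M → ¬ q ^ 2 ∣ M →
          ∀ A : ValuationSubring (AlgebraicClosure ℚ), A.LiesOverPrime q →
            ∀ σ : AlgebraicClosure ℚ ≃ₐ[ℚ] AlgebraicClosure ℚ, A.IsFrobeniusAt σ q →
              LinearMap.charpoly (ρ.ρ σ) = X ^ 2 - C ((q : O'') + 1) * X + C ((q : O'')) ∨
              LinearMap.charpoly (ρ.ρ σ) = X ^ 2 + C ((q : O'') + 1) * X + C ((q : O''))) := by
  have hpp : lam.Prime := Fact.out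
  have hINJ : ∀ (r ℓ : ℕ), ℓ.Prime → ¬ ℓ ∣ M → ℓ ≠ lam → ∀ A : ValuationSubring Fermat.Agent.S24.Kb,
      A.LiesOverPrime ℓ → Fermat.Agent.ES.INJ (lam ^ r) M A := fun r ℓ hℓ hℓN hℓp A hA =>
    Fermat.Agent.ES.inj_all (lam ^ r) M ℓ hℓ (fun h => by
      rcases (Nat.Prime.dvd_mul hℓ).mp h with h | h
      · exact hℓN h
      · exact hℓp ((Nat.prime_dvd_prime_iff_eq hℓ hpp).mp (hℓ.dvd_of_dvd_pow h))) A hA
  refine main35_of lam M S hlamS hMS (finD lam M (↑S : Set ℕ) hMS hINJ) O' hlamO'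
    (iota.comp chig.rangeRestrict) (fun q hq hqp hqM hq2 => ?_)
  obtain ⟨M0, hM0⟩ : ∃ M0, M = M0 * q := ⟨M / q, (Nat.div_mul_cancel hqM).symm⟩
  subst hM0
  have hqM0 : ¬ q ∣ M0 := fun h => hq2 (by rw [pow_two, mul_comm M0 q]; exact mul_dvd_mul_left q h)
  have : NeZero M0 := ⟨fun h => NeZero.ne (M0 * q) (by rw [h, zero_mul])⟩
  exact good_of lam M0 q S (hH3 lam M0 q hq hqM0 hqp) hMS hINJ hq hqp hqM0 hg O' chig hchig iota

end Fermat.Agent.S35
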