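import Fermat.Agent.S35.GDV
import Fermat.Agent.S34.UChart
import Fermat.Agent.S34.NTau
import Fermat.Agent.S34.QVal

/-!
# S35, geometry, modular block : the structures of `GDefs` for `T : Two D q` and `T.chart X`

* `isDV_O1`, `isDV_O2`       : `IsDV T.O_i T.ϖF`
* `isAutDV_O1`, `isAutDV_O2` : `IsAutDV T.O_i S.toF` for `S : TAut T`, and for `Ψ = S.toF ∘ S.toF`
* `chart2`                   : `Chart2 T.O1 T.O2 T.ϖF m (T.chart X) (T.p1 X) (T.p2 X)`
* `frobB`                    : `FrobB T.O1 T.ϖF (T.chart X) (T.p2 X) (Φ.toF.trans Φ.toF) (q ^ 2)`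
-/

set_option autoImplicit false
set_option linter.unusedSectionVars false
set_option linter.unusedVariables false

noncomputable section

namespace Fermat.Agent.S35

open ModularCurve Polynomial
open Fermat.Agent.S34 Fermat.Agent.ES Fermat.Agent.ES.QE Fermat.Agent.ES.Model

variable {R K k : Type*} [CommRing R] [IsDomain R] [IsNoetherianRing R] [IsIntegrallyClosed R]
  [Field K] [Algebra R K] [IsFractionRing R K] [Field k]

variable {D : QData R K k} {q : ℕ} [NeZero q] (T : Two D q)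

/-! ### the two discrete valuation rings -/

theorem isDV_O1 : IsDV T.O1 T.ϖF where
  ne_zero := T.ϖF_ne_zero
  mem := T.mem_V1.1 T.isUnif1.mem
  inv_notMem := fun h => T.isUnif1.inv_notMem (T.mem_V1.2 h)
  disc := fun x hx => by
    obtain ⟨a, h1, h2⟩ := T.discrete1 x hx
    exact ⟨a, T.mem_V1.1 h1, T.mem_V1.1 h2⟩

theorem isDV_O2 : IsDV T.O2 T.ϖF where
  ne_zero := T.ϖF_ne_zero
  mem := T.mem_V2.1 T.isUnif2.mem
  inv_notMem := fun h => T.isUnif2.inv_notMem (T.mem_V2.2 h)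
  disc := fun x hx => by
    obtain ⟨a, h1, h2⟩ := T.discrete2 x hx
    exact ⟨a, T.mem_V2.1 h1, T.mem_V2.1 h2⟩

/-! ### the inverse of a coefficientwise automorphism -/

namespace GChartT

variable {T}

/-- the inverse of a coefficientwise automorphism. -/
def symmT (S : TAut T) : TAut T where
  sK := S.sK.symm
  sR := S.sR.symm
  sk := S.sk.symm
  hK := (NFrob.tri_symm S).hK
  hk := (NFrob.tri_symm S).hk
  map_F0 := fun f => by
    rw [S.map_F0 (coeffMap (S.sK.symm : K →+* K) f), S.coeffMap_symm_apply]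
  map_F := fun f => by
    rw [S.map_F (coeffMap (S.sK.symm : K →+* K) f), S.coeffMap_symm_apply]

lemma symmT_toF (S : TAut T) (f : T.F) : (symmT S).toF f = S.toF.symm f := rfl

lemma symmT_toF0 (S : TAut T) (f : D.F0) : (symmT S).toF0 f = S.toF0.symm f := rfl

lemma symmT_fix (S : TAut T) (w : LaurentSeries R) (hw : coeffMap (S.sR : R →+* R) w = w) :
    coeffMap ((symmT S).sR : R →+* R) w = w := NFrob.fix_symm S w hw

end GChartT

open GChartT

variable {T}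

theorem isAutDV_O1 (S : TAut T) : IsAutDV T.O1 S.toF where
  map := fun x hx => S.toF_mem_O1 hx
  symm := fun x hx => (symmT S).toF_mem_O1 hx

theorem isAutDV_O2 (S : TAut T) : IsAutDV T.O2 S.toF where
  map := fun x hx => S.toF_mem_O2 hx
  symm := fun x hx => (symmT S).toF_mem_O2 hx

theorem IsAutDV.trans {F : Type*} [Field F] {O : Subring F} {Ψ1 Ψ2 : F ≃+* F}
    (h1 : IsAutDV O Ψ1) (h2 : IsAutDV O Ψ2) : IsAutDV O (Ψ1.trans Ψ2) where
  map := fun x hx => h2.map _ (h1.map _ hx)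
  symm := fun x hx => h1.symm _ (h2.symm _ hx)

/-- `Ψ = S ∘ S`. -/
theorem isAutDV_sq_O1 (S : TAut T) : IsAutDV T.O1 (S.toF.trans S.toF) :=
  (isAutDV_O1 S).trans (isAutDV_O1 S)

theorem isAutDV_sq_O2 (S : TAut T) : IsAutDV T.O2 (S.toF.trans S.toF) :=
  (isAutDV_O2 S).trans (isAutDV_O2 S)

/-- `Ψ ϖ = c ϖ` with `c` a unit of the constants. -/
theorem sq_ϖF (S : TAut T) :
    ∃ c ∈ T.RF, c⁻¹ ∈ T.RF ∧ (S.toF.trans S.toF) T.ϖF = c * T.ϖF := by
  obtain ⟨c, ⟨r, hr⟩, ⟨r', hr'⟩, h⟩ := S.toF_ϖF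
  refine ⟨S.toF c * c, ?_, ?_, ?_⟩
  · refine mul_mem ?_ ⟨r, hr⟩
    rw [← hr]
    exact ⟨S.sR r, (S.toF_algebraMap r).symm⟩
  · rw [mul_inv, ← map_inv₀]
    refine mul_mem ?_ ⟨r', hr'⟩
    rw [← hr']
    exact ⟨S.sR r', (S.toF_algebraMap r').symm⟩
  · rw [RingEquiv.trans_apply, h, map_mul, h]
    ring

/-! ### the chart -/

namespace GChartT

variable (T) (X : D.Coord)

/-- `β x` as an element of the chart. -/
def yB (hVx : X.phi.IsIntegralElem (qExpand K q (D.inc X.xW))) : T.chart X := ⟨T.be X.x, hVx⟩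

theorem r1_yB (hVx : X.phi.IsIntegralElem (qExpand K q (D.inc X.xW))) :
    QNode.r1 T X (yB T X hVx) = qExpand k q (D.red X.xW) := by
  have h2 := NOrth.rho_qExpand q (QData.inc_mem_LamRing (D := D) X.xW)
  rw [QData.rho_inc] at h2
  rw [← h2]
  rfl

theorem r2_yB (hVx : X.phi.IsIntegralElem (qExpand K q (D.inc X.xW))) :
    QNode.r2 T X (yB T X hVx) = D.red X.xW := by
  have h1 : T.e2 ((yB T X hVx : T.chart X) : T.F) = D.inc X.xW := T.e2_be X.x
  rw [← QData.rho_inc (D := D) X.xW, QNode.r2_eq T X _ (QNode.chart_le_O2 T X (yB T X hVx).2)]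
  congr 1
  exact Subtype.ext h1

theorem red_sub_pow_ne_zero (hq : 2 ≤ q) : D.red X.xW - (D.red X.xW ^ q) ^ q ≠ 0 := by
  have hne : (Polynomial.X - Polynomial.X ^ (q * q) : k[X]) ≠ 0 := by
    intro h
    have h1 := congrArg (fun p => p.coeff 1) h
    simp only [coeff_sub, coeff_X_one, coeff_X_pow, coeff_zero] at h1
    rw [if_neg (by nlinarith)] at h1
    simp at h1
  have := X.trans _ hne
  rwa [map_sub, map_pow, evS_X, pow_mul] at this

theorem frac (hq : q.Prime) [CharP k q] (f : T.F) :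
    ∃ a ∈ T.chart X, ∃ b ∈ T.chart X, b ≠ 0 ∧ f * b = a := by
  by_cases hf : f = 0
  · exact ⟨0, zero_mem _, 1, one_mem _, one_ne_zero, by rw [hf, zero_mul]⟩
  obtain ⟨a1, h1, -⟩ := (isDV_O1 T).disc f hf
  obtain ⟨a2, h2, -⟩ := (isDV_O2 T).disc f hf
  obtain ⟨n, hn1, hn2⟩ : ∃ n : ℕ, a1 ≤ n ∧ a2 ≤ n :=
    ⟨(max a1 a2).toNat, le_trans (le_max_left _ _) (Int.self_le_toNat _),
      le_trans (le_max_right _ _) (Int.self_le_toNat _)⟩
  have hϖ := T.ϖF_ne_zero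
  have hg : f * T.ϖF ^ n ∈ T.O := by
    constructor
    · have : f * T.ϖF ^ n = f * T.ϖF ^ a1 * T.ϖF ^ ((n : ℤ) - a1) := by
        rw [mul_assoc, ← zpow_add₀ hϖ, add_sub_cancel, zpow_natCast]
      rw [this]
      exact mul_mem h1 ((isDV_O1 T).zpow_mem (by omega))
    · have : f * T.ϖF ^ n = f * T.ϖF ^ a2 * T.ϖF ^ ((n : ℤ) - a2) := by
        rw [mul_assoc, ← zpow_add₀ hϖ, add_sub_cancel, zpow_natCast]
      rw [this]
      exact mul_mem h2 ((isDV_O2 T).zpow_mem (by omega))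
  obtain ⟨σ, hσ, hint⟩ := exists_mul_mem_chart T X hq hg
  have hσ0 : σ ≠ 0 := fun h => hσ (h ▸ dvd_zero _)
  refine ⟨_, hint, T.al (X.phiF σ) * T.ϖF ^ n,
    mul_mem (T.al_mem_chart X (X.phiF_mem_chart σ)) (pow_mem (T.ϖF_mem_chart X) n), ?_, by ring⟩
  refine mul_ne_zero ?_ (pow_ne_zero _ hϖ)
  rw [Ne, map_eq_zero]
  intro h
  exact hσ0 (X.phi_injective (by rw [map_zero, ← X.coe_phiF, h]; rfl))

end GChartT

/-- **the chart with its two components.** -/
theorem chart2 (T : Two D q) (X : D.Coord) (hq : q.Prime) [CharP k q] {m : ℕ}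
    (hm : IsUnit (m : R)) (hxq : qExpand k q (D.red X.xW) = D.red X.xW ^ q)
    (hVx : X.phi.IsIntegralElem (qExpand K q (D.inc X.xW)))
    (hnd : NodeData (T.ϖB X) (T.p1 X) (T.p2 X)) :
    Chart2 T.O1 T.O2 T.ϖF m (T.chart X) (T.p1 X) (T.p2 X) where
  chart := isChartS' T X hq hm
  frac := GChartT.frac T X hq
  mem1 := QNode.mem_p1 T X
  mem2 := QNode.mem_p2 T X
  th1 := by
    refine ⟨QNode.xB T X - yB T X hVx ^ q, ?_, ?_⟩
    · rw [QNode.mem_p2_iff, map_sub, map_pow, QNode.r2_xB, r2_yB, hxq, sub_self]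
    · rw [QNode.mem_p1_iff, map_sub, map_pow, QNode.r1_xB, r1_yB, hxq]
      exact red_sub_pow_ne_zero X hq.two_le
  th2 := by
    refine ⟨yB T X hVx - QNode.xB T X ^ q, ?_, ?_⟩
    · rw [QNode.mem_p1_iff, map_sub, map_pow, QNode.r1_xB, r1_yB, hxq, sub_self]
    · rw [QNode.mem_p2_iff, map_sub, map_pow, QNode.r2_xB, r2_yB, hxq]
      exact red_sub_pow_ne_zero X hq.two_le
  adm1 := hnd.adm1
  adm2 := hnd.adm2

/-! ### the action of `Ψ = Φ²` on the chart -/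

namespace GChartT

variable (X : D.Coord)

/-- `Φ` on the chart of level `M₀`. -/
def toC (Φ : TAut T) (hΦx : coeffMap (Φ.sR : R →+* R) X.xW = X.xW) (c : X.chart) : X.chart :=
  ⟨Φ.toF0 (c : D.F0), NFrob.isIntegralElem_map (sK := (Φ.sK : K →+* K)) (sR := (Φ.sR : R →+* R))
    (sk := (Φ.sk : k →+* k)) ⟨Φ.hK, Φ.hk⟩ X hΦx c.2⟩

/-- `(Φ c)(T^q) = c ^ q` modulo `ϖ`. -/
theorem qExpand_rhoB_toC [Fact q.Prime] [CharP k q] (Φ : TAut T) (hΦ : ∀ c, Φ.sk c = c ^ q)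
    (hΦx : coeffMap (Φ.sR : R →+* R) X.xW = X.xW) (c : X.chart) :
    qExpand k q (X.rhoB (toC X Φ hΦx c)) = X.rhoB c ^ q := by
  have e1 : X.rhoB (toC X Φ hΦx c) = coeffMap (Φ.sk : k →+* k) (X.rhoB c) :=
    NFrob.rho_map (sK := (Φ.sK : K →+* K)) (sR := (Φ.sR : R →+* R))
      (sk := (Φ.sk : k →+* k)) ⟨Φ.hK, Φ.hk⟩ (NAdm.lam X c)
  have e2 : (Φ.sk : k →+* k) = frobenius k q := RingHom.ext fun a => hΦ a
  rw [e1, e2, Fermat.Agent.ES.KCong.pow_char q]

end GChartT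

/-- **the action of `Ψ = Φ²` on the chart** (`Φ` a Frobenius). -/
theorem frobB (T : Two D q) (X : D.Coord) (hq : q.Prime) [CharP k q]
    (hded : IsDedekindDomain (X.chart ⧸ Ideal.span {Inst.ϖB X}))
    (hVx : X.phi.IsIntegralElem (qExpand K q (D.inc X.xW)))
    (Φ : TAut T) (hΦ : ∀ c, Φ.sk c = c ^ q)
    (hΦx : coeffMap (Φ.sR : R →+* R) X.xW = X.xW) :
    FrobB T.O1 T.ϖF (T.chart X) (T.p2 X) (Φ.toF.trans Φ.toF) (q ^ 2) where
  map := fun x hx => Φ.toF_mem_chart X hΦx (Φ.toF_mem_chart X hΦx hx)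
  symm := fun x hx => (symmT Φ).toF_mem_chart X (symmT_fix Φ _ hΦx)
    ((symmT Φ).toF_mem_chart X (symmT_fix Φ _ hΦx) hx)
  unif := by
    obtain ⟨c, hc, hc', h⟩ := sq_ϖF Φ
    exact ⟨c, RF_le_chart T X hc, RF_le_chart T X hc', h⟩
  frob := by
    intro b
    have : Fact q.Prime := ⟨hq⟩
    have : IsDedekindDomain (X.chart ⧸ Ideal.span {X.ϖC}) := hded
    have hO : NRed.HOrth T := fun f hf => T.exists_rep_of_mem_O hf
    have hjq := NOrth.qExpand_jq_char q k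
    have hle := chart_le_O T X
    have hbe := NRed.be_mem_chart X T hVx
    obtain ⟨c, hc⟩ := NRed.red1 X T hO hjq hle b b.2
    set c1 := toC X Φ hΦx c with hc1
    set c2 := toC X Φ hΦx c1 with hc2
    have k1 := qExpand_rhoB_toC X Φ hΦ hΦx c
    have k2 := qExpand_rhoB_toC X Φ hΦ hΦx c1
    have d2 := NAdm.divS_O2_be_sub_al X T c2 c1 k2
    have d1 := NAdm.divS_O1_be_sub_al X T c1 c k1
    refine ⟨NRed.alC X T c2 - NRed.beC X T hbe (c1 ^ q), ?_, ?_⟩
    · rw [QNode.mem_p2]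
      have := d2.neg
      rwa [neg_sub] at this
    · have hu : ∃ c, IsU T.O1 c ∧ (Φ.toF.trans Φ.toF) T.ϖF = c * T.ϖF := by
        obtain ⟨c, hc, hc', h⟩ := sq_ϖF Φ
        refine ⟨c, IsU.mk ?_ (TAut.RF_le_O hc).1 (TAut.RF_le_O hc').1, h⟩
        rintro rfl
        rw [zero_mul, map_eq_zero] at h
        exact T.ϖF_ne_zero h
      have a1 := (isAutDV_sq_O1 Φ).divS hu hc
      have a2 := cong_pow (hle b b.2).1 (hle _ (T.al_mem_chart X c.2)).1 hc (q ^ 2)
      have e : (Φ.toF.trans Φ.toF) ((b : T.F) - T.al c) = (Φ.toF.trans Φ.toF) (b : T.F) - T.al c2 := by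
        rw [map_sub]
        rfl
      rw [e] at a1
      have := (a1.sub a2).add d1
      convert this using 1
      show _ - _ - (T.al (c2 : D.F0) - T.be ((c1 : D.F0) ^ q)) = _
      ring

end Fermat.Agent.S35
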