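import Fermat.Agent.S34.QVal

/-!
# S35, geometry, modular block : [G-CRT] weak approximation for the two Gauss valuations

`T : Two D q`, `char k = q`.  The element `e = (β j - (α j) ^ q) / β (j - j ^ (q ^ 2))` of `T.O`
is `≡ 0` modulo `ϖ O₁` and `≡ 1` modulo `ϖ O₂`.
-/

set_option autoImplicit false
set_option linter.unusedSectionVars false

noncomputable section

namespace Fermat.Agent.S35

open ModularCurve Polynomial
open Fermat.Agent.ES.QE Fermat.Agent.ES.Model Fermat.Agent.S34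

variable {R K k : Type*} [CommRing R] [IsDomain R] [IsNoetherianRing R] [IsIntegrallyClosed R]
  [Field K] [Algebra R K] [IsFractionRing R K] [Field k]
  {D : QData R K k} {q : ℕ} [NeZero q]

namespace GCrt

/-- `DivS` for `T.O1` from the vanishing of `rho1`. -/
theorem divS_O1_of_rho1 (T : Two D q) (f : T.O1) (h : T.rho1 f = 0) :
    DivS T.O1 T.ϖF 1 (f : T.F) := by
  obtain ⟨y, hy, e⟩ := (rho1_eq_zero_iff T f).1 h
  exact ⟨y, (mem_V1 T).1 hy, e⟩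

theorem divS_O2_of_rho2 (T : Two D q) (f : T.O2) (h : T.rho2 f = 0) :
    DivS T.O2 T.ϖF 1 (f : T.F) := by
  obtain ⟨y, hy, e⟩ := (rho2_eq_zero_iff T f).1 h
  exact ⟨y, (mem_V2 T).1 hy, e⟩

theorem rho1_of_divS (T : Two D q) (f : T.O1) (h : DivS T.O1 T.ϖF 1 (f : T.F)) :
    T.rho1 f = 0 := by
  obtain ⟨y, hy, e⟩ := h
  exact (rho1_eq_zero_iff T f).2 ⟨y, (mem_V1 T).2 hy, e⟩

theorem rho2_of_divS (T : Two D q) (f : T.O2) (h : DivS T.O2 T.ϖF 1 (f : T.F)) :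
    T.rho2 f = 0 := by
  obtain ⟨y, hy, e⟩ := h
  exact (rho2_eq_zero_iff T f).2 ⟨y, (mem_V2 T).2 hy, e⟩

/-- an element of `O₁` with nonzero reduction is a unit. -/
theorem inv_mem_O1 (T : Two D q) (f : T.O1) (h : T.rho1 f ≠ 0) : (f : T.F)⁻¹ ∈ T.O1 := by
  by_contra hc
  exact h ((rho1_eq_zero_iff T f).2 ((isUnif_V1 T).gen f ((mem_V1 T).2 f.2)
    (fun h' => hc ((mem_V1 T).1 h'))))

theorem inv_mem_O2 (T : Two D q) (f : T.O2) (h : T.rho2 f ≠ 0) : (f : T.F)⁻¹ ∈ T.O2 := by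
  by_contra hc
  exact h ((rho2_eq_zero_iff T f).2 ((isUnif_V2 T).gen f ((mem_V2 T).2 f.2)
    (fun h' => hc ((mem_V2 T).1 h'))))

/-- an element of the Gauss ring of level `M₀` with nonzero reduction is a unit. -/
theorem inv_mem_gaussO (f : D.gaussO) (h : D.rhoO f ≠ 0) : (f : D.F0)⁻¹ ∈ D.gaussO := by
  by_contra hc
  exact h ((D.rhoO_eq_zero_iff f).2 (D.isUnif.gen f f.2 hc))

/-- the reduction of a unit is not zero. -/
theorem rhoO_ne_zero (f : D.gaussO) (h0 : (f : D.F0) ≠ 0) (h : (f : D.F0)⁻¹ ∈ D.gaussO) :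
    D.rhoO f ≠ 0 := by
  intro h1
  have h2 : D.rhoO (f * ⟨_, h⟩) = 1 := by
    rw [← map_one D.rhoO]
    congr 1
    exact Subtype.ext (mul_inv_cancel₀ h0)
  rw [map_mul, h1, zero_mul] at h2
  exact zero_ne_one h2

theorem rhoO_jF : D.rhoO ⟨D.jF, Two.jF_mem_gaussO⟩ = jqModC k := NOrth.rho_j

/-- `j̄ - j̄ ^ (q ^ 2) ≠ 0`. -/
theorem jq_sub_pow_ne_zero (hq : 1 < q) : jqModC k - jqModC k ^ (q ^ 2) ≠ 0 := by
  have hp : (X - X ^ (q ^ 2) : k[X]) ≠ 0 := by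
    intro h
    have h1 := congrArg (fun p => p.coeff 1) h
    have h2 : q ^ 2 ≠ 1 := by
      intro h3
      have : q = 1 := by
        rcases Nat.pow_eq_one.1 h3 with h4 | h4
        · exact h4
        · omega
      omega
    simp only [coeff_sub, coeff_X_one, coeff_X_pow, coeff_zero] at h1
    rw [if_neg (Ne.symm h2), sub_zero] at h1
    exact one_ne_zero h1
  have := evS_jqModC_ne_zero (A := k) hp
  rwa [map_sub, map_pow, evS_X] at this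

theorem divS_mul_right {F : Type*} [Field F] {O : Subring F} {ϖ x y : F} (hx : DivS O ϖ 1 x)
    (hy : y ∈ O) : DivS O ϖ 1 (x * y) := by
  obtain ⟨z, hz, rfl⟩ := hx
  exact ⟨z * y, mul_mem hz hy, by ring⟩

variable (T : Two D q)

/-- `δ = j - j ^ (q ^ 2)`. -/
def del (D : QData R K k) (q : ℕ) : D.F0 := D.jF - D.jF ^ (q ^ 2)

theorem del_mem : del D q ∈ D.gaussO :=
  sub_mem Two.jF_mem_gaussO (pow_mem Two.jF_mem_gaussO _)

theorem rhoO_del : D.rhoO ⟨del D q, del_mem⟩ = jqModC k - jqModC k ^ (q ^ 2) := by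
  have h : (⟨del D q, del_mem⟩ : D.gaussO)
      = ⟨D.jF, Two.jF_mem_gaussO⟩ - ⟨D.jF, Two.jF_mem_gaussO⟩ ^ (q ^ 2) := rfl
  rw [h, map_sub, map_pow, rhoO_jF]

theorem del_inv_mem (hq : 1 < q) : (del D q)⁻¹ ∈ D.gaussO :=
  inv_mem_gaussO ⟨del D q, del_mem⟩ (by rw [rhoO_del]; exact jq_sub_pow_ne_zero hq)

theorem del_ne_zero (hq : 1 < q) : del D q ≠ 0 := by
  intro h
  have h1 := rhoO_del (D := D) (q := q)
  have h2 : (⟨del D q, del_mem⟩ : D.gaussO) = 0 := Subtype.ext h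
  rw [h2, map_zero] at h1
  exact jq_sub_pow_ne_zero hq h1.symm

/-- the numerator `β j - (α j) ^ q`. -/
def num : T.F := T.be D.jF - T.al D.jF ^ q

theorem num_mem : num T ∈ T.O :=
  sub_mem (be_mem_O T Two.jF_mem_gaussO) (pow_mem (al_mem_O T Two.jF_mem_gaussO) _)

theorem divS_num (hjq : qExpand k q (jqModC k) = jqModC k ^ q) : DivS T.O1 T.ϖF 1 (num T) := by
  have h : (⟨num T, (num_mem T).1⟩ : T.O1)
      = ⟨T.be D.jF, (be_mem_O T Two.jF_mem_gaussO).1⟩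
        - ⟨T.al D.jF, (al_mem_O T Two.jF_mem_gaussO).1⟩ ^ q := rfl
  refine divS_O1_of_rho1 T ⟨num T, (num_mem T).1⟩ ?_
  rw [h, map_sub, map_pow, rho1_be T ⟨D.jF, Two.jF_mem_gaussO⟩,
    rho1_al T ⟨D.jF, Two.jF_mem_gaussO⟩, rhoO_jF, hjq, sub_self]

theorem divS_num_sub (hjq : qExpand k q (jqModC k) = jqModC k ^ q) :
    DivS T.O2 T.ϖF 1 (num T - T.be (del D q)) := by
  have hm : num T - T.be (del D q) ∈ T.O2 := sub_mem (num_mem T).2 (be_mem_O T del_mem).2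
  have h : (⟨num T - T.be (del D q), hm⟩ : T.O2)
      = ⟨T.be D.jF, (be_mem_O T Two.jF_mem_gaussO).2⟩
        - ⟨T.al D.jF, (al_mem_O T Two.jF_mem_gaussO).2⟩ ^ q
        - ⟨T.be (del D q), (be_mem_O T del_mem).2⟩ := rfl
  refine divS_O2_of_rho2 T ⟨_, hm⟩ ?_
  rw [h, map_sub, map_sub, map_pow, rho2_be T ⟨D.jF, Two.jF_mem_gaussO⟩,
    rho2_al T ⟨D.jF, Two.jF_mem_gaussO⟩, rho2_be T ⟨del D q, del_mem⟩, rhoO_jF, rhoO_del, hjq,
    ← pow_mul, ← pow_two]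
  ring

/-- the idempotent modulo `ϖ` : `e ≡ 0` mod `ϖ O₁`, `e ≡ 1` mod `ϖ O₂`. -/
def idem : T.F := num T * T.be (del D q)⁻¹

theorem idem_mem (hq : 1 < q) : idem T ∈ T.O := mul_mem (num_mem T) (be_mem_O T (del_inv_mem hq))

theorem divS_idem (hq : 1 < q) (hjq : qExpand k q (jqModC k) = jqModC k ^ q) :
    DivS T.O1 T.ϖF 1 (idem T) :=
  divS_mul_right (divS_num T hjq) (be_mem_O T (del_inv_mem hq)).1

theorem divS_idem_sub_one (hq : 1 < q) (hjq : qExpand k q (jqModC k) = jqModC k ^ q) :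
    DivS T.O2 T.ϖF 1 (idem T - 1) := by
  have h : idem T - 1 = (num T - T.be (del D q)) * T.be (del D q)⁻¹ := by
    rw [sub_mul, ← map_mul, mul_inv_cancel₀ (del_ne_zero hq), map_one]
    rfl
  rw [h]
  exact divS_mul_right (divS_num_sub T hjq) (be_mem_O T (del_inv_mem hq)).2

end GCrt

open GCrt

/-- **[G-CRT], idempotent form** (the field `idem` of `Lvl0`). -/
theorem exists_idem (T : Two D q) (hq : 1 < q) (hjq : qExpand k q (jqModC k) = jqModC k ^ q) :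
    ∃ e ∈ T.O1 ⊓ T.O2, DivS T.O1 T.ϖF 1 (e - 1) ∧ DivS T.O2 T.ϖF 1 e := by
  refine ⟨1 - idem T, sub_mem (one_mem _) (idem_mem T hq), ?_, ?_⟩
  · obtain ⟨y, hy, e⟩ := divS_idem T hq hjq
    exact ⟨-y, neg_mem hy, by rw [e]; ring⟩
  · obtain ⟨y, hy, e⟩ := divS_idem_sub_one T hq hjq
    refine ⟨-y, neg_mem hy, ?_⟩
    rw [mul_neg, ← e]
    ring

/-- **[G-CRT]** : weak approximation for the two Gauss valuations. -/
theorem exists_crt (T : Two D q) (hq : 1 < q) (hjq : qExpand k q (jqModC k) = jqModC k ^ q)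
    (g1 g2 : D.F0) (h1 : g1 ∈ D.gaussO) (h2 : g2 ∈ D.gaussO) :
    ∃ h : T.F, h ∈ T.O ∧ DivS T.O1 T.ϖF 1 (h - T.al g1) ∧ DivS T.O2 T.ϖF 1 (h - T.be g2) := by
  have ha := al_mem_O T h1
  have hb := be_mem_O T h2
  have he := idem_mem T hq
  refine ⟨(1 - idem T) * T.al g1 + idem T * T.be g2,
    add_mem (mul_mem (sub_mem (one_mem _) he) ha) (mul_mem he hb), ?_, ?_⟩
  · have h : (1 - idem T) * T.al g1 + idem T * T.be g2 - T.al g1
        = idem T * (T.be g2 - T.al g1) := by ring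
    rw [h]
    exact divS_mul_right (divS_idem T hq hjq) (sub_mem hb.1 ha.1)
  · have h : (1 - idem T) * T.al g1 + idem T * T.be g2 - T.be g2
        = (idem T - 1) * (T.be g2 - T.al g1) := by ring
    rw [h]
    exact divS_mul_right (divS_idem_sub_one T hq hjq) (sub_mem hb.2 ha.2)

/-- **[G-CRT], unit form.** -/
theorem exists_crt_unit (T : Two D q) (hq : 1 < q)
    (hjq : qExpand k q (jqModC k) = jqModC k ^ q)
    (g1 g2 : D.F0) (h10 : g1 ≠ 0) (h1 : g1 ∈ D.gaussO) (h1' : g1⁻¹ ∈ D.gaussO)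
    (h20 : g2 ≠ 0) (h2 : g2 ∈ D.gaussO) (h2' : g2⁻¹ ∈ D.gaussO) :
    ∃ h : T.F, h ≠ 0 ∧ h ∈ T.O ∧ h⁻¹ ∈ T.O ∧ DivS T.O1 T.ϖF 1 (h - T.al g1) ∧
      DivS T.O2 T.ϖF 1 (h - T.be g2) ∧
      (∀ hh : h ∈ T.O1, T.rho1 ⟨h, hh⟩ = D.rhoO ⟨g1, h1⟩) ∧
      (∀ hh : h ∈ T.O2, T.rho2 ⟨h, hh⟩ = D.rhoO ⟨g2, h2⟩) := by
  obtain ⟨h, hO, hd1, hd2⟩ := exists_crt T hq hjq g1 g2 h1 h2
  have r1 : T.rho1 ⟨h, hO.1⟩ = D.rhoO ⟨g1, h1⟩ := by
    have e : (⟨h, hO.1⟩ : T.O1) = ⟨h - T.al g1, sub_mem hO.1 (al_mem_O T h1).1⟩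
        + ⟨T.al g1, (al_mem_O T h1).1⟩ := Subtype.ext (by simp)
    rw [e, map_add, rho1_of_divS T _ hd1, zero_add]
    exact rho1_al T ⟨g1, h1⟩
  have r2 : T.rho2 ⟨h, hO.2⟩ = D.rhoO ⟨g2, h2⟩ := by
    have e : (⟨h, hO.2⟩ : T.O2) = ⟨h - T.be g2, sub_mem hO.2 (be_mem_O T h2).2⟩
        + ⟨T.be g2, (be_mem_O T h2).2⟩ := Subtype.ext (by simp)
    rw [e, map_add, rho2_of_divS T _ hd2, zero_add]
    exact rho2_be T ⟨g2, h2⟩
  have n1 : T.rho1 ⟨h, hO.1⟩ ≠ 0 := by rw [r1]; exact rhoO_ne_zero ⟨g1, h1⟩ h10 h1'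
  have n2 : T.rho2 ⟨h, hO.2⟩ ≠ 0 := by rw [r2]; exact rhoO_ne_zero ⟨g2, h2⟩ h20 h2'
  refine ⟨h, ?_, hO, ⟨inv_mem_O1 T ⟨h, hO.1⟩ n1, inv_mem_O2 T ⟨h, hO.2⟩ n2⟩, hd1, hd2,
    fun _ => r1, fun _ => r2⟩
  rintro rfl
  apply n1
  have : (⟨0, hO.1⟩ : T.O1) = 0 := rfl
  rw [this, map_zero]

end Fermat.Agent.S35
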