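import Fermat.Agent.S30.Fin
import Fermat.Agent.S30.Main

/-!
# S35 : shared definitions

* `S0 N` : the prime divisors of `N` (so that `heckeAlgebra N 2 (S0 N)` is generated by ALL `T_ℓ`, `ℓ ∤ N`),
* `PP M0 q` : the subring of `𝕋(M0 q) × 𝕋(M0)` generated by the pairs `(T_ℓ, T_ℓ)`, `ℓ ∤ M0 q`,
* `normA M0 q`, `normB M0 q` : the norms `FF (M0 q) → FF M0` along the two degeneracy maps,
* `finD` : the finite level data of `S30/Fin.lean`, as an explicit definition,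
* `Good D 𝒪' χ q` : what the construction of `S30/Main.lean` needs at a prime `q ∥ N`.
-/

set_option autoImplicit false

noncomputable section

namespace Fermat.Agent.S35

open Fermat.Agent.ES Fermat.Agent.S24 Fermat.Agent.S16 Fermat.Agent.S31 Fermat.Agent.S30
  Fermat.Agent.S30.FinLvl CuspForm CongruenceSubgroup ModularCurve AlgebraicCurve

/-- the prime divisors of `N`. -/
def S0 (N : ℕ) : Set ℕ := {r | r.Prime ∧ r ∣ N}

theorem notMem_S0 {N ℓ : ℕ} (h : ¬ ℓ ∣ N) : ℓ ∉ S0 N := fun h' => h h'.2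

theorem not_dvd_left {M0 q ℓ : ℕ} (h : ¬ ℓ ∣ M0 * q) : ¬ ℓ ∣ M0 := fun h' => h (h'.mul_right q)

/-- the Hecke algebra generated by all `T_ℓ`, `ℓ ∤ M0 q`, at level `M0 q`. -/
abbrev TN (M0 q : ℕ) [NeZero (M0 * q)] : Type := heckeAlgebra (M0 * q) 2 (S0 (M0 * q))

/-- the Hecke algebra generated by all `T_ℓ`, `ℓ ∤ M0 q`, at level `M0`. -/
abbrev TM (M0 q : ℕ) [NeZero M0] : Type := heckeAlgebra M0 2 (S0 (M0 * q))

/-- the subring generated by the pairs `(T_ℓ, T_ℓ)`. -/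
def PP (M0 q : ℕ) [NeZero M0] [NeZero (M0 * q)] : Subring (TN M0 q × TM M0 q) :=
  Subring.closure {z | ∃ (ℓ : ℕ) (hℓ : ℓ.Prime) (h : ¬ ℓ ∣ M0 * q),
    z = (heckeAlgebra.T hℓ h (notMem_S0 h), heckeAlgebra.T hℓ (not_dvd_left h) (notMem_S0 h))}

/-- the norm along `α : FF M0 → FF (M0 q)` (`f ↦ f`). -/
def normA (M0 q : ℕ) [NeZero M0] [NeZero q] : FF (M0 * q) →* FF M0 :=
  letI := algebraAlong (heckeAlphaBar Kb M0 q)
  Algebra.norm (FF M0)

/-- the norm along `β : FF M0 → FF (M0 q)` (`f ↦ f (T ^ q)`). -/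
def normB (M0 q : ℕ) [NeZero M0] [NeZero q] : FF (M0 * q) →* FF M0 :=
  letI := algebraAlong (heckeBetaBar Kb M0 q)
  Algebra.norm (FF M0)

/-- the rank of the period lattice. -/
def dN (N : ℕ) [NeZero N] : ℕ := Module.finrank ℤ (LamM N 1)

theorem free_LamM (N : ℕ) [NeZero N] : Module.Free ℤ (LamM N 1) := by
  have hfin := Lat.finite_LamM_one N
  have htf : IsAddTorsionFree (CuspForm (Gamma0 N) 2) := by
    have : Module ℚ (CuspForm (Gamma0 N) 2) := Module.compHom _ (algebraMap ℚ ℂ)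
    exact IsAddTorsionFree.of_module_rat _
  exact Module.free_of_finite_type_torsion_free'

/-- a basis of the period lattice. -/
def bN (N : ℕ) [NeZero N] : Module.Basis (Fin (dN N)) ℤ (LamM N 1) :=
  haveI := Lat.finite_LamM_one N
  haveI := free_LamM N
  (Module.finBasis ℤ (LamM N 1) : Module.Basis (Fin (Module.finrank ℤ (LamM N 1))) ℤ (LamM N 1))

/-- the finite level data of `S30/Fin.lean` (same construction, explicit). -/
def finD (p : ℕ) [Fact p.Prime] (N : ℕ) [NeZero N] (S : Set ℕ)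
    (hNS : ∀ q : ℕ, q.Prime → q ∣ N → q ∈ S)
    (hINJ : ∀ (r ℓ : ℕ), ℓ.Prime → ¬ ℓ ∣ N → ℓ ≠ p → ∀ A : ValuationSubring Kb,
      A.LiesOverPrime ℓ → INJ (p ^ r) N A) : FinData p N S :=
  haveI hnz : ∀ r : ℕ, NeZero (p ^ r) := fun r => ⟨pow_ne_zero _ (Fact.out : p.Prime).ne_zero⟩
  { d := dN N
    τ := tau (bN N) S
    τ_inj := tau_injective (bN N) S
    α := fun r => alpha (bN N) (p ^ r)
    compat := fun r g => alpha_cast (bN N) _ g
    comm := fun r g t => alpha_comm (bN N) (p ^ r) S hNS g t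
    smooth := fun r => alpha_smooth (bN N) (p ^ r)
    es := fun r ℓ hℓ hℓN hℓS hℓp A hA σ hσ => by
      have : Fact ℓ.Prime := ⟨hℓ⟩
      have h := eichler_shimura (p ^ r) N ℓ hℓN A hA (hINJ r ℓ hℓ hℓN hℓp A hA) σ hσ
      have h2 := congrArg (mat (eqv (bN N) (p ^ r))) h
      rw [map_add, map_sub, map_mul, map_mul, map_natCast, map_zero,
        mat_heckeV (bN N) (p ^ r) S hℓ hℓN hℓS] at h2
      exact h2
    inert := fun r q hq hqN hqp A hA σ hσ => by
      have : Fact q.Prime := ⟨hq⟩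
      rw [alpha_apply, galV_inertia (p ^ r) N q A hA (hINJ r q hq hqN hqp A hA) σ hσ, map_one] }

/-- what is needed at a prime `q ∥ N`: an integral matrix `θ` commuting with the Hecke algebra, not
killing the `χ`-eigenlattice, and such that `(φ² - q²)(φ² - 1)² θ = 0` at all finite levels. -/
def Good {p N : ℕ} [NeZero N] {S : Set ℕ} (D : FinData p N S) (𝒪' : Type) [CommRing 𝒪']
    (χ : heckeAlgebra N 2 S →+* 𝒪') (q : ℕ) : Prop :=
  ∃ θ : Matrix (Fin D.d) (Fin D.d) ℤ,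
    (∀ t, θ * D.τ t = D.τ t * θ) ∧
    (∃ v : Fin D.d → 𝒪', (∀ t, (toO 𝒪' (D.τ t)).mulVec v = χ t • v) ∧
      (toO 𝒪' θ).mulVec v ≠ 0) ∧
    ∀ (r : ℕ) (A : ValuationSubring Kb), A.LiesOverPrime q → ∀ φ : GQ, A.IsFrobeniusAt φ q →
      (D.α r φ * D.α r φ - ((q ^ 2 : ℕ) : Matrix (Fin D.d) (Fin D.d) (ZMod (p ^ r))))
        * ((D.α r φ * D.α r φ - 1) * (D.α r φ * D.α r φ - 1)) * toO (ZMod (p ^ r)) θ = 0

end Fermat.Agent.S35
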