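import Fermat.Agent.S34.NOrth
import Fermat.Agent.ES.InstGY

/-!
# S35, geometry, modular block, package G-W : the Atkin-Lehner involution on `T.F`

For `T : Two D q` the second expansion `T.e2` takes its values in `T.F`; it defines an involution
`Wt T` of `T.F` exchanging `T.al` and `T.be`, `T.O1` and `T.O2`, `T.rho1` and `T.rho2`.
-/

set_option autoImplicit false

noncomputable section

namespace Fermat.Agent.S35

open ModularCurve Polynomial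
open Fermat.Agent.ES.QE Fermat.Agent.ES.Model Fermat.Agent.S34

variable {R K k : Type*} [CommRing R] [IsDomain R] [IsNoetherianRing R] [IsIntegrallyClosed R]
  [Field K] [Algebra R K] [IsFractionRing R K] [Field k]
  {D : QData R K k} {q : ℕ} [NeZero q] (T : Two D q)

theorem e2_mem (f : T.F) : T.e2 f ∈ T.F := by
  obtain ⟨a, rfl⟩ := T.exists_rep f
  rw [map_sum]
  refine sum_mem fun i _ => ?_
  rw [map_mul, map_pow, T.e2_al, T.e2_be]
  exact mul_mem (T.V_mem _ (a i).2) (pow_mem (T.le D.jF.2) _)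

/-- `T.e2` as an endomorphism of `T.F`. -/
def Wt0 : T.F →+* T.F := T.e2.codRestrict T.F (e2_mem T)

theorem coe_Wt0 (f : T.F) : ((Wt0 T f : T.F) : LaurentSeries K) = T.e2 f := rfl

theorem Wt0_al (a : D.F0) : Wt0 T (T.al a) = T.be a := Subtype.ext (T.e2_al a)

theorem Wt0_be (a : D.F0) : Wt0 T (T.be a) = T.al a := Subtype.ext (T.e2_be a)

theorem Wt0_Wt0 (f : T.F) : Wt0 T (Wt0 T f) = f := by
  obtain ⟨a, rfl⟩ := T.exists_rep f
  simp only [map_sum, map_mul, map_pow, Wt0_al, Wt0_be]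

/-- **the Atkin-Lehner involution of `T.F`.** -/
def Wt : T.F ≃+* T.F :=
  { Wt0 T with
    invFun := Wt0 T
    left_inv := Wt0_Wt0 T
    right_inv := Wt0_Wt0 T }

theorem coe_Wt (f : T.F) : ((Wt T f : T.F) : LaurentSeries K) = T.e2 f := rfl

theorem Wt_al (a : D.F0) : Wt T (T.al a) = T.be a := Wt0_al T a

theorem Wt_be (a : D.F0) : Wt T (T.be a) = T.al a := Wt0_be T a

theorem Wt_Wt (f : T.F) : Wt T (Wt T f) = f := Wt0_Wt0 T f

theorem Wt_symm (f : T.F) : (Wt T).symm f = Wt T f := rfl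

theorem e2_Wt (f : T.F) : T.e2 (Wt T f) = (f : LaurentSeries K) := by
  rw [← coe_Wt, Wt_Wt]

theorem Wt_ϖF : Wt T T.ϖF = T.ϖF := by
  apply Subtype.ext
  rw [coe_Wt, T.e2_ϖF, T.coe_ϖF]

theorem Wt_mem_O1 {f : T.F} : Wt T f ∈ T.O1 ↔ f ∈ T.O2 := Iff.rfl

theorem Wt_mem_O2 {f : T.F} : Wt T f ∈ T.O2 ↔ f ∈ T.O1 := by
  rw [T.mem_O2, e2_Wt, T.mem_O1]

theorem Wt_mem_O {f : T.F} : Wt T f ∈ T.O ↔ f ∈ T.O := by
  constructor
  · intro h
    exact ⟨(Wt_mem_O2 T).1 h.2, (Wt_mem_O1 T).1 h.1⟩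
  · intro h
    exact ⟨(Wt_mem_O1 T).2 h.2, (Wt_mem_O2 T).2 h.1⟩

theorem divS_O1_Wt {n : ℕ} {f : T.F} : DivS T.O1 T.ϖF n (Wt T f) ↔ DivS T.O2 T.ϖF n f := by
  constructor
  · rintro ⟨y, hy, h⟩
    refine ⟨Wt T y, (Wt_mem_O2 T).2 hy, ?_⟩
    have := congrArg (Wt T) h
    rwa [Wt_Wt, map_mul, map_pow, Wt_ϖF] at this
  · rintro ⟨y, hy, rfl⟩
    exact ⟨Wt T y, (Wt_mem_O1 T).2 hy, by rw [map_mul, map_pow, Wt_ϖF]⟩

theorem divS_O2_Wt {n : ℕ} {f : T.F} : DivS T.O2 T.ϖF n (Wt T f) ↔ DivS T.O1 T.ϖF n f := by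
  rw [← divS_O1_Wt, Wt_Wt]

theorem divS_O_Wt {n : ℕ} {f : T.F} : DivS T.O T.ϖF n (Wt T f) ↔ DivS T.O T.ϖF n f := by
  constructor
  · rintro ⟨y, hy, h⟩
    refine ⟨Wt T y, (Wt_mem_O T).2 hy, ?_⟩
    have := congrArg (Wt T) h
    rwa [Wt_Wt, map_mul, map_pow, Wt_ϖF] at this
  · rintro ⟨y, hy, rfl⟩
    exact ⟨Wt T y, (Wt_mem_O T).2 hy, by rw [map_mul, map_pow, Wt_ϖF]⟩

theorem rho1_Wt (f : T.F) (hf : f ∈ T.O2) :
    T.rho1 ⟨Wt T f, (Wt_mem_O1 T).2 hf⟩ = T.rho2 ⟨f, hf⟩ := rfl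

theorem rho2_Wt (f : T.F) (hf : f ∈ T.O1) :
    T.rho2 ⟨Wt T f, (Wt_mem_O2 T).2 hf⟩ = T.rho1 ⟨f, hf⟩ := by
  have h := rho1_Wt T (Wt T f) ((Wt_mem_O2 T).2 hf)
  rw [← h]
  congr 1
  exact Subtype.ext (Wt_Wt T f)

/-- `Wt` commutes with the coefficientwise automorphisms. -/
theorem toF_Wt (S : TAut T) (f : T.F) : S.toF (Wt T f) = Wt T (S.toF f) := by
  have hal : ∀ a : D.F0, S.toF (T.al a) = T.al (S.toF0 a) := fun a => rfl
  have hbe : ∀ a : D.F0, S.toF (T.be a) = T.be (S.toF0 a) := fun a =>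
    Subtype.ext (coeffMap_qExpand _ q _)
  obtain ⟨a, rfl⟩ := T.exists_rep f
  simp only [map_sum, map_mul, map_pow, Wt_al, Wt_be, hal, hbe]

/-- in particular `T.e2` commutes with the coefficientwise automorphisms. -/
theorem e2_toF' (S : TAut T) (f : T.F) :
    T.e2 (S.toF f) = coeffMap (S.sK : K →+* K) (T.e2 f) := by
  rw [← coe_Wt, ← toF_Wt]
  rfl

section Inst

open AlgebraicCurve Fermat.Agent.S24 Fermat.Agent.ES.Inst Fermat.Agent.ES.IDvr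

/-- compatibility with the Atkin-Lehner involution over `ℚ̄` (`hTW` = the last clause of
`S34.exists_two`). -/
theorem iota_Wt {N : ℕ} {K0 : IntermediateField ℚ Kb} {A : ValuationSubring Kb}
    [IsDiscreteValuationRing (R0 K0 A)] {D : QData (R0 K0 A) K0 (kA A)} {q : ℕ} [NeZero q]
    (T : Two D q) (W : FF N ≃ₐ[Kb] FF N)
    (hTW : ∀ (f : T.F) (hf : bc K0 (f : LaurentSeries K0) ∈ modularFunctionFieldBar N),
      bc K0 (T.e2 f) = ((W ⟨_, hf⟩ : FF N) : LaurentSeries Kb))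
    (ι : T.F →+* FF N)
    (hι : ∀ f : T.F, ((ι f : FF N) : LaurentSeries Kb) = bc K0 (f : LaurentSeries K0)) (f : T.F) :
    ι (Wt T f) = W (ι f) := by
  apply Subtype.ext
  have hf : bc K0 (f : LaurentSeries K0) ∈ modularFunctionFieldBar N := by
    rw [← hι]; exact (ι f).2
  rw [hι, coe_Wt, hTW f hf]
  congr 2
  exact Subtype.ext (hι f).symm

end Inst

end Fermat.Agent.S35
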