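import Fermat.Agent.S35.GNorm
import Fermat.Agent.S35.GW
import Fermat.Agent.S35.Defs
import Fermat.Agent.S34.UIota
import Fermat.Agent.S34.NSpan
import Fermat.Agent.S34.WK

/-!
# S35, geometry : the norms `GNorm.nA T`, `GNorm.nB T` (level `K0`) versus `normA`, `normB`
(level `ℚ̄`), and their compatibility with coefficientwise automorphisms
-/

set_option autoImplicit false
set_option linter.unusedSectionVars false
set_option linter.style.haveILetI false

noncomputable section

namespace Fermat.Agent.S35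

open ModularCurve AlgebraicCurve Polynomial Finset
open Fermat.Agent.S24 Fermat.Agent.S28 Fermat.Agent.ES Fermat.Agent.ES.QE Fermat.Agent.ES.Model
  Fermat.Agent.ES.IDvr Fermat.Agent.ES.Inst Fermat.Agent.S34

namespace GNormBC

/-! ### pure algebra -/

/-- the norm commutes with a morphism of extensions which maps a basis to a basis. -/
theorem norm_map {E0 E L0 L : Type*} [Field E0] [Field E] [Field L0] [Field L] [Algebra E0 E]
    [Algebra L0 L] (ι0 : E0 →+* L0) (ι : E →+* L)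
    (hc : ∀ c, ι (algebraMap E0 E c) = algebraMap L0 L (ι0 c))
    {n : Type*} [Fintype n] [DecidableEq n] (b : Module.Basis n E0 E) (b' : Module.Basis n L0 L)
    (hb : ∀ i, ι (b i) = b' i) (u : E) :
    ι0 (Algebra.norm E0 u) = Algebra.norm L0 (ι u) := by
  rw [Algebra.norm_eq_matrix_det b, Algebra.norm_eq_matrix_det b', RingHom.map_det]
  congr 1
  ext i k
  rw [RingHom.mapMatrix_apply, Matrix.map_apply, Algebra.leftMulMatrix_eq_repr_mul,
    Algebra.leftMulMatrix_eq_repr_mul]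
  have h1 : u * b k = ∑ i, b.repr (u * b k) i • b i := (b.sum_repr _).symm
  have h2 : ι u * b' k = ∑ i, ι0 (b.repr (u * b k) i) • b' i := by
    rw [← hb, ← map_mul, h1, map_sum]
    refine Finset.sum_congr rfl fun i _ => ?_
    rw [Algebra.smul_def, map_mul, hc, hb, ← Algebra.smul_def, ← h1]
  rw [h2, Module.Basis.repr_sum_self]

/-- the same for a basis of powers. -/
theorem norm_map_pow {E0 E L0 L : Type*} [Field E0] [Field E] [Field L0] [Field L] [Algebra E0 E]
    [Algebra L0 L] (ι0 : E0 →+* L0) (ι : E →+* L)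
    (hc : ∀ c, ι (algebraMap E0 E c) = algebraMap L0 L (ι0 c)) (q : ℕ) (θ : E)
    (hrep : ∀ f : E, ∃ c : Fin (q + 1) → E0, f = ∑ i, algebraMap E0 E (c i) * θ ^ (i : ℕ))
    (hind : ∀ c : Fin (q + 1) → E0, ∑ i, algebraMap E0 E (c i) * θ ^ (i : ℕ) = 0 → ∀ i, c i = 0)
    (hrep' : ∀ f : L, ∃ c : Fin (q + 1) → L0, f = ∑ i, algebraMap L0 L (c i) * ι θ ^ (i : ℕ))
    (hind' : ∀ c : Fin (q + 1) → L0, ∑ i, algebraMap L0 L (c i) * ι θ ^ (i : ℕ) = 0 → ∀ i, c i = 0)
    (u : E) : ι0 (Algebra.norm E0 u) = Algebra.norm L0 (ι u) := by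
  have hli : LinearIndependent E0 (fun i : Fin (q + 1) => θ ^ (i : ℕ)) := by
    rw [Fintype.linearIndependent_iff]
    intro c h
    apply hind c
    rw [← h]
    exact Finset.sum_congr rfl fun i _ => (Algebra.smul_def _ _).symm
  have hsp : ⊤ ≤ Submodule.span E0 (Set.range (fun i : Fin (q + 1) => θ ^ (i : ℕ))) := by
    intro f _
    obtain ⟨c, rfl⟩ := hrep f
    refine Submodule.sum_mem _ fun i _ => ?_
    rw [← Algebra.smul_def]
    exact Submodule.smul_mem _ _ (Submodule.subset_span ⟨i, rfl⟩)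
  have hli' : LinearIndependent L0 (fun i : Fin (q + 1) => ι θ ^ (i : ℕ)) := by
    rw [Fintype.linearIndependent_iff]
    intro c h
    apply hind' c
    rw [← h]
    exact Finset.sum_congr rfl fun i _ => (Algebra.smul_def _ _).symm
  have hsp' : ⊤ ≤ Submodule.span L0 (Set.range (fun i : Fin (q + 1) => ι θ ^ (i : ℕ))) := by
    intro f _
    obtain ⟨c, rfl⟩ := hrep' f
    refine Submodule.sum_mem _ fun i _ => ?_
    rw [← Algebra.smul_def]
    exact Submodule.smul_mem _ _ (Submodule.subset_span ⟨i, rfl⟩)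
  refine norm_map ι0 ι hc (Module.Basis.mk hli hsp) (Module.Basis.mk hli' hsp') (fun i => ?_) u
  rw [Module.Basis.mk_apply, Module.Basis.mk_apply, map_pow]

/-! ### the abstract framework -/

section Abs

variable {R K k : Type*} [CommRing R] [IsDomain R] [IsNoetherianRing R] [IsIntegrallyClosed R]
  [Field K] [Algebra R K] [IsFractionRing R K] [Field k]
  {D : QData R K k} {q : ℕ} [Fact q.Prime] [CharP k q] (T : Two D q)

theorem rep_be (f : T.F) :
    ∃ c : Fin (q + 1) → D.F0, f = ∑ i, T.be (c i) * T.al D.jF ^ (i : ℕ) := by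
  obtain ⟨c, hc⟩ := T.exists_rep (Wt T f)
  refine ⟨c, ?_⟩
  have := congrArg (Wt T) hc
  rw [Wt_Wt, map_sum] at this
  rw [this]
  exact Finset.sum_congr rfl fun i _ => by rw [map_mul, map_pow, Wt_al, Wt_be]

theorem ind_be (c : Fin (q + 1) → D.F0) (h : ∑ i, T.be (c i) * T.al D.jF ^ (i : ℕ) = 0) :
    ∀ i, c i = 0 := by
  apply (T.sum_eq_zero_iff c).1
  have := congrArg (Wt T) h
  rw [map_sum, map_zero] at this
  rw [← this]
  exact Finset.sum_congr rfl fun i _ => by rw [map_mul, map_pow, Wt_al, Wt_be]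

theorem toF_al (S : TAut T) (c : D.F0) : S.toF (T.al c) = T.al (S.toF0 c) := Subtype.ext rfl

theorem toF_be (S : TAut T) (c : D.F0) : S.toF (T.be c) = T.be (S.toF0 c) := by
  apply Subtype.ext
  rw [TAut.coe_toF, Two.coe_be, Two.coe_be, TAut.coe_toF0]
  exact coeffMap_qExpand _ _ _

theorem toF0_jF (S : TAut T) : S.toF0 D.jF = D.jF := by
  apply Subtype.ext
  rw [TAut.coe_toF0]
  exact coeffMap_jqModC _

end Abs

end GNormBC

section Abs

open GNormBC

variable {R K k : Type*} [CommRing R] [IsDomain R] [IsNoetherianRing R] [IsIntegrallyClosed R]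
  [Field K] [Algebra R K] [IsFractionRing R K] [Field k]
  {D : QData R K k} {q : ℕ} [Fact q.Prime] [CharP k q] (T : Two D q)

/-- the degree along `β`. -/
theorem finrank_be :
    letI := T.be.toAlgebra
    Module.finrank D.F0 T.F = q + 1 := GNorm.finrank_be T (Wt T) (Wt_al T)

/-- `Norm_β = Norm_α ∘ W`. -/
theorem nB_eq_nA_Wt (u : T.F) : GNorm.nB T u = GNorm.nA T (Wt T u) := by
  have hθ : (Wt T : T.F →+* T.F) (T.al D.jF) = T.be D.jF := Wt_al T _
  exact @norm_map_pow D.F0 T.F D.F0 T.F _ _ _ _ T.be.toAlgebra T.al.toAlgebra (RingHom.id _)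
    (Wt T : T.F →+* T.F) (fun c => Wt_be T c) q (T.al D.jF) (rep_be T) (ind_be T)
    (fun f => by rw [hθ]; exact T.exists_rep f)
    (fun c hc => by rw [hθ] at hc; exact (T.sum_eq_zero_iff c).1 hc) u

/-- the norm along `α` commutes with coefficientwise automorphisms. -/
theorem nA_toF (S : TAut T) (u : T.F) : GNorm.nA T (S.toF u) = S.toF0 (GNorm.nA T u) := by
  have hθ : (S.toF : T.F →+* T.F) (T.be D.jF) = T.be D.jF := by
    show S.toF (T.be D.jF) = _
    rw [toF_be, toF0_jF]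
  exact (@norm_map_pow D.F0 T.F D.F0 T.F _ _ _ _ T.al.toAlgebra T.al.toAlgebra
    (S.toF0 : D.F0 →+* D.F0) (S.toF : T.F →+* T.F) (fun c => toF_al T S c) q (T.be D.jF)
    (fun f => T.exists_rep f) (fun c hc => (T.sum_eq_zero_iff c).1 hc)
    (fun f => by rw [hθ]; exact T.exists_rep f)
    (fun c hc => by rw [hθ] at hc; exact (T.sum_eq_zero_iff c).1 hc) u).symm

/-- the norm along `β` commutes with coefficientwise automorphisms. -/
theorem nB_toF (S : TAut T) (u : T.F) : GNorm.nB T (S.toF u) = S.toF0 (GNorm.nB T u) := by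
  rw [nB_eq_nA_Wt, nB_eq_nA_Wt, ← toF_Wt, nA_toF]

end Abs

/-! ### the bridge to level `ℚ̄` -/

section Bridge

open GNormBC

variable {M0 q : ℕ} [NeZero M0] [Fact q.Prime] {A : ValuationSubring Kb}
  {K0 : IntermediateField ℚ Kb} [IsDiscreteValuationRing (R0 K0 A)] [CharP (kA A) q]
  {D : QData (R0 K0 A) K0 (kA A)} (T : Two D q) (hT : T.F = F0 K0 (M0 * q))
  (hF : D.F0 = F0 K0 M0)

theorem GNormBC.iotaF_jF : iotaF D hF D.jF = jF M0 := by
  apply Subtype.ext
  rw [coe_iotaF, coe_jF']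
  exact bc_jq K0

/-- **K0-rationality of the norm along `α`.** -/
theorem iotaF_nA (hqM : ¬ q ∣ M0) (u : T.F) :
    iotaF D hF (GNorm.nA T u) = normA M0 q (iotaT T hT u) := by
  have hq : q.Prime := Fact.out
  have hθ : iotaT T hT (T.be D.jF) = heckeBetaBar Kb M0 q (jF M0) := by
    rw [iotaT_be T hT hF, iotaF_jF]
  exact @norm_map_pow D.F0 T.F (FF M0) (FF (M0 * q)) _ _ _ _ T.al.toAlgebra
    (algebraAlong (heckeAlphaBar Kb M0 q)) (iotaF D hF) (iotaT T hT)
    (fun c => iotaT_al T hT hF c) q (T.be D.jF)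
    (fun f => T.exists_rep f) (fun c hc => (T.sum_eq_zero_iff c).1 hc)
    (fun f => by rw [hθ]; exact span_Kb M0 q hq hqM f)
    (fun c hc => by rw [hθ] at hc; exact indep_Kb M0 q hq hqM c hc) u

/-- **K0-rationality of the norm along `β`.** -/
theorem iotaF_nB (hqM : ¬ q ∣ M0) (u : T.F) :
    iotaF D hF (GNorm.nB T u) = normB M0 q (iotaT T hT u) := by
  have hq : q.Prime := Fact.out
  have hθ : iotaT T hT (T.al D.jF) = heckeAlphaBar Kb M0 q (jF M0) := by
    rw [iotaT_al T hT hF, iotaF_jF]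
  refine @norm_map_pow D.F0 T.F (FF M0) (FF (M0 * q)) _ _ _ _ T.be.toAlgebra
    (algebraAlong (heckeBetaBar Kb M0 q)) (iotaF D hF) (iotaT T hT)
    (fun c => iotaT_be T hT hF c) q (T.al D.jF) (rep_be T) (ind_be T)
    (fun f => ?_) (fun c hc => ?_) u
  · rw [hθ]
    obtain ⟨c, hc⟩ := span_Kb M0 q hq hqM (WK.Wb M0 q hqM f)
    refine ⟨c, ?_⟩
    have := congrArg (WK.Wb M0 q hqM) hc
    rw [WK.Wb_Wb, map_sum] at this
    rw [this]
    exact Finset.sum_congr rfl fun i _ => by rw [map_mul, map_pow, WK.Wb_alpha, WK.Wb_beta]; rfl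
  · rw [hθ] at hc
    apply indep_Kb M0 q hq hqM c
    have := congrArg (WK.Wb M0 q hqM) hc
    rw [map_sum, map_zero] at this
    rw [← this]
    refine Finset.sum_congr rfl fun i _ => ?_
    rw [map_mul, map_pow, WK.Wb_alpha]
    exact congrArg (· * _) (WK.Wb_beta M0 q hqM (c i)).symm

end Bridge

end Fermat.Agent.S35
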