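import Fermat.Agent.S35.GDV
import Fermat.Agent.S35.GCrt
import Fermat.Agent.S35.GNormBC
import Fermat.Agent.S34.NFrob
import Fermat.Agent.S34.NTau

/-!
# S35, geometry, modular block : [L0] the structure `Lvl0` for `T : Two D q`
-/

set_option autoImplicit false
set_option linter.unusedSectionVars false
set_option linter.unusedVariables false

noncomputable section

namespace Fermat.Agent.S35

open ModularCurve Polynomial
open Fermat.Agent.ES.QE Fermat.Agent.ES.Model Fermat.Agent.S34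

variable {R K k : Type*} [CommRing R] [IsDomain R] [IsNoetherianRing R] [IsIntegrallyClosed R]
  [Field K] [Algebra R K] [IsFractionRing R K] [Field k]
  {D : QData R K k} {q : ℕ}

namespace L0

section

variable [NeZero q]

/-- the Gauss ring of level `M₀` is a discrete valuation ring. -/
theorem isDV_gaussO (D : QData R K k) : IsDV D.gaussO.toSubring D.ϖF where
  ne_zero := D.isUnif.ne_zero
  mem := D.isUnif.mem
  inv_notMem := D.isUnif.inv_notMem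
  disc := fun x hx =>
    NVal.valOf_discrete (algebraMap D.F0 (LaurentSeries K))
      (fun f => NVal.IsBdd.of_mem_F0 f.2) D.ϖF (algebraMap_eq_C _) x hx

theorem isDV_O1 (T : Two D q) : IsDV T.O1 T.ϖF where
  ne_zero := T.ϖF_ne_zero
  mem := (mem_V1 T).1 (isUnif_V1 T).mem
  inv_notMem := fun h => (isUnif_V1 T).inv_notMem ((mem_V1 T).2 h)
  disc := fun x hx => by
    obtain ⟨a, h1, h2⟩ := disc_V1 T x hx
    exact ⟨a, (mem_V1 T).1 h1, (mem_V1 T).1 h2⟩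

theorem isDV_O2 (T : Two D q) : IsDV T.O2 T.ϖF where
  ne_zero := T.ϖF_ne_zero
  mem := (mem_V2 T).1 (isUnif_V2 T).mem
  inv_notMem := fun h => (isUnif_V2 T).inv_notMem ((mem_V2 T).2 h)
  disc := fun x hx => by
    obtain ⟨a, h1, h2⟩ := disc_V2 T x hx
    exact ⟨a, (mem_V2 T).1 h1, (mem_V2 T).1 h2⟩

variable {T : Two D q}

theorem toF0_mem (S : TAut T) {a : D.F0} (ha : a ∈ D.gaussO) : S.toF0 a ∈ D.gaussO :=
  S.map_mem_LamRing ha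

theorem toF0_symm_mem (S : TAut T) {a : D.F0} (ha : a ∈ D.gaussO) : S.toF0.symm a ∈ D.gaussO :=
  NFrob.map_mem_LamRing (NFrob.tri_symm S) ha

theorem isAutDV_toF0 (S : TAut T) : IsAutDV D.gaussO.toSubring S.toF0 where
  map := fun _ hx => toF0_mem S hx
  symm := fun _ hx => toF0_symm_mem S hx

theorem rhoO_toF0 (S : TAut T) (a : D.gaussO) :
    D.rhoO ⟨S.toF0 a, toF0_mem S a.2⟩ = S.ck (D.rhoO a) := S.rho_map a.2

/-- constants of `R` in `D.F0`. -/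
def cst (D : QData R K k) (r : R) : D.F0 := algebraMap K D.F0 (algebraMap R K r)

theorem cst_mem (r : R) : cst D r ∈ D.gaussO := by
  rw [D.mem_gaussO]
  have : ((cst D r : D.F0) : LaurentSeries K) = D.inc (HahnSeries.C r) := by
    show algebraMap K (LaurentSeries K) _ = _
    rw [algebraMap_eq_C]
    exact (coeffMap_C _ _).symm
  rw [this]
  exact QData.inc_mem_LamRing _

theorem toF0_cst (S : TAut T) (r : R) : S.toF0 (cst D r) = cst D (S.sR r) := by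
  apply Subtype.ext
  rw [TAut.coe_toF0]
  show coeffMap _ (algebraMap K (LaurentSeries K) _) = algebraMap K (LaurentSeries K) _
  rw [coeffMap_algebraMap]
  congr 1
  exact S.hK r

theorem unif0 (S : TAut T) : ∃ c, IsU D.gaussO.toSubring c ∧ S.toF0 D.ϖF = c * D.ϖF := by
  obtain ⟨c, c', hcc, hc⟩ := S.exists_sR_ϖ
  have h1 : cst D c * cst D c' = 1 := by
    unfold cst
    rw [← map_mul, ← map_mul, hcc, map_one, map_one]
  refine ⟨cst D c, ⟨left_ne_zero_of_mul_eq_one h1, cst_mem c, ?_⟩, ?_⟩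
  · rw [inv_eq_of_mul_eq_one_right h1]
    exact cst_mem c'
  · show S.toF0 (cst D D.ϖ) = cst D c * cst D D.ϖ
    rw [toF0_cst, hc]
    unfold cst
    rw [map_mul, map_mul]

theorem be_ϖF (T : Two D q) : T.be D.ϖF = T.ϖF := by
  apply Subtype.ext
  rw [Two.coe_be, T.coe_ϖF]
  have : ((D.ϖF : D.F0) : LaurentSeries K) = D.ϖE := algebraMap_eq_C _
  rw [this]
  exact Two.qExpand_ϖE

end

section

variable [Fact q.Prime] [CharP k q] (T : Two D q)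

theorem one_lt : 1 < q := (Fact.out : q.Prime).one_lt

theorem hjq : qExpand k q (jqModC k) = jqModC k ^ q := NOrth.qExpand_jq_char q k

theorem hOrth : NRed.HOrth T := fun f hf => T.exists_rep_of_mem_O hf

/-- `O₁ / ϖ O₁` is the residue field of level `M₀`. -/
theorem surj1 (u : T.F) (hu : u ∈ T.O1) : ∃ a ∈ D.gaussO, DivS T.O1 T.ϖF 1 (u - T.al a) := by
  obtain ⟨e, he, he1, he2⟩ := exists_idem T one_lt hjq
  obtain ⟨j, _, hj⟩ := (isDV_O2 T).exists_pow_mul he2 u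
  have h2 : e ^ j * u ∈ T.O2 := hj.mem (isDV_O2 T).mem
  have h1 : e ^ j * u ∈ T.O1 := mul_mem (pow_mem he.1 j) hu
  obtain ⟨a, ha, h⟩ := NRed.exists_gauss_congr1 T (hOrth T) hjq _ ⟨h1, h2⟩
  refine ⟨a, ha, ?_⟩
  have h3 : DivS T.O1 T.ϖF 1 (e ^ j - 1 ^ j) := cong_pow he.1 (one_mem _) he1 j
  rw [one_pow] at h3
  have e1 : u - T.al a = (e ^ j * u - T.al a) - (e ^ j - 1) * u := by ring
  rw [e1]
  exact h.sub (h3.mul_right hu)

theorem surj2 (u : T.F) (hu : u ∈ T.O2) : ∃ a ∈ D.gaussO, DivS T.O2 T.ϖF 1 (u - T.be a) := by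
  obtain ⟨e, he, he1, he2⟩ := exists_idem T one_lt hjq
  have hf1 : DivS T.O1 T.ϖF 1 (1 - e) := by
    have := he1.neg
    rwa [neg_sub] at this
  have hf2 : DivS T.O2 T.ϖF 1 ((1 - e) - 1) := by
    have := he2.neg
    have e0 : (1 - e) - 1 = -e := by ring
    rwa [e0]
  have hfm : (1 - e) ∈ T.O := sub_mem (one_mem _) he
  obtain ⟨j, _, hj⟩ := (isDV_O1 T).exists_pow_mul hf1 u
  have h1 : (1 - e) ^ j * u ∈ T.O1 := hj.mem (isDV_O1 T).mem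
  have h2 : (1 - e) ^ j * u ∈ T.O2 := mul_mem (pow_mem hfm.2 j) hu
  obtain ⟨a, ha, h⟩ := NRed.exists_gauss_congr2 T (hOrth T) hjq _ ⟨h1, h2⟩
  refine ⟨a, ha, ?_⟩
  have h3 : DivS T.O2 T.ϖF 1 ((1 - e) ^ j - 1 ^ j) := cong_pow hfm.2 (one_mem _) hf2 j
  rw [one_pow] at h3
  have e1 : u - T.be a = ((1 - e) ^ j * u - T.be a) - ((1 - e) ^ j - 1) * u := by ring
  rw [e1]
  exact h.sub (h3.mul_right hu)

theorem rho1_eq_of_divS {u : T.F} (hu : u ∈ T.O1) {a : D.F0} (ha : a ∈ D.gaussO)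
    (h : DivS T.O1 T.ϖF 1 (u - T.al a)) : T.rho1 ⟨u, hu⟩ = D.rhoO ⟨a, ha⟩ := by
  have e : (⟨u, hu⟩ : T.O1) = ⟨u - T.al a, sub_mem hu (al_mem_O T ha).1⟩
      + ⟨T.al a, (al_mem_O T ha).1⟩ := Subtype.ext (by simp)
  rw [e, map_add, GCrt.rho1_of_divS T _ h, zero_add]
  exact rho1_al T ⟨a, ha⟩

theorem rho2_eq_of_divS {u : T.F} (hu : u ∈ T.O2) {a : D.F0} (ha : a ∈ D.gaussO)
    (h : DivS T.O2 T.ϖF 1 (u - T.be a)) : T.rho2 ⟨u, hu⟩ = D.rhoO ⟨a, ha⟩ := by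
  have e : (⟨u, hu⟩ : T.O2) = ⟨u - T.be a, sub_mem hu (be_mem_O T ha).2⟩
      + ⟨T.be a, (be_mem_O T ha).2⟩ := Subtype.ext (by simp)
  rw [e, map_add, GCrt.rho2_of_divS T _ h, zero_add]
  exact rho2_be T ⟨a, ha⟩

theorem divS_of_rhoO {x y : D.F0} (hx : x ∈ D.gaussO) (hy : y ∈ D.gaussO)
    (h : D.rhoO ⟨x, hx⟩ = D.rhoO ⟨y, hy⟩) : DivS D.gaussO.toSubring D.ϖF 1 (x - y) := by
  have h0 : D.rhoO (⟨x, hx⟩ - ⟨y, hy⟩) = 0 := by rw [map_sub, h, sub_self]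
  obtain ⟨z, hz, e⟩ := (D.rhoO_eq_zero_iff _).1 h0
  exact ⟨z, hz, e⟩

theorem ck_eq (Φ : TAut T) (hΦ : ∀ c, Φ.sk c = c ^ q) :
    Φ.ck = coeffMap (frobenius k q) := by
  have : (Φ.sk : k →+* k) = frobenius k q := RingHom.ext fun c => hΦ c
  show coeffMap (Φ.sk : k →+* k) = _
  rw [this]

/-- the field `norm`. -/
theorem norm (Φ : TAut T) (hΦ : ∀ c, Φ.sk c = c ^ q) (nA nB : T.F →* D.F0)
    (hA : ∀ (u : T.F) (hu : u ∈ T.O), ∃ hN : nA u ∈ D.gaussO, D.rhoO ⟨nA u, hN⟩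
      = T.rho1 ⟨u, hu.1⟩ * coeffMap (frobenius k q) (T.rho2 ⟨u, hu.2⟩))
    (hB : ∀ (u : T.F) (hu : u ∈ T.O), ∃ hN : nB u ∈ D.gaussO, D.rhoO ⟨nB u, hN⟩
      = T.rho2 ⟨u, hu.2⟩ * coeffMap (frobenius k q) (T.rho1 ⟨u, hu.1⟩))
    (u : T.F) (hu : u ∈ T.O1 ⊓ T.O2) (a : D.F0) (ha : a ∈ D.gaussO) (b : D.F0)
    (hb : b ∈ D.gaussO) (h1 : DivS T.O1 T.ϖF 1 (u - T.al a)) (h2 : DivS T.O2 T.ϖF 1 (u - T.be b)) :
    DivS D.gaussO.toSubring D.ϖF 1 (nA u - a * Φ.toF0 b) ∧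
      DivS D.gaussO.toSubring D.ϖF 1 (nB u - b * Φ.toF0 a) := by
  have r1 := rho1_eq_of_divS T hu.1 ha h1
  have r2 := rho2_eq_of_divS T hu.2 hb h2
  obtain ⟨hNA, eA⟩ := hA u hu
  obtain ⟨hNB, eB⟩ := hB u hu
  constructor
  · refine divS_of_rhoO hNA (mul_mem ha (toF0_mem Φ hb)) ?_
    have e : (⟨a * Φ.toF0 b, mul_mem ha (toF0_mem Φ hb)⟩ : D.gaussO)
        = ⟨a, ha⟩ * ⟨Φ.toF0 b, toF0_mem Φ hb⟩ := rfl
    rw [eA, e, map_mul, rhoO_toF0 Φ ⟨b, hb⟩, ck_eq T Φ hΦ, r1, r2]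
  · refine divS_of_rhoO hNB (mul_mem hb (toF0_mem Φ ha)) ?_
    have e : (⟨b * Φ.toF0 a, mul_mem hb (toF0_mem Φ ha)⟩ : D.gaussO)
        = ⟨b, hb⟩ * ⟨Φ.toF0 a, toF0_mem Φ ha⟩ := rfl
    rw [eB, e, map_mul, rhoO_toF0 Φ ⟨a, ha⟩, ck_eq T Φ hΦ, r1, r2]

end

end L0

open L0 in
/-- **[L0], general form** : any pair of multiplicative maps with the reduction formulas. -/
theorem lvl0_of [Fact q.Prime] [CharP k q] (T : Two D q) (Φ : TAut T)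
    (hΦ : ∀ c, Φ.sk c = c ^ q) (nA nB : T.F →* D.F0)
    (hA : ∀ (u : T.F) (hu : u ∈ T.O), ∃ hN : nA u ∈ D.gaussO, D.rhoO ⟨nA u, hN⟩
      = T.rho1 ⟨u, hu.1⟩ * coeffMap (frobenius k q) (T.rho2 ⟨u, hu.2⟩))
    (hB : ∀ (u : T.F) (hu : u ∈ T.O), ∃ hN : nB u ∈ D.gaussO, D.rhoO ⟨nB u, hN⟩
      = T.rho2 ⟨u, hu.2⟩ * coeffMap (frobenius k q) (T.rho1 ⟨u, hu.1⟩))
    (hAΦ : ∀ u, nA (Φ.toF u) = Φ.toF0 (nA u)) (hBΦ : ∀ u, nB (Φ.toF u) = Φ.toF0 (nB u)) :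
    Lvl0 T.O1 T.O2 T.ϖF D.gaussO.toSubring D.ϖF T.al T.be nA nB (Φ.toF.trans Φ.toF) Φ.toF0 where
  dv0 := isDV_gaussO D
  aut0 := isAutDV_toF0 Φ
  unif0 := unif0 Φ
  al_mem := fun a ha => al_mem_O T ha
  be_mem := fun a ha => be_mem_O T ha
  al_unif := rfl
  be_unif := be_ϖF T
  surj1 := fun u hu => surj1 T u hu
  surj2 := fun u hu => surj2 T u hu
  norm := fun u hu a ha b hb h1 h2 => L0.norm T Φ hΦ nA nB hA hB u hu a ha b hb h1 h2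
  Ψ_al := fun a => by
    show Φ.toF (Φ.toF (T.al a)) = _
    rw [Φ.toF_al, Φ.toF_al]
  Ψ_be := fun a => by
    show Φ.toF (Φ.toF (T.be a)) = _
    rw [Φ.toF_be, Φ.toF_be]
  nA_Ψ := fun u => by
    show nA (Φ.toF (Φ.toF u)) = _
    rw [hAΦ, hAΦ]
  nB_Ψ := fun u => by
    show nB (Φ.toF (Φ.toF u)) = _
    rw [hBΦ, hBΦ]
  idem := exists_idem T one_lt hjq

/-- **[L0]** : the structure `Lvl0` for `T : Two D q`, `nA := GNorm.nA T`, `nB := GNorm.nB T`,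
`Ψ := Φ²`, `φ₀ := Φ` (`Φ` a Frobenius). -/
theorem lvl0 [Fact q.Prime] [CharP k q] [CharZero K] (T : Two D q) (Φ : TAut T)
    (hΦ : ∀ c, Φ.sk c = c ^ q) (ζ : Rˣ) (hζ : IsPrimitiveRoot ζ q) :
    Lvl0 T.O1 T.O2 T.ϖF D.gaussO.toSubring D.ϖF T.al T.be (GNorm.nA T) (GNorm.nB T)
      (Φ.toF.trans Φ.toF) Φ.toF0 :=
  lvl0_of T Φ hΦ _ _ (fun u hu => nA_red T ζ hζ u hu)
    (fun u hu => nB_red T ζ hζ (finrank_be T) u hu) (nA_toF T Φ) (nB_toF T Φ)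

end Fermat.Agent.S35
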