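import Fermat.Agent.S35.GGen
import Fermat.Agent.S35.GChartT
import Fermat.Agent.S35.L0
import Fermat.Agent.S34.UCore

/-!
# S35, geometry, modular block : `new_gen` with all its structural inputs discharged

* `GCoreT.new_gen'` : general base DVR, inputs `IsDV`, `Chart2`, `FrobB`, `IsAutDV`, `Lvl0` filled in;
* `GCoreT.new_core` : the `K₀`-level statement (the analogue of `S34.uni_core`).
-/

set_option autoImplicit false
set_option linter.unusedVariables false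
set_option linter.unusedSectionVars false
set_option linter.style.haveILetI false

noncomputable section

namespace Fermat.Agent.S35.GCoreT

open ModularCurve AlgebraicCurve Polynomial IntermediateField
open Fermat.Agent.S24 Fermat.Agent.S28 Fermat.Agent.ES Fermat.Agent.ES.QE Fermat.Agent.ES.Model
  Fermat.Agent.ES.IDvr Fermat.Agent.ES.Inst Fermat.Agent.S37.Rat Fermat.Agent.S34

set_option synthInstance.maxHeartbeats 400000 in
set_option maxHeartbeats 2000000 in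
/-- `new_gen` with `IsDV`, `Chart2`, `FrobB`, `IsAutDV`, `Lvl0` discharged. -/
theorem new_gen' {R K k : Type*} [CommRing R] [IsDomain R] [IsDiscreteValuationRing R]
    [Field K] [Algebra R K] [IsFractionRing R K] [Field k] [CharZero K]
    {q : ℕ} [NeZero q] (hq : q.Prime) [CharP k q]
    (D : QData R K k) (T : Two D q) (X : D.Coord)
    (y : LaurentSeries R) (hy : X.xW * y = 1) (m : ℕ) (hm : IsUnit (m : R))
    (hded1 : IsDedekindDomain (X.chart ⧸ Ideal.span {Inst.ϖB X}))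
    (hded2 : IsDedekindDomain ((X.inv y hy).chart ⧸ Ideal.span {Inst.ϖB (X.inv y hy)}))
    (hxq : qExpand k q (D.red X.xW) = D.red X.xW ^ q)
    (hyq : qExpand k q (D.red y) = D.red y ^ q)
    (Φ : TAut T) (hΦ : ∀ c, Φ.sk c = c ^ q)
    (hΦx : coeffMap (Φ.sR : R →+* R) X.xW = X.xW)
    (hΦy : coeffMap (Φ.sR : R →+* R) y = y)
    (hxy1 : XYData T X) (hxy2 : XYData T (X.inv y hy))
    (ζ : Rˣ) (hζ : IsPrimitiveRoot ζ q)
    (u : T.F) (hu : u ≠ 0)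
    (hdiv1 : ∃ (n : ℕ) (g g' : Fin n → T.F), (∀ i, g i ^ m * u ∈ T.away X) ∧
      (∀ i, g' i ^ m * u⁻¹ ∈ T.away X) ∧ ∑ i, g i * g' i = 1)
    (hdiv2 : ∃ (n : ℕ) (g g' : Fin n → T.F), (∀ i, g i ^ m * u ∈ T.away (X.inv y hy)) ∧
      (∀ i, g' i ^ m * u⁻¹ ∈ T.away (X.inv y hy)) ∧ ∑ i, g i * g' i = 1)
    (hrat1 : HRat T X u) (hrat2 : HRat T (X.inv y hy) u)
    (hA : ∃ z, GNorm.nA T u = z ^ m) (hB : ∃ z, GNorm.nB T u = z ^ m) :
    ∃ (z : T.F) (c : K), z ≠ 0 ∧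
      z ^ m * dQ (Φ.toF.trans Φ.toF) (q ^ 2) (dl (Φ.toF.trans Φ.toF) (dl (Φ.toF.trans Φ.toF) u))
        = algebraMap K T.F c := by
  haveI : Fact q.Prime := ⟨hq⟩
  have hxy1' := hxy1
  have hxy2' := hxy2
  obtain ⟨hVx1, ⟨θ1, hθ1⟩, Xu1, Yu1, c1, e1, hXY1, hXa1, hXb1⟩ := hxy1'
  obtain ⟨hVx2, ⟨θ2, hθ2⟩, Xu2, Yu2, c2, e2, hXY2, hXa2, hXb2⟩ := hxy2'
  obtain ⟨-, -, -, -, -, hN1⟩ := UChart.chartData T X hq hded1 hxq Φ hΦ hΦx hVx1 θ1 hθ1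
    Xu1 Yu1 c1 e1 hXY1 hXa1 hXb1
  obtain ⟨-, -, -, -, -, hN2⟩ := UChart.chartData T (X.inv y hy) hq hded2 hyq Φ hΦ hΦy
    hVx2 θ2 hθ2 Xu2 Yu2 c2 e2 hXY2 hXa2 hXb2
  exact new_gen hq D T X y hy m hm hded1 hded2 hxq hyq Φ hΦ hΦx hΦy hxy1 hxy2
    (isDV_O1 T) (isDV_O2 T) (chart2 T X hq hm hxq hVx1 hN1)
    (chart2 T (X.inv y hy) hq hm hyq hVx2 hN2) (Φ.toF.trans Φ.toF)
    (isAutDV_sq_O1 Φ) (isAutDV_sq_O2 Φ) (frobB T X hq hded1 hVx1 Φ hΦ hΦx)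
    (frobB T (X.inv y hy) hq hded2 hVx2 Φ hΦ hΦy) (lvl0 T Φ hΦ ζ hζ) u hu hdiv1 hdiv2
    hrat1 hrat2 hA hB

/-- **G-CORE** : the analogue of `S34.uni_core`. -/
theorem new_core {K0 : IntermediateField ℚ Kb} {A : ValuationSubring Kb}
    [IsDiscreteValuationRing (R0 K0 A)] {q : ℕ} [NeZero q] (hq : q.Prime) [CharP (kA A) q]
    (D : QData (R0 K0 A) K0 (kA A)) (T : Two D q) (X : D.Coord)
    (y : LaurentSeries (R0 K0 A)) (hy : X.xW * y = 1) (m : ℕ) (hm : IsUnit (m : R0 K0 A))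
    (hded1 : IsDedekindDomain (X.chart ⧸ Ideal.span {Inst.ϖB X}))
    (hded2 : IsDedekindDomain ((X.inv y hy).chart ⧸ Ideal.span {Inst.ϖB (X.inv y hy)}))
    (hxq : qExpand (kA A) q (D.red X.xW) = D.red X.xW ^ q)
    (hyq : qExpand (kA A) q (D.red y) = D.red y ^ q)
    (Φ : TAut T) (hΦ : ∀ c, Φ.sk c = c ^ q)
    (hΦx : coeffMap (Φ.sR : R0 K0 A →+* R0 K0 A) X.xW = X.xW)
    (hΦy : coeffMap (Φ.sR : R0 K0 A →+* R0 K0 A) y = y)
    (hxy1 : XYData T X) (hxy2 : XYData T (X.inv y hy))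
    (ζ : (R0 K0 A)ˣ) (hζ : IsPrimitiveRoot ζ q)
    (N : ℕ) [NeZero N] (ι : T.F →+* FF N)
    (hι : ∀ f : T.F, ((ι f : FF N) : LaurentSeries Kb) = bc K0 (f : LaurentSeries K0))
    (htr : Transcendental Kb (ι (T.x X))) [FiniteDimensional Kb⟮ι (T.x X)⟯ (FF N)]
    [FiniteDimensional Kb⟮(ι (T.x X))⁻¹⟯ (FF N)]
    (u : T.F) (hu : u ≠ 0)
    (hdiv1 : ∃ (n : ℕ) (g g' : Fin n → T.F), (∀ i, g i ^ m * u ∈ T.away X) ∧
      (∀ i, g' i ^ m * u⁻¹ ∈ T.away X) ∧ ∑ i, g i * g' i = 1)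
    (hdiv2 : ∃ (n : ℕ) (g g' : Fin n → T.F), (∀ i, g i ^ m * u ∈ T.away (X.inv y hy)) ∧
      (∀ i, g' i ^ m * u⁻¹ ∈ T.away (X.inv y hy)) ∧ ∑ i, g i * g' i = 1)
    (hK : ∀ P : Place Kb (FF N), P.ord (ι u) ≠ 0 →
      ∀ σ : GQ, (∀ x ∈ K0, σ x = x) → galP N σ P = P)
    (hA : ∃ z, GNorm.nA T u = z ^ m) (hB : ∃ z, GNorm.nB T u = z ^ m) :
    ∃ (z : T.F) (c : K0), z ≠ 0 ∧
      z ^ m * dQ (Φ.toF.trans Φ.toF) (q ^ 2) (dl (Φ.toF.trans Φ.toF) (dl (Φ.toF.trans Φ.toF) u))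
        = algebraMap K0 T.F c := by
  have hrat1 : HRat T X u := hRat T X N ι hι htr u hu hK
  have hxi : ι (T.x (X.inv y hy)) = (ι (T.x X))⁻¹ := by rw [x_inv, map_inv₀]
  have htr2 : Transcendental Kb (ι (T.x (X.inv y hy))) := by
    rw [hxi]
    exact FF.transcendental_inv htr
  have : FiniteDimensional Kb⟮ι (T.x (X.inv y hy))⟯ (FF N) := by
    rw [hxi]
    infer_instance
  have hrat2 : HRat T (X.inv y hy) u := hRat T (X.inv y hy) N ι hι htr2 u hu hK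
  exact new_gen' hq D T X y hy m hm hded1 hded2 hxq hyq Φ hΦ hΦx hΦy hxy1 hxy2 ζ hζ u hu
    hdiv1 hdiv2 hrat1 hrat2 hA hB

end Fermat.Agent.S35.GCoreT
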