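import Fermat.Agent.S35.GNormBC
import Fermat.Agent.ES.InstUp

/-!
# S35 : descent lemmas for the final assembly `G-U`

* `exists_K1_isDef` : a finite set of functions of level `N` is defined over every field containing
  a suitable number field `K1`;
* `exists_iotaF_eq`, `exists_iotaT_eq` : preimages under `iotaF`, `iotaT`;
* `exists_nA_root`, `exists_nB_root` : the hypotheses `normA u = z ^ m`, `normB u = z ^ m` descend
  to `K0`.
-/

set_option autoImplicit false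

noncomputable section

namespace Fermat.Agent.S35

open ModularCurve AlgebraicCurve
open Fermat.Agent.S24 Fermat.Agent.S28 Fermat.Agent.ES Fermat.Agent.ES.QE Fermat.Agent.ES.Inst
  Fermat.Agent.ES.IDvr Fermat.Agent.S34

/-- a finite set of functions of level `N` is defined over every `K0 ≥ K1`. -/
theorem exists_K1_isDef (N : ℕ) [NeZero N] (S : Finset (FF N)) :
    ∃ K1 : IntermediateField ℚ Kb, FiniteDimensional ℚ K1 ∧
      ∀ K0 : IntermediateField ℚ Kb, K1 ≤ K0 →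
        ∀ f ∈ S, ∃ f0 ∈ F0 K0 N, bc K0 f0 = (f : LaurentSeries Kb) := by
  obtain ⟨K1, h1, -, hS⟩ := exists_K0 N ⊥ S
  exact ⟨K1, h1, fun K0 hle f hf => InstUp.IsDef.mono hle (hS f hf)⟩

section F0

variable {N : ℕ} [NeZero N] {A : ValuationSubring Kb} {K0 : IntermediateField ℚ Kb}

theorem exists_iotaF_eq (D : QData (R0 K0 A) K0 (kA A)) (hF : D.F0 = F0 K0 N) (z : FF N)
    (hz : ∃ f0 ∈ F0 K0 N, bc K0 f0 = (z : LaurentSeries Kb)) : ∃ z0 : D.F0, iotaF D hF z0 = z := by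
  obtain ⟨f0, hf0, h⟩ := hz
  refine ⟨⟨f0, hF ▸ hf0⟩, ?_⟩
  apply Subtype.ext
  rw [coe_iotaF]
  exact h

end F0

variable {M0 q : ℕ} [NeZero M0] [Fact q.Prime] {A : ValuationSubring Kb}
  {K0 : IntermediateField ℚ Kb} [IsDiscreteValuationRing (R0 K0 A)] [CharP (kA A) q]
  {D : QData (R0 K0 A) K0 (kA A)} (T : Two D q) (hT : T.F = F0 K0 (M0 * q))

omit [CharP (kA A) q] in
theorem exists_iotaT_eq (u : FF (M0 * q))
    (hu : ∃ f0 ∈ F0 K0 (M0 * q), bc K0 f0 = (u : LaurentSeries Kb)) :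
    ∃ u0 : T.F, iotaT T hT u0 = u := by
  obtain ⟨f0, hf0, h⟩ := hu
  refine ⟨⟨f0, hT ▸ hf0⟩, ?_⟩
  apply Subtype.ext
  rw [coe_iotaT]
  exact h

/-- `normA u = z ^ m` descends to `K0`. -/
theorem exists_nA_root (hF : D.F0 = F0 K0 M0) (hqM : ¬ q ∣ M0) (u0 : T.F) (m : ℕ) (z : FF M0)
    (hz : ∃ f0 ∈ F0 K0 M0, bc K0 f0 = (z : LaurentSeries Kb))
    (h : normA M0 q (iotaT T hT u0) = z ^ m) : ∃ z0 : D.F0, GNorm.nA T u0 = z0 ^ m := by
  obtain ⟨z0, hz0⟩ := exists_iotaF_eq D hF z hz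
  refine ⟨z0, (iotaF D hF).injective ?_⟩
  rw [iotaF_nA T hT hF hqM, h, map_pow, hz0]

/-- `normB u = z ^ m` descends to `K0`. -/
theorem exists_nB_root (hF : D.F0 = F0 K0 M0) (hqM : ¬ q ∣ M0) (u0 : T.F) (m : ℕ) (z : FF M0)
    (hz : ∃ f0 ∈ F0 K0 M0, bc K0 f0 = (z : LaurentSeries Kb))
    (h : normB M0 q (iotaT T hT u0) = z ^ m) : ∃ z0 : D.F0, GNorm.nB T u0 = z0 ^ m := by
  obtain ⟨z0, hz0⟩ := exists_iotaF_eq D hF z hz
  refine ⟨z0, (iotaF D hF).injective ?_⟩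
  rw [iotaF_nB T hT hF hqM, h, map_pow, hz0]

end Fermat.Agent.S35
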