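import Fermat.Agent.ES.InstQD

/-!
# S35 : a primitive `q`-th root of unity in `R0 K0 A` for `K0` large
-/

set_option autoImplicit false

noncomputable section

namespace Fermat.Agent.S35

open ModularCurve AlgebraicCurve Polynomial
open Fermat.Agent.S24 Fermat.Agent.S28 Fermat.Agent.ES Fermat.Agent.ES.QE Fermat.Agent.ES.Inst
  Fermat.Agent.ES.IDvr

theorem exists_K1_zeta (q : ℕ) [NeZero q] (A : ValuationSubring Kb) :
    ∃ K1 : IntermediateField ℚ Kb, FiniteDimensional ℚ K1 ∧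
      ∀ K0 : IntermediateField ℚ Kb, K1 ≤ K0 → ∃ ζ : (R0 K0 A)ˣ, IsPrimitiveRoot ζ q := by
  have hN : q ≠ 0 := NeZero.ne q
  obtain ⟨ζ₁, hζ₁⟩ := ResField.exists_zetaQ q
  have hprimC : IsPrimitiveRoot (ResField.iot ζ₁) q := by
    rw [hζ₁]
    exact IsPrimitiveRoot.coe_units_iff.mpr (Degree.isPrimitiveRoot_zetaC q)
  have hprim : IsPrimitiveRoot ζ₁ q := IsPrimitiveRoot.of_map_of_injective hprimC ResField.iot.injective
  have hpow : ζ₁ ^ q = 1 := hprim.pow_eq_one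
  have hζ₁0 : ζ₁ ≠ 0 := by
    rintro rfl
    rw [zero_pow hN] at hpow
    exact zero_ne_one hpow
  have halg : Algebra.IsAlgebraic ℚ Kb := AlgebraicClosure.isAlgebraic ℚ
  obtain ⟨K1, hK1, hζK1⟩ := exists_numberField ({ζ₁} : Finset Kb)
  refine ⟨K1, hK1, fun K0 hle => ?_⟩
  have hζK0 : ζ₁ ∈ K0 := hle (hζK1 ζ₁ (Finset.mem_singleton_self _))
  have hmem : ζ₁ ∈ A := ResField.mem_of_pow_eq_one (A := A) hN hpow
  have hmem' : ζ₁⁻¹ ∈ A := ResField.mem_of_pow_eq_one (A := A) hN (by rw [inv_pow, hpow, inv_one])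
  obtain ⟨ζR, hζR⟩ : ∃ ζR : (R0 K0 A)ˣ, (((ζR : R0 K0 A) : K0) : Kb) = ζ₁ := by
    refine ⟨⟨⟨⟨ζ₁, hζK0⟩, hmem⟩, ⟨⟨ζ₁⁻¹, K0.inv_mem hζK0⟩, hmem'⟩, ?_, ?_⟩, rfl⟩
    · apply Subtype.val_injective
      apply Subtype.val_injective
      exact mul_inv_cancel₀ hζ₁0
    · apply Subtype.val_injective
      apply Subtype.val_injective
      exact inv_mul_cancel₀ hζ₁0
  refine ⟨ζR, ?_⟩
  rw [← IsPrimitiveRoot.coe_units_iff]
  have hinj : Function.Injective ((algebraMap K0 Kb).comp (R0 K0 A).subtype) :=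
    (algebraMap K0 Kb).injective.comp Subtype.val_injective
  refine IsPrimitiveRoot.of_map_of_injective (f := (algebraMap K0 Kb).comp (R0 K0 A).subtype) ?_ hinj
  change IsPrimitiveRoot (((ζR : R0 K0 A) : K0) : Kb) q
  rw [hζR]
  exact hprim

end Fermat.Agent.S35
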