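import Fermat.Agent.S35.GNbc
import Fermat.Agent.S34.NWx
import Fermat.Agent.S34.Level
import Fermat.Agent.ES.HauptL
import Fermat.Agent.ES.InstFinal

/-!
# S35 : `new_rel` from the case of a level with a good coordinate

* `NEW m M0 q A` : the statement of `new_rel` at the level `M0 q` (all Frobenius elements at `A`);
* `NEW_of_mul` : `NEW m (M0 r) q A → NEW m M0 q A` if `r ∤ M0 q` is a prime with `gcd (r+1, m) = 1`;
* `NEW_pow_of_coord` : `NEW (p ^ k) M0 q A` from the case of the levels with a coordinate.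
-/

set_option autoImplicit false
set_option linter.style.haveILetI false

noncomputable section

namespace Fermat.Agent.S35

open ModularCurve AlgebraicCurve Fermat.Agent.S24 Fermat.Agent.ES Fermat.Agent.S34
open Fermat.Agent.ES.Inst Fermat.Agent.ES.Inst.InstFinal Fermat.Agent.ES.Inst.InstCoord
  Fermat.Agent.ES.T23

/-- the relation `(X - Q)(X - 1)² [u] = 0`, `X = g²`, `Q = q²`, up to `m`-th powers. -/
def NewRel {F : Type*} [Field F] (g : F → F) (q m : ℕ) (u : F) : Prop :=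
  ∃ z : F, g (g (g (g (g (g u))))) * (g (g u)) ^ (2 * q ^ 2 + 1)
    = (g (g (g (g u)))) ^ (q ^ 2 + 2) * u ^ (q ^ 2) * z ^ m

/-- the statement of `new_rel` at the level `M0 q`. -/
def NEW (m M0 q : ℕ) [NeZero M0] [NeZero q] (A : ValuationSubring Kb) : Prop :=
  ∀ φ : GQ, A.IsFrobeniusAt φ q → ∀ u : FF (M0 * q), IsPDiv m (M0 * q) u →
    (∃ z, normA M0 q u = z ^ m) → (∃ z, normB M0 q u = z ^ m) → NewRel (gal (M0 * q) φ) q m u

namespace NewLvl

theorem isPDiv_castFF (m : ℕ) {N N' : ℕ} (h : N = N') {x : FF N} (hx : IsPDiv m N x) :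
    IsPDiv m N' (HKH.castFF h x) := by
  subst h
  exact hx

theorem gal_castFF {N N' : ℕ} (h : N = N') (σ : GQ) (x : FF N) :
    gal N' σ (HKH.castFF h x) = HKH.castFF h (gal N σ x) := by
  subst h
  rfl

theorem gal_alphaC (M0 q r : ℕ) [NeZero M0] [Fact q.Prime] [NeZero r] (σ : GQ) (u : FF (M0 * q)) :
    gal (M0 * r * q) σ (alphaC M0 q r u) = alphaC M0 q r (gal (M0 * q) σ u) := by
  haveI : NeZero q := ⟨(Fact.out : q.Prime).ne_zero⟩
  rw [alphaC_apply, alphaC_apply, gal_castFF, gal_heckeAlpha]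

/-- descent of an `m`-th root along `α_r`. -/
theorem exists_root_of_heckeAlpha (m N r : ℕ) [NeZero N] [NeZero r]
    (hcop : Nat.Coprime (finrankAlong Kb (heckeAlphaBar Kb N r)) m) {w : FF N} (hw0 : w ≠ 0)
    {z : FF (N * r)} (hwz : heckeAlphaBar Kb N r w = z ^ m) : ∃ y : FF N, w = y ^ m := by
  let _ := algebraAlong (heckeAlphaBar Kb N r)
  have h1 : Algebra.norm (FF N) (algebraMap (FF N) (FF (N * r)) w)
      = w ^ Module.finrank (FF N) (FF (N * r)) := Algebra.norm_algebraMap w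
  have h2 : algebraMap (FF N) (FF (N * r)) w = z ^ m := hwz
  rw [h2, map_pow] at h1
  exact LevelChange.exists_pow_eq_of_coprime hcop hw0 h1.symm

/-- `NewRel` in quotient form. -/
theorem newRel_iff {F : Type*} [Field F] (g : F →+* F) (q m : ℕ) {u : F} (hu : u ≠ 0) :
    NewRel g q m u ↔ ∃ z : F, g (g (g (g (g (g u))))) * (g (g u)) ^ (2 * q ^ 2 + 1)
      / ((g (g (g (g u)))) ^ (q ^ 2 + 2) * u ^ (q ^ 2)) = z ^ m := by
  have h4 : g (g (g (g u))) ≠ 0 := by simpa using hu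
  have hd : (g (g (g (g u)))) ^ (q ^ 2 + 2) * u ^ (q ^ 2) ≠ 0 :=
    mul_ne_zero (pow_ne_zero _ h4) (pow_ne_zero _ hu)
  constructor
  · rintro ⟨z, hz⟩
    exact ⟨z, by rw [hz, mul_div_cancel_left₀ _ hd]⟩
  · rintro ⟨z, hz⟩
    exact ⟨z, by rw [← hz, mul_div_cancel₀ _ hd]⟩

end NewLvl

open NewLvl

/-- **Level raise** for `NEW` at an auxiliary prime `r ∤ M0 q`. -/
theorem NEW_of_mul (m M0 q r : ℕ) [NeZero M0] [Fact q.Prime] [NeZero q] [Fact r.Prime]
    [NeZero (M0 * r)] (hqM : ¬ q ∣ M0) (hr : ¬ r ∣ M0 * q) (A : ValuationSubring Kb)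
    (hcop : Nat.Coprime (r + 1) m) (h : NEW m (M0 * r) q A) : NEW m M0 q A := by
  have hrp : r.Prime := Fact.out
  have hqp : q.Prime := Fact.out
  haveI : NeZero r := ⟨hrp.ne_zero⟩
  have hqMr : ¬ q ∣ M0 * r := fun hd => by
    rcases (Nat.Prime.dvd_mul hqp).1 hd with h1 | h1
    · exact hqM h1
    · exact hr (Dvd.dvd.mul_left (((Nat.prime_dvd_prime_iff_eq hqp hrp).1 h1) ▸ dvd_rfl) M0)
  intro φ hφ u hu ⟨z1, h1⟩ ⟨z2, h2⟩
  have hu' : IsPDiv m (M0 * r * q) (alphaC M0 q r u) :=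
    isPDiv_castFF m _ (LevelChange.isPDiv_heckeAlpha m (M0 * q) r hu)
  have key := h φ hφ (alphaC M0 q r u) hu'
    ⟨heckeAlphaBar Kb M0 r z1, by rw [nbcA_alpha hqMr, h1, map_pow]⟩
    ⟨heckeAlphaBar Kb M0 r z2, by rw [nbcB_alpha hqMr, h2, map_pow]⟩
  obtain ⟨z, hz⟩ :=
    (newRel_iff (gal (M0 * r * q) φ : FF (M0 * r * q) →+* FF (M0 * r * q)) q m hu'.1).1 key
  refine (newRel_iff (gal (M0 * q) φ : FF (M0 * q) →+* FF (M0 * q)) q m hu.1).2 ?_
  simp only [RingHom.coe_coe, gal_alphaC] at hz ⊢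
  have hw0 : gal (M0 * q) φ (gal (M0 * q) φ (gal (M0 * q) φ (gal (M0 * q) φ (gal (M0 * q) φ
      (gal (M0 * q) φ u))))) * (gal (M0 * q) φ (gal (M0 * q) φ u)) ^ (2 * q ^ 2 + 1)
      / ((gal (M0 * q) φ (gal (M0 * q) φ (gal (M0 * q) φ (gal (M0 * q) φ u)))) ^ (q ^ 2 + 2)
        * u ^ (q ^ 2)) ≠ 0 := by
    have := hu.1
    refine div_ne_zero (mul_ne_zero ?_ (pow_ne_zero _ ?_))
      (mul_ne_zero (pow_ne_zero _ ?_) (pow_ne_zero _ this)) <;> simpa using this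
  refine exists_root_of_heckeAlpha m (M0 * q) r
    (by rw [finrank_heckeAlpha (M0 * q) r hr]; exact hcop) hw0
    (z := (HKH.castFF (HKH.lvl_eq M0 q r)).symm z) ?_
  rw [← map_pow (HKH.castFF (HKH.lvl_eq M0 q r)).symm z m, ← hz, AlgEquiv.eq_symm_apply,
    ← alphaC_apply]
  simp only [map_div₀, map_mul, map_pow]

/-- **`NEW` for prime powers from the case of a good coordinate.** -/
theorem NEW_pow_of_coord (p k q : ℕ) (hp : p.Prime) (hq : q.Prime) [NeZero q] (hqp : q ≠ p)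
    (A : ValuationSubring Kb)
    (hcoord : ∀ (M0 : ℕ) [NeZero M0], ¬ q ∣ M0 → ∀ Z : ZCoord M0 q, Z.Unram → WGood M0 q Z.xF →
      NEW (p ^ k) M0 q A)
    (M0 : ℕ) [NeZero M0] (hqM : ¬ q ∣ M0) : NEW (p ^ k) M0 q A := by
  haveI : Fact q.Prime := ⟨hq⟩
  obtain ⟨r, hr, hr23, hrq, hcop⟩ := exists_aux_level hp hqp
  -- the case of a level divisible by `r`
  have main : ∀ (M1 : ℕ) [NeZero M1], ¬ q ∣ M1 → r ∣ M1 → NEW (p ^ k) M1 q A := by
    intro M1 _ hqM1 hrM1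
    rcases hr23 with rfl | rfl
    · exact hcoord M1 hqM1 (zCoord2L M1 q hq (Ne.symm hrq) (tR_two_mem M1 hrM1))
        (zCoord2L_unram M1 q hrM1 hq (Ne.symm hrq))
        (wGood_t2F M1 q hrM1 ((Nat.coprime_primes Nat.prime_two hq).2 hrq))
    · exact hcoord M1 hqM1 (zCoord3L M1 q hq (Ne.symm hrq) (tR_three_mem M1 hrM1))
        (zCoord3L_unram M1 q hrM1 hq (Ne.symm hrq))
        (wGood_t3F M1 q hrM1 ((Nat.coprime_primes Nat.prime_three hq).2 hrq))
  by_cases hrM : r ∣ M0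
  · exact main M0 hqM hrM
  · haveI : Fact r.Prime := ⟨hr⟩
    haveI : NeZero (M0 * r) := ⟨mul_ne_zero (NeZero.ne M0) hr.ne_zero⟩
    have hrMq : ¬ r ∣ M0 * q := fun hd => by
      rcases (Nat.Prime.dvd_mul hr).1 hd with h1 | h1
      · exact hrM h1
      · exact hrq ((Nat.prime_dvd_prime_iff_eq hr hq).1 h1)
    refine NEW_of_mul (p ^ k) M0 q r hqM hrMq A (Nat.Coprime.pow_right k hcop) (main (M0 * r) ?_
      (Dvd.intro_left M0 rfl))
    intro hd
    rcases (Nat.Prime.dvd_mul hq).1 hd with h1 | h1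
    · exact hqM h1
    · exact hrq ((Nat.prime_dvd_prime_iff_eq hq hr).1 h1).symm

end Fermat.Agent.S35
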