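import Fermat.Agent.S35.Defs
import Fermat.Agent.S34.WK
import Fermat.Agent.ES.KEmb

/-
S35, package HK-H: the two level-lowering norms `normA`, `normB` commute with the
multiplicative Hecke correspondence `heckeMul` at a prime `l` not dividing the level.
Statements VERBATIM `S35/Plan.lean` (`normA_heckeMul`, `normB_heckeMul`).
-/

set_option autoImplicit false
set_option linter.style.haveILetI false
set_option linter.unusedSectionVars false

noncomputable section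

namespace Fermat.Agent.S35

open ModularCurve AlgebraicCurve Fermat.Agent.S24 Fermat.Agent.ES
open P2MW.S_ModularForm_heckeT_slash_eq_self_of_mem_Gamma0.ModularForm.HeckeSlashInvariance
open UpperHalfPlane ModularForm Matrix.SpecialLinearGroup
open scoped MatrixGroups

namespace HKH

/-! ### abstract lemmas on norms -/

/-- two towers with the same bottom and (isomorphic) top. -/
theorem norm_tower {E0 E1 E2 E3 E3' : Type*} [Field E0] [Field E1] [Field E2] [Field E3]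
    [Field E3'] (a01 : E0 →+* E1) (a13 : E1 →+* E3) (a02 : E0 →+* E2) (a23 : E2 →+* E3')
    (c : E3 ≃+* E3') (hc : ∀ x, c (a13 (a01 x)) = a23 (a02 x)) (z : E3) :
    (letI := a01.toAlgebra; Algebra.norm E0 (letI := a13.toAlgebra; Algebra.norm E1 z)) =
      (letI := a02.toAlgebra; Algebra.norm E0 (letI := a23.toAlgebra; Algebra.norm E2 (c z))) := by
  letI i01 := a01.toAlgebra
  letI i13 := a13.toAlgebra
  letI i03 : Algebra E0 E3 := (a13.comp a01).toAlgebra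
  haveI : IsScalarTower E0 E1 E3 := IsScalarTower.of_algebraMap_eq fun _ => rfl
  letI i02 := a02.toAlgebra
  letI i23 := a23.toAlgebra
  letI i03' : Algebra E0 E3' := (a23.comp a02).toAlgebra
  haveI : IsScalarTower E0 E2 E3' := IsScalarTower.of_algebraMap_eq fun _ => rfl
  show Algebra.norm E0 (Algebra.norm E1 z) = Algebra.norm E0 (Algebra.norm E2 (c z))
  rw [Algebra.norm_norm, Algebra.norm_norm]
  let e : E3 ≃ₐ[E0] E3' := { c with commutes' := hc }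
  exact (Algebra.norm_eq_of_algEquiv e z).symm

/-- transport of a norm along an isomorphism of the top field. -/
theorem norm_equiv {E0 E1 E1' : Type*} [Field E0] [Field E1] [Field E1'] (a : E0 →+* E1)
    (b : E0 →+* E1') (W : E1 ≃+* E1') (h : ∀ x, W (a x) = b x) (z : E1) :
    (letI := a.toAlgebra; Algebra.norm E0 z) = (letI := b.toAlgebra; Algebra.norm E0 (W z)) := by
  letI := a.toAlgebra
  letI := b.toAlgebra
  let e : E1 ≃ₐ[E0] E1' := { W with commutes' := h }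
  exact (Algebra.norm_eq_of_algEquiv e z).symm

/-! ### change of the name of the level -/

/-- `FF N = FF N'` if `N = N'`. -/
def castFF {N N' : ℕ} (h : N = N') : FF N ≃ₐ[Kb] FF N' := h ▸ AlgEquiv.refl

theorem coe_castFF {N N' : ℕ} (h : N = N') (x : FF N) :
    ((castFF h x : FF N') : LaurentSeries Kb) = (x : LaurentSeries Kb) := by
  subst h; rfl

theorem Psi_castFF {N N' : ℕ} (h : N = N') (x : FF N) : Psi N' (castFF h x) = Psi N x := by
  subst h; rfl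

/-! ### the norm along `α` as a product of conjugates -/

theorem Psi_normA (M0 q : ℕ) [NeZero M0] [Fact q.Prime] (hq : ¬ q ∣ M0) (y : FF (M0 * q)) :
    Psi M0 (normA M0 q y) = ∏ x : OnePoint (ZMod q), KEmb.tau M0 q x y := by
  unfold normA
  letI := algebraAlong (heckeAlphaBar Kb M0 q)
  have hfr : Module.finrank (FF M0) (FF (M0 * q)) = q + 1 := finrank_heckeAlpha M0 q hq
  haveI : FiniteDimensional (FF M0) (FF (M0 * q)) :=
    Module.finite_of_finrank_pos (by rw [hfr]; exact Nat.succ_pos _)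
  have hcard : Fintype.card (OnePoint (ZMod q)) = Module.finrank (FF M0) (FF (M0 * q)) := by
    rw [hfr]
    exact (Fintype.card_option (α := ZMod q)).trans (by rw [ZMod.card])
  exact KEmb.norm_eq_prod (Psi M0) (KEmb.tau M0 q) (KEmb.tau_injective hq)
    (fun x c => KEmb.tau_alpha M0 q x c) hcard y

/-! ### base change of the norm along `β_ℓ` -/

section NBC

variable (M0 q ℓ : ℕ) [NeZero M0] [Fact q.Prime] [Fact ℓ.Prime]

omit [NeZero M0] [Fact q.Prime] [Fact ℓ.Prime] in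
theorem lvl_eq : M0 * q * ℓ = M0 * ℓ * q := by ring

omit [NeZero M0] [Fact q.Prime] [Fact ℓ.Prime] in
theorem qExpand_congr {a b : ℕ} [NeZero a] [NeZero b] (h : a = b) (f : LaurentSeries Kb) :
    qExpand Kb a f = qExpand Kb b f := by
  subst h; rfl

/-- `β_ℓ : FF (M0 q) → FF (M0 ℓ q)`. -/
def betaC : FF (M0 * q) →+* FF (M0 * ℓ * q) :=
  ((castFF (lvl_eq M0 q ℓ) : FF (M0 * q * ℓ) ≃ₐ[Kb] FF (M0 * ℓ * q)) :
    FF (M0 * q * ℓ) →+* FF (M0 * ℓ * q)).comp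
    (heckeBetaBar Kb (M0 * q) ℓ : FF (M0 * q) →+* FF (M0 * q * ℓ))

theorem betaC_apply (u : FF (M0 * q)) :
    betaC M0 q ℓ u = castFF (lvl_eq M0 q ℓ) (heckeBetaBar Kb (M0 * q) ℓ u) := rfl

theorem coe_betaC (u : FF (M0 * q)) :
    ((betaC M0 q ℓ u : FF (M0 * ℓ * q)) : LaurentSeries Kb) = qExpand Kb ℓ (u : LaurentSeries Kb) := by
  rw [betaC_apply, coe_castFF, coe_heckeBetaBar]

theorem betaC_alpha (y : FF M0) :
    betaC M0 q ℓ (heckeAlphaBar Kb M0 q y) =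
      heckeAlphaBar Kb (M0 * ℓ) q (heckeBetaBar Kb M0 ℓ y) := by
  apply Subtype.ext
  rw [coe_betaC, coe_heckeAlphaBar, coe_heckeAlphaBar, coe_heckeBetaBar]

theorem betaC_beta (y : FF M0) :
    betaC M0 q ℓ (heckeBetaBar Kb M0 q y) =
      heckeBetaBar Kb (M0 * ℓ) q (heckeBetaBar Kb M0 ℓ y) := by
  apply Subtype.ext
  rw [coe_betaC, coe_heckeBetaBar, coe_heckeBetaBar, coe_heckeBetaBar, qExpand_qExpand,
    qExpand_qExpand]
  exact qExpand_congr (mul_comm _ _) _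

theorem tau_betaC (x : OnePoint (ZMod q)) (g' : SL(2, ℤ))
    (hg' : heckeDiagMatrix ℓ * mapGL ℝ (KEmb.gx (M0 * ℓ) q x) = mapGL ℝ g' * heckeDiagMatrix ℓ)
    (u : FF (M0 * q)) :
    KEmb.tau (M0 * ℓ) q x (betaC M0 q ℓ u) =
      merMap (heckeDiagMatrix ℓ) (det_heckeDiagMatrix_pos ℓ) (sigma (M0 * q) g'⁻¹ u) := by
  have hpos : 0 < (heckeDiagMatrix ℓ * mapGL ℝ (KEmb.gx (M0 * ℓ) q x)).det.val := by
    rw [map_mul, Units.val_mul]
    exact mul_pos (det_heckeDiagMatrix_pos ℓ) (KEmb.det_mapGL_pos _)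
  have hpos' : 0 < (mapGL ℝ g' * heckeDiagMatrix ℓ).det.val := by
    rw [map_mul, Units.val_mul]
    exact mul_pos (KEmb.det_mapGL_pos _) (det_heckeDiagMatrix_pos ℓ)
  rw [KEmb.tau, sigma_apply, betaC_apply, Psi_castFF, KEmb.Psi_beta, KEmb.act_eq_merMap,
    KEmb.merMap_comp _ _ _ _ hpos, KEmb.merMap_congr hg' hpos hpos',
    ← KEmb.merMap_comp _ _ (det_heckeDiagMatrix_pos ℓ) (KEmb.det_mapGL_pos g') hpos',
    ← KEmb.act_eq_merMap, ← sigma_apply]

variable {M0 q ℓ}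

theorem exists_conj (x : OnePoint (ZMod q)) :
    ∃ g' : SL(2, ℤ), heckeDiagMatrix ℓ * mapGL ℝ (KEmb.gx (M0 * ℓ) q x)
      = mapGL ℝ g' * heckeDiagMatrix ℓ := by
  have hℓ : ℓ ≠ 0 := (Fact.out : ℓ.Prime).ne_zero
  have h1 := KEmb.gx_mem (M0 * ℓ) q x
  rw [CongruenceSubgroup.Gamma0_mem, ZMod.intCast_zmod_eq_zero_iff_dvd] at h1
  obtain ⟨e, he⟩ := (Int.natCast_dvd_natCast.mpr (dvd_mul_left ℓ M0)).trans h1
  obtain ⟨g', -, hmul⟩ := heckeDiagMatrix_mul_of_eq' hℓ _ e he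
  exact ⟨g', hmul⟩

theorem tau_betaC_injective (hq : ¬ q ∣ M0 * ℓ) {x y : OnePoint (ZMod q)}
    (h : ∀ u : FF (M0 * q), KEmb.tau (M0 * ℓ) q x (betaC M0 q ℓ u)
      = KEmb.tau (M0 * ℓ) q y (betaC M0 q ℓ u)) : x = y := by
  have hℓ : ℓ ≠ 0 := (Fact.out : ℓ.Prime).ne_zero
  obtain ⟨gx', hx⟩ := exists_conj (M0 := M0) (ℓ := ℓ) x
  obtain ⟨gy', hy⟩ := exists_conj (M0 := M0) (ℓ := ℓ) y
  have h1 : sigma (M0 * q) gx'⁻¹ = sigma (M0 * q) gy'⁻¹ := by
    ext u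
    have := h u
    rw [tau_betaC M0 q ℓ x gx' hx, tau_betaC M0 q ℓ y gy' hy] at this
    exact (merMap (heckeDiagMatrix ℓ) (det_heckeDiagMatrix_pos ℓ)).injective this
  rw [sigma_eq_iff, inv_inv] at h1
  apply KEmb.gx_injective hq
  set hh := KEmb.gx (M0 * ℓ) q x * (KEmb.gx (M0 * ℓ) q y)⁻¹ with hhh
  have h2 : hh ∈ CongruenceSubgroup.Gamma0 (M0 * ℓ) :=
    mul_mem (KEmb.gx_mem _ _ _) (inv_mem (KEmb.gx_mem _ _ _))
  rw [CongruenceSubgroup.Gamma0_mem, ZMod.intCast_zmod_eq_zero_iff_dvd] at h2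
  obtain ⟨e, he⟩ := (Int.natCast_dvd_natCast.mpr (dvd_mul_left ℓ M0)).trans h2
  obtain ⟨h', hh', hmul⟩ := heckeDiagMatrix_mul_of_eq' hℓ _ e he
  have h3 : mapGL ℝ h' = mapGL ℝ (gx' * gy'⁻¹) := by
    apply mul_right_cancel (b := heckeDiagMatrix ℓ)
    rw [← hmul, hhh, map_mul, map_mul, map_inv, map_inv, ← mul_assoc, hx, mul_assoc, mul_assoc]
    congr 1
    rw [eq_inv_mul_iff_mul_eq, ← mul_assoc, ← hy, mul_assoc, mul_inv_cancel, mul_one]
  have h4 : h' = gx' * gy'⁻¹ := mapGL_injective h3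
  rw [CongruenceSubgroup.Gamma0_mem, ZMod.intCast_zmod_eq_zero_iff_dvd, ← h4, hh'] at h1
  rw [CongruenceSubgroup.Gamma0_mem, ZMod.intCast_zmod_eq_zero_iff_dvd, he]
  obtain ⟨k, rfl⟩ := h1
  refine ⟨k, ?_⟩
  push_cast
  ring

/-- **NBC** along `α`. -/
theorem nbcA (hq : ¬ q ∣ M0 * ℓ) (u : FF (M0 * q)) :
    normA (M0 * ℓ) q (betaC M0 q ℓ u) = heckeBetaBar Kb M0 ℓ (normA M0 q u) := by
  have hq0 : ¬ q ∣ M0 := fun h => hq (h.mul_right ℓ)
  apply (Psi (M0 * ℓ)).injective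
  rw [Psi_normA (M0 * ℓ) q hq, KEmb.Psi_beta]
  unfold normA
  letI := algebraAlong (heckeAlphaBar Kb M0 q)
  have hfr : Module.finrank (FF M0) (FF (M0 * q)) = q + 1 := finrank_heckeAlpha M0 q hq0
  haveI : FiniteDimensional (FF M0) (FF (M0 * q)) :=
    Module.finite_of_finrank_pos (by rw [hfr]; exact Nat.succ_pos _)
  have hcard : Fintype.card (OnePoint (ZMod q)) = Module.finrank (FF M0) (FF (M0 * q)) := by
    rw [hfr]
    exact (Fintype.card_option (α := ZMod q)).trans (by rw [ZMod.card])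
  have := KEmb.norm_eq_prod
    ((merMap (heckeDiagMatrix ℓ) (det_heckeDiagMatrix_pos ℓ)).comp (Psi M0))
    (fun x => (KEmb.tau (M0 * ℓ) q x).comp (betaC M0 q ℓ))
    (fun x y h => tau_betaC_injective hq fun u => DFunLike.congr_fun h u)
    (fun x c => by
      show KEmb.tau (M0 * ℓ) q x (betaC M0 q ℓ (heckeAlphaBar Kb M0 q c)) = _
      rw [betaC_alpha, KEmb.tau_alpha, KEmb.Psi_beta]
      rfl) hcard u
  exact this.symm

/-- the norm along `β` is the norm along `α` composed with the Atkin-Lehner involution. -/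
theorem normB_eq (hq : ¬ q ∣ M0) (u : FF (M0 * q)) :
    normB M0 q u = normA M0 q (S34.WK.Wb M0 q hq u) :=
  norm_equiv (heckeBetaBar Kb M0 q).toRingHom (heckeAlphaBar Kb M0 q).toRingHom
    (S34.WK.Wb M0 q hq).toRingEquiv (fun x => S34.WK.Wb_beta M0 q hq x) u

theorem Wb_betaC (hq : ¬ q ∣ M0 * ℓ) (hq0 : ¬ q ∣ M0) (u : FF (M0 * q)) :
    S34.WK.Wb (M0 * ℓ) q hq (betaC M0 q ℓ u) = betaC M0 q ℓ (S34.WK.Wb M0 q hq0 u) := by
  have : ((S34.WK.Wb (M0 * ℓ) q hq : FF (M0 * ℓ * q) →+* FF (M0 * ℓ * q)).comp (betaC M0 q ℓ))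
      = (betaC M0 q ℓ).comp (S34.WK.Wb M0 q hq0 : FF (M0 * q) →+* FF (M0 * q)) := by
    apply S37.KT.ringHom_ext M0 q
    · intro y
      simp only [RingHom.comp_apply, RingHom.coe_coe, S34.WK.Wb_alpha, betaC_alpha, betaC_beta]
    · intro y
      simp only [RingHom.comp_apply, RingHom.coe_coe, S34.WK.Wb_beta, betaC_alpha, betaC_beta]
  exact DFunLike.congr_fun this u

/-- **NBC** along `β`. -/
theorem nbcB (hq : ¬ q ∣ M0 * ℓ) (u : FF (M0 * q)) :
    normB (M0 * ℓ) q (betaC M0 q ℓ u) = heckeBetaBar Kb M0 ℓ (normB M0 q u) := by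
  have hq0 : ¬ q ∣ M0 := fun h => hq (h.mul_right ℓ)
  rw [normB_eq hq, normB_eq hq0, Wb_betaC hq hq0, nbcA hq]

omit [NeZero M0] in
theorem not_dvd_mul (hqM0 : ¬ q ∣ M0) (hℓ : ¬ ℓ ∣ M0 * q) : ¬ q ∣ M0 * ℓ := by
  intro h
  rcases (Nat.Prime.dvd_mul (Fact.out : q.Prime)).1 h with h1 | h1
  · exact hqM0 h1
  · have : q = ℓ := (Nat.prime_dvd_prime_iff_eq Fact.out Fact.out).1 h1
    exact hℓ (this ▸ dvd_mul_left q M0)

end NBC

end HKH

open HKH in
theorem normA_heckeMul (M0 q ℓ : ℕ) [NeZero M0] [NeZero (M0 * q)] [Fact q.Prime] [Fact ℓ.Prime]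
    (hqM0 : ¬ q ∣ M0) (hℓ : ¬ ℓ ∣ M0 * q) (u : FF (M0 * q)) :
    normA M0 q (heckeMul (M0 * q) ℓ u) = heckeMul M0 ℓ (normA M0 q u) := by
  have hq := not_dvd_mul hqM0 hℓ
  have h1 := norm_tower (heckeAlphaBar Kb M0 q).toRingHom (heckeAlphaBar Kb (M0 * q) ℓ).toRingHom
    (heckeAlphaBar Kb M0 ℓ).toRingHom (heckeAlphaBar Kb (M0 * ℓ) q).toRingHom
    (castFF (lvl_eq M0 q ℓ)).toRingEquiv (fun x => Subtype.ext (by
      show ((castFF (lvl_eq M0 q ℓ) (heckeAlphaBar Kb (M0 * q) ℓ (heckeAlphaBar Kb M0 q x)) :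
        FF (M0 * ℓ * q)) : LaurentSeries Kb) =
        ((heckeAlphaBar Kb (M0 * ℓ) q (heckeAlphaBar Kb M0 ℓ x) : FF (M0 * ℓ * q)) :
          LaurentSeries Kb)
      rw [coe_castFF, coe_heckeAlphaBar, coe_heckeAlphaBar, coe_heckeAlphaBar,
        coe_heckeAlphaBar])) (heckeBetaBar Kb (M0 * q) ℓ u)
  have h2 := nbcA hq u
  refine Eq.trans h1 ?_
  rw [heckeMul_apply, ← h2]
  rfl

open HKH in
theorem normB_heckeMul (M0 q ℓ : ℕ) [NeZero M0] [NeZero (M0 * q)] [Fact q.Prime] [Fact ℓ.Prime]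
    (hqM0 : ¬ q ∣ M0) (hℓ : ¬ ℓ ∣ M0 * q) (u : FF (M0 * q)) :
    normB M0 q (heckeMul (M0 * q) ℓ u) = heckeMul M0 ℓ (normB M0 q u) := by
  have hq := not_dvd_mul hqM0 hℓ
  have h1 := norm_tower (heckeBetaBar Kb M0 q).toRingHom (heckeAlphaBar Kb (M0 * q) ℓ).toRingHom
    (heckeAlphaBar Kb M0 ℓ).toRingHom (heckeBetaBar Kb (M0 * ℓ) q).toRingHom
    (castFF (lvl_eq M0 q ℓ)).toRingEquiv (fun x => Subtype.ext (by
      show ((castFF (lvl_eq M0 q ℓ) (heckeAlphaBar Kb (M0 * q) ℓ (heckeBetaBar Kb M0 q x)) :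
        FF (M0 * ℓ * q)) : LaurentSeries Kb) =
        ((heckeBetaBar Kb (M0 * ℓ) q (heckeAlphaBar Kb M0 ℓ x) : FF (M0 * ℓ * q)) :
          LaurentSeries Kb)
      rw [coe_castFF, coe_heckeAlphaBar, coe_heckeBetaBar, coe_heckeBetaBar,
        coe_heckeAlphaBar])) (heckeBetaBar Kb (M0 * q) ℓ u)
  have h2 := nbcB hq u
  refine Eq.trans h1 ?_
  rw [heckeMul_apply, ← h2]
  rfl

end Fermat.Agent.S35
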