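import Fermat.Agent.S35.Defs
import Fermat.Agent.S34.WK
import Fermat.Agent.S37.HI

/-!
# S35, package HK-N : the norms `normA`, `normB` preserve `IsPDiv` and commute with Galois
-/

set_option autoImplicit false
set_option linter.style.haveILetI false
set_option linter.unusedVariables false

noncomputable section

namespace Fermat.Agent.S35

open Fermat.Agent.ES Fermat.Agent.S24 ModularCurve AlgebraicCurve

namespace HKN

/-- the norm along a `Kb`-embedding of modular function fields preserves `IsPDiv`. -/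
theorem isPDiv_norm_along (m N N' : ℕ) [NeZero N] [NeZero N'] (φ : FF N →ₐ[Kb] FF N')
    {u : FF N'} (hu : IsPDiv m N' u) :
    IsPDiv m N (letI := algebraAlong φ; Algebra.norm (FF N) u) := by
  letI := algebraAlong φ
  haveI := isScalarTower_along φ
  haveI : FiniteDimensional (FF N) (FF N') := S37.HI.finiteAlong φ
  exact ⟨(Algebra.norm_ne_zero_iff).2 hu.1, fun v => dvd_ord_norm m u hu.1 hu.2 v⟩

/-- the norm along an embedding which commutes with Galois commutes with Galois. -/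
theorem norm_along_gal (N N' : ℕ) (φ : FF N →ₐ[Kb] FF N') (σ : GQ)
    (h : ∀ y : FF N, gal N' σ (φ y) = φ (gal N σ y)) (u : FF N') :
    (letI := algebraAlong φ; Algebra.norm (FF N) (gal N' σ u)) =
      gal N σ (letI := algebraAlong φ; Algebra.norm (FF N) u) := by
  letI := algebraAlong φ
  have he : RingHom.comp (algebraMap (FF N) (FF N')) (gal N σ : FF N →+* FF N)
      = RingHom.comp (gal N' σ : FF N' →+* FF N') (algebraMap (FF N) (FF N')) := by
    apply RingHom.ext
    intro x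
    exact (h x).symm
  have h1 := Algebra.norm_eq_of_equiv_equiv (gal N σ) (gal N' σ) he u
  rw [h1, RingEquiv.apply_symm_apply]

end HKN

theorem isPDiv_normA (m M0 q : ℕ) [NeZero M0] [Fact q.Prime] (hqM0 : ¬ q ∣ M0) {u : FF (M0 * q)}
    (hu : IsPDiv m (M0 * q) u) : IsPDiv m M0 (normA M0 q u) :=
  HKN.isPDiv_norm_along m M0 (M0 * q) (heckeAlphaBar Kb M0 q) hu

theorem isPDiv_normB (m M0 q : ℕ) [NeZero M0] [Fact q.Prime] (hqM0 : ¬ q ∣ M0) {u : FF (M0 * q)}
    (hu : IsPDiv m (M0 * q) u) : IsPDiv m M0 (normB M0 q u) :=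
  HKN.isPDiv_norm_along m M0 (M0 * q) (heckeBetaBar Kb M0 q) hu

theorem normA_gal (M0 q : ℕ) [NeZero M0] [Fact q.Prime] (hqM0 : ¬ q ∣ M0) (σ : GQ)
    (u : FF (M0 * q)) : normA M0 q (gal (M0 * q) σ u) = gal M0 σ (normA M0 q u) :=
  HKN.norm_along_gal M0 (M0 * q) (heckeAlphaBar Kb M0 q) σ (S34.WK.gal_alpha M0 q σ) u

theorem normB_gal (M0 q : ℕ) [NeZero M0] [Fact q.Prime] (hqM0 : ¬ q ∣ M0) (σ : GQ)
    (u : FF (M0 * q)) : normB M0 q (gal (M0 * q) σ u) = gal M0 σ (normB M0 q u) :=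
  HKN.norm_along_gal M0 (M0 * q) (heckeBetaBar Kb M0 q) σ (S34.WK.gal_beta M0 q σ) u

end Fermat.Agent.S35
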