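import Fermat.Agent.S35.FindRel
import Fermat.Agent.S35.HKNorm
import Fermat.Agent.S35.HKHecke
import Fermat.Agent.S35.GU

/-!
# S35, package FIND : `good_h3`
-/

set_option autoImplicit false

noncomputable section

namespace Fermat.Agent.S35

open Fermat.Agent.ES Fermat.Agent.S24 Fermat.Agent.S16 Fermat.Agent.S31 Fermat.Agent.S30
  Fermat.Agent.S30.FinLvl CuspForm CongruenceSubgroup ModularCurve AlgebraicCurve

namespace Find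

/-- **FIND** for an arbitrary operator `Φ` killing the classes with trivial norms. -/
theorem mat_mul_eq_zero_of (m M0 q : ℕ) [NeZero m] [NeZero M0] [NeZero (M0 * q)] [NeZero q]
    (hPA : ∀ u : FF (M0 * q), IsPDiv m (M0 * q) u → IsPDiv m M0 (normA M0 q u))
    (hPB : ∀ u : FF (M0 * q), IsPDiv m (M0 * q) u → IsPDiv m M0 (normB M0 q u))
    (hHA : ∀ (ℓ : ℕ) [Fact ℓ.Prime], ¬ ℓ ∣ M0 * q → ∀ u : FF (M0 * q),
      normA M0 q (heckeMul (M0 * q) ℓ u) = heckeMul M0 ℓ (normA M0 q u))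
    (hHB : ∀ (ℓ : ℕ) [Fact ℓ.Prime], ¬ ℓ ∣ M0 * q → ∀ u : FF (M0 * q),
      normB M0 q (heckeMul (M0 * q) ℓ u) = heckeMul M0 ℓ (normB M0 q u))
    (Φ : Module.End (ZMod m) (KV m (M0 * q)))
    (hΦ : ∀ u : pdivUnits m (M0 * q), (∃ z, normA M0 q ((u : (FF (M0 * q))ˣ) : FF (M0 * q)) = z ^ m) →
      (∃ z, normB M0 q ((u : (FF (M0 * q))ˣ) : FF (M0 * q)) = z ^ m) → Φ (KV.mk u) = 0)
    (t0 : TN M0 q) (ht0 : (t0, 0) ∈ PP M0 q) :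
    mat (eqv (bN (M0 * q)) m) Φ * toO (ZMod m) (tau (bN (M0 * q)) (S0 (M0 * q)) t0) = 0 := by
  refine mat_mul_eq_zero (push (normA M0 q) hPA) (push (normB M0 q) hPB)
    (fun ℓ _ hℓ x => push_heckeV _ _ ℓ (hHA ℓ hℓ) x)
    (fun ℓ _ hℓ x => push_heckeV _ _ ℓ (hHB ℓ hℓ) x) Φ ?_ t0 ht0
  intro y h1 h2
  obtain ⟨u, rfl⟩ := KV.mk_surjective y
  exact hΦ u ((push_mk_eq_zero_iff _ _ u).1 h1) ((push_mk_eq_zero_iff _ _ u).1 h2)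

/-- **FIND** for `(φ² - q²)(φ² - 1)²` (helper10's variant of `new_rel` as a hypothesis). -/
theorem good_sq_of (m M0 q : ℕ) [NeZero m] [NeZero M0] [NeZero (M0 * q)] [NeZero q]
    (hPA : ∀ u : FF (M0 * q), IsPDiv m (M0 * q) u → IsPDiv m M0 (normA M0 q u))
    (hPB : ∀ u : FF (M0 * q), IsPDiv m (M0 * q) u → IsPDiv m M0 (normB M0 q u))
    (hHA : ∀ (ℓ : ℕ) [Fact ℓ.Prime], ¬ ℓ ∣ M0 * q → ∀ u : FF (M0 * q),
      normA M0 q (heckeMul (M0 * q) ℓ u) = heckeMul M0 ℓ (normA M0 q u))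
    (hHB : ∀ (ℓ : ℕ) [Fact ℓ.Prime], ¬ ℓ ∣ M0 * q → ∀ u : FF (M0 * q),
      normB M0 q (heckeMul (M0 * q) ℓ u) = heckeMul M0 ℓ (normB M0 q u))
    (φ : GQ)
    (hnew : ∀ u : FF (M0 * q), IsPDiv m (M0 * q) u → (∃ z, normA M0 q u = z ^ m) →
      (∃ z, normB M0 q u = z ^ m) → ∃ z : FF (M0 * q),
      gal (M0 * q) φ (gal (M0 * q) φ (gal (M0 * q) φ (gal (M0 * q) φ (gal (M0 * q) φ
          (gal (M0 * q) φ u))))) * (gal (M0 * q) φ (gal (M0 * q) φ u)) ^ (2 * q ^ 2 + 1)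
        = (gal (M0 * q) φ (gal (M0 * q) φ (gal (M0 * q) φ (gal (M0 * q) φ u)))) ^ (q ^ 2 + 2)
          * u ^ (q ^ 2) * z ^ m)
    (t0 : TN M0 q) (ht0 : (t0, 0) ∈ PP M0 q) :
    (alpha (bN (M0 * q)) m φ * alpha (bN (M0 * q)) m φ
        - ((q ^ 2 : ℕ) : Matrix (Fin (dN (M0 * q))) (Fin (dN (M0 * q))) (ZMod m)))
      * ((alpha (bN (M0 * q)) m φ * alpha (bN (M0 * q)) m φ - 1)
        * (alpha (bN (M0 * q)) m φ * alpha (bN (M0 * q)) m φ - 1))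
      * toO (ZMod m) (tau (bN (M0 * q)) (S0 (M0 * q)) t0) = 0 := by
  rw [← mat_Phi2]
  refine mat_mul_eq_zero_of m M0 q hPA hPB hHA hHB _ ?_ t0 ht0
  intro u h1 h2
  exact Phi2_mk (NeZero.ne m) φ (q ^ 2) u (hnew _ (mem_pdivUnits_iff.1 u.2) h1 h2)

end Find

open Find

theorem good_h3 (p : ℕ) [Fact p.Prime] (M0 q : ℕ) [NeZero M0] [NeZero (M0 * q)] (hq : q.Prime)
    (hqM0 : ¬ q ∣ M0) (hqp : q ≠ p) (t0 : TN M0 q) (ht0 : (t0, 0) ∈ PP M0 q) (r : ℕ)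
    (A : ValuationSubring Kb) (hA : A.LiesOverPrime q) (φ : GQ) (hφ : A.IsFrobeniusAt φ q) :
    haveI : NeZero (p ^ r) := ⟨pow_ne_zero _ (Fact.out : p.Prime).ne_zero⟩
    (alpha (bN (M0 * q)) (p ^ r) φ * alpha (bN (M0 * q)) (p ^ r) φ
        - ((q ^ 2 : ℕ) : Matrix (Fin (dN (M0 * q))) (Fin (dN (M0 * q))) (ZMod (p ^ r))))
      * ((alpha (bN (M0 * q)) (p ^ r) φ * alpha (bN (M0 * q)) (p ^ r) φ - 1)
        * (alpha (bN (M0 * q)) (p ^ r) φ * alpha (bN (M0 * q)) (p ^ r) φ - 1))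
      * toO (ZMod (p ^ r)) (tau (bN (M0 * q)) (S0 (M0 * q)) t0) = 0 := by
  have hnz : NeZero (p ^ r) := ⟨pow_ne_zero _ (Fact.out : p.Prime).ne_zero⟩
  have hqf : Fact q.Prime := ⟨hq⟩
  have hqm : ¬ q ∣ p ^ r := fun h =>
    hqp ((Nat.prime_dvd_prime_iff_eq hq Fact.out).1 (hq.dvd_of_dvd_pow h))
  exact good_sq_of (p ^ r) M0 q (fun u hu => isPDiv_normA _ M0 q hqM0 hu)
    (fun u hu => isPDiv_normB _ M0 q hqM0 hu)
    (fun ℓ _ hℓ u => normA_heckeMul M0 q ℓ hqM0 hℓ u)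
    (fun ℓ _ hℓ u => normB_heckeMul M0 q ℓ hqM0 hℓ u) φ
    (fun u hu h1 h2 => NEW_pow_of_coord p r q Fact.out hq hqp A
      (fun M1 _ hqM1 Z hU hW => new_of_coord (p ^ r) M1 q hq hqM1 hqm A hA Z hU hW) M0 hqM0
      φ hφ u hu h1 h2) t0 ht0

end Fermat.Agent.S35
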