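import Fermat.Agent.S35.Defs

/-!
# S35, package NF-DICH : the dichotomy for a subring of a product, surjectivity of the projections
of `PP M0 q`
-/

set_option autoImplicit false

noncomputable section

namespace Fermat.Agent.S35

open CuspForm CongruenceSubgroup

/-- NF-DICH (pure algebra). -/
theorem dichotomy {T1 T2 K : Type*} [CommRing T1] [CommRing T2] [CommRing K]
    (P : Subring (T1 × T2)) (h1 : ∀ t : T1, ∃ z ∈ P, z.1 = t) (h2 : ∀ t : T2, ∃ z ∈ P, z.2 = t)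
    (c : T1 →+* K) :
    (∃ t : T1, (t, 0) ∈ P ∧ c t ≠ 0) ∨ ∃ ψ : T2 →+* K, ∀ z ∈ P, ψ z.2 = c z.1 := by
  by_cases h : ∃ t : T1, (t, 0) ∈ P ∧ c t ≠ 0
  · exact Or.inl h
  right
  push Not at h
  choose s hsP hs using h2
  have key : ∀ z ∈ P, c (s z.2).1 = c z.1 := by
    intro z hz
    have h3 : ((s z.2).1 - z.1, (0 : T2)) ∈ P := by
      have h4 := P.sub_mem (hsP z.2) hz
      have h5 : s z.2 - z = ((s z.2).1 - z.1, (0 : T2)) := by
        ext
        · rfl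
        · simp [hs]
      rwa [h5] at h4
    have := h _ h3
    rw [map_sub, sub_eq_zero] at this
    exact this
  refine ⟨{ toFun := fun t => c (s t).1
            map_one' := ?_
            map_mul' := ?_
            map_zero' := ?_
            map_add' := ?_ }, key⟩
  · simpa using key 1 P.one_mem
  · intro a b
    have := key (s a * s b) (P.mul_mem (hsP a) (hsP b))
    simpa [hs] using this
  · simpa using key 0 P.zero_mem
  · intro a b
    have := key (s a + s b) (P.add_mem (hsP a) (hsP b))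
    simpa [hs] using this

/-- NF-SURJ. -/
theorem PP_fst_surjective (M0 q : ℕ) [NeZero M0] [NeZero (M0 * q)] (t : TN M0 q) :
    ∃ z ∈ PP M0 q, z.1 = t := by
  obtain ⟨t, ht⟩ := t
  induction ht using Algebra.adjoin_induction with
  | mem T hT =>
    rcases hT with ⟨ℓ, hℓ, hℓN, hℓS, rfl⟩ | ⟨r, hrN, hr, hrS, rfl⟩
    · exact ⟨_, Subring.subset_closure ⟨ℓ, hℓ, hℓN, rfl⟩, rfl⟩
    · exact absurd ⟨hr, hrN⟩ hrS
  | algebraMap r =>
    refine ⟨((r : ℤ) : TN M0 q × TM M0 q), intCast_mem _ r, ?_⟩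
    apply Subtype.ext
    simp
  | add x y hx hy ihx ihy =>
    obtain ⟨zx, hzx, ex⟩ := ihx
    obtain ⟨zy, hzy, ey⟩ := ihy
    refine ⟨zx + zy, add_mem hzx hzy, ?_⟩
    rw [Prod.fst_add, ex, ey]
    rfl
  | mul x y hx hy ihx ihy =>
    obtain ⟨zx, hzx, ex⟩ := ihx
    obtain ⟨zy, hzy, ey⟩ := ihy
    refine ⟨zx * zy, mul_mem hzx hzy, ?_⟩
    rw [Prod.fst_mul, ex, ey]
    rfl

theorem PP_snd_surjective (M0 q : ℕ) [NeZero M0] [NeZero (M0 * q)] (t : TM M0 q) :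
    ∃ z ∈ PP M0 q, z.2 = t := by
  obtain ⟨t, ht⟩ := t
  induction ht using Algebra.adjoin_induction with
  | mem T hT =>
    rcases hT with ⟨ℓ, hℓ, hℓN, hℓS, rfl⟩ | ⟨r, hrN, hr, hrS, rfl⟩
    · have h : ¬ ℓ ∣ M0 * q := fun h => hℓS ⟨hℓ, h⟩
      exact ⟨_, Subring.subset_closure ⟨ℓ, hℓ, h, rfl⟩, rfl⟩
    · exact absurd ⟨hr, hrN.mul_right q⟩ hrS
  | algebraMap r =>
    refine ⟨((r : ℤ) : TN M0 q × TM M0 q), intCast_mem _ r, ?_⟩
    apply Subtype.ext
    simp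
  | add x y hx hy ihx ihy =>
    obtain ⟨zx, hzx, ex⟩ := ihx
    obtain ⟨zy, hzy, ey⟩ := ihy
    refine ⟨zx + zy, add_mem hzx hzy, ?_⟩
    rw [Prod.snd_add, ex, ey]
    rfl
  | mul x y hx hy ihx ihy =>
    obtain ⟨zx, hzx, ex⟩ := ihx
    obtain ⟨zy, hzy, ey⟩ := ihy
    refine ⟨zx * zy, mul_mem hzx hzy, ?_⟩
    rw [Prod.snd_mul, ex, ey]
    rfl

end Fermat.Agent.S35
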