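import Fermat.Agent.S35.Defs

/-!
# S35, package FIND : the general core

A multiplicative map `ν : FF N →* FF M` (a norm) preserving `IsPDiv` induces `KV m N →+ KV m M`.
If it commutes with the Hecke operators `T_ℓ` then it intertwines the two components of every
element of `PP`; hence `(t0, 0) ∈ PP` implies that `t0` maps `KV m N` into the kernel.
-/

set_option autoImplicit false

noncomputable section

namespace Fermat.Agent.S35.Find

open Fermat.Agent.ES Fermat.Agent.S24 Fermat.Agent.S16 Fermat.Agent.S31 Fermat.Agent.S30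
  Fermat.Agent.S30.FinLvl CuspForm CongruenceSubgroup ModularCurve AlgebraicCurve

section Push

variable {m N M : ℕ}

/-- the map induced on Kummer groups by a multiplicative map preserving `pdivUnits`. -/
def push (ν : FF N →* FF M) (h : ∀ u : FF N, IsPDiv m N u → IsPDiv m M (ν u)) :
    KV m N →+ KV m M :=
  MonoidHom.toAdditive (QuotientGroup.map _ _
    (((Units.map ν).comp (pdivUnits m N).subtype).codRestrict (pdivUnits m M)
      fun u => mem_pdivUnits_iff.2 (h _ (mem_pdivUnits_iff.1 u.2))) (by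
      rintro ⟨u, hu⟩ hu'
      rw [Subgroup.mem_subgroupOf, mem_ppow] at hu'
      obtain ⟨z, hz⟩ := hu'
      rw [Subgroup.mem_comap, Subgroup.mem_subgroupOf, mem_ppow]
      refine ⟨Units.map ν z, ?_⟩
      rw [← map_pow, hz]
      rfl))

theorem push_mk (ν : FF N →* FF M) (h : ∀ u : FF N, IsPDiv m N u → IsPDiv m M (ν u))
    (u : pdivUnits m N) :
    push ν h (KV.mk u)
      = KV.mk ⟨Units.map ν u, mem_pdivUnits_iff.2 (h _ (mem_pdivUnits_iff.1 u.2))⟩ := rfl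

theorem push_mk_eq_zero_iff (ν : FF N →* FF M)
    (h : ∀ u : FF N, IsPDiv m N u → IsPDiv m M (ν u)) (u : pdivUnits m N) :
    push ν h (KV.mk u) = 0 ↔ ∃ z : FF M, ν ((u : (FF N)ˣ) : FF N) = z ^ m := by
  rw [push_mk, KV.mk_eq_zero_iff]
  constructor
  · rintro ⟨z, hz⟩
    exact ⟨z, by
      have := congrArg (fun x : (FF M)ˣ => (x : FF M)) hz
      simpa using this.symm⟩
  · rintro ⟨z, hz⟩
    have hν0 : ν ((u : (FF N)ˣ) : FF N) ≠ 0 := (Units.map ν (u : (FF N)ˣ)).ne_zero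
    by_cases hm : m = 0
    · subst hm
      exact ⟨1, Units.ext (by simpa using hz.symm)⟩
    have hz0 : z ≠ 0 := by
      rintro rfl
      rw [zero_pow hm] at hz
      exact hν0 hz
    exact ⟨Units.mk0 z hz0, Units.ext (by simpa using hz.symm)⟩

theorem push_heckeV [NeZero N] [NeZero M] (ν : FF N →* FF M)
    (h : ∀ u : FF N, IsPDiv m N u → IsPDiv m M (ν u)) (ℓ : ℕ) [NeZero ℓ]
    (hc : ∀ u : FF N, ν (heckeMul N ℓ u) = heckeMul M ℓ (ν u)) (x : KV m N) :
    push ν h (heckeV m N ℓ x) = heckeV m M ℓ (push ν h x) := by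
  obtain ⟨u, rfl⟩ := KV.mk_surjective x
  rw [heckeV_mk m N ℓ (heckeU_mem m N ℓ), push_mk, push_mk, heckeV_mk m M ℓ (heckeU_mem m M ℓ)]
  congr 1
  apply Subtype.ext
  apply Units.ext
  exact hc _

end Push

section Rel

variable (m M0 q : ℕ) [NeZero m] [NeZero M0] [NeZero (M0 * q)]

/-- `ν` intertwines `t` and `t'`. -/
def Rel (n : KV m (M0 * q) →+ KV m M0) (z : TN M0 q × TM M0 q) : Prop :=
  ∀ (f : LamM (M0 * q) 1) (g : LamM M0 1), n (io (M0 * q) m f) = io M0 m g →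
    n (io (M0 * q) m (Core.actL (M0 * q) (S0 (M0 * q)) z.1 f))
      = io M0 m (Core.actL M0 (S0 (M0 * q)) z.2 g)

variable {m M0 q}

theorem rel_of_mem (n : KV m (M0 * q) →+ KV m M0)
    (hn : ∀ (ℓ : ℕ) [Fact ℓ.Prime], ¬ ℓ ∣ M0 * q → ∀ x,
      n (heckeV m (M0 * q) ℓ x) = heckeV m M0 ℓ (n x))
    (z : TN M0 q × TM M0 q) (hz : z ∈ PP M0 q) : Rel m M0 q n z := by
  induction hz using Subring.closure_induction with
  | mem z hz =>
    obtain ⟨ℓ, hℓ, h, rfl⟩ := hz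
    have : Fact ℓ.Prime := ⟨hℓ⟩
    intro f g hfg
    rw [← heckeV_io (M0 * q) m (S0 (M0 * q)) hℓ h (notMem_S0 h), hn ℓ h, hfg,
      heckeV_io M0 m (S0 (M0 * q)) hℓ (not_dvd_left h) (notMem_S0 h)]
  | zero =>
    intro f g _
    simp
  | one =>
    intro f g hfg
    simpa using hfg
  | add x y _ _ hx hy =>
    intro f g hfg
    simp only [Prod.fst_add, Prod.snd_add, map_add, LinearMap.add_apply]
    rw [hx f g hfg, hy f g hfg]
  | neg x _ hx =>
    intro f g hfg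
    simp only [Prod.fst_neg, Prod.snd_neg, map_neg, LinearMap.neg_apply]
    rw [hx f g hfg]
  | mul x y _ _ hx hy =>
    intro f g hfg
    simp only [Prod.fst_mul, Prod.snd_mul, map_mul, Module.End.mul_apply]
    exact hx _ _ (hy f g hfg)

theorem map_act_eq_zero (n : KV m (M0 * q) →+ KV m M0)
    (hn : ∀ (ℓ : ℕ) [Fact ℓ.Prime], ¬ ℓ ∣ M0 * q → ∀ x,
      n (heckeV m (M0 * q) ℓ x) = heckeV m M0 ℓ (n x))
    (t0 : TN M0 q) (ht0 : (t0, 0) ∈ PP M0 q) (f : LamM (M0 * q) 1) :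
    n (io (M0 * q) m (Core.actL (M0 * q) (S0 (M0 * q)) t0 f)) = 0 := by
  obtain ⟨g, hg⟩ := io_surjective M0 m (n (io (M0 * q) m f))
  have := rel_of_mem n hn _ ht0 f g hg.symm
  simpa using this

/-- **FIND, general form.** -/
theorem mat_mul_eq_zero (nA nB : KV m (M0 * q) →+ KV m M0)
    (hA : ∀ (ℓ : ℕ) [Fact ℓ.Prime], ¬ ℓ ∣ M0 * q → ∀ x,
      nA (heckeV m (M0 * q) ℓ x) = heckeV m M0 ℓ (nA x))
    (hB : ∀ (ℓ : ℕ) [Fact ℓ.Prime], ¬ ℓ ∣ M0 * q → ∀ x,
      nB (heckeV m (M0 * q) ℓ x) = heckeV m M0 ℓ (nB x))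
    (Φ : Module.End (ZMod m) (KV m (M0 * q)))
    (hΦ : ∀ y, nA y = 0 → nB y = 0 → Φ y = 0)
    (t0 : TN M0 q) (ht0 : (t0, 0) ∈ PP M0 q) :
    mat (eqv (bN (M0 * q)) m) Φ * toO (ZMod m) (tau (bN (M0 * q)) (S0 (M0 * q)) t0) = 0 := by
  apply mat_ext (b := bN (M0 * q))
  intro f
  rw [← Matrix.mulVec_mulVec, tau_mulVec, ← eqv_io, mat_mulVec,
    hΦ _ (map_act_eq_zero nA hA t0 ht0 f) (map_act_eq_zero nB hB t0 ht0 f), map_zero,
    Matrix.zero_mulVec]

end Rel

end Fermat.Agent.S35.Find
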