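import Fermat.Agent.S35.FindCore

/-!
# S35, package FIND : from relations between functions to relations in `KV`, and to matrices
-/

set_option autoImplicit false

noncomputable section

namespace Fermat.Agent.S35.Find

open Fermat.Agent.ES Fermat.Agent.S24 Fermat.Agent.S16 Fermat.Agent.S31 Fermat.Agent.S30
  Fermat.Agent.S30.FinLvl CuspForm CongruenceSubgroup ModularCurve AlgebraicCurve

variable {m N : ℕ}

/-- an equality of functions up to an `m`-th power gives an equality of classes. -/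
theorem mk_eq_of (hm : m ≠ 0) (a b : pdivUnits m N)
    (h : ∃ z : FF N, (((a : (FF N)ˣ)) : FF N) = ((b : (FF N)ˣ) : FF N) * z ^ m) :
    KV.mk a = KV.mk b := by
  obtain ⟨z, hz⟩ := h
  have hz0 : z ≠ 0 := by
    rintro rfl
    rw [zero_pow hm, mul_zero] at hz
    exact (a : (FF N)ˣ).ne_zero hz
  rw [KV.mk_eq_iff]
  exact ⟨Units.mk0 z hz0, Units.ext (by simpa using hz)⟩

/-- the Galois action on `pdivUnits`. -/
def gP (m N : ℕ) (φ : GQ) (u : pdivUnits m N) : pdivUnits m N :=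
  ⟨galU N φ u, galU_mem m N φ u u.2⟩

theorem coe_gP (φ : GQ) (u : pdivUnits m N) :
    (((gP m N φ u : pdivUnits m N) : (FF N)ˣ) : FF N) = gal N φ ((u : (FF N)ˣ) : FF N) := rfl

theorem mk_gP (φ : GQ) (u : pdivUnits m N) : KV.mk (gP m N φ u) = galV m N φ (KV.mk u) := rfl

/-- `(φ² - Q)(φ² - 1)`. -/
def Phi1 (m N : ℕ) (φ : GQ) (Q : ℕ) : Module.End (ZMod m) (KV m N) :=
  (galV m N φ * galV m N φ - (Q : Module.End (ZMod m) (KV m N))) * (galV m N φ * galV m N φ - 1)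

/-- `(φ² - Q)(φ² - 1)²`. -/
def Phi2 (m N : ℕ) (φ : GQ) (Q : ℕ) : Module.End (ZMod m) (KV m N) :=
  (galV m N φ * galV m N φ - (Q : Module.End (ZMod m) (KV m N))) *
    ((galV m N φ * galV m N φ - 1) * (galV m N φ * galV m N φ - 1))

theorem Phi1_mk (hm : m ≠ 0) (φ : GQ) (Q : ℕ) (u : pdivUnits m N)
    (h : ∃ z : FF N,
      gal N φ (gal N φ (gal N φ (gal N φ ((u : (FF N)ˣ) : FF N)))) * ((u : (FF N)ˣ) : FF N) ^ Q
        = (gal N φ (gal N φ ((u : (FF N)ˣ) : FF N))) ^ (Q + 1) * z ^ m) :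
    Phi1 m N φ Q (KV.mk u) = 0 := by
  have h1 : KV.mk (gP m N φ (gP m N φ (gP m N φ (gP m N φ u))) * u ^ Q)
      = KV.mk ((gP m N φ (gP m N φ u)) ^ (Q + 1)) := mk_eq_of hm _ _ h
  rw [KV.mk_mul, KV.mk_pow, KV.mk_pow, mk_gP, mk_gP, mk_gP, mk_gP] at h1
  set y := KV.mk u with hy
  set G := galV m N φ with hG
  have h2 : G (G (G (G y))) = (Q + 1) • G (G y) - Q • y := eq_sub_of_add_eq h1
  simp only [Phi1, Module.End.mul_apply, LinearMap.sub_apply, Module.End.one_apply,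
    Module.End.natCast_apply, map_sub, ← hG]
  rw [h2, add_smul, one_smul]
  abel

theorem Phi2_mk (hm : m ≠ 0) (φ : GQ) (Q : ℕ) (u : pdivUnits m N)
    (h : ∃ z : FF N,
      gal N φ (gal N φ (gal N φ (gal N φ (gal N φ (gal N φ ((u : (FF N)ˣ) : FF N))))))
          * (gal N φ (gal N φ ((u : (FF N)ˣ) : FF N))) ^ (2 * Q + 1)
        = (gal N φ (gal N φ (gal N φ (gal N φ ((u : (FF N)ˣ) : FF N))))) ^ (Q + 2)
          * ((u : (FF N)ˣ) : FF N) ^ Q * z ^ m) :
    Phi2 m N φ Q (KV.mk u) = 0 := by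
  have h1 : KV.mk (gP m N φ (gP m N φ (gP m N φ (gP m N φ (gP m N φ (gP m N φ u)))))
        * (gP m N φ (gP m N φ u)) ^ (2 * Q + 1))
      = KV.mk ((gP m N φ (gP m N φ (gP m N φ (gP m N φ u)))) ^ (Q + 2) * u ^ Q) :=
    mk_eq_of hm _ _ h
  rw [KV.mk_mul, KV.mk_mul, KV.mk_pow, KV.mk_pow, KV.mk_pow, mk_gP, mk_gP, mk_gP, mk_gP, mk_gP,
    mk_gP] at h1
  set y := KV.mk u with hy
  set G := galV m N φ with hG
  have h2 : G (G (G (G (G (G y))))) = (Q + 2) • G (G (G (G y))) + Q • y - (2 * Q + 1) • G (G y) :=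
    eq_sub_of_add_eq h1
  simp only [Phi2, Module.End.mul_apply, LinearMap.sub_apply, Module.End.one_apply,
    Module.End.natCast_apply, map_sub, ← hG]
  rw [h2]
  simp only [add_smul, one_smul, mul_smul, two_smul]
  abel

variable [NeZero N] [NeZero m] {d : ℕ} (b : Module.Basis (Fin d) ℤ (LamM N 1))

theorem mat_Phi1 (φ : GQ) (Q : ℕ) :
    mat (eqv b m) (Phi1 m N φ Q)
      = (alpha b m φ * alpha b m φ - ((Q : ℕ) : Matrix (Fin d) (Fin d) (ZMod m)))
        * (alpha b m φ * alpha b m φ - 1) := by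
  rw [Phi1, map_mul, map_sub, map_sub, map_mul, map_natCast, map_one, alpha_apply]

theorem mat_Phi2 (φ : GQ) (Q : ℕ) :
    mat (eqv b m) (Phi2 m N φ Q)
      = (alpha b m φ * alpha b m φ - ((Q : ℕ) : Matrix (Fin d) (Fin d) (ZMod m)))
        * ((alpha b m φ * alpha b m φ - 1) * (alpha b m φ * alpha b m φ - 1)) := by
  rw [Phi2, map_mul, map_mul, map_sub, map_sub, map_mul, map_natCast, map_one, alpha_apply]

end Fermat.Agent.S35.Find
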