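import Fermat.Agent.S35.GGen
import Fermat.Agent.S35.GChartT
import Fermat.Agent.S35.L0
import Fermat.Agent.S34.URat2

/-!
# S35, geometry, modular block : [G-CORE] `new_gen` at the level of a number field `K0`
(the analogue of `S34.uni_core`)
-/

set_option autoImplicit false
set_option linter.unusedVariables false

noncomputable section

namespace Fermat.Agent.S35

open ModularCurve AlgebraicCurve Polynomial IntermediateField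
open Fermat.Agent.S24 Fermat.Agent.S28 Fermat.Agent.ES Fermat.Agent.ES.QE Fermat.Agent.ES.Model
  Fermat.Agent.ES.IDvr Fermat.Agent.ES.Inst Fermat.Agent.S37.Rat Fermat.Agent.S34

/-- **G-GEN2** : `new_gen` with all the structures plugged in (general base DVR). -/
theorem new_gen2 {R K k : Type*} [CommRing R] [IsDomain R] [IsDiscreteValuationRing R]
    [Field K] [Algebra R K] [IsFractionRing R K] [Field k] [CharZero K]
    {q : ℕ} [NeZero q] (hq : q.Prime) [CharP k q]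
    (D : QData R K k) (T : Two D q) (X : D.Coord)
    (y : LaurentSeries R) (hy : X.xW * y = 1) (m : ℕ) (hm : IsUnit (m : R))
    (hded1 : IsDedekindDomain (X.chart ⧸ Ideal.span {Inst.ϖB X}))
    (hded2 : IsDedekindDomain ((X.inv y hy).chart ⧸ Ideal.span {Inst.ϖB (X.inv y hy)}))
    (hxq : qExpand k q (D.red X.xW) = D.red X.xW ^ q)
    (hyq : qExpand k q (D.red y) = D.red y ^ q)
    (Φ : TAut T) (hΦ : ∀ c, Φ.sk c = c ^ q)
    (hΦx : coeffMap (Φ.sR : R →+* R) X.xW = X.xW)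
    (hΦy : coeffMap (Φ.sR : R →+* R) y = y)
    (hxy1 : XYData T X) (hxy2 : XYData T (X.inv y hy))
    (ζ : Rˣ) (hζ : IsPrimitiveRoot ζ q)
    (u : T.F) (hu : u ≠ 0)
    (hdiv1 : ∃ (n : ℕ) (g g' : Fin n → T.F), (∀ i, g i ^ m * u ∈ T.away X) ∧
      (∀ i, g' i ^ m * u⁻¹ ∈ T.away X) ∧ ∑ i, g i * g' i = 1)
    (hdiv2 : ∃ (n : ℕ) (g g' : Fin n → T.F), (∀ i, g i ^ m * u ∈ T.away (X.inv y hy)) ∧
      (∀ i, g' i ^ m * u⁻¹ ∈ T.away (X.inv y hy)) ∧ ∑ i, g i * g' i = 1)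
    (hrat1 : HRat T X u) (hrat2 : HRat T (X.inv y hy) u)
    (hA : ∃ z, GNorm.nA T u = z ^ m) (hB : ∃ z, GNorm.nB T u = z ^ m) :
    ∃ (z : T.F) (c : K), z ≠ 0 ∧
      z ^ m * dQ (Φ.toF.trans Φ.toF) (q ^ 2)
        (dl (Φ.toF.trans Φ.toF) (dl (Φ.toF.trans Φ.toF) u)) = algebraMap K T.F c := by
  have : Fact q.Prime := ⟨hq⟩
  have hN1 : NodeData (T.ϖB X) (T.p1 X) (T.p2 X) := by
    obtain ⟨hVx1, ⟨θ1, hθ1⟩, Xu1, Yu1, c1, e1, hXY1, hXa1, hXb1⟩ := hxy1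
    exact (UChart.chartData T X hq hded1 hxq Φ hΦ hΦx hVx1 θ1 hθ1
      Xu1 Yu1 c1 e1 hXY1 hXa1 hXb1).2.2.2.2.2
  have hN2 : NodeData (T.ϖB (X.inv y hy)) (T.p1 (X.inv y hy)) (T.p2 (X.inv y hy)) := by
    obtain ⟨hVx2, ⟨θ2, hθ2⟩, Xu2, Yu2, c2, e2, hXY2, hXa2, hXb2⟩ := hxy2
    exact (UChart.chartData T (X.inv y hy) hq hded2 hyq Φ hΦ hΦy
      hVx2 θ2 hθ2 Xu2 Yu2 c2 e2 hXY2 hXa2 hXb2).2.2.2.2.2
  exact new_gen hq D T X y hy m hm hded1 hded2 hxq hyq Φ hΦ hΦx hΦy hxy1 hxy2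
    (isDV_O1 T) (isDV_O2 T) (chart2 T X hq hm hxq hxy1.1 hN1)
    (chart2 T (X.inv y hy) hq hm hyq hxy2.1 hN2)
    (Φ.toF.trans Φ.toF) (isAutDV_sq_O1 Φ) (isAutDV_sq_O2 Φ)
    (frobB T X hq hded1 hxy1.1 Φ hΦ hΦx) (frobB T (X.inv y hy) hq hded2 hxy2.1 Φ hΦ hΦy)
    (lvl0 T Φ hΦ ζ hζ) u hu hdiv1 hdiv2 hrat1 hrat2 hA hB

/-- **G-CORE.** -/
theorem new_core {K0 : IntermediateField ℚ Kb} {A : ValuationSubring Kb}
    [IsDiscreteValuationRing (R0 K0 A)] {q : ℕ} [NeZero q] (hq : q.Prime) [CharP (kA A) q]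
    (D : QData (R0 K0 A) K0 (kA A)) (T : Two D q) (X : D.Coord)
    (y : LaurentSeries (R0 K0 A)) (hy : X.xW * y = 1) (m : ℕ) (hm : IsUnit (m : R0 K0 A))
    (hded1 : IsDedekindDomain (X.chart ⧸ Ideal.span {Inst.ϖB X}))
    (hded2 : IsDedekindDomain ((X.inv y hy).chart ⧸ Ideal.span {Inst.ϖB (X.inv y hy)}))
    (hxq : qExpand (kA A) q (D.red X.xW) = D.red X.xW ^ q)
    (hyq : qExpand (kA A) q (D.red y) = D.red y ^ q)
    (Φ : TAut T) (hΦ : ∀ c, Φ.sk c = c ^ q)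
    (hΦx : coeffMap (Φ.sR : R0 K0 A →+* R0 K0 A) X.xW = X.xW)
    (hΦy : coeffMap (Φ.sR : R0 K0 A →+* R0 K0 A) y = y)
    (hxy1 : XYData T X) (hxy2 : XYData T (X.inv y hy))
    (ζ : (R0 K0 A)ˣ) (hζ : IsPrimitiveRoot ζ q)
    (N : ℕ) [NeZero N] (ι : T.F →+* FF N)
    (hι : ∀ f : T.F, ((ι f : FF N) : LaurentSeries Kb) = bc K0 (f : LaurentSeries K0))
    (htr : Transcendental Kb (ι (T.x X))) [FiniteDimensional Kb⟮ι (T.x X)⟯ (FF N)]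
    [FiniteDimensional Kb⟮(ι (T.x X))⁻¹⟯ (FF N)]
    (u : T.F) (hu : u ≠ 0)
    (hdiv1 : ∃ (n : ℕ) (g g' : Fin n → T.F), (∀ i, g i ^ m * u ∈ T.away X) ∧
      (∀ i, g' i ^ m * u⁻¹ ∈ T.away X) ∧ ∑ i, g i * g' i = 1)
    (hdiv2 : ∃ (n : ℕ) (g g' : Fin n → T.F), (∀ i, g i ^ m * u ∈ T.away (X.inv y hy)) ∧
      (∀ i, g' i ^ m * u⁻¹ ∈ T.away (X.inv y hy)) ∧ ∑ i, g i * g' i = 1)
    (hK : ∀ P : Place Kb (FF N), P.ord (ι u) ≠ 0 →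
      ∀ σ : GQ, (∀ x ∈ K0, σ x = x) → galP N σ P = P)
    (hA : ∃ z, GNorm.nA T u = z ^ m) (hB : ∃ z, GNorm.nB T u = z ^ m) :
    ∃ (z : T.F) (c : K0), z ≠ 0 ∧
      ((z ^ m * dQ (Φ.toF.trans Φ.toF) (q ^ 2)
        (dl (Φ.toF.trans Φ.toF) (dl (Φ.toF.trans Φ.toF) u)) : T.F) : LaurentSeries K0)
        = HahnSeries.C c := by
  have hrat1 : HRat T X u := hRat T X N ι hι htr u hu hK
  have hxi : ι (T.x (X.inv y hy)) = (ι (T.x X))⁻¹ := by rw [x_inv, map_inv₀]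
  have htr2 : Transcendental Kb (ι (T.x (X.inv y hy))) := by
    rw [hxi]
    exact FF.transcendental_inv htr
  have : FiniteDimensional Kb⟮ι (T.x (X.inv y hy))⟯ (FF N) := by
    rw [hxi]
    infer_instance
  have hrat2 : HRat T (X.inv y hy) u := hRat T (X.inv y hy) N ι hι htr2 u hu hK
  obtain ⟨z, c, hz, h⟩ := new_gen2 hq D T X y hy m hm hded1 hded2 hxq hyq Φ hΦ hΦx hΦy
    hxy1 hxy2 ζ hζ u hu hdiv1 hdiv2 hrat1 hrat2 hA hB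
  refine ⟨z, c, hz, ?_⟩
  rw [h]
  exact algebraMap_eq_C _

end Fermat.Agent.S35
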