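import Fermat.Agent.S35.GDefs

/-!
# S35, geometry, abstract block, package GA-DV : discrete valuation rings as subrings
-/

set_option autoImplicit false

namespace Fermat.Agent.S35

open Fermat.Agent.S34 Fermat.Agent.ES.Model

variable {F : Type*} [Field F]

section DV

variable {O O1 O2 : Subring F} {ϖ : F}

/-! ### units -/

theorem IsU.ne_zero {x : F} (h : IsU O x) : x ≠ 0 := h.1
theorem IsU.mem {x : F} (h : IsU O x) : x ∈ O := h.2.1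
theorem IsU.inv_mem {x : F} (h : IsU O x) : x⁻¹ ∈ O := h.2.2
theorem IsU.mk {x : F} (h0 : x ≠ 0) (h1 : x ∈ O) (h2 : x⁻¹ ∈ O) : IsU O x := ⟨h0, h1, h2⟩

theorem isU_one : IsU O (1 : F) := ⟨one_ne_zero, O.one_mem, by rw [inv_one]; exact O.one_mem⟩

theorem IsU.mul {x y : F} (hx : IsU O x) (hy : IsU O y) : IsU O (x * y) :=
  ⟨mul_ne_zero hx.1 hy.1, O.mul_mem hx.mem hy.mem, by
    rw [mul_inv]; exact O.mul_mem hx.inv_mem hy.inv_mem⟩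

theorem IsU.inv {x : F} (hx : IsU O x) : IsU O x⁻¹ :=
  ⟨inv_ne_zero hx.1, hx.inv_mem, by rw [inv_inv]; exact hx.mem⟩

theorem IsU.div {x y : F} (hx : IsU O x) (hy : IsU O y) : IsU O (x / y) := by
  rw [div_eq_mul_inv]; exact hx.mul hy.inv

theorem IsU.pow {x : F} (hx : IsU O x) (n : ℕ) : IsU O (x ^ n) :=
  ⟨pow_ne_zero n hx.1, O.pow_mem hx.mem n, by rw [← inv_pow]; exact O.pow_mem hx.inv_mem n⟩

theorem IsU.zpow {x : F} (hx : IsU O x) (n : ℤ) : IsU O (x ^ n) := by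
  obtain ⟨k, rfl | rfl⟩ := n.eq_nat_or_neg
  · rw [zpow_natCast]; exact hx.pow k
  · rw [zpow_neg, zpow_natCast]; exact (hx.pow k).inv

theorem IsU.neg {x : F} (hx : IsU O x) : IsU O (-x) :=
  ⟨neg_ne_zero.2 hx.1, O.neg_mem hx.mem, by rw [inv_neg]; exact O.neg_mem hx.inv_mem⟩

theorem IsU.inf {x : F} (h1 : IsU O1 x) (h2 : IsU O2 x) : IsU (O1 ⊓ O2) x :=
  ⟨h1.1, ⟨h1.mem, h2.mem⟩, ⟨h1.inv_mem, h2.inv_mem⟩⟩

theorem IsU.left {x : F} (h : IsU (O1 ⊓ O2) x) : IsU O1 x := ⟨h.1, h.mem.1, h.inv_mem.1⟩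

theorem IsU.right {x : F} (h : IsU (O1 ⊓ O2) x) : IsU O2 x := ⟨h.1, h.mem.2, h.inv_mem.2⟩

/-! ### divisibility by `ϖ` -/

theorem divS_zero (n : ℕ) : DivS O ϖ n (0 : F) := ⟨0, O.zero_mem, by rw [mul_zero]⟩

theorem DivS.add {n : ℕ} {x y : F} (hx : DivS O ϖ n x) (hy : DivS O ϖ n y) :
    DivS O ϖ n (x + y) := by
  obtain ⟨a, ha, rfl⟩ := hx
  obtain ⟨b, hb, rfl⟩ := hy
  exact ⟨a + b, O.add_mem ha hb, by rw [mul_add]⟩

theorem DivS.neg {n : ℕ} {x : F} (hx : DivS O ϖ n x) : DivS O ϖ n (-x) := by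
  obtain ⟨a, ha, rfl⟩ := hx
  exact ⟨-a, O.neg_mem ha, by rw [mul_neg]⟩

theorem DivS.sub {n : ℕ} {x y : F} (hx : DivS O ϖ n x) (hy : DivS O ϖ n y) :
    DivS O ϖ n (x - y) := by
  rw [sub_eq_add_neg]; exact hx.add hy.neg

theorem DivS.mul_right {n : ℕ} {x y : F} (hx : DivS O ϖ n x) (hy : y ∈ O) :
    DivS O ϖ n (x * y) := by
  obtain ⟨a, ha, rfl⟩ := hx
  exact ⟨a * y, O.mul_mem ha hy, by rw [mul_assoc]⟩

theorem DivS.mul_left {n : ℕ} {x y : F} (hx : DivS O ϖ n x) (hy : y ∈ O) :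
    DivS O ϖ n (y * x) := by
  rw [mul_comm]; exact hx.mul_right hy

theorem DivS.symm {n : ℕ} {x y : F} (h : DivS O ϖ n (x - y)) : DivS O ϖ n (y - x) := by
  rw [← neg_sub]; exact h.neg

theorem DivS.trans {n : ℕ} {x y z : F} (h : DivS O ϖ n (x - y)) (h' : DivS O ϖ n (y - z)) :
    DivS O ϖ n (x - z) := by
  have := h.add h'
  rwa [sub_add_sub_cancel] at this

theorem DivS.mem {n : ℕ} {x : F} (hϖ : ϖ ∈ O) (hx : DivS O ϖ n x) : x ∈ O := by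
  obtain ⟨a, ha, rfl⟩ := hx
  exact O.mul_mem (O.pow_mem hϖ n) ha

theorem divS_self : DivS O ϖ 1 ϖ := ⟨1, O.one_mem, by rw [pow_one, mul_one]⟩

/-! ### discrete valuation rings -/

theorem IsDV.zpow_mem (h : IsDV O ϖ) {n : ℤ} (hn : 0 ≤ n) : ϖ ^ n ∈ O := by
  lift n to ℕ using hn
  rw [zpow_natCast]
  exact O.pow_mem h.mem n

theorem IsDV.zpow_notMem (h : IsDV O ϖ) {n : ℤ} (hn : n < 0) : ϖ ^ n ∉ O := by
  intro hmem
  apply h.inv_notMem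
  have h1 : ϖ ^ (-n - 1) ∈ O := h.zpow_mem (by omega)
  have : ϖ⁻¹ = ϖ ^ n * ϖ ^ (-n - 1) := by
    rw [← zpow_add₀ h.ne_zero, ← zpow_neg_one]
    congr 1
    ring
  rw [this]
  exact O.mul_mem hmem h1

/-- normalisation by a power of `ϖ`. -/
theorem IsDV.exists_zpow (h : IsDV O ϖ) {x : F} (hx : x ≠ 0) : ∃ a : ℤ, IsU O (x * ϖ ^ a) := by
  obtain ⟨a, h1, h2⟩ := h.disc x hx
  exact ⟨a, mul_ne_zero hx (zpow_ne_zero _ h.ne_zero), h1, h2⟩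

/-- `O` is local with maximal ideal `ϖ O`. -/
theorem IsDV.isU_or (h : IsDV O ϖ) {x : F} (hx : x ∈ O) : IsU O x ∨ DivS O ϖ 1 x := by
  by_cases hx0 : x = 0
  · right
    rw [hx0]
    exact divS_zero 1
  obtain ⟨a, ha⟩ := h.exists_zpow hx0
  rcases lt_trichotomy a 0 with hlt | rfl | hgt
  · right
    refine ⟨x * ϖ ^ a * ϖ ^ (-a - 1), O.mul_mem ha.mem (h.zpow_mem (by omega)), ?_⟩
    rw [pow_one, mul_assoc, ← zpow_add₀ h.ne_zero, mul_left_comm, ← zpow_one_add₀ h.ne_zero]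
    have : (1 + (a + (-a - 1)) : ℤ) = 0 := by ring
    rw [this, zpow_zero, mul_one]
  · left
    simpa using ha
  · exfalso
    apply h.zpow_notMem (n := -a) (by omega)
    have : ϖ ^ (-a) = x * (x * ϖ ^ a)⁻¹ := by
      rw [mul_inv, ← mul_assoc, mul_inv_cancel₀ hx0, one_mul, zpow_neg]
    rw [this]
    exact O.mul_mem hx ha.inv_mem

theorem IsDV.not_divS (h : IsDV O ϖ) {x : F} (hx : IsU O x) : ¬ DivS O ϖ 1 x := by
  rintro ⟨y, hy, hxy⟩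
  apply h.inv_notMem
  have hy0 : y ≠ 0 := by
    rintro rfl
    exact hx.ne_zero (by rw [hxy, mul_zero])
  have : ϖ⁻¹ = y * x⁻¹ := by
    rw [hxy, pow_one, mul_inv, mul_comm ϖ⁻¹, ← mul_assoc, mul_inv_cancel₀ hy0, one_mul]
  rw [this]
  exact O.mul_mem hy hx.inv_mem

theorem IsDV.isU_of_sub (h : IsDV O ϖ) {x y : F} (hx : IsU O x) (hy : DivS O ϖ 1 (y - x)) :
    IsU O y := by
  have hmem : y ∈ O := by
    have := O.add_mem (hy.mem h.mem) hx.mem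
    rwa [sub_add_cancel] at this
  rcases h.isU_or hmem with h1 | h1
  · exact h1
  · exfalso
    apply h.not_divS hx
    have := h1.sub hy
    rwa [sub_sub_cancel] at this

theorem IsDV.mem_or_inv_mem (h : IsDV O ϖ) (x : F) : x ∈ O ∨ x⁻¹ ∈ O := by
  by_cases hx0 : x = 0
  · left
    rw [hx0]
    exact O.zero_mem
  obtain ⟨a, ha⟩ := h.exists_zpow hx0
  rcases le_total a 0 with hle | hge
  · left
    have : x = x * ϖ ^ a * ϖ ^ (-a) := by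
      rw [mul_assoc, ← zpow_add₀ h.ne_zero, add_neg_cancel, zpow_zero, mul_one]
    rw [this]
    exact O.mul_mem ha.mem (h.zpow_mem (by omega))
  · right
    have : x⁻¹ = (x * ϖ ^ a)⁻¹ * ϖ ^ a := by
      rw [mul_inv, mul_assoc, inv_mul_cancel₀ (zpow_ne_zero _ h.ne_zero), mul_one]
    rw [this]
    exact O.mul_mem ha.inv_mem (h.zpow_mem hge)

theorem IsDV.divS_or (h : IsDV O ϖ) {x y : F} (hx : x ∈ O) (hy : y ∈ O)
    (hxy : DivS O ϖ 1 (x * y)) : DivS O ϖ 1 x ∨ DivS O ϖ 1 y := by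
  rcases h.isU_or hx with h1 | h1
  · rcases h.isU_or hy with h2 | h2
    · exact absurd hxy (h.not_divS (h1.mul h2))
    · exact Or.inr h2
  · exact Or.inl h1

theorem IsDV.root (h : IsDV O ϖ) {x : F} {n : ℕ} (hn : 0 < n) (hx : x ^ n ∈ O) : x ∈ O := by
  rcases h.mem_or_inv_mem x with h1 | h1
  · exact h1
  · by_cases hx0 : x = 0
    · rw [hx0]; exact O.zero_mem
    obtain ⟨k, rfl⟩ : ∃ k, n = k + 1 := ⟨n - 1, by omega⟩
    have : x = x ^ (k + 1) * x⁻¹ ^ k := by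
      rw [pow_succ, inv_pow, mul_right_comm, mul_inv_cancel₀ (pow_ne_zero k hx0), one_mul]
    rw [this]
    exact O.mul_mem hx (O.pow_mem h1 k)

theorem IsDV.isU_root (h : IsDV O ϖ) {x : F} {n : ℕ} (hn : 0 < n) (hx : IsU O (x ^ n)) :
    IsU O x := by
  refine ⟨fun h0 => hx.ne_zero (by rw [h0, zero_pow hn.ne']), h.root hn hx.mem, h.root hn ?_⟩
  rw [inv_pow]
  exact hx.inv_mem

/-- a topologically nilpotent element kills denominators. -/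
theorem IsDV.exists_pow_mul (h : IsDV O ϖ) {θ : F} (hθ : DivS O ϖ 1 θ) (x : F) :
    ∃ j : ℕ, 0 < j ∧ DivS O ϖ 1 (θ ^ j * x) := by
  by_cases hx0 : x = 0
  · exact ⟨1, one_pos, by rw [hx0, mul_zero]; exact divS_zero 1⟩
  obtain ⟨a, ha⟩ := h.exists_zpow hx0
  obtain ⟨t, ht, rfl⟩ := hθ
  refine ⟨a.toNat + 1, Nat.succ_pos _, t ^ (a.toNat + 1) * (x * ϖ ^ a) * ϖ ^ ((a.toNat : ℤ) - a),
    O.mul_mem (O.mul_mem (O.pow_mem ht _) ha.mem) (h.zpow_mem (by omega)), ?_⟩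
  have e : ϖ ^ a * ϖ ^ ((a.toNat : ℤ) - a) = ϖ ^ a.toNat := by
    rw [← zpow_add₀ h.ne_zero, add_sub_cancel, zpow_natCast]
  calc (ϖ ^ 1 * t) ^ (a.toNat + 1) * x
      = ϖ ^ 1 * (t ^ (a.toNat + 1) * x * ϖ ^ a.toNat) := by ring
    _ = ϖ ^ 1 * (t ^ (a.toNat + 1) * (x * ϖ ^ a) * ϖ ^ ((a.toNat : ℤ) - a)) := by
        rw [← e]; ring

theorem IsDV.isSemi_inf (h1 : IsDV O1 ϖ) (h2 : IsDV O2 ϖ) : IsSemi (O1 ⊓ O2) ϖ where
  ne_zero := h1.ne_zero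
  mem := ⟨h1.mem, h2.mem⟩
  inv_notMem := fun h => h1.inv_notMem h.1
  unit := fun y hy =>
    ⟨(h1.isU_of_sub isU_one ⟨y, hy.1, by rw [pow_one, add_sub_cancel_left]⟩).inv_mem,
      (h2.isU_of_sub isU_one ⟨y, hy.2, by rw [pow_one, add_sub_cancel_left]⟩).inv_mem⟩
  root := fun _ _ hn h => ⟨h1.root hn h.1, h2.root hn h.2⟩

theorem divS_inf {n : ℕ} {x : F} (hϖ : ϖ ≠ 0) :
    DivS (O1 ⊓ O2) ϖ n x ↔ DivS O1 ϖ n x ∧ DivS O2 ϖ n x := by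
  constructor
  · rintro ⟨y, hy, rfl⟩
    exact ⟨⟨y, hy.1, rfl⟩, ⟨y, hy.2, rfl⟩⟩
  · rintro ⟨⟨y, hy, rfl⟩, ⟨z, hz, h⟩⟩
    have : y = z := mul_left_cancel₀ (pow_ne_zero n hϖ) h
    exact ⟨y, ⟨hy, this ▸ hz⟩, rfl⟩

theorem IsAutDV.isU {Ψ : F ≃+* F} (hΨ : IsAutDV O Ψ) {x : F} (hx : IsU O x) : IsU O (Ψ x) :=
  ⟨(map_ne_zero Ψ).2 hx.ne_zero, hΨ.map _ hx.mem, by
    rw [← map_inv₀]; exact hΨ.map _ hx.inv_mem⟩

/-- `Ψ` preserves the valuation. -/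
theorem IsDV.dl_isU (h : IsDV O ϖ) {Ψ : F ≃+* F} (hΨ : IsAutDV O Ψ)
    (hc : ∃ c, IsU O c ∧ Ψ ϖ = c * ϖ) {x : F} (hx : x ≠ 0) : IsU O (dl Ψ x) := by
  obtain ⟨c, hcu, hc⟩ := hc
  obtain ⟨a, ha⟩ := h.exists_zpow hx
  have h0 := h.ne_zero
  have hz : ϖ ^ a ≠ 0 := zpow_ne_zero _ h0
  have hcz : c ^ a ≠ 0 := zpow_ne_zero _ hcu.ne_zero
  have e : dl Ψ x = Ψ (x * ϖ ^ a) / (x * ϖ ^ a) * (c ^ a)⁻¹ := by
    rw [dl, map_mul, map_zpow₀, hc, mul_zpow]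
    field_simp
  rw [e]
  exact ((hΨ.isU ha).div ha).mul (hcu.zpow a).inv

theorem IsAutDV.divS {Ψ : F ≃+* F} (hΨ : IsAutDV O Ψ) (hc : ∃ c, IsU O c ∧ Ψ ϖ = c * ϖ) {x : F}
    (hx : DivS O ϖ 1 x) : DivS O ϖ 1 (Ψ x) := by
  obtain ⟨c, hcu, hc⟩ := hc
  obtain ⟨y, hy, rfl⟩ := hx
  refine ⟨c * Ψ y, O.mul_mem hcu.mem (hΨ.map _ hy), ?_⟩
  rw [map_mul, map_pow, hc]
  ring

/-! ### congruences -/

/-- congruences: `x ≡ x'`, `y ≡ y'` ⟹ `x y ≡ x' y'`; powers; quotients by units. -/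
theorem cong_mul {x x' y y' : F} (hx' : x' ∈ O) (hy : y ∈ O) (h1 : DivS O ϖ 1 (x - x'))
    (h2 : DivS O ϖ 1 (y - y')) : DivS O ϖ 1 (x * y - x' * y') := by
  have : x * y - x' * y' = (x - x') * y + x' * (y - y') := by ring
  rw [this]
  exact (h1.mul_right hy).add (h2.mul_left hx')

theorem cong_pow {x x' : F} (hx : x ∈ O) (hx' : x' ∈ O) (h1 : DivS O ϖ 1 (x - x')) (n : ℕ) :
    DivS O ϖ 1 (x ^ n - x' ^ n) := by
  induction n with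
  | zero => rw [pow_zero, pow_zero, sub_self]; exact divS_zero 1
  | succ n ih =>
    rw [pow_succ, pow_succ]
    exact cong_mul (O.pow_mem hx' n) hx ih h1

theorem cong_div {x x' y : F} (hy : IsU O y) (h1 : DivS O ϖ 1 (x - x' * y)) :
    DivS O ϖ 1 (x / y - x') := by
  have : x / y - x' = (x - x' * y) * y⁻¹ := by
    have := hy.ne_zero
    field_simp
  rw [this]
  exact h1.mul_right hy.inv_mem

/-! ### charts -/

theorem Chart2.swap {m : ℕ} {B : Subring F} {p1 p2 : Ideal B} (h : Chart2 O1 O2 ϖ m B p1 p2) :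
    Chart2 O2 O1 ϖ m B p2 p1 where
  chart := by rw [inf_comm]; exact h.chart
  frac := h.frac
  mem1 := h.mem2
  mem2 := h.mem1
  th1 := h.th2
  th2 := h.th1
  adm1 := fun n hn h2 h1 => h.adm2 n hn h1 h2
  adm2 := fun n hn h2 h1 => h.adm1 n hn h1 h2

/-- `p1 ⊓ p2 = (ϖ)` (from `sat`). -/
theorem Chart2.inf_eq {m : ℕ} {B : Subring F} {p1 p2 : Ideal B} (h : Chart2 O1 O2 ϖ m B p1 p2)
    (hϖ : ϖ ≠ 0) : p1 ⊓ p2 = Ideal.span {(⟨ϖ, h.chart.unif_mem⟩ : B)} := by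
  apply le_antisymm
  · intro b hb
    have h1 := (h.mem1 b).1 hb.1
    have h2 := (h.mem2 b).1 hb.2
    obtain ⟨y, hy, hby⟩ := h.chart.sat b b.2 ((divS_inf hϖ).2 ⟨h1, h2⟩)
    rw [Ideal.mem_span_singleton]
    exact ⟨⟨y, hy⟩, Subtype.ext hby⟩
  · rw [Ideal.span_singleton_le_iff_mem]
    exact ⟨(h.mem1 _).2 divS_self, (h.mem2 _).2 divS_self⟩

/-- (I1') on a tube : `B_n[1/ϖ] ∩ O = B_n`. -/
theorem Chart2.tube_mem {m : ℕ} {B : Subring F} {p1 p2 : Ideal B} (h : Chart2 O1 O2 ϖ m B p1 p2)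
    (hϖ : ϖ ≠ 0) (n : Ideal B) {z : F} (hz : z ∈ O1 ⊓ O2)
    (ht : InTube (⟨ϖ, h.chart.unif_mem⟩ : B) n z) : ∃ s : B, s ∉ n ∧ (s : F) * z ∈ B := by
  obtain ⟨s, hs, k, b, hb⟩ := ht
  refine ⟨s, hs, ?_⟩
  have hsz : (s : F) * z ∈ O1 ⊓ O2 := (O1 ⊓ O2).mul_mem (h.chart.le _ s.2) hz
  have hb' : ϖ ^ k * ((s : F) * z) = (b : F) := by
    have hb2 : ((s : F) * ϖ ^ k) * z = (b : F) := hb
    rw [← hb2]
    ring
  have key : ∀ (k : ℕ) (y : F), y ∈ O1 ⊓ O2 → ϖ ^ k * y ∈ B → y ∈ B := by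
    intro k
    induction k with
    | zero => intro y _ hy; rwa [pow_zero, one_mul] at hy
    | succ k ih =>
      intro y hyO hy
      apply ih y hyO
      obtain ⟨y', hy', e⟩ := h.chart.sat _ hy
        ⟨ϖ ^ k * y, (O1 ⊓ O2).mul_mem ((O1 ⊓ O2).pow_mem (h.chart.le _ h.chart.unif_mem) k) hyO, by
          rw [pow_one, pow_succ]; ring⟩
      have : ϖ ^ k * y = y' := by
        apply mul_left_cancel₀ hϖ
        rw [← e, pow_succ]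
        ring
      rw [this]
      exact hy'
  exact key k _ hsz (by rw [hb']; exact b.2)

end DV

end Fermat.Agent.S35
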