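import Fermat.Agent.S34.SGlue
import Fermat.Agent.S34.LocDefs

/-!
# S35, geometry, abstract block : shared definitions (Mathlib + the abstract files of S34)

`F` a field, `O1 O2` two discrete valuation rings of `F` (as subrings) with the same uniformiser
`ϖ`, `B` a chart with its two components `p1 = B ∩ ϖ O1`, `p2 = B ∩ ϖ O2`,
`Ψ` an automorphism of the whole situation inducing `x ↦ x ^ Q` at the nodes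
(in the application `Ψ = φ ^ 2`, `φ` a Frobenius at `q`, `Q = q ^ 2`).
-/

set_option autoImplicit false

namespace Fermat.Agent.S35

open Fermat.Agent.S34

variable {F : Type*} [Field F]

/-- `O` is a discrete valuation ring of `F` with uniformiser `ϖ`. -/
structure IsDV (O : Subring F) (ϖ : F) : Prop where
  ne_zero : ϖ ≠ 0
  mem : ϖ ∈ O
  inv_notMem : ϖ⁻¹ ∉ O
  disc : ∀ x : F, x ≠ 0 → ∃ a : ℤ, x * ϖ ^ a ∈ O ∧ (x * ϖ ^ a)⁻¹ ∈ O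

/-- `x` is a unit of `O`. -/
def IsU (O : Subring F) (x : F) : Prop := x ≠ 0 ∧ x ∈ O ∧ x⁻¹ ∈ O

/-- `Ψ` preserves `O` and `ϖ` up to a unit of `R`. -/
structure IsAutDV (O : Subring F) (Ψ : F ≃+* F) : Prop where
  map : ∀ x, x ∈ O → Ψ x ∈ O
  symm : ∀ x, x ∈ O → Ψ.symm x ∈ O

/-- **(LP)** at the maximal ideal `n` of the chart `B` : `u = b1 * G ^ m` with `b1` a unit on the
tube of `n`  (the conclusion of `S34.lp`). -/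
def LP (ϖ : F) (m : ℕ) (B : Subring F) (hϖ : ϖ ∈ B) (n : Ideal B) (u : F) : Prop :=
  ∃ G b1 : F, G ≠ 0 ∧ u = b1 * G ^ m ∧ InTube (⟨ϖ, hϖ⟩ : B) n b1 ∧ InTube (⟨ϖ, hϖ⟩ : B) n b1⁻¹

/-- (LP) at all the maximal ideals containing `ϖ`. -/
def LPall (ϖ : F) (m : ℕ) (B : Subring F) (hϖ : ϖ ∈ B) (u : F) : Prop :=
  ∀ n : Ideal B, n.IsMaximal → (⟨ϖ, hϖ⟩ : B) ∈ n → LP ϖ m B hϖ n u

/-- **One chart with its two components.** -/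
structure Chart2 (O1 O2 : Subring F) (ϖ : F) (m : ℕ) (B : Subring F) (p1 p2 : Ideal B) : Prop where
  chart : IsChartS (O1 ⊓ O2) ϖ m B
  frac : ∀ f : F, ∃ a ∈ B, ∃ b ∈ B, b ≠ 0 ∧ f * b = a
  mem1 : ∀ b : B, b ∈ p1 ↔ DivS O1 ϖ 1 (b : F)
  mem2 : ∀ b : B, b ∈ p2 ↔ DivS O2 ϖ 1 (b : F)
  th1 : ∃ θ : B, θ ∈ p2 ∧ θ ∉ p1
  th2 : ∃ θ : B, θ ∈ p1 ∧ θ ∉ p2
  adm1 : ∀ n : Ideal B, n.IsMaximal → p1 ≤ n → p2 ≤ n → ∃ x, LocGen n p1 x ∧ x ∈ p2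
  adm2 : ∀ n : Ideal B, n.IsMaximal → p1 ≤ n → p2 ≤ n → ∃ y, LocGen n p2 y ∧ y ∈ p1

/-- **The action of `Ψ` on a chart** : `Ψ B = B`, and `Ψ b ≡ b ^ Q` modulo `p1 + p2`. -/
structure FrobB (O1 : Subring F) (ϖ : F) (B : Subring F) (p2 : Ideal B) (Ψ : F ≃+* F) (Q : ℕ) :
    Prop where
  map : ∀ x, x ∈ B → Ψ x ∈ B
  symm : ∀ x, x ∈ B → Ψ.symm x ∈ B
  unif : ∃ c ∈ B, c⁻¹ ∈ B ∧ Ψ ϖ = c * ϖ
  frob : ∀ b : B, ∃ x : B, x ∈ p2 ∧ DivS O1 ϖ 1 (Ψ (b : F) - (b : F) ^ Q - (x : F))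

/-- the operator `Ψ - 1`, multiplicatively. -/
def dl (Ψ : F ≃+* F) (u : F) : F := Ψ u / u

/-- the operator `Ψ - Q`, multiplicatively. -/
def dQ (Ψ : F ≃+* F) (Q : ℕ) (u : F) : F := Ψ u / u ^ Q

/-- **The data of level `M₀`.** -/
structure Lvl0 {F0 : Type*} [Field F0] (O1 O2 : Subring F) (ϖ : F) (O0 : Subring F0) (ϖ0 : F0)
    (al be : F0 →+* F) (nA nB : F →* F0) (Ψ : F ≃+* F) (φ0 : F0 ≃+* F0) : Prop where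
  dv0 : IsDV O0 ϖ0
  aut0 : IsAutDV O0 φ0
  unif0 : ∃ c, IsU O0 c ∧ φ0 ϖ0 = c * ϖ0
  al_mem : ∀ a ∈ O0, al a ∈ O1 ⊓ O2
  be_mem : ∀ a ∈ O0, be a ∈ O1 ⊓ O2
  al_unif : al ϖ0 = ϖ
  be_unif : be ϖ0 = ϖ
  surj1 : ∀ u ∈ O1, ∃ a ∈ O0, DivS O1 ϖ 1 (u - al a)
  surj2 : ∀ u ∈ O2, ∃ b ∈ O0, DivS O2 ϖ 1 (u - be b)
  norm : ∀ u ∈ O1 ⊓ O2, ∀ a ∈ O0, ∀ b ∈ O0, DivS O1 ϖ 1 (u - al a) → DivS O2 ϖ 1 (u - be b) →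
    DivS O0 ϖ0 1 (nA u - a * φ0 b) ∧ DivS O0 ϖ0 1 (nB u - b * φ0 a)
  Ψ_al : ∀ a, Ψ (al a) = al (φ0 (φ0 a))
  Ψ_be : ∀ a, Ψ (be a) = be (φ0 (φ0 a))
  nA_Ψ : ∀ u, nA (Ψ u) = φ0 (φ0 (nA u))
  nB_Ψ : ∀ u, nB (Ψ u) = φ0 (φ0 (nB u))
  idem : ∃ e ∈ O1 ⊓ O2, DivS O1 ϖ 1 (e - 1) ∧ DivS O2 ϖ 1 e

end Fermat.Agent.S35
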