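import Fermat.Agent.S35.NewLvl
import Fermat.Agent.S35.GDefs

/-!
# S35 : the end of the final assembly (`G-U`, block (d))

* `dQ_dl_dl_eq` : `(Ψ - Q)(Ψ - 1)² u` written out;
* `newRel_of_const` : the relation up to a constant of `Kb` gives `NewRel`;
* `newRel_of_iota` : the same, transported along `ι : F → FF N` with `ι ∘ Φ = g ∘ ι`.
-/

set_option autoImplicit false

noncomputable section

namespace Fermat.Agent.S35

open ModularCurve AlgebraicCurve Fermat.Agent.S24 Fermat.Agent.ES Fermat.Agent.S34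

theorem dQ_dl_dl_eq {F : Type*} [Field F] (Ψ : F ≃+* F) (Q : ℕ) {u : F} (hu : u ≠ 0) :
    dQ Ψ Q (dl Ψ (dl Ψ u))
      = Ψ (Ψ (Ψ u)) * (Ψ u) ^ (2 * Q + 1) / ((Ψ (Ψ u)) ^ (Q + 2) * u ^ Q) := by
  have h1 : Ψ u ≠ 0 := (_root_.map_ne_zero Ψ).2 hu
  have h2 : Ψ (Ψ u) ≠ 0 := (_root_.map_ne_zero Ψ).2 h1
  have h3 : Ψ (Ψ (Ψ u)) ≠ 0 := (_root_.map_ne_zero Ψ).2 h2
  unfold dQ dl
  simp only [map_div₀]
  rw [div_pow, div_pow, div_pow]
  field_simp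
  ring

theorem newRel_of_const {N : ℕ} [NeZero N] (g : FF N →+* FF N) (q m : ℕ) (hm : 0 < m)
    (U : FF N) (hU : U ≠ 0) (z : FF N) (hz : z ≠ 0) (c : Kb)
    (h : z ^ m * (g (g (g (g (g (g U))))) * (g (g U)) ^ (2 * q ^ 2 + 1)
      / ((g (g (g (g U)))) ^ (q ^ 2 + 2) * U ^ (q ^ 2))) = algebraMap Kb (FF N) c) :
    NewRel g q m U := by
  rw [NewLvl.newRel_iff g q m hU]
  obtain ⟨c', hc'⟩ := IsAlgClosed.exists_pow_nat_eq c hm
  refine ⟨algebraMap Kb (FF N) c' / z, ?_⟩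
  rw [div_pow, ← map_pow (algebraMap Kb (FF N)), hc', ← h,
    mul_div_cancel_left₀ _ (pow_ne_zero m hz)]

/-- transport along `ι`. -/
theorem newRel_of_iota {N : ℕ} [NeZero N] {F : Type*} [Field F] (ι : F →+* FF N) (Φ : F ≃+* F)
    (g : FF N →+* FF N) (hg : ∀ f, ι (Φ f) = g (ι f)) (q m : ℕ) (hm : 0 < m)
    (u z : F) (hu : u ≠ 0) (hz : z ≠ 0) (c : Kb)
    (h : ι (z ^ m * dQ (Φ.trans Φ) (q ^ 2) (dl (Φ.trans Φ) (dl (Φ.trans Φ) u)))
      = algebraMap Kb (FF N) c) :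
    NewRel g q m (ι u) := by
  refine newRel_of_const g q m hm (ι u) ((_root_.map_ne_zero ι).2 hu) (ι z)
    ((_root_.map_ne_zero ι).2 hz) c ?_
  rw [← h, dQ_dl_dl_eq _ _ hu]
  simp only [RingEquiv.trans_apply, map_mul, map_div₀, map_pow, hg]

end Fermat.Agent.S35
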