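import Fermat.Agent.S35.GDefs

/-!
# S35, geometry, abstract block, package [GA-LP] : stability of (LP)
-/

set_option autoImplicit false

namespace Fermat.Agent.S35

open Fermat.Agent.S34

variable {F : Type*} [Field F]

namespace GLP

variable {B : Subring F} {ϖ : B}

theorem algebraMap_eq (x : B) : algebraMap B F x = (x : F) := rfl

theorem inTube_iff {n : Ideal B} {f : F} :
    InTube ϖ n f ↔ ∃ s : B, s ∉ n ∧ ∃ (k : ℕ) (b : B), (s : F) * (ϖ : F) ^ k * f = (b : F) := by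
  constructor
  · rintro ⟨s, hs, k, b, h⟩
    refine ⟨s, hs, k, b, ?_⟩
    rw [algebraMap_eq, algebraMap_eq, Subring.coe_mul, Subring.coe_pow] at h
    exact h
  · rintro ⟨s, hs, k, b, h⟩
    refine ⟨s, hs, k, b, ?_⟩
    rw [algebraMap_eq, algebraMap_eq, Subring.coe_mul, Subring.coe_pow]
    exact h

theorem inTube_one {n : Ideal B} (hn : n ≠ ⊤) : InTube ϖ n (1 : F) :=
  inTube_iff.2 ⟨1, (Ideal.ne_top_iff_one n).1 hn, 0, 1, by simp⟩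

theorem inTube_mul {n : Ideal B} (hn : n.IsPrime) {f g : F} (hf : InTube ϖ n f)
    (hg : InTube ϖ n g) : InTube ϖ n (f * g) := by
  obtain ⟨s, hs, k, b, h⟩ := inTube_iff.1 hf
  obtain ⟨s', hs', k', b', h'⟩ := inTube_iff.1 hg
  refine inTube_iff.2 ⟨s * s', fun h0 => (hn.mem_or_mem h0).elim hs hs', k + k', b * b', ?_⟩
  rw [Subring.coe_mul, Subring.coe_mul, ← h, ← h']
  ring

theorem inTube_pow {n : Ideal B} (hn : n.IsPrime) {f : F} (hf : InTube ϖ n f) (k : ℕ) :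
    InTube ϖ n (f ^ k) := by
  induction k with
  | zero => rw [pow_zero]; exact inTube_one hn.ne_top
  | succ k ih => rw [pow_succ]; exact inTube_mul hn ih hf

/-- the restriction of `Ψ` to `B`. -/
def res (Ψ : F ≃+* F) (h1 : ∀ x, x ∈ B → Ψ x ∈ B) : B →+* B :=
  (Ψ : F →+* F).restrict B B h1

theorem coe_res (Ψ : F ≃+* F) (h1 : ∀ x, x ∈ B → Ψ x ∈ B) (b : B) :
    ((res Ψ h1 b : B) : F) = Ψ (b : F) := rfl

theorem res_surjective (Ψ : F ≃+* F) (h1 : ∀ x, x ∈ B → Ψ x ∈ B)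
    (h2 : ∀ x, x ∈ B → Ψ.symm x ∈ B) : Function.Surjective (res Ψ h1) := fun b =>
  ⟨⟨Ψ.symm b, h2 _ b.2⟩, Subtype.ext (by rw [coe_res]; exact Ψ.apply_symm_apply _)⟩

theorem inTube_map {Ψ : F ≃+* F} (h1 : ∀ x, x ∈ B → Ψ x ∈ B)
    (hc : ∃ c ∈ B, c⁻¹ ∈ B ∧ Ψ (ϖ : F) = c * (ϖ : F)) {n : Ideal B} {f : F}
    (hf : InTube ϖ (n.comap (res Ψ h1)) f) : InTube ϖ n (Ψ f) := by
  obtain ⟨s, hs, k, b, h⟩ := inTube_iff.1 hf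
  obtain ⟨c, hcB, hcB', hcϖ⟩ := hc
  have h' := congrArg Ψ h
  rw [map_mul, map_mul, map_pow, hcϖ] at h'
  by_cases hc0 : c = 0
  · have hϖ0 : (ϖ : F) = 0 := by
      rw [hc0, zero_mul] at hcϖ
      simpa using hcϖ
    refine inTube_iff.2 ⟨res Ψ h1 s, hs, k, res Ψ h1 b, ?_⟩
    rw [coe_res, coe_res, ← h', hc0, hϖ0, zero_mul]
  · refine inTube_iff.2 ⟨res Ψ h1 s, hs, k, ⟨c⁻¹, hcB'⟩ ^ k * res Ψ h1 b, ?_⟩
    rw [Subring.coe_mul, Subring.coe_pow, coe_res, coe_res, ← h', mul_pow, inv_pow]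
    have : c ^ k ≠ 0 := pow_ne_zero _ hc0
    field_simp

end GLP

section LPs

variable {ϖ : F} {m : ℕ} {B : Subring F} {hϖ : ϖ ∈ B}

theorem LP.mul {n : Ideal B} (hn : n.IsPrime) {u v : F} (hu : LP ϖ m B hϖ n u)
    (hv : LP ϖ m B hϖ n v) : LP ϖ m B hϖ n (u * v) := by
  obtain ⟨G, b, hG, rfl, h1, h2⟩ := hu
  obtain ⟨G', b', hG', rfl, h1', h2'⟩ := hv
  refine ⟨G * G', b * b', mul_ne_zero hG hG', by ring, GLP.inTube_mul hn h1 h1', ?_⟩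
  rw [mul_inv]
  exact GLP.inTube_mul hn h2 h2'

theorem LP.inv {n : Ideal B} {u : F} (hu : LP ϖ m B hϖ n u) : LP ϖ m B hϖ n u⁻¹ := by
  obtain ⟨G, b, hG, rfl, h1, h2⟩ := hu
  refine ⟨G⁻¹, b⁻¹, inv_ne_zero hG, by rw [mul_inv, inv_pow], h2, ?_⟩
  rw [inv_inv]
  exact h1

theorem LP.div {n : Ideal B} (hn : n.IsPrime) {u v : F} (hu : LP ϖ m B hϖ n u)
    (hv : LP ϖ m B hϖ n v) : LP ϖ m B hϖ n (u / v) := by
  rw [div_eq_mul_inv]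
  exact LP.mul hn hu (LP.inv hv)

theorem LP.pow {n : Ideal B} (hn : n.IsPrime) {u : F} (hu : LP ϖ m B hϖ n u) (k : ℕ) :
    LP ϖ m B hϖ n (u ^ k) := by
  obtain ⟨G, b, hG, rfl, h1, h2⟩ := hu
  refine ⟨G ^ k, b ^ k, pow_ne_zero _ hG, by ring, GLP.inTube_pow hn h1 k, ?_⟩
  rw [← inv_pow]
  exact GLP.inTube_pow hn h2 k

theorem LP.div_mpow {n : Ideal B} {u h : F} (hu : LP ϖ m B hϖ n u) (hh : h ≠ 0) :
    LP ϖ m B hϖ n (u / h ^ m) := by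
  obtain ⟨G, b, hG, rfl, h1, h2⟩ := hu
  exact ⟨G / h, b, div_ne_zero hG hh, by rw [div_pow, mul_div_assoc], h1, h2⟩

/-- transport by `Ψ` (uses (LP) at `Ψ⁻¹ n`). -/
theorem LPall.map {Ψ : F ≃+* F} (h1 : ∀ x, x ∈ B → Ψ x ∈ B) (h2 : ∀ x, x ∈ B → Ψ.symm x ∈ B)
    (hc : ∃ c ∈ B, c⁻¹ ∈ B ∧ Ψ ϖ = c * ϖ) {u : F} (hu : LPall ϖ m B hϖ u) :
    LPall ϖ m B hϖ (Ψ u) := by
  intro n hn hϖn
  have := hn
  have hmax : (n.comap (GLP.res Ψ h1)).IsMaximal :=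
    Ideal.comap_isMaximal_of_surjective _ (GLP.res_surjective Ψ h1 h2)
  have hmem : (⟨ϖ, hϖ⟩ : B) ∈ n.comap (GLP.res Ψ h1) := by
    obtain ⟨c, hcB, -, hcϖ⟩ := hc
    rw [Ideal.mem_comap]
    have : GLP.res Ψ h1 ⟨ϖ, hϖ⟩ = ⟨c, hcB⟩ * ⟨ϖ, hϖ⟩ := Subtype.ext hcϖ
    rw [this]
    exact n.mul_mem_left _ hϖn
  obtain ⟨G, b, hG, rfl, hb1, hb2⟩ := hu _ hmax hmem
  refine ⟨Ψ G, Ψ b, by simpa using hG, by rw [map_mul, map_pow],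
    GLP.inTube_map (ϖ := ⟨ϖ, hϖ⟩) h1 hc hb1, ?_⟩
  rw [← map_inv₀]
  exact GLP.inTube_map (ϖ := ⟨ϖ, hϖ⟩) h1 hc hb2

theorem LPall.delta {Ψ : F ≃+* F} (h1 : ∀ x, x ∈ B → Ψ x ∈ B) (h2 : ∀ x, x ∈ B → Ψ.symm x ∈ B)
    (hc : ∃ c ∈ B, c⁻¹ ∈ B ∧ Ψ ϖ = c * ϖ) {u : F} (hu : LPall ϖ m B hϖ u) :
    LPall ϖ m B hϖ (dl Ψ u) := fun n hn hϖn =>
  LP.div hn.isPrime (LPall.map h1 h2 hc hu n hn hϖn) (hu n hn hϖn)

theorem LPall.deltaQ {Ψ : F ≃+* F} (h1 : ∀ x, x ∈ B → Ψ x ∈ B) (h2 : ∀ x, x ∈ B → Ψ.symm x ∈ B)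
    (hc : ∃ c ∈ B, c⁻¹ ∈ B ∧ Ψ ϖ = c * ϖ) (Q : ℕ) {u h : F} (hu : LPall ϖ m B hϖ u) (hh : h ≠ 0) :
    LPall ϖ m B hϖ (dQ Ψ Q (dl Ψ u / h ^ m)) := by
  have hv : LPall ϖ m B hϖ (dl Ψ u / h ^ m) := fun n hn hϖn =>
    LP.div_mpow (LPall.delta h1 h2 hc hu n hn hϖn) hh
  exact fun n hn hϖn =>
    LP.div hn.isPrime (LPall.map h1 h2 hc hv n hn hϖn) (LP.pow hn.isPrime (hv n hn hϖn) Q)

end LPs

end Fermat.Agent.S35
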