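import Fermat.Agent.S35.GDefs

/-!
# S35, geometry, abstract block, package GA-IC :
the special fibre is integrally closed in the residue field
-/

set_option autoImplicit false

namespace Fermat.Agent.S35

open Fermat.Agent.S34 Fermat.Agent.ES.Model

variable {F : Type*} [Field F]

namespace GIC

variable {O : Subring F} {ϖ : F}

/-- an element of `O` is `ϖ ^ n` times a unit -/
theorem exists_pow (hO : IsDV O ϖ) {x : F} (hx : x ∈ O) (hx0 : x ≠ 0) :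
    ∃ (n : ℕ) (w : F), w ∈ O ∧ w⁻¹ ∈ O ∧ x = w * ϖ ^ n := by
  obtain ⟨a, h1, h2⟩ := hO.disc x hx0
  have hϖ := hO.ne_zero
  rcases le_or_gt a 0 with ha | ha
  · refine ⟨(-a).toNat, x * ϖ ^ a, h1, h2, ?_⟩
    have : ((-a).toNat : ℤ) = -a := Int.toNat_of_nonneg (by omega)
    rw [← zpow_natCast, this, mul_assoc, ← zpow_add₀ hϖ, add_neg_cancel, zpow_zero, mul_one]
  · exfalso
    apply hO.inv_notMem
    -- `ϖ⁻¹ = x * (x ϖ^a)⁻¹ * ϖ^(a-1)`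
    have h3 : ϖ ^ (a - 1) ∈ O := by
      have : ((a - 1).toNat : ℤ) = a - 1 := Int.toNat_of_nonneg (by omega)
      rw [← this, zpow_natCast]
      exact pow_mem hO.mem _
    have h4 : ϖ⁻¹ = x * (x * ϖ ^ a)⁻¹ * ϖ ^ (a - 1) := by
      rw [mul_inv, ← mul_assoc, mul_inv_cancel₀ hx0, one_mul, ← zpow_neg, ← zpow_add₀ hϖ,
        ← zpow_neg_one]
      congr 1
      ring
    rw [h4]
    exact mul_mem (mul_mem hx h2) h3

theorem not_divS_of_unit (hO : IsDV O ϖ) {w : F} (hw0 : w ≠ 0) (hw : w⁻¹ ∈ O) :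
    ¬ DivS O ϖ 1 w := by
  rintro ⟨y, hy, h⟩
  apply hO.inv_notMem
  have hϖ := hO.ne_zero
  have : ϖ⁻¹ = y * w⁻¹ := by
    rw [h, pow_one]
    have hy0 : y ≠ 0 := by
      rintro rfl
      rw [mul_zero] at h
      exact hw0 h
    field_simp
  rw [this]
  exact mul_mem hy hw

/-- an element of `O` which is not divisible by `ϖ` is a unit -/
theorem inv_mem_of_not_divS (hO : IsDV O ϖ) {x : F} (hx : x ∈ O) (h : ¬ DivS O ϖ 1 x) :
    x ≠ 0 ∧ x⁻¹ ∈ O := by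
  have hx0 : x ≠ 0 := by
    rintro rfl
    exact h ⟨0, zero_mem _, by simp⟩
  refine ⟨hx0, ?_⟩
  obtain ⟨n, w, hw, hw', rfl⟩ := exists_pow hO hx hx0
  rcases n with _ | n
  · simpa using hw'
  · exfalso
    exact h ⟨w * ϖ ^ n, mul_mem hw (pow_mem hO.mem _), by ring⟩

end GIC

/-- `f ∈ O`, `f ^ m ≡ e ∈ B` mod `ϖ O` ⟹ `f ≡ c ∈ B` mod `ϖ O`. -/
theorem ic {O : Subring F} {ϖ : F} (hO : IsDV O ϖ) {B : Subring F} (hBO : ∀ x ∈ B, x ∈ O)
    (hfrac : ∀ f : F, ∃ a ∈ B, ∃ b ∈ B, b ≠ 0 ∧ f * b = a)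
    (p : Ideal B) [p.IsPrime] [IsDedekindDomain (B ⧸ p)]
    (hp : ∀ b : B, b ∈ p ↔ DivS O ϖ 1 (b : F))
    (θ : B) (hθ : θ ∉ p) (hθ' : ∀ b ∈ p, ∃ b' : B, (θ : F) * (b : F) = ϖ * (b' : F))
    {m : ℕ} (hm : 0 < m) (f : F) (hf : f ∈ O) (e : B) (he : DivS O ϖ 1 (f ^ m - (e : F))) :
    ∃ c : B, DivS O ϖ 1 (f - (c : F)) := by
  have hϖ := hO.ne_zero
  obtain ⟨hθ0, hθi⟩ := GIC.inv_mem_of_not_divS hO (hBO _ θ.2) (fun h => hθ ((hp θ).2 h))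
  -- a denominator outside `p`
  have key : ∀ (n : ℕ) (a b : B) (w : F), w ∈ O → w⁻¹ ∈ O → w ≠ 0 → (b : F) = w * ϖ ^ n →
      f * (b : F) = (a : F) → ∃ a' b' : B, b' ∉ p ∧ f * (b' : F) = (a' : F) := by
    intro n
    induction n with
    | zero =>
      intro a b w _ hw' hw0 hb hab
      refine ⟨a, b, fun hbp => ?_, hab⟩
      rw [pow_zero, mul_one] at hb
      exact GIC.not_divS_of_unit hO hw0 hw' (hb ▸ (hp b).1 hbp)
    | succ n ih =>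
      intro a b w hw hw' hw0 hb hab
      have hbp : b ∈ p := (hp b).2 ⟨w * ϖ ^ n, mul_mem hw (pow_mem hO.mem _), by rw [hb]; ring⟩
      have hap : a ∈ p := (hp a).2 ⟨f * (w * ϖ ^ n), mul_mem hf (mul_mem hw (pow_mem hO.mem _)),
        by rw [← hab, hb]; ring⟩
      obtain ⟨b', hb'⟩ := hθ' b hbp
      obtain ⟨a', ha'⟩ := hθ' a hap
      refine ih a' b' ((θ : F) * w) (mul_mem (hBO _ θ.2) hw) ?_ (mul_ne_zero hθ0 hw0) ?_ ?_
      · rw [mul_inv]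
        exact mul_mem hθi hw'
      · apply mul_left_cancel₀ hϖ
        rw [← hb', hb]
        ring
      · apply mul_left_cancel₀ hϖ
        rw [← ha', ← hab]
        calc ϖ * (f * (b' : F)) = f * (ϖ * (b' : F)) := by ring
          _ = f * ((θ : F) * (b : F)) := by rw [hb']
          _ = (θ : F) * (f * (b : F)) := by ring
  obtain ⟨a0, ha0, b0, hb0, hb00, hab0⟩ := hfrac f
  obtain ⟨n, w, hw, hw', hbw⟩ := GIC.exists_pow hO (hBO _ hb0) hb00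
  have hw0 : w ≠ 0 := by
    rintro rfl
    rw [zero_mul] at hbw
    exact hb00 hbw
  obtain ⟨a, b, hbp, hab⟩ := key n ⟨a0, ha0⟩ ⟨b0, hb0⟩ w hw hw' hw0 hbw hab0
  obtain ⟨hb0', hbi⟩ := GIC.inv_mem_of_not_divS hO (hBO _ b.2) (fun h => hbp ((hp b).2 h))
  -- the relation in `B ⧸ p`
  have hrel : a ^ m - e * b ^ m ∈ p := by
    rw [hp]
    obtain ⟨y, hy, hy'⟩ := he
    refine ⟨y * (b : F) ^ m, mul_mem hy (pow_mem (hBO _ b.2) _), ?_⟩
    have : ((a ^ m - e * b ^ m : B) : F) = (f ^ m - (e : F)) * (b : F) ^ m := by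
      push_cast
      rw [← hab]
      ring
    rw [this, hy']
    ring
  have hdvd : (Ideal.Quotient.mk p b) ^ m ∣ (Ideal.Quotient.mk p a) ^ m := by
    refine ⟨Ideal.Quotient.mk p e, ?_⟩
    rw [← map_pow, ← map_pow, ← map_mul, mul_comm]
    exact Ideal.Quotient.eq.2 hrel
  rw [IsIntegrallyClosed.pow_dvd_pow_iff hm.ne'] at hdvd
  obtain ⟨c', hc'⟩ := hdvd
  obtain ⟨c, rfl⟩ := Ideal.Quotient.mk_surjective c'
  rw [← map_mul] at hc'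
  have h1 : a - b * c ∈ p := Ideal.Quotient.eq.1 hc'
  obtain ⟨y, hy, hy'⟩ := (hp _).1 h1
  refine ⟨c, y * (b : F)⁻¹, mul_mem hy hbi, ?_⟩
  have h2 : ((a - b * c : B) : F) = (b : F) * (f - (c : F)) := by
    push_cast
    rw [← hab]
    ring
  rw [h2] at hy'
  field_simp
  linear_combination hy'

/-- the same on a `Chart2`, first component. -/
theorem Chart2.ic1 {O1 O2 : Subring F} {ϖ : F} (h1 : IsDV O1 ϖ) (h2 : IsDV O2 ϖ) {m : ℕ}
    {B : Subring F} {p1 p2 : Ideal B} [p1.IsPrime] [IsDedekindDomain (B ⧸ p1)]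
    (hB : Chart2 O1 O2 ϖ m B p1 p2) {k : ℕ} (hk : 0 < k) (f : F) (hf : f ∈ O1) (e : B)
    (he : DivS O1 ϖ 1 (f ^ k - (e : F))) : ∃ c : B, DivS O1 ϖ 1 (f - (c : F)) := by
  obtain ⟨θ, hθ2, hθ1⟩ := hB.th1
  refine ic h1 (fun x hx => (hB.chart.le x hx).1) hB.frac p1 hB.mem1 θ hθ1 ?_ hk f hf e he
  intro b hb
  obtain ⟨y1, hy1, e1⟩ := (hB.mem1 (θ * b)).1 (p1.mul_mem_left θ hb)
  obtain ⟨y2, hy2, e2⟩ := (hB.mem2 (θ * b)).1 (p2.mul_mem_right b hθ2)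
  have hy : y1 = y2 := mul_left_cancel₀ (pow_ne_zero 1 h1.ne_zero) (e1.symm.trans e2)
  obtain ⟨y, hyB, hy'⟩ := hB.chart.sat _ (θ * b).2 ⟨y1, ⟨hy1, hy ▸ hy2⟩, e1⟩
  exact ⟨⟨y, hyB⟩, hy'⟩

end Fermat.Agent.S35
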