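import Fermat.Agent.S35.GDV
import Fermat.Agent.S35.GIC

/-!
# S35, geometry, abstract block : [GA-ND] the local step at a node
-/

set_option autoImplicit false

namespace Fermat.Agent.S35

open Fermat.Agent.S34 Fermat.Agent.ES.Model

variable {F : Type*} [Field F]

/-- at a node `Ψ b ≡ b ^ Q` mod `n`. -/
theorem frob_node {O1 O2 : Subring F} {ϖ : F} {m : ℕ} {B : Subring F} {p1 p2 : Ideal B}
    (hB : Chart2 O1 O2 ϖ m B p1 p2) {Ψ : F ≃+* F} {Q : ℕ} (hΨB : FrobB O1 ϖ B p2 Ψ Q)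
    (n : Ideal B) (hp1 : p1 ≤ n) (hp2 : p2 ≤ n) (b : B) :
    (⟨Ψ (b : F), hΨB.map _ b.2⟩ : B) - b ^ Q ∈ n := by
  obtain ⟨x, hx2, hx⟩ := hΨB.frob b
  have h1 : (⟨Ψ (b : F), hΨB.map _ b.2⟩ : B) - b ^ Q - x ∈ p1 := (hB.mem1 _).2 hx
  have e : (⟨Ψ (b : F), hΨB.map _ b.2⟩ : B) - b ^ Q
      = ((⟨Ψ (b : F), hΨB.map _ b.2⟩ : B) - b ^ Q - x) + x := by ring
  rw [e]
  exact n.add_mem (hp1 h1) (hp2 hx2)

namespace GNode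

/-- `Ψ` preserves the complement of `n`. -/
theorem map_notMem {B : Subring F} {Ψ : F ≃+* F} {Q : ℕ} (hmap : ∀ x, x ∈ B → Ψ x ∈ B)
    (n : Ideal B) (hn : n.IsPrime)
    (hfr : ∀ b : B, (⟨Ψ (b : F), hmap _ b.2⟩ : B) - b ^ Q ∈ n) (s : B) (hs : s ∉ n) :
    (⟨Ψ (s : F), hmap _ s.2⟩ : B) ∉ n := by
  intro h
  have h2 : s ^ Q ∈ n := by
    have := n.sub_mem h (hfr s)
    rwa [sub_sub_cancel] at this
  exact hs (hn.mem_of_pow_mem _ h2)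

/-- a unit of `B` is not in a proper ideal. -/
theorem unit_notMem {B : Subring F} (n : Ideal B) (hn : n ≠ ⊤) {c : F} (hc0 : c ≠ 0) (hc : c ∈ B)
    (hci : c⁻¹ ∈ B) : (⟨c, hc⟩ : B) ∉ n := by
  intro h
  apply hn
  rw [Ideal.eq_top_iff_one]
  have : (1 : B) = (⟨c, hc⟩ : B) * ⟨c⁻¹, hci⟩ := by
    apply Subtype.ext
    push_cast
    rw [mul_inv_cancel₀ hc0]
  rw [this]
  exact n.mul_mem_right _ h

/-- for `e` a unit on the tube of `n`, `Ψ e / e` lies in `B_n`. -/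
theorem key {O : Subring F} {ϖ : F} {m : ℕ} {B : Subring F} (hB : IsChartS O ϖ m B)
    (hϖ0 : ϖ ≠ 0) {Ψ : F ≃+* F} {Q : ℕ} (hmap : ∀ x, x ∈ B → Ψ x ∈ B)
    (n : Ideal B) (hn : n.IsPrime)
    (hfr : ∀ b : B, (⟨Ψ (b : F), hmap _ b.2⟩ : B) - b ^ Q ∈ n)
    (c : F) (hc : c ∈ B) (hcn : (⟨c, hc⟩ : B) ∉ n) (hcϖ : Ψ ϖ = c * ϖ)
    (e : F) (he : e ≠ 0) (heO : dl Ψ e ∈ O) (s s' b b' : B) (k k' : ℕ) (hs : s ∉ n) (hs' : s' ∉ n)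
    (hb : (s : F) * ϖ ^ k * e = b) (hb' : (s' : F) * ϖ ^ k' * e⁻¹ = b') :
    ∃ d : B, d ∉ n ∧ (d : F) * dl Ψ e ∈ B := by
  have hτs : Ψ (s : F) ∈ B := hmap _ s.2
  refine ⟨⟨Ψ (s : F), hτs⟩ * s' * ⟨c, hc⟩ ^ k, ?_, ?_⟩
  · intro h
    rcases hn.mem_or_mem h with h | h
    · rcases hn.mem_or_mem h with h | h
      · exact map_notMem hmap n hn hfr s hs h
      · exact hs' h
    · exact hcn (hn.mem_of_pow_mem _ h)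
  · push_cast
    have h1 : Ψ (b : F) * b' = ϖ ^ (k + k') * (Ψ (s : F) * s' * c ^ k * dl Ψ e) := by
      rw [← hb, ← hb', map_mul, map_mul, map_pow, hcϖ, dl]
      field_simp
      ring
    have h2 : Ψ (s : F) * s' * c ^ k * dl Ψ e ∈ O :=
      O.mul_mem (O.mul_mem (O.mul_mem (hB.le _ hτs) (hB.le _ s'.2)) (O.pow_mem (hB.le _ hc) _)) heO
    obtain ⟨y, hy, hy'⟩ := hB.sat_pow hϖ0 (k + k') (B.mul_mem (hmap _ b.2) b'.2) ⟨_, h2, h1⟩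
    have : Ψ (s : F) * s' * c ^ k * dl Ψ e = y := by
      apply mul_left_cancel₀ (pow_ne_zero (k + k') hϖ0)
      rw [← h1, hy']
    rw [this]
    exact hy

theorem aux1 (d δ ε : F) (hε : ε ≠ 0) (j : ℕ) :
    (d * δ) ^ (j + 1) - d ^ j * (d * ε⁻¹) = d ^ j * (d * ε⁻¹) * (ε * δ ^ (j + 1) - 1) := by
  have h : ε⁻¹ * ε = 1 := inv_mul_cancel₀ hε
  linear_combination (-(d ^ (j + 1) * δ ^ (j + 1))) * h

theorem aux2 (d δ ε : F) (hδ : δ ≠ 0) (j : ℕ) :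
    (d * δ⁻¹) ^ (j + 1) - d ^ j * (d * ε)
      = -(d ^ (j + 1) * δ⁻¹ ^ (j + 1) * (ε * δ ^ (j + 1) - 1)) := by
  have h : δ⁻¹ ^ (j + 1) * δ ^ (j + 1) = 1 := by rw [← mul_pow, inv_mul_cancel₀ hδ, one_pow]
  linear_combination (d ^ (j + 1) * ε) * h

/-- one branch : `δ` is congruent to a unit of `B_n`. -/
theorem branch {O1 O2 : Subring F} {ϖ : F} (h1 : IsDV O1 ϖ) (h2 : IsDV O2 ϖ) {m : ℕ}
    (hm : 0 < m) {B : Subring F} {p1 p2 : Ideal B} [p1.IsPrime] [IsDedekindDomain (B ⧸ p1)]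
    (hB : Chart2 O1 O2 ϖ m B p1 p2) (n : Ideal B) (hn : n.IsPrime) (hp1 : p1 ≤ n)
    (δ ε : F) (hδ : IsU O1 δ) (hε : ε ≠ 0) (d1 d2 : B) (hd1 : d1 ∉ n) (hd2 : d2 ∉ n)
    (hβ : (d1 : F) * ε ∈ B) (hβ' : (d2 : F) * ε⁻¹ ∈ B)
    (hv : DivS O1 ϖ 1 (ε * δ ^ m - 1)) :
    ∃ c : B, c ∉ n ∧ DivS O1 ϖ 1 ((d2 : F) * δ - (c : F)) := by
  obtain ⟨j, rfl⟩ : ∃ j, m = j + 1 := ⟨m - 1, by omega⟩
  have hBO : ∀ x ∈ B, x ∈ O1 := fun x hx => (hB.chart.le x hx).1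
  have hδ0 : δ ≠ 0 := IsU.ne_zero hδ
  obtain ⟨c, hc⟩ := Chart2.ic1 h1 h2 hB (Nat.succ_pos j) ((d2 : F) * δ)
    (O1.mul_mem (hBO _ d2.2) hδ.mem) (d2 ^ j * ⟨_, hβ'⟩) (by
      push_cast
      rw [aux1 _ _ _ hε]
      exact hv.mul_left (O1.mul_mem (O1.pow_mem (hBO _ d2.2) _) (hBO _ hβ')))
  obtain ⟨c', hc'⟩ := Chart2.ic1 h1 h2 hB (Nat.succ_pos j) ((d1 : F) * δ⁻¹)
    (O1.mul_mem (hBO _ d1.2) hδ.inv_mem) (d1 ^ j * ⟨_, hβ⟩) (by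
      push_cast
      rw [aux2 _ _ _ hδ0]
      exact (hv.mul_left (O1.mul_mem (O1.pow_mem (hBO _ d1.2) _) (O1.pow_mem hδ.inv_mem _))).neg)
  refine ⟨c, fun hcn => ?_, hc⟩
  have h3 : DivS O1 ϖ 1 ((d2 : F) * δ * ((d1 : F) * δ⁻¹) - (c : F) * (c' : F)) :=
    cong_mul (hBO _ c.2) (O1.mul_mem (hBO _ d1.2) hδ.inv_mem) hc hc'
  have h4 : d2 * d1 - c * c' ∈ p1 := by
    rw [hB.mem1]
    push_cast
    have e : (d2 : F) * δ * ((d1 : F) * δ⁻¹) = (d2 : F) * d1 := by field_simp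
    rwa [e] at h3
  have h5 : d2 * d1 ∈ n := by
    have := n.add_mem (hp1 h4) (n.mul_mem_right c' hcn)
    rwa [sub_add_cancel] at this
  rcases hn.mem_or_mem h5 with h | h
  · exact hd2 h
  · exact hd1 h

theorem aux3 (d c δ Pd Pc Pδ : F) (hPδ : Pδ ≠ 0) (Q : ℕ) :
    d ^ Q * Pc * (δ ^ Q / Pδ) - c ^ Q * Pd
      = (((d * δ) ^ Q - c ^ Q) * Pc - c ^ Q * (Pd * Pδ - Pc)) * Pδ⁻¹ := by
  field_simp
  ring

/-- one branch : `f0 = δ ^ Q / Ψ δ` is congruent to `a / t`, `a ≡ t` mod `n`. -/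
theorem branch2 {O1 : Subring F} {ϖ : F} {B : Subring F} (hBO : ∀ x ∈ B, x ∈ O1)
    {Ψ : F ≃+* F} {Q : ℕ} (hΨ1 : IsAutDV O1 Ψ) (hcu : ∃ c, IsU O1 c ∧ Ψ ϖ = c * ϖ)
    (hmap : ∀ x, x ∈ B → Ψ x ∈ B) (n : Ideal B) (hn : n.IsPrime)
    (hfr : ∀ b : B, (⟨Ψ (b : F), hmap _ b.2⟩ : B) - b ^ Q ∈ n)
    (δ : F) (hδ : IsU O1 δ) (d c : B) (hd : d ∉ n) (hc : c ∉ n)
    (hcd : DivS O1 ϖ 1 ((d : F) * δ - (c : F))) :
    ∃ t a : B, t ∉ n ∧ a - t ∈ n ∧ DivS O1 ϖ 1 ((t : F) * (δ ^ Q / Ψ δ) - (a : F)) := by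
  have hΨδ : IsU O1 (Ψ δ) := IsAutDV.isU hΨ1 hδ
  refine ⟨d ^ Q * ⟨Ψ (c : F), hmap _ c.2⟩, c ^ Q * ⟨Ψ (d : F), hmap _ d.2⟩, ?_, ?_, ?_⟩
  · intro h
    rcases hn.mem_or_mem h with h | h
    · exact hd (hn.mem_of_pow_mem _ h)
    · exact map_notMem hmap n hn hfr c hc h
  · have e : c ^ Q * (⟨Ψ (d : F), hmap _ d.2⟩ : B) - d ^ Q * ⟨Ψ (c : F), hmap _ c.2⟩
        = c ^ Q * ((⟨Ψ (d : F), hmap _ d.2⟩ : B) - d ^ Q)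
          - d ^ Q * ((⟨Ψ (c : F), hmap _ c.2⟩ : B) - c ^ Q) := by ring
    rw [e]
    exact n.sub_mem (n.mul_mem_left _ (hfr d)) (n.mul_mem_left _ (hfr c))
  · push_cast
    rw [aux3 _ _ _ _ _ _ (IsU.ne_zero hΨδ)]
    refine DivS.mul_right ?_ hΨδ.inv_mem
    refine DivS.sub ?_ ?_
    · exact (cong_pow (O1.mul_mem (hBO _ d.2) hδ.mem) (hBO _ c.2) hcd Q).mul_right
        (hBO _ (hmap _ c.2))
    · refine DivS.mul_left ?_ (O1.pow_mem (hBO _ c.2) _)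
      have := IsAutDV.divS hΨ1 hcu hcd
      rwa [map_sub, map_mul] at this

/-- glueing the two branches. -/
theorem glue {O1 O2 : Subring F} {ϖ : F} (hϖ0 : ϖ ≠ 0) {m : ℕ} {B : Subring F} {p1 p2 : Ideal B}
    (hB : Chart2 O1 O2 ϖ m B p1 p2) (n : Ideal B) (hn : n.IsMaximal) (hp1 : p1 ≤ n) (hp2 : p2 ≤ n)
    (f0 : F) (t1 a1 t2 a2 : B) (ht1 : t1 ∉ n) (ht2 : t2 ∉ n) (ha1 : a1 - t1 ∈ n)
    (ha2 : a2 - t2 ∈ n) (h1 : DivS O1 ϖ 1 ((t1 : F) * f0 - (a1 : F)))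
    (h2 : DivS O2 ϖ 1 ((t2 : F) * f0 - (a2 : F))) :
    ∃ s b : B, s ∉ n ∧ b ∉ n ∧ DivS (O1 ⊓ O2) ϖ 1 ((s : F) * f0 - (b : F)) := by
  have hprime := hn.isPrime
  obtain ⟨x, hx, hx2⟩ := hB.adm1 n hn hp1 hp2
  have hA : t2 * a1 - t1 * a2 ∈ n := by
    have e : t2 * a1 - t1 * a2 = t2 * (a1 - t1) - t1 * (a2 - t2) := by ring
    rw [e]
    exact n.sub_mem (n.mul_mem_left _ ha1) (n.mul_mem_left _ ha2)
  obtain ⟨s, hs, c, hc⟩ := hx.2 _ hA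
  have ha2n : a2 ∉ n := by
    intro h
    apply ht2
    have := n.sub_mem h ha2
    rwa [sub_sub_cancel] at this
  refine ⟨s * (t1 * t2), s * (t1 * a2) + c * x, ?_, ?_, ?_⟩
  · intro h
    rcases hprime.mem_or_mem h with h | h
    · exact hs h
    · rcases hprime.mem_or_mem h with h | h
      · exact ht1 h
      · exact ht2 h
  · intro h
    have h3 : s * (t1 * a2) ∈ n := by
      have := n.sub_mem h (n.mul_mem_left c hx.1)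
      rwa [add_sub_cancel_right] at this
    rcases hprime.mem_or_mem h3 with h | h
    · exact hs h
    · rcases hprime.mem_or_mem h with h | h
      · exact ht1 h
      · exact ha2n h
  · rw [divS_inf hϖ0]
    constructor
    · have hc' := (hB.mem1 _).1 hc
      push_cast at hc' ⊢
      have e : (s : F) * ((t1 : F) * t2) * f0 - ((s : F) * ((t1 : F) * a2) + (c : F) * x)
          = (s : F) * t2 * ((t1 : F) * f0 - a1)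
            + ((s : F) * ((t2 : F) * a1 - (t1 : F) * a2) - (c : F) * x) := by ring
      rw [e]
      exact (h1.mul_left (O1.mul_mem (hB.chart.le _ s.2).1 (hB.chart.le _ t2.2).1)).add hc'
    · have hx' := (hB.mem2 _).1 hx2
      push_cast
      have e : (s : F) * ((t1 : F) * t2) * f0 - ((s : F) * ((t1 : F) * a2) + (c : F) * x)
          = (s : F) * t1 * ((t2 : F) * f0 - a2) - (c : F) * x := by ring
      rw [e]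
      exact (h2.mul_left (O2.mul_mem (hB.chart.le _ s.2).2 (hB.chart.le _ t1.2).2)).sub
        (hx'.mul_left (hB.chart.le _ c.2).2)

theorem aux4 (ε δ Pε Pδ : F) (hε : ε ≠ 0) (hδ : δ ≠ 0) (hPδ : Pδ ≠ 0) (m Q : ℕ) :
    (δ ^ Q / Pδ) ^ m * (Pε * Pδ ^ m / (ε * δ ^ m) ^ Q) = Pε / ε ^ Q := by
  rw [div_pow, mul_pow, ← pow_mul, ← pow_mul, mul_comm m Q]
  field_simp

theorem aux5 (Pd d S f0 w Pε ε : F) (hε : ε ≠ 0) (j Q : ℕ) (h : f0 ^ (j + 1) * w = Pε / ε ^ Q) :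
    (Pd * d ^ Q * S * f0) ^ (j + 1) * w
      = (Pd * d ^ Q) ^ j * S ^ (j + 1) * (Pd * Pε * (d * ε⁻¹) ^ Q) := by
  rw [mul_pow, mul_assoc, h, mul_pow d, inv_pow, div_eq_mul_inv]
  ring

end GNode

theorem node_step {O1 O2 : Subring F} {ϖ : F} (h1 : IsDV O1 ϖ) (h2 : IsDV O2 ϖ) {m : ℕ}
    (hm : 0 < m) {B : Subring F} {p1 p2 : Ideal B} [p1.IsPrime] [p2.IsPrime]
    [IsDedekindDomain (B ⧸ p1)] [IsDedekindDomain (B ⧸ p2)]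
    (hB : Chart2 O1 O2 ϖ m B p1 p2) (Ψ : F ≃+* F) (Q : ℕ) (hQ : 0 < Q)
    (hΨ1 : IsAutDV O1 Ψ) (hΨ2 : IsAutDV O2 Ψ) (hΨB : FrobB O1 ϖ B p2 Ψ Q)
    (n : Ideal B) (hn : n.IsMaximal) (hp1 : p1 ≤ n) (hp2 : p2 ≤ n)
    (u h : F) (hu : u ≠ 0) (hlp : LP ϖ m B hB.chart.unif_mem n u) (hh : IsU (O1 ⊓ O2) h)
    (hv : DivS (O1 ⊓ O2) ϖ 1 (dl Ψ u / h ^ m - 1)) :
    ∃ f ∈ MM m (dQ Ψ Q (dl Ψ u / h ^ m)) B, ∃ b : B, b ∉ n ∧ DivS (O1 ⊓ O2) ϖ 1 (f - (b : F)) := by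
  obtain ⟨G, b1, hG, hub, ⟨s, hs, k, b, hb⟩, ⟨s', hs', k', b', hb'⟩⟩ := hlp
  obtain ⟨c, hc, hci, hcϖ⟩ := hΨB.unif
  have hϖ0 := h1.ne_zero
  have hprime : n.IsPrime := hn.isPrime
  have hmap := hΨB.map
  have hfr : ∀ b : B, (⟨Ψ (b : F), hmap _ b.2⟩ : B) - b ^ Q ∈ n := frob_node hB hΨB n hp1 hp2
  have hb10 : b1 ≠ 0 := by
    rintro rfl
    rw [zero_mul] at hub
    exact hu hub
  have hc0 : c ≠ 0 := by
    rintro rfl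
    rw [zero_mul] at hcϖ
    exact hϖ0 ((map_eq_zero Ψ).mp hcϖ)
  have hcn : (⟨c, hc⟩ : B) ∉ n := GNode.unit_notMem n hn.ne_top hc0 hc hci
  have hcu1 : ∃ c, IsU O1 c ∧ Ψ ϖ = c * ϖ := ⟨c, IsU.mk hc0 (hB.chart.le _ hc).1 (hB.chart.le _ hci).1, hcϖ⟩
  have hcu2 : ∃ c, IsU O2 c ∧ Ψ ϖ = c * ϖ := ⟨c, IsU.mk hc0 (hB.chart.le _ hc).2 (hB.chart.le _ hci).2, hcϖ⟩
  have hdlU : ∀ x : F, x ≠ 0 → IsU (O1 ⊓ O2) (dl Ψ x) := fun x hx =>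
    IsU.inf (IsDV.dl_isU h1 hΨ1 hcu1 hx) (IsDV.dl_isU h2 hΨ2 hcu2 hx)
  replace hb : (s : F) * ϖ ^ k * b1 = b := hb
  replace hb' : (s' : F) * ϖ ^ k' * b1⁻¹ = b' := hb'
  set ε : F := dl Ψ b1 with hε
  have hε0 : ε ≠ 0 := IsU.ne_zero (hdlU b1 hb10)
  obtain ⟨d1, hd1, hβ⟩ := GNode.key hB.chart hϖ0 hmap n hprime hfr c hc hcn hcϖ b1 hb10
    (hdlU b1 hb10).mem s s' b b' k k' hs hs' hb hb'
  obtain ⟨d2, hd2, hβ'⟩ := GNode.key hB.chart hϖ0 hmap n hprime hfr c hc hcn hcϖ b1⁻¹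
    (inv_ne_zero hb10) (hdlU _ (inv_ne_zero hb10)).mem s' s b' b k' k hs' hs hb'
    (by rw [inv_inv]; exact hb)
  have hinv : dl Ψ b1⁻¹ = ε⁻¹ := by
    rw [hε, dl, dl, map_inv₀]
    field_simp
  rw [hinv] at hβ'
  rw [← hε] at hβ
  set δ : F := dl Ψ G / h with hδ
  have hδU : IsU (O1 ⊓ O2) δ := IsU.div (hdlU G hG) hh
  have hδ0 : δ ≠ 0 := IsU.ne_zero hδU
  have hh0 : h ≠ 0 := IsU.ne_zero hh
  have hv' : dl Ψ u / h ^ m = ε * δ ^ m := by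
    rw [hub, hε, hδ, dl, dl, dl, map_mul, map_pow, div_pow, div_pow]
    field_simp
  rw [hv'] at hv ⊢
  rw [divS_inf hϖ0] at hv
  obtain ⟨c1, hc1n, hc1⟩ := GNode.branch h1 h2 hm hB n hprime hp1 δ ε (IsU.left hδU) hε0 d1 d2
    hd1 hd2 hβ hβ' hv.1
  obtain ⟨c2, hc2n, hc2⟩ := GNode.branch h2 h1 hm (Chart2.swap hB) n hprime hp2 δ ε
    (IsU.right hδU) hε0 d1 d2 hd1 hd2 hβ hβ' hv.2
  obtain ⟨t1, a1, ht1, ha1, hta1⟩ := GNode.branch2 (fun x hx => (hB.chart.le x hx).1) hΨ1 hcu1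
    hmap n hprime hfr δ (IsU.left hδU) d2 c1 hd2 hc1n hc1
  obtain ⟨t2, a2, ht2, ha2, hta2⟩ := GNode.branch2 (fun x hx => (hB.chart.le x hx).2) hΨ2 hcu2
    hmap n hprime hfr δ (IsU.right hδU) d2 c2 hd2 hc2n hc2
  obtain ⟨S, b0, hS, hb0, hSb⟩ := GNode.glue hϖ0 hB n hn hp1 hp2 (δ ^ Q / Ψ δ) t1 a1 t2 a2 ht1 ht2
    ha1 ha2 hta1 hta2
  have hΨδ0 : Ψ δ ≠ 0 := (map_ne_zero Ψ).mpr hδ0
  set s1 : B := ⟨Ψ (d1 : F), hmap _ d1.2⟩ * d2 ^ Q with hs1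
  have hs1n : s1 ∉ n := by
    intro h
    rcases hprime.mem_or_mem h with h | h
    · exact GNode.map_notMem hmap n hprime hfr d1 hd1 h
    · exact hd2 (hprime.mem_of_pow_mem _ h)
  refine ⟨(s1 : F) * S * (δ ^ Q / Ψ δ), ?_, s1 * b0, ?_, ?_⟩
  · rw [mem_MM]
    obtain ⟨j, rfl⟩ : ∃ j, m = j + 1 := ⟨m - 1, by omega⟩
    have e1 : (δ ^ Q / Ψ δ) ^ (j + 1) * dQ Ψ Q (ε * δ ^ (j + 1)) = Ψ ε / ε ^ Q := by
      rw [dQ, map_mul, map_pow]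
      exact GNode.aux4 ε δ (Ψ ε) (Ψ δ) hε0 hδ0 hΨδ0 (j + 1) Q
    have hs1F : (s1 : F) = Ψ (d1 : F) * (d2 : F) ^ Q := rfl
    rw [hs1F, GNode.aux5 _ _ _ _ _ _ _ hε0 j Q e1, ← map_mul]
    exact B.mul_mem (B.mul_mem (B.pow_mem (B.mul_mem (hmap _ d1.2) (B.pow_mem d2.2 _)) _)
      (B.pow_mem S.2 _)) (B.mul_mem (hmap _ hβ) (B.pow_mem hβ' _))
  · intro h
    rcases hprime.mem_or_mem h with h | h
    · exact hs1n h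
    · exact hb0 h
  · push_cast
    have e : (s1 : F) * S * (δ ^ Q / Ψ δ) - (s1 : F) * b0
        = (s1 : F) * ((S : F) * (δ ^ Q / Ψ δ) - b0) := by ring
    rw [e]
    exact hSb.mul_left (hB.chart.le _ s1.2)

end Fermat.Agent.S35
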