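import Fermat.Agent.S35.GSmooth
import Fermat.Agent.S35.GLP
import Fermat.Agent.S35.GNode

/-!
# S35, geometry, abstract block : [GA-TOR] `(Ψ - Q)` kills the toric part
-/

set_option autoImplicit false

namespace Fermat.Agent.S35

open Fermat.Agent.S34 Fermat.Agent.ES.Model

variable {F : Type*} [Field F]

namespace GTr

/-- the local datum at every maximal ideal of one chart. -/
theorem local_all {O1 O2 : Subring F} {ϖ : F} (h1 : IsDV O1 ϖ) (h2 : IsDV O2 ϖ) {m : ℕ}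
    (hm : 0 < m) {B : Subring F} {p1 p2 : Ideal B} [p1.IsPrime] [p2.IsPrime]
    [IsDedekindDomain (B ⧸ p1)] [IsDedekindDomain (B ⧸ p2)]
    (hB : Chart2 O1 O2 ϖ m B p1 p2) (Ψ : F ≃+* F) (Q : ℕ) (hQ : 0 < Q)
    (hΨ1 : IsAutDV O1 Ψ) (hΨ2 : IsAutDV O2 Ψ) (hΨB : FrobB O1 ϖ B p2 Ψ Q)
    (u h : F) (hu : u ≠ 0) (hlp : LPall ϖ m B hB.chart.unif_mem u) (hh : IsU (O1 ⊓ O2) h)
    (hv : DivS (O1 ⊓ O2) ϖ 1 (dl Ψ u / h ^ m - 1))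
    (hw : DivS (O1 ⊓ O2) ϖ 1 (dQ Ψ Q (dl Ψ u / h ^ m) - 1))
    (n : Ideal B) (hn : n.IsMaximal) (hϖn : (⟨ϖ, hB.chart.unif_mem⟩ : B) ∈ n) :
    ∃ f ∈ MM m (dQ Ψ Q (dl Ψ u / h ^ m)) B, ∃ b : B, b ∉ n ∧
      DivS (O1 ⊓ O2) ϖ 1 (f - (b : F)) := by
  have hlpw : LP ϖ m B hB.chart.unif_mem n (dQ Ψ Q (dl Ψ u / h ^ m)) :=
    LPall.deltaQ hΨB.map hΨB.symm hΨB.unif Q hlp hh.ne_zero n hn hϖn
  by_cases hp2 : p2 ≤ n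
  · by_cases hp1 : p1 ≤ n
    · exact node_step h1 h2 hm hB Ψ Q hQ hΨ1 hΨ2 hΨB n hn hp1 hp2 u h hu (hlp n hn hϖn) hh hv
    · have := smooth_step h2 h1 hm hB.swap n hn hϖn hp1 _ (by rwa [inf_comm]) hlpw
      rwa [inf_comm] at this
  · exact smooth_step h1 h2 hm hB n hn hϖn hp2 _ hw hlpw

end GTr

theorem tor_abs {O1 O2 : Subring F} {ϖ : F} (h1 : IsDV O1 ϖ) (h2 : IsDV O2 ϖ) (m : ℕ) (hm : 0 < m)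
    (R B1 B2 B12 : Subring F) [IsNoetherianRing R] (hR1 : R ≤ B1) (hR2 : R ≤ B2) (hϖR : ϖ ∈ R)
    (p1 p2 : Ideal B1) [p1.IsPrime] [p2.IsPrime]
    [IsDedekindDomain (B1 ⧸ p1)] [IsDedekindDomain (B1 ⧸ p2)]
    (hB1 : Chart2 O1 O2 ϖ m B1 p1 p2)
    (q1 q2 : Ideal B2) [q1.IsPrime] [q2.IsPrime]
    [IsDedekindDomain (B2 ⧸ q1)] [IsDedekindDomain (B2 ⧸ q2)]
    (hB2 : Chart2 O1 O2 ϖ m B2 q1 q2)
    (h12 : IsChartS (O1 ⊓ O2) ϖ m B12) (h1le : B1 ≤ B12) (h2le : B2 ≤ B12)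
    (t : F) (ht : t ≠ 0) (ht1 : t ∈ B1) (ht2 : t⁻¹ ∈ B2)
    (h12a : ∀ x ∈ B12, ∃ n : ℕ, t ^ n * x ∈ B1) (h12b : ∀ x ∈ B12, ∃ n : ℕ, t⁻¹ ^ n * x ∈ B2)
    (hfin : ∃ S : Finset F, ∀ x ∈ B1,
      x ∈ Submodule.span (Subring.closure ((R : Set F) ∪ {t})) (S : Set F))
    (Ψ : F ≃+* F) (Q : ℕ) (hQ : 0 < Q) (hΨ1 : IsAutDV O1 Ψ) (hΨ2 : IsAutDV O2 Ψ)
    (hΨB1 : FrobB O1 ϖ B1 p2 Ψ Q) (hΨB2 : FrobB O1 ϖ B2 q2 Ψ Q)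
    (u h : F) (hu : u ≠ 0) (hlp1 : LPall ϖ m B1 hB1.chart.unif_mem u)
    (hlp2 : LPall ϖ m B2 hB2.chart.unif_mem u) (hh : IsU (O1 ⊓ O2) h)
    (hv : DivS (O1 ⊓ O2) ϖ 1 (dl Ψ u / h ^ m - 1)) :
    ∃ z : F, z ≠ 0 ∧ z ^ m * dQ Ψ Q (dl Ψ u / h ^ m) ∈ B1 ∧
      z ^ m * dQ Ψ Q (dl Ψ u / h ^ m) ∈ B2 := by
  have hϖ0 : ϖ ≠ 0 := h1.ne_zero
  set v : F := dl Ψ u / h ^ m with hvdef
  have hone : ∀ {O : Subring F}, IsU O (1 : F) := fun {O} => ⟨one_ne_zero, one_mem _, by simp⟩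
  -- the unit `c`
  obtain ⟨c, hcB, hcB', hc⟩ := hΨB1.unif
  have hc0 : c ≠ 0 := by
    rintro rfl
    rw [zero_mul] at hc
    exact hϖ0 ((map_eq_zero Ψ).1 hc)
  have hcU : IsU (O1 ⊓ O2) c := ⟨hc0, hB1.chart.le _ hcB, hB1.chart.le _ hcB'⟩
  have key : ∀ {O : Subring F}, IsDV O ϖ → IsAutDV O Ψ → IsU O c → DivS O ϖ 1 (v - 1) →
      DivS O ϖ 1 (dQ Ψ Q v - 1) := by
    intro O hO hΨ hcO hv1
    have hvU : IsU O v := hO.isU_of_sub hone hv1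
    have h3 : DivS O ϖ 1 (Ψ v - 1) := by
      have := hΨ.divS ⟨c, hcO, hc⟩ hv1
      rwa [map_sub, map_one] at this
    have h4 : DivS O ϖ 1 (v ^ Q - 1) := by
      have := cong_pow (O := O) (ϖ := ϖ) hvU.2.1 (one_mem _) hv1 Q
      rwa [one_pow] at this
    refine cong_div (hvU.pow Q) ?_
    obtain ⟨y, hy, e⟩ := h3
    obtain ⟨y', hy', e'⟩ := h4
    exact ⟨y - y', sub_mem hy hy', by linear_combination e - e'⟩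
  have hv12 := (divS_inf hϖ0).1 hv
  have hw1 : DivS (O1 ⊓ O2) ϖ 1 (dQ Ψ Q v - 1) :=
    (divS_inf hϖ0).2 ⟨key h1 hΨ1 hcU.left hv12.1, key h2 hΨ2 hcU.right hv12.2⟩
  have hw0 : dQ Ψ Q v ≠ 0 :=
    (h1.isU_of_sub hone ((divS_inf hϖ0).1 hw1).1).ne_zero
  obtain ⟨a, ha, b, hb, hb0, hab⟩ := hB1.frac (dQ Ψ Q v)
  obtain ⟨z, hz, hz1, hz2, -⟩ := abs_semi_local (O1 ⊓ O2) ϖ (h1.isSemi_inf h2) m hm R B1 B2 B12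
    hR1 hR2 hϖR hB1.chart hB2.chart h12 h1le h2le t ht ht1 ht2 h12a h12b hfin (dQ Ψ Q v) hw0 hw1
    ⟨b, hb, hb0, by rw [mul_comm, hab]; exact ha⟩
    (fun n hn hϖn => GTr.local_all h1 h2 hm hB1 Ψ Q hQ hΨ1 hΨ2 hΨB1 u h hu hlp1 hh hv hw1 n hn hϖn)
    (fun n hn hϖn => GTr.local_all h1 h2 hm hB2 Ψ Q hQ hΨ1 hΨ2 hΨB2 u h hu hlp2 hh hv hw1 n hn hϖn)
  exact ⟨z, hz, hz1, hz2⟩

end Fermat.Agent.S35
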