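import Fermat.Agent.S35.GDV
import Fermat.Agent.S35.GLP
import Fermat.Agent.S35.GTor

/-!
# S35, geometry, abstract block, package [GA-NEW] : the norm relations, weak approximation, and the
output `new_abs`
-/

set_option autoImplicit false
set_option linter.unusedVariables false

namespace Fermat.Agent.S35

open Fermat.Agent.S34 Fermat.Agent.ES.Model

variable {F : Type*} [Field F]

namespace GNew

variable {F0 : Type*} [Field F0]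

/-- a ring hom mapping `O0` to `O` and `ϖ0` to `ϖ` preserves divisibility. -/
theorem divS_map {O : Subring F} {ϖ : F} {O0 : Subring F0} {ϖ0 : F0} (al : F0 →+* F)
    (al_mem : ∀ a ∈ O0, al a ∈ O) (al_unif : al ϖ0 = ϖ) {x : F0} (hx : DivS O0 ϖ0 1 x) :
    DivS O ϖ 1 (al x) := by
  obtain ⟨y, hy, rfl⟩ := hx
  exact ⟨al y, al_mem y hy, by rw [map_mul, map_pow, al_unif]⟩

theorem isU_map {O : Subring F} {O0 : Subring F0} (al : F0 →+* F)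
    (al_mem : ∀ a ∈ O0, al a ∈ O) {x : F0} (hx : IsU O0 x) : IsU O (al x) :=
  IsU.mk ((map_ne_zero al).2 hx.ne_zero) (al_mem x hx.mem)
    (by rw [← map_inv₀]; exact al_mem _ hx.inv_mem)

/-- `φ0² z / z` is a unit. -/
theorem isU_dl2 {O0 : Subring F0} {ϖ0 : F0} (h0 : IsDV O0 ϖ0) {φ0 : F0 ≃+* F0}
    (aut0 : IsAutDV O0 φ0) (unif0 : ∃ c, IsU O0 c ∧ φ0 ϖ0 = c * ϖ0) {z : F0} (hz : z ≠ 0) :
    IsU O0 (φ0 (φ0 z) / z) := by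
  have hz1 : φ0 z ≠ 0 := (map_ne_zero φ0).2 hz
  have e : φ0 (φ0 z) / z = dl φ0 (φ0 z) * dl φ0 z := by
    unfold dl
    field_simp
  rw [e]
  exact (h0.dl_isU aut0 unif0 hz1).mul (h0.dl_isU aut0 unif0 hz)

/-- level `M₀`: `φ0² a ≡ a (φ0 ζ2 / ζ1) ^ m`. -/
theorem level0 {O0 : Subring F0} {ϖ0 : F0} {φ0 : F0 ≃+* F0}
    (aut0 : IsAutDV O0 φ0) (unif0 : ∃ c, IsU O0 c ∧ φ0 ϖ0 = c * ϖ0) {m : ℕ}
    {a b ζ1 ζ2 : F0} (ha : a ∈ O0) (hb : b ∈ O0) (hζ1 : IsU O0 ζ1)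
    (h1 : DivS O0 ϖ0 1 (ζ1 ^ m - a * φ0 b)) (h2 : DivS O0 ϖ0 1 (ζ2 ^ m - b * φ0 a)) :
    DivS O0 ϖ0 1 (φ0 (φ0 a) - a * (φ0 ζ2 / ζ1) ^ m) := by
  have h3 := aut0.divS unif0 h2
  rw [map_sub, map_pow, map_mul] at h3
  have hA : φ0 (φ0 a) ∈ O0 := aut0.map _ (aut0.map _ ha)
  have hz := hζ1.ne_zero
  have e : φ0 (φ0 a) - a * (φ0 ζ2 / ζ1) ^ m
      = (ζ1 ^ m)⁻¹ * ((ζ1 ^ m - a * φ0 b) * φ0 (φ0 a)
        - a * (φ0 ζ2 ^ m - φ0 b * φ0 (φ0 a))) := by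
    rw [div_pow]
    field_simp
    ring
  rw [e]
  exact ((h1.mul_right hA).sub (h3.mul_left ha)).mul_left (hζ1.pow m).inv_mem

/-- one branch. -/
theorem branch {O : Subring F} {ϖ : F} {O0 : Subring F0} {ϖ0 : F0} {φ0 : F0 ≃+* F0}
    (aut0 : IsAutDV O0 φ0) (unif0 : ∃ c, IsU O0 c ∧ φ0 ϖ0 = c * ϖ0)
    (al : F0 →+* F) (al_mem : ∀ a ∈ O0, al a ∈ O) (al_unif : al ϖ0 = ϖ)
    {Ψ : F ≃+* F} (hΨ : IsAutDV O Ψ) (hc : ∃ c, IsU O c ∧ Ψ ϖ = c * ϖ)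
    (Ψ_al : ∀ a, Ψ (al a) = al (φ0 (φ0 a))) {m : ℕ} {u1 : F} (hu1 : IsU O u1)
    {a b ζ1 ζ2 : F0} (ha : a ∈ O0) (hb : b ∈ O0) (hζ1 : IsU O0 ζ1) (hζ2 : IsU O0 ζ2)
    (hua : DivS O ϖ 1 (u1 - al a))
    (h1 : DivS O0 ϖ0 1 (ζ1 ^ m - a * φ0 b)) (h2 : DivS O0 ϖ0 1 (ζ2 ^ m - b * φ0 a)) :
    DivS O ϖ 1 (dl Ψ u1 - al (φ0 ζ2 / ζ1) ^ m) := by
  set c1 := φ0 ζ2 / ζ1 with hc1
  have hc1U : IsU O0 c1 := (aut0.isU hζ2).div hζ1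
  have hcm : al c1 ^ m ∈ O := O.pow_mem (al_mem _ hc1U.mem) m
  have s1 : DivS O ϖ 1 (Ψ u1 - al (φ0 (φ0 a))) := by
    have := hΨ.divS hc hua
    rwa [map_sub, Ψ_al] at this
  have s2 : DivS O ϖ 1 (al (φ0 (φ0 a)) - al a * al c1 ^ m) := by
    have := divS_map al al_mem al_unif (level0 aut0 unif0 ha hb hζ1 h1 h2)
    rwa [map_sub, map_mul, map_pow] at this
  have s3 : DivS O ϖ 1 (al a * al c1 ^ m - al c1 ^ m * u1) := by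
    have := (hua.mul_left hcm).neg
    have e : al a * al c1 ^ m - al c1 ^ m * u1 = -(al c1 ^ m * (u1 - al a)) := by ring
    rwa [e]
  exact cong_div hu1 (DivS.trans (DivS.trans s1 s2) s3)

end GNew

open GNew

/-- steps A, B, C : `(Ψ - 1)² u ≡ h ^ m` mod `ϖ O` with `h ∈ Oˣ`. -/
theorem exists_root_mod {F0 : Type*} [Field F0] {O1 O2 : Subring F} {ϖ : F} (h1 : IsDV O1 ϖ)
    (h2 : IsDV O2 ϖ) {O0 : Subring F0} {ϖ0 : F0} {al be : F0 →+* F} {nA nB : F →* F0}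
    {Ψ : F ≃+* F} {φ0 : F0 ≃+* F0} (L : Lvl0 O1 O2 ϖ O0 ϖ0 al be nA nB Ψ φ0)
    (hΨ1 : IsAutDV O1 Ψ) (hΨ2 : IsAutDV O2 Ψ) (hc : ∃ c, IsU (O1 ⊓ O2) c ∧ Ψ ϖ = c * ϖ)
    {m : ℕ} (hm : 0 < m) (u : F) (hu : u ≠ 0) (hA : ∃ z, nA u = z ^ m) (hB : ∃ z, nB u = z ^ m) :
    ∃ h : F, IsU (O1 ⊓ O2) h ∧ DivS (O1 ⊓ O2) ϖ 1 (dl Ψ (dl Ψ u) / h ^ m - 1) := by
  obtain ⟨c, hcU, hcϖ⟩ := hc
  have hc1 : ∃ c, IsU O1 c ∧ Ψ ϖ = c * ϖ := ⟨c, hcU.left, hcϖ⟩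
  have hc2 : ∃ c, IsU O2 c ∧ Ψ ϖ = c * ϖ := ⟨c, hcU.right, hcϖ⟩
  obtain ⟨z1, hz1⟩ := hA
  obtain ⟨z2, hz2⟩ := hB
  set u1 := dl Ψ u with hu1
  have hU1 : IsU O1 u1 := h1.dl_isU hΨ1 hc1 hu
  have hU2 : IsU O2 u1 := h2.dl_isU hΨ2 hc2 hu
  -- the norms of `u`
  have hn : ∀ ν : F →* F0, ν u ≠ 0 := by
    intro ν h0
    have : ν (u * u⁻¹) = 0 := by rw [map_mul, h0, zero_mul]
    rw [mul_inv_cancel₀ hu, map_one] at this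
    exact one_ne_zero this
  have hz10 : z1 ≠ 0 := by
    rintro rfl
    exact hn nA (by rw [hz1, zero_pow hm.ne'])
  have hz20 : z2 ≠ 0 := by
    rintro rfl
    exact hn nB (by rw [hz2, zero_pow hm.ne'])
  have hdiv : ∀ ν : F →* F0, ν u1 = ν (Ψ u) / ν u := by
    intro ν
    rw [eq_div_iff (hn ν), ← map_mul, hu1, dl, div_mul_cancel₀ _ hu]
  set ζ1 := φ0 (φ0 z1) / z1 with hζ1
  set ζ2 := φ0 (φ0 z2) / z2 with hζ2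
  have hζ1U : IsU O0 ζ1 := isU_dl2 L.dv0 L.aut0 L.unif0 hz10
  have hζ2U : IsU O0 ζ2 := isU_dl2 L.dv0 L.aut0 L.unif0 hz20
  have hnA : nA u1 = ζ1 ^ m := by
    rw [hdiv, L.nA_Ψ, hz1, map_pow, map_pow, ← div_pow]
  have hnB : nB u1 = ζ2 ^ m := by
    rw [hdiv, L.nB_Ψ, hz2, map_pow, map_pow, ← div_pow]
  -- the residues
  obtain ⟨a, ha, hua⟩ := L.surj1 u1 hU1.mem
  obtain ⟨b, hb, hub⟩ := L.surj2 u1 hU2.mem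
  obtain ⟨n1, n2⟩ := L.norm u1 ⟨hU1.mem, hU2.mem⟩ a ha b hb hua hub
  rw [hnA] at n1
  rw [hnB] at n2
  set c1 := φ0 ζ2 / ζ1 with hc1d
  set c2 := φ0 ζ1 / ζ2 with hc2d
  have b1 : DivS O1 ϖ 1 (dl Ψ u1 - al c1 ^ m) :=
    branch L.aut0 L.unif0 al (fun x hx => (L.al_mem x hx).1) L.al_unif hΨ1 hc1 L.Ψ_al hU1 ha hb
      hζ1U hζ2U hua n1 n2
  have b2 : DivS O2 ϖ 1 (dl Ψ u1 - be c2 ^ m) :=
    branch L.aut0 L.unif0 be (fun x hx => (L.be_mem x hx).2) L.be_unif hΨ2 hc2 L.Ψ_be hU2 hb ha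
      hζ2U hζ1U hub n2 n1
  have hc1U : IsU O0 c1 := (L.aut0.isU hζ2U).div hζ1U
  have hc2U : IsU O0 c2 := (L.aut0.isU hζ1U).div hζ2U
  -- weak approximation
  obtain ⟨e, he, he1, he2⟩ := L.idem
  set h := e * al c1 + (1 - e) * be c2 with hh
  have hd : al c1 - be c2 ∈ O1 ⊓ O2 :=
    (O1 ⊓ O2).sub_mem (L.al_mem _ hc1U.mem) (L.be_mem _ hc2U.mem)
  have g1 : DivS O1 ϖ 1 (h - al c1) := by
    have : h - al c1 = (e - 1) * (al c1 - be c2) := by rw [hh]; ring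
    rw [this]
    exact he1.mul_right hd.1
  have g2 : DivS O2 ϖ 1 (h - be c2) := by
    have : h - be c2 = e * (al c1 - be c2) := by rw [hh]; ring
    rw [this]
    exact he2.mul_right hd.2
  have ha1 : IsU O1 (al c1) := isU_map al (fun x hx => (L.al_mem x hx).1) hc1U
  have hb2 : IsU O2 (be c2) := isU_map be (fun x hx => (L.be_mem x hx).2) hc2U
  have hh1 : IsU O1 h := h1.isU_of_sub ha1 g1
  have hh2 : IsU O2 h := h2.isU_of_sub hb2 g2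
  refine ⟨h, hh1.inf hh2, (divS_inf h1.ne_zero).2 ⟨?_, ?_⟩⟩
  · apply cong_div (hh1.pow m)
    rw [one_mul]
    exact DivS.trans b1 (DivS.symm (cong_pow hh1.mem ha1.mem g1 m))
  · apply cong_div (hh2.pow m)
    rw [one_mul]
    exact DivS.trans b2 (DivS.symm (cong_pow hh2.mem hb2.mem g2 m))

/-- **OUTPUT of the abstract block.** -/
theorem new_abs {F0 : Type*} [Field F0] {O1 O2 : Subring F} {ϖ : F} (h1 : IsDV O1 ϖ)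
    (h2 : IsDV O2 ϖ) (m : ℕ) (hm : 0 < m)
    (R B1 B2 B12 : Subring F) [IsNoetherianRing R] (hR1 : R ≤ B1) (hR2 : R ≤ B2) (hϖR : ϖ ∈ R)
    (p1 p2 : Ideal B1) [p1.IsPrime] [p2.IsPrime]
    [IsDedekindDomain (B1 ⧸ p1)] [IsDedekindDomain (B1 ⧸ p2)]
    (hB1 : Chart2 O1 O2 ϖ m B1 p1 p2)
    (q1 q2 : Ideal B2) [q1.IsPrime] [q2.IsPrime]
    [IsDedekindDomain (B2 ⧸ q1)] [IsDedekindDomain (B2 ⧸ q2)]
    (hB2 : Chart2 O1 O2 ϖ m B2 q1 q2)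
    (h12 : IsChartS (O1 ⊓ O2) ϖ m B12) (h1le : B1 ≤ B12) (h2le : B2 ≤ B12)
    (t : F) (ht : t ≠ 0) (ht1 : t ∈ B1) (ht2 : t⁻¹ ∈ B2)
    (h12a : ∀ x ∈ B12, ∃ n : ℕ, t ^ n * x ∈ B1) (h12b : ∀ x ∈ B12, ∃ n : ℕ, t⁻¹ ^ n * x ∈ B2)
    (hfin : ∃ S : Finset F, ∀ x ∈ B1,
      x ∈ Submodule.span (Subring.closure ((R : Set F) ∪ {t})) (S : Set F))
    (Ψ : F ≃+* F) (Q : ℕ) (hQ : 0 < Q) (hΨ1 : IsAutDV O1 Ψ) (hΨ2 : IsAutDV O2 Ψ)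
    (hΨB1 : FrobB O1 ϖ B1 p2 Ψ Q) (hΨB2 : FrobB O1 ϖ B2 q2 Ψ Q)
    {O0 : Subring F0} {ϖ0 : F0} {al be : F0 →+* F} {nA nB : F →* F0} {φ0 : F0 ≃+* F0}
    (L : Lvl0 O1 O2 ϖ O0 ϖ0 al be nA nB Ψ φ0)
    (u : F) (hu : u ≠ 0) (hlp1 : LPall ϖ m B1 hB1.chart.unif_mem u)
    (hlp2 : LPall ϖ m B2 hB2.chart.unif_mem u)
    (hA : ∃ z, nA u = z ^ m) (hB : ∃ z, nB u = z ^ m) :
    ∃ z : F, z ≠ 0 ∧ z ^ m * dQ Ψ Q (dl Ψ (dl Ψ u)) ∈ B1 ∧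
      z ^ m * dQ Ψ Q (dl Ψ (dl Ψ u)) ∈ B2 := by
  have hc : ∃ c, IsU (O1 ⊓ O2) c ∧ Ψ ϖ = c * ϖ := by
    obtain ⟨c, hc1, hc2, hc3⟩ := hΨB1.unif
    refine ⟨c, IsU.mk ?_ (hB1.chart.le c hc1) (hB1.chart.le _ hc2), hc3⟩
    rintro rfl
    rw [zero_mul] at hc3
    exact h1.ne_zero ((map_eq_zero Ψ).1 hc3)
  obtain ⟨h, hhU, hv⟩ := exists_root_mod h1 h2 L hΨ1 hΨ2 hc hm u hu hA hB
  have hΨu : Ψ u ≠ 0 := (map_ne_zero Ψ).2 hu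
  have hu1 : dl Ψ u ≠ 0 := div_ne_zero hΨu hu
  obtain ⟨z, hz, hz1, hz2⟩ := tor_abs h1 h2 m hm R B1 B2 B12 hR1 hR2 hϖR p1 p2 hB1 q1 q2 hB2
    h12 h1le h2le t ht ht1 ht2 h12a h12b hfin Ψ Q hQ hΨ1 hΨ2 hΨB1 hΨB2 (dl Ψ u) h hu1
    (LPall.delta hΨB1.map hΨB1.symm hΨB1.unif hlp1)
    (LPall.delta hΨB2.map hΨB2.symm hΨB2.unif hlp2) hhU hv
  have hh0 := hhU.ne_zero
  have hΨh : Ψ h ≠ 0 := (map_ne_zero Ψ).2 hh0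
  set x := dl Ψ (dl Ψ u) with hx
  have hx0 : x ≠ 0 := div_ne_zero ((map_ne_zero Ψ).2 hu1) hu1
  have hΨx : Ψ x ≠ 0 := (map_ne_zero Ψ).2 hx0
  have key : z ^ m * dQ Ψ Q (x / h ^ m) = (z / dQ Ψ Q h) ^ m * dQ Ψ Q x := by
    unfold dQ
    rw [map_div₀, map_pow, div_pow, div_pow, div_pow, ← pow_mul, ← pow_mul, mul_comm m Q]
    field_simp
  refine ⟨z / dQ Ψ Q h, div_ne_zero hz (div_ne_zero hΨh (pow_ne_zero _ hh0)), ?_, ?_⟩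
  · rw [← key]; exact hz1
  · rw [← key]; exact hz2

end Fermat.Agent.S35
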