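import Fermat.Agent.S34.UGen
import Fermat.Agent.S35.GNew

/-!
# S35, geometry, modular block : `new_abs` applied to the two charts of level `M₀ q`
(general base DVR; copy of `S34.uni_gen`)
-/

set_option autoImplicit false
set_option linter.unusedVariables false
set_option linter.unusedSectionVars false
set_option linter.style.haveILetI false

noncomputable section

namespace Fermat.Agent.S35

open ModularCurve Polynomial
open Fermat.Agent.ES Fermat.Agent.ES.QE Fermat.Agent.ES.Model Fermat.Agent.S34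

set_option synthInstance.maxHeartbeats 400000 in
set_option maxHeartbeats 2000000 in
/-- **G-GEN.** -/
theorem new_gen {R K k : Type*} [CommRing R] [IsDomain R] [IsDiscreteValuationRing R]
    [Field K] [Algebra R K] [IsFractionRing R K] [Field k] [CharZero K]
    {q : ℕ} [NeZero q] (hq : q.Prime) [CharP k q]
    (D : QData R K k) (T : Two D q) (X : D.Coord)
    (y : LaurentSeries R) (hy : X.xW * y = 1) (m : ℕ) (hm : IsUnit (m : R))
    (hded1 : IsDedekindDomain (X.chart ⧸ Ideal.span {Inst.ϖB X}))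
    (hded2 : IsDedekindDomain ((X.inv y hy).chart ⧸ Ideal.span {Inst.ϖB (X.inv y hy)}))
    (hxq : qExpand k q (D.red X.xW) = D.red X.xW ^ q)
    (hyq : qExpand k q (D.red y) = D.red y ^ q)
    (Φ : TAut T) (hΦ : ∀ c, Φ.sk c = c ^ q)
    (hΦx : coeffMap (Φ.sR : R →+* R) X.xW = X.xW)
    (hΦy : coeffMap (Φ.sR : R →+* R) y = y)
    (hxy1 : XYData T X) (hxy2 : XYData T (X.inv y hy))
    -- the inputs of `new_abs`
    (hdv1 : IsDV T.O1 T.ϖF) (hdv2 : IsDV T.O2 T.ϖF)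
    (hc1 : Chart2 T.O1 T.O2 T.ϖF m (T.chart X) (T.p1 X) (T.p2 X))
    (hc2 : Chart2 T.O1 T.O2 T.ϖF m (T.chart (X.inv y hy)) (T.p1 (X.inv y hy)) (T.p2 (X.inv y hy)))
    (Ψ : T.F ≃+* T.F) (ha1 : IsAutDV T.O1 Ψ) (ha2 : IsAutDV T.O2 Ψ)
    (hf1 : FrobB T.O1 T.ϖF (T.chart X) (T.p2 X) Ψ (q ^ 2))
    (hf2 : FrobB T.O1 T.ϖF (T.chart (X.inv y hy)) (T.p2 (X.inv y hy)) Ψ (q ^ 2))
    {F0 : Type*} [Field F0] {O0 : Subring F0} {ϖ0 : F0} {al be : F0 →+* T.F} {nA nB : T.F →* F0}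
    {φ0 : F0 ≃+* F0} (L : Lvl0 T.O1 T.O2 T.ϖF O0 ϖ0 al be nA nB Ψ φ0)
    (u : T.F) (hu : u ≠ 0)
    (hdiv1 : ∃ (n : ℕ) (g g' : Fin n → T.F), (∀ i, g i ^ m * u ∈ T.away X) ∧
      (∀ i, g' i ^ m * u⁻¹ ∈ T.away X) ∧ ∑ i, g i * g' i = 1)
    (hdiv2 : ∃ (n : ℕ) (g g' : Fin n → T.F), (∀ i, g i ^ m * u ∈ T.away (X.inv y hy)) ∧
      (∀ i, g' i ^ m * u⁻¹ ∈ T.away (X.inv y hy)) ∧ ∑ i, g i * g' i = 1)
    (hrat1 : HRat T X u) (hrat2 : HRat T (X.inv y hy) u)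
    (hA : ∃ z, nA u = z ^ m) (hB : ∃ z, nB u = z ^ m) :
    ∃ (z : T.F) (c : K), z ≠ 0 ∧
      z ^ m * dQ Ψ (q ^ 2) (dl Ψ (dl Ψ u)) = algebraMap K T.F c := by
  have hm0 : 0 < m := by
    rcases Nat.eq_zero_or_pos m with rfl | h
    · rw [Nat.cast_zero] at hm
      exact absurd hm not_isUnit_zero
    · exact h
  have hA' : HDivDesc.IsAway D := Inst.InstDesc.isAway_of_dvr D
  obtain ⟨hVx1, ⟨θ1, hθ1⟩, Xu1, Yu1, c1, e1, hXY1, hXa1, hXb1⟩ := hxy1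
  obtain ⟨hVx2, ⟨θ2, hθ2⟩, Xu2, Yu2, c2, e2, hXY2, hXa2, hXb2⟩ := hxy2
  obtain ⟨pr11, pr12, hp1, d11, d12, hN1⟩ := UChart.chartData T X hq hded1 hxq Φ hΦ hΦx hVx1 θ1 hθ1
    Xu1 Yu1 c1 e1 hXY1 hXa1 hXb1
  obtain ⟨pr21, pr22, hp2, d21, d22, hN2⟩ := UChart.chartData T (X.inv y hy) hq hded2 hyq Φ hΦ hΦy
    hVx2 θ2 hθ2 Xu2 Yu2 c2 e2 hXY2 hXa2 hXb2
  haveI := isNoetherianRing_RF T
  haveI := T.isNoetherianRing_chart X
  haveI := T.isNoetherianRing_chart (X.inv y hy)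
  haveI := T.isFractionRing_chart X
  haveI := T.isFractionRing_chart (X.inv y hy)
  letI := T.algRB X
  letI := T.algRB (X.inv y hy)
  letI := T.algBD X
  letI := T.algBD (X.inv y hy)
  haveI := T.isDedekindDomain_away X hA'
  haveI := T.isDedekindDomain_away (X.inv y hy) hA'
  haveI := T.isFractionRing_away X hA'
  haveI := T.isFractionRing_away (X.inv y hy) hA'
  haveI := T.tower_away X
  haveI := T.tower_away (X.inv y hy)
  haveI := T.isLocalization_away X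
  haveI := T.isLocalization_away (X.inv y hy)
  have conv : ∀ (B : Subring T.F), (∃ (n : ℕ) (g g' : Fin n → T.F), (∀ i, g i ^ m * u ∈ B) ∧
      (∀ i, g' i ^ m * u⁻¹ ∈ B) ∧ ∑ i, g i * g' i = 1) →
      ∃ (ι : Type) (_ : Fintype ι) (g g' : ι → T.F),
      (∀ i, ∃ d : B, algebraMap B T.F d = g i ^ m * u) ∧
      (∀ i, ∃ d : B, algebraMap B T.F d = g' i ^ m * u⁻¹) ∧ ∑ i, g i * g' i = 1 := by
    rintro B ⟨n, g, g', h1, h2, h3⟩
    exact ⟨Fin n, inferInstance, g, g', fun i => ⟨⟨_, h1 i⟩, rfl⟩, fun i => ⟨⟨_, h2 i⟩, rfl⟩, h3⟩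
  have hlp1 : LPall T.ϖF m (T.chart X) hc1.chart.unif_mem u := by
    intro n hn hϖn
    exact lp_chart (R := R) (D := T.away X) D.ϖ D.prime_ϖ.irreducible (T.p1 X) (T.p2 X) hp1 hN1 m
      hm0 u hu (conv _ hdiv1) hrat1 n hn hϖn
  have hlp2 : LPall T.ϖF m (T.chart (X.inv y hy)) hc2.chart.unif_mem u := by
    intro n hn hϖn
    exact lp_chart (R := R) (D := T.away (X.inv y hy)) D.ϖ D.prime_ϖ.irreducible
      (T.p1 (X.inv y hy)) (T.p2 (X.inv y hy)) hp2 hN2 m hm0 u hu (conv _ hdiv2) hrat2 n hn hϖn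
  obtain ⟨z, hz, hz1, hz2⟩ := new_abs hdv1 hdv2 m hm0 T.RF (T.chart X) (T.chart (X.inv y hy))
    (T.chart12 X) (T.RF_le_chart X) (T.RF_le_chart (X.inv y hy)) (ϖF_mem_RF T)
    (T.p1 X) (T.p2 X) hc1 (T.p1 (X.inv y hy)) (T.p2 (X.inv y hy)) hc2
    (by
      have := isChartS12 T X y hy hq hm
      rw [OO_eq] at this
      exact this)
    (chart_le_chart12 T X) (inv_chart_le_chart12 T X y hy)
    (T.x X) (x_ne_zero T X y hy) (x_mem_chart T X) (x_inv_mem_inv_chart T X y hy)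
    (fun x hx => h12a T X hx) (fun x hx => h12b T X y hy hx) (T.hfin_chart X)
    Ψ (q ^ 2) (pow_pos hq.pos 2) ha1 ha2 hf1 hf2 L u hu hlp1 hlp2 hA hB
  obtain ⟨c, hc⟩ := const_of_mem_charts T X y hy _ hz1 hz2
  exact ⟨z, c, hz, hc⟩

end Fermat.Agent.S35
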