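import Fermat.Agent.S35.HKHecke

/-
S35, package NBC-r: base change of the level-lowering norms `normA`, `normB` along the
degeneracy map `α_r` (raising the auxiliary level `M0` to `M0 * r`).
-/

set_option autoImplicit false
set_option linter.style.haveILetI false
set_option linter.unusedSectionVars false

noncomputable section

namespace Fermat.Agent.S35

open ModularCurve AlgebraicCurve Fermat.Agent.S24 Fermat.Agent.ES
open P2MW.S_ModularForm_heckeT_slash_eq_self_of_mem_Gamma0.ModularForm.HeckeSlashInvariance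
open UpperHalfPlane ModularForm Matrix.SpecialLinearGroup
open scoped MatrixGroups
open HKH

variable (M0 q r : ℕ) [NeZero M0] [Fact q.Prime] [NeZero r]

/-- `α_r : FF (M0 q) → FF (M0 r q)`. -/
def alphaC : FF (M0 * q) →+* FF (M0 * r * q) :=
  ((castFF (lvl_eq M0 q r) : FF (M0 * q * r) ≃ₐ[Kb] FF (M0 * r * q)) :
    FF (M0 * q * r) →+* FF (M0 * r * q)).comp
    (heckeAlphaBar Kb (M0 * q) r : FF (M0 * q) →+* FF (M0 * q * r))

theorem alphaC_apply (u : FF (M0 * q)) :
    alphaC M0 q r u = castFF (lvl_eq M0 q r) (heckeAlphaBar Kb (M0 * q) r u) := rfl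

theorem coe_alphaC (u : FF (M0 * q)) :
    ((alphaC M0 q r u : FF (M0 * r * q)) : LaurentSeries Kb) = (u : LaurentSeries Kb) := by
  rw [alphaC_apply, coe_castFF, coe_heckeAlphaBar]

theorem alphaC_alpha (y : FF M0) :
    alphaC M0 q r (heckeAlphaBar Kb M0 q y) =
      heckeAlphaBar Kb (M0 * r) q (heckeAlphaBar Kb M0 r y) := by
  apply Subtype.ext
  rw [coe_alphaC, coe_heckeAlphaBar, coe_heckeAlphaBar, coe_heckeAlphaBar]

theorem alphaC_beta (y : FF M0) :
    alphaC M0 q r (heckeBetaBar Kb M0 q y) =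
      heckeBetaBar Kb (M0 * r) q (heckeAlphaBar Kb M0 r y) := by
  apply Subtype.ext
  rw [coe_alphaC, coe_heckeBetaBar, coe_heckeBetaBar, coe_heckeAlphaBar]

theorem tau_alphaC (x : OnePoint (ZMod q)) (u : FF (M0 * q)) :
    KEmb.tau (M0 * r) q x (alphaC M0 q r u) = sigma (M0 * q) (KEmb.gx (M0 * r) q x)⁻¹ u := by
  rw [KEmb.tau, sigma_apply, alphaC_apply, Psi_castFF, KEmb.Psi_alpha, ← sigma_apply]

variable {M0 q r}

theorem tau_alphaC_injective (hq : ¬ q ∣ M0 * r) {x y : OnePoint (ZMod q)}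
    (h : ∀ u : FF (M0 * q), KEmb.tau (M0 * r) q x (alphaC M0 q r u)
      = KEmb.tau (M0 * r) q y (alphaC M0 q r u)) : x = y := by
  have h1 : sigma (M0 * q) (KEmb.gx (M0 * r) q x)⁻¹ = sigma (M0 * q) (KEmb.gx (M0 * r) q y)⁻¹ := by
    ext u
    have := h u
    rwa [tau_alphaC, tau_alphaC] at this
  rw [sigma_eq_iff, inv_inv] at h1
  apply KEmb.gx_injective hq
  set hh := KEmb.gx (M0 * r) q x * (KEmb.gx (M0 * r) q y)⁻¹ with hhh
  have h2 : hh ∈ CongruenceSubgroup.Gamma0 (M0 * r) :=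
    mul_mem (KEmb.gx_mem _ _ _) (inv_mem (KEmb.gx_mem _ _ _))
  rw [CongruenceSubgroup.Gamma0_mem, ZMod.intCast_zmod_eq_zero_iff_dvd] at h1 h2 ⊢
  have h3 : ((q : ℕ) : ℤ) ∣ hh 1 0 := (Int.natCast_dvd_natCast.mpr (dvd_mul_left q M0)).trans h1
  have hcop : IsCoprime ((M0 * r : ℕ) : ℤ) ((q : ℕ) : ℤ) := by
    rw [Nat.isCoprime_iff_coprime]
    exact (((Nat.Prime.coprime_iff_not_dvd (Fact.out : q.Prime)).2 hq)).symm
  have := hcop.mul_dvd h2 h3
  rwa [← Nat.cast_mul] at this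

/-- **NBC-r** along `α`. -/
theorem nbcA_alpha (hq : ¬ q ∣ M0 * r) (u : FF (M0 * q)) :
    normA (M0 * r) q (alphaC M0 q r u) = heckeAlphaBar Kb M0 r (normA M0 q u) := by
  have hq0 : ¬ q ∣ M0 := fun h => hq (h.mul_right r)
  apply (Psi (M0 * r)).injective
  rw [Psi_normA (M0 * r) q hq, KEmb.Psi_alpha]
  unfold normA
  letI := algebraAlong (heckeAlphaBar Kb M0 q)
  have hfr : Module.finrank (FF M0) (FF (M0 * q)) = q + 1 := finrank_heckeAlpha M0 q hq0
  haveI : FiniteDimensional (FF M0) (FF (M0 * q)) :=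
    Module.finite_of_finrank_pos (by rw [hfr]; exact Nat.succ_pos _)
  have hcard : Fintype.card (OnePoint (ZMod q)) = Module.finrank (FF M0) (FF (M0 * q)) := by
    rw [hfr]
    exact (Fintype.card_option (α := ZMod q)).trans (by rw [ZMod.card])
  have := KEmb.norm_eq_prod (Psi M0)
    (fun x => (KEmb.tau (M0 * r) q x).comp (alphaC M0 q r))
    (fun x y h => tau_alphaC_injective hq fun u => DFunLike.congr_fun h u)
    (fun x c => by
      show KEmb.tau (M0 * r) q x (alphaC M0 q r (heckeAlphaBar Kb M0 q c)) = _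
      rw [alphaC_alpha, KEmb.tau_alpha, KEmb.Psi_alpha]) hcard u
  exact this.symm

theorem Wb_alphaC (hq : ¬ q ∣ M0 * r) (hq0 : ¬ q ∣ M0) (u : FF (M0 * q)) :
    S34.WK.Wb (M0 * r) q hq (alphaC M0 q r u) = alphaC M0 q r (S34.WK.Wb M0 q hq0 u) := by
  have : ((S34.WK.Wb (M0 * r) q hq : FF (M0 * r * q) →+* FF (M0 * r * q)).comp (alphaC M0 q r))
      = (alphaC M0 q r).comp (S34.WK.Wb M0 q hq0 : FF (M0 * q) →+* FF (M0 * q)) := by
    apply S37.KT.ringHom_ext M0 q
    · intro y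
      simp only [RingHom.comp_apply, RingHom.coe_coe, S34.WK.Wb_alpha, alphaC_alpha, alphaC_beta]
    · intro y
      simp only [RingHom.comp_apply, RingHom.coe_coe, S34.WK.Wb_beta, alphaC_alpha, alphaC_beta]
  exact DFunLike.congr_fun this u

/-- **NBC-r** along `β`. -/
theorem nbcB_alpha (hq : ¬ q ∣ M0 * r) (u : FF (M0 * q)) :
    normB (M0 * r) q (alphaC M0 q r u) = heckeAlphaBar Kb M0 r (normB M0 q u) := by
  have hq0 : ¬ q ∣ M0 := fun h => hq (h.mul_right r)
  rw [normB_eq hq, normB_eq hq0, Wb_alphaC hq hq0, nbcA_alpha hq]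

end Fermat.Agent.S35
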