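import Fermat.Agent.S34.NOrth
import Fermat.Agent.ES.KEmb
import Fermat.Prelude.Thm_ModularCurve_coeff_jqModC_pow_self

/-!
# S35, geometry : [NR] reduction of the norm from level `M₀ q` to level `M₀`

For `u ∈ O = O₁ ∩ O₂` :  `red (Norm_α u) = red₁ u * (red₂ u)^(q)` and
`red (Norm_β u) = red₂ u * (red₁ u)^(q)`, where `^(q)` is the coefficientwise Frobenius.

Proof: the `q + 1` embeddings `V ∘ s₁`, `twist (ζ ^ b) ∘ s₂` (`b < q`) of `F_N` over
`V : F_{M₀} → K((T))`; the twists are trivial modulo `ϖ`.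
-/

set_option autoImplicit false
set_option linter.unusedSectionVars false
set_option linter.style.haveILetI false

noncomputable section

namespace Fermat.Agent.S35

open ModularCurve Polynomial Finset
open Fermat.Agent.ES Fermat.Agent.ES.QE Fermat.Agent.ES.Model Fermat.Agent.S34

variable {R K k : Type*} [CommRing R] [IsDomain R] [IsNoetherianRing R] [IsIntegrallyClosed R]
  [Field K] [Algebra R K] [IsFractionRing R K] [Field k]

namespace GNorm

variable {D : QData R K k}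

/-! ### twists -/

/-- `ω` as a unit of `K`. -/
def uK (ω : Rˣ) : Kˣ := Units.map (algebraMap R K : R →* K) ω

lemma coe_uK_zpow (ω : Rˣ) (n : ℤ) :
    (((uK ω : Kˣ) ^ n : Kˣ) : K) = algebraMap R K ((ω ^ n : Rˣ) : R) := by
  rw [uK, ← map_zpow]
  rfl

lemma inc_twist (ω : Rˣ) (w : LaurentSeries R) :
    D.inc (S28.twist ω w) = S28.twist (uK ω) (D.inc w) := by
  ext n
  rw [QData.inc, coeffMap_coeff, S28.twist_coeff, S28.twist_coeff, coeffMap_coeff, map_mul,
    coe_uK_zpow]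

lemma res_zpow (ω : Rˣ) (hω : D.res ω = 1) (n : ℤ) : D.res ((ω ^ n : Rˣ) : R) = 1 := by
  have h1 : Units.map (D.res : R →* k) ω = 1 := Units.ext hω
  have h2 : D.res ((ω ^ n : Rˣ) : R) = ((Units.map (D.res : R →* k) (ω ^ n) : kˣ) : k) := rfl
  rw [h2, map_zpow, h1, one_zpow, Units.val_one]

lemma red_twist (ω : Rˣ) (hω : D.res ω = 1) (w : LaurentSeries R) :
    D.red (S28.twist ω w) = D.red w := by
  ext n
  rw [QData.red, coeffMap_coeff, S28.twist_coeff, coeffMap_coeff, map_mul, res_zpow ω hω, one_mul]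

lemma isFrac_twist (ω : Rˣ) (hω : D.res ω = 1) {f : LaurentSeries K} {t w : LaurentSeries R}
    (h : D.IsFrac f t w) : D.IsFrac (S28.twist (uK ω) f) (S28.twist ω t) (S28.twist ω w) := by
  refine ⟨?_, ?_⟩
  · rw [red_twist ω hω]
    exact h.1
  · rw [inc_twist, inc_twist, ← map_mul, h.2]

theorem twist_mem_LamRing (ω : Rˣ) (hω : D.res ω = 1) {f : LaurentSeries K} (hf : f ∈ D.LamRing) :
    S28.twist (uK ω) f ∈ D.LamRing := by
  obtain ⟨t, w, h⟩ := hf
  exact ⟨_, _, isFrac_twist ω hω h⟩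

theorem rho_twist (ω : Rˣ) (hω : D.res ω = 1) {f : LaurentSeries K} (hf : f ∈ D.LamRing) :
    D.rho ⟨S28.twist (uK ω) f, twist_mem_LamRing ω hω hf⟩ = D.rho ⟨f, hf⟩ := by
  obtain ⟨t, w, h⟩ := hf
  rw [QData.rho_eq (f := ⟨S28.twist (uK ω) f, _⟩) (isFrac_twist ω hω h),
    QData.rho_eq (f := ⟨f, _⟩) h, red_twist ω hω, red_twist ω hω]

/-- a `q`-th root of unity is trivial in characteristic `q`. -/
lemma res_eq_one (q : ℕ) [Fact q.Prime] [CharP k q] (ω : Rˣ) (hω : ω ^ q = 1) :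
    D.res ω = 1 := by
  have h1 : D.res ω ^ q = 1 := by
    rw [← map_pow, ← Units.val_pow_eq_pow_val, hω, Units.val_one, map_one]
  have h2 : (D.res ω - 1) ^ q = 0 := by
    rw [sub_pow_char, h1, one_pow, sub_self]
  exact sub_eq_zero.1 (pow_eq_zero_iff (Fact.out : q.Prime).ne_zero |>.1 h2)

lemma twist_qExpand (q : ℕ) [NeZero q] (ω : Kˣ) (hω : ω ^ q = 1) (f : LaurentSeries K) :
    S28.twist ω (qExpand K q f) = qExpand K q f := by
  ext n
  rw [S28.twist_coeff]
  by_cases hn : (q : ℤ) ∣ n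
  · obtain ⟨m, rfl⟩ := hn
    rw [zpow_mul, zpow_natCast, hω, one_zpow, Units.val_one, one_mul]
  · rw [qExpand_coeff_of_not_dvd q f hn, mul_zero]

/-! ### descent of integrality along `V` -/

theorem mem_gaussO_of_qExpand (q : ℕ) [NeZero q] (c : D.F0)
    (h : qExpand K q (c : LaurentSeries K) ∈ D.LamRing) : c ∈ D.gaussO := by
  by_contra hc
  have hc' : c⁻¹ ∈ D.gaussO := (D.gaussO.mem_or_inv_mem c).resolve_left hc
  have hc0 : (c : LaurentSeries K) ≠ 0 := by
    intro h0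
    apply hc
    have : c = 0 := Subtype.ext h0
    rw [this]
    exact D.gaussO.zero_mem
  have hc'' : (c : LaurentSeries K)⁻¹ ∈ D.LamRing := by
    have := (D.mem_gaussO).1 hc'
    rwa [IntermediateField.coe_inv] at this
  obtain ⟨t, w, ht, hw⟩ := hc''
  have hw0 : D.red w = 0 := by
    by_contra hw0
    apply hc
    rw [D.mem_gaussO]
    refine ⟨w, t, hw0, ?_⟩
    rw [← hw]
    field_simp
  have h1 : D.rho ⟨(c : LaurentSeries K)⁻¹, ⟨t, w, ht, hw⟩⟩ = 0 := by
    rw [QData.rho_eq (f := ⟨(c : LaurentSeries K)⁻¹, _⟩) (⟨ht, hw⟩ : D.IsFrac _ t w), hw0, zero_div]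
  have h2 := NOrth.rho_qExpand q (D := D) (f := (c : LaurentSeries K)⁻¹) ⟨t, w, ht, hw⟩
  rw [h1, map_zero] at h2
  have h3 : (⟨qExpand K q (c : LaurentSeries K)⁻¹, NOrth.qExpand_mem_LamRing q ⟨t, w, ht, hw⟩⟩ :
      D.LamRing) * ⟨qExpand K q (c : LaurentSeries K), h⟩ = 1 := by
    apply Subtype.ext
    rw [Subring.coe_mul, Subring.coe_one, ← map_mul, inv_mul_cancel₀ hc0, map_one]
  have h4 := congrArg D.rho h3
  rw [map_mul, h2, zero_mul, map_one] at h4
  exact zero_ne_one h4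

end GNorm

open GNorm

/-- **[NR], abstract core.** -/
theorem norm_red_core {D : QData R K k} (q : ℕ) [Fact q.Prime] [CharP k q] [CharZero K]
    {F : Type*} [Field F] [Algebra D.F0 F] (hfr : Module.finrank D.F0 F = q + 1)
    (s1 s2 : F →+* LaurentSeries K)
    (h1 : ∀ c : D.F0, s1 (algebraMap D.F0 F c) = (c : LaurentSeries K))
    (h2 : ∀ c : D.F0, s2 (algebraMap D.F0 F c) = qExpand K q (c : LaurentSeries K))
    (θ : F) (hθ : s2 θ = jqModC K) (ζ : Rˣ) (hζ : IsPrimitiveRoot ζ q)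
    (u : F) (hu1 : s1 u ∈ D.LamRing) (hu2 : s2 u ∈ D.LamRing) :
    ∃ hN : Algebra.norm D.F0 u ∈ D.gaussO,
      D.rhoO ⟨Algebra.norm D.F0 u, hN⟩
        = D.rho ⟨s1 u, hu1⟩ * coeffMap (frobenius k q) (D.rho ⟨s2 u, hu2⟩) := by
  classical
  have hq : q.Prime := Fact.out
  have hfd : FiniteDimensional D.F0 F := Module.finite_of_finrank_pos (by rw [hfr]; omega)
  have hch : CharZero D.F0 := charZero_of_injective_algebraMap (algebraMap K D.F0).injective
  -- the roots of unity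
  have hζq : ∀ b : ℕ, (ζ ^ b) ^ q = 1 := fun b => by
    rw [← pow_mul, mul_comm, pow_mul, hζ.pow_eq_one, one_pow]
  have hres : ∀ b : ℕ, D.res ((ζ ^ b : Rˣ) : R) = 1 := fun b => res_eq_one q _ (hζq b)
  have hKq : ∀ b : ℕ, (uK (K := K) (ζ ^ b)) ^ q = 1 := fun b => by
    rw [uK, ← map_pow, hζq, map_one]
  -- the embeddings
  let φ : D.F0 →+* LaurentSeries K := (qExpand K q).comp (algebraMap D.F0 (LaurentSeries K))
  let σ : Option (Fin q) → (F →+* LaurentSeries K) := fun i =>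
    match i with
    | none => (qExpand K q).comp s1
    | some b => (S28.twist (uK (ζ ^ (b : ℕ)))).comp s2
  have hσφ : ∀ i (c : D.F0), σ i (algebraMap D.F0 F c) = φ c := by
    rintro (_ | b) c
    · show qExpand K q (s1 (algebraMap D.F0 F c)) = _
      rw [h1]
      rfl
    · show S28.twist (uK (ζ ^ (b : ℕ))) (s2 (algebraMap D.F0 F c)) = _
      rw [h2, twist_qExpand q _ (hKq b)]
      rfl
  have hj : (jqModC K).coeff (-1) = 1 := by
    have := coeff_jqModC_pow_self K 1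
    simpa using this
  have hcoeff : ∀ b : Fin q, (σ (some b) θ).coeff (-1)
      = algebraMap R K (((ζ ^ (b : ℕ)) ^ (-1 : ℤ) : Rˣ) : R) := by
    intro b
    show (S28.twist (uK (ζ ^ (b : ℕ))) (s2 θ)).coeff (-1) = _
    rw [hθ, S28.twist_coeff, hj, mul_one, coe_uK_zpow]
  have hcoeff0 : (σ none θ).coeff (-1) = 0 := by
    show (qExpand K q (s1 θ)).coeff (-1) = 0
    apply qExpand_coeff_of_not_dvd
    intro hd
    have h3 : (q : ℤ) ∣ 1 := (dvd_neg).1 hd
    have h4 : q ∣ 1 := by exact_mod_cast h3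
    exact hq.one_lt.ne' (Nat.dvd_one.1 h4)
  have hinj : Function.Injective σ := by
    rintro (_ | b) (_ | b') h
    · rfl
    · exfalso
      have h3 := congrArg (fun g : F →+* LaurentSeries K => (g θ).coeff (-1)) h
      simp only [hcoeff, hcoeff0] at h3
      have h4 : (((ζ ^ (b' : ℕ)) ^ (-1 : ℤ) : Rˣ) : R) = 0 :=
        IsFractionRing.injective R K (by rw [← h3, map_zero])
      exact Units.ne_zero _ h4
    · exfalso
      have h3 := congrArg (fun g : F →+* LaurentSeries K => (g θ).coeff (-1)) h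
      simp only [hcoeff, hcoeff0] at h3
      have h4 : (((ζ ^ (b : ℕ)) ^ (-1 : ℤ) : Rˣ) : R) = 0 :=
        IsFractionRing.injective R K (by rw [h3, map_zero])
      exact Units.ne_zero _ h4
    · have h3 := congrArg (fun g : F →+* LaurentSeries K => (g θ).coeff (-1)) h
      simp only [hcoeff] at h3
      have h4 : ((ζ ^ (b : ℕ)) ^ (-1 : ℤ) : Rˣ) = (ζ ^ (b' : ℕ)) ^ (-1 : ℤ) :=
        Units.ext (IsFractionRing.injective R K h3)
      rw [zpow_neg_one, zpow_neg_one, inv_inj] at h4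
      have h5 := hζ.pow_inj b.2 b'.2 h4
      rw [Fin.ext h5]
  have hcard : Fintype.card (Option (Fin q)) = Module.finrank D.F0 F := by
    rw [Fintype.card_option, Fintype.card_fin, hfr]
  have hprod := KEmb.norm_eq_prod φ σ hinj hσφ hcard u
  rw [Fintype.prod_option] at hprod
  -- everything in `Λ`
  let U1 : D.LamRing := ⟨qExpand K q (s1 u), NOrth.qExpand_mem_LamRing q hu1⟩
  let Ub : Fin q → D.LamRing := fun b =>
    ⟨S28.twist (uK (ζ ^ (b : ℕ))) (s2 u), twist_mem_LamRing _ (hres b) hu2⟩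
  have hP : φ (Algebra.norm D.F0 u) = ((U1 * ∏ b, Ub b : D.LamRing) : LaurentSeries K) := by
    rw [hprod, Subring.coe_mul, SubmonoidClass.coe_finsetProd]
    rfl
  have hVN : qExpand K q ((Algebra.norm D.F0 u : D.F0) : LaurentSeries K) ∈ D.LamRing := by
    have : qExpand K q ((Algebra.norm D.F0 u : D.F0) : LaurentSeries K)
        = φ (Algebra.norm D.F0 u) := rfl
    rw [this, hP]
    exact Subtype.property _
  have hN := mem_gaussO_of_qExpand q _ hVN
  refine ⟨hN, ?_⟩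
  apply qExpand_injective (R := k) q
  have hN' : ((Algebra.norm D.F0 u : D.F0) : LaurentSeries K) ∈ D.LamRing := hN
  have e0 : D.rhoO ⟨Algebra.norm D.F0 u, hN⟩
      = D.rho ⟨((Algebra.norm D.F0 u : D.F0) : LaurentSeries K), hN'⟩ := rfl
  rw [e0, ← NOrth.rho_qExpand q (D := D) hN']
  have e : (⟨qExpand K q ((Algebra.norm D.F0 u : D.F0) : LaurentSeries K),
      NOrth.qExpand_mem_LamRing q hN'⟩ : D.LamRing) = U1 * ∏ b, Ub b := Subtype.ext hP
  rw [e, map_mul, map_prod, map_mul, ← KCong.pow_char]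
  have e1 : D.rho U1 = qExpand k q (D.rho ⟨s1 u, hu1⟩) := NOrth.rho_qExpand q hu1
  have e2 : ∀ b, D.rho (Ub b) = D.rho ⟨s2 u, hu2⟩ := fun b => rho_twist _ (hres b) hu2
  rw [e1]
  simp only [e2]
  rw [Finset.prod_const, Finset.card_univ, Fintype.card_fin]

/-! ### the two norms of `T : Two D q` -/

namespace GNorm

variable {D : QData R K k} {q : ℕ}

/-- a family `θ ^ i`, `i ≤ q`, which is a basis gives the degree `q + 1`. -/
theorem finrank_of_rep {F : Type*} [Field F] [Algebra D.F0 F] (θ : F)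
    (hrep : ∀ f : F, ∃ c : Fin (q + 1) → D.F0, f = ∑ i, algebraMap D.F0 F (c i) * θ ^ (i : ℕ))
    (hind : ∀ c : Fin (q + 1) → D.F0, ∑ i, algebraMap D.F0 F (c i) * θ ^ (i : ℕ) = 0 → ∀ i, c i = 0) :
    Module.finrank D.F0 F = q + 1 := by
  have hli : LinearIndependent D.F0 (fun i : Fin (q + 1) => θ ^ (i : ℕ)) := by
    rw [Fintype.linearIndependent_iff]
    intro c hc
    apply hind c
    rw [← hc]
    exact Finset.sum_congr rfl fun i _ => (Algebra.smul_def _ _).symm
  have hsp : ⊤ ≤ Submodule.span D.F0 (Set.range (fun i : Fin (q + 1) => θ ^ (i : ℕ))) := by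
    intro f _
    obtain ⟨c, rfl⟩ := hrep f
    refine Submodule.sum_mem _ fun i _ => ?_
    rw [← Algebra.smul_def]
    exact Submodule.smul_mem _ _ (Submodule.subset_span ⟨i, rfl⟩)
  rw [Module.finrank_eq_card_basis (Module.Basis.mk hli hsp), Fintype.card_fin]

variable [NeZero q] (T : Two D q)

/-- the norm along `α`. -/
def nA : T.F →* D.F0 :=
  letI := T.al.toAlgebra
  Algebra.norm D.F0

/-- the norm along `β`. -/
def nB : T.F →* D.F0 :=
  letI := T.be.toAlgebra
  Algebra.norm D.F0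

end GNorm

section

variable {D : QData R K k} {q : ℕ} [Fact q.Prime] [CharP k q] (T : Two D q)

theorem GNorm.finrank_al :
    letI := T.al.toAlgebra
    Module.finrank D.F0 T.F = q + 1 := by
  letI := T.al.toAlgebra
  exact GNorm.finrank_of_rep (T.be D.jF) (fun f => T.exists_rep f)
    (fun c hc => (T.sum_eq_zero_iff c).1 hc)

/-- the degree along `β`, from the Atkin-Lehner involution. -/
theorem GNorm.finrank_be (W : T.F ≃+* T.F) (hW : ∀ c, W (T.al c) = T.be c) :
    letI := T.be.toAlgebra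
    Module.finrank D.F0 T.F = q + 1 := by
  letI := T.be.toAlgebra
  refine GNorm.finrank_of_rep (W (T.be D.jF)) (fun f => ?_) (fun c hc => ?_)
  · obtain ⟨c, hc⟩ := T.exists_rep (W.symm f)
    refine ⟨c, ?_⟩
    have := congrArg W hc
    rw [W.apply_symm_apply, map_sum] at this
    rw [this]
    refine Finset.sum_congr rfl fun i _ => ?_
    rw [map_mul, map_pow, hW]
    rfl
  · apply (T.sum_eq_zero_iff c).1
    apply W.injective
    rw [map_zero, ← hc, map_sum]
    refine Finset.sum_congr rfl fun i _ => ?_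
    rw [map_mul, map_pow, hW]
    rfl

/-- **[NR]** for the norm along `α`. -/
theorem nA_red [CharZero K] (ζ : Rˣ) (hζ : IsPrimitiveRoot ζ q) (u : T.F) (hu : u ∈ T.O) :
    ∃ hN : GNorm.nA T u ∈ D.gaussO,
      D.rhoO ⟨GNorm.nA T u, hN⟩
        = T.rho1 ⟨u, hu.1⟩ * coeffMap (frobenius k q) (T.rho2 ⟨u, hu.2⟩) := by
  letI := T.al.toAlgebra
  exact norm_red_core q (GNorm.finrank_al T) T.e1 T.e2 (fun c => rfl) (fun c => T.e2_al c)
    (T.be D.jF) (T.e2_be D.jF) ζ hζ u hu.1 hu.2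

/-- **[NR]** for the norm along `β`. -/
theorem nB_red [CharZero K] (ζ : Rˣ) (hζ : IsPrimitiveRoot ζ q)
    (hfr : letI := T.be.toAlgebra; Module.finrank D.F0 T.F = q + 1) (u : T.F) (hu : u ∈ T.O) :
    ∃ hN : GNorm.nB T u ∈ D.gaussO,
      D.rhoO ⟨GNorm.nB T u, hN⟩
        = T.rho2 ⟨u, hu.2⟩ * coeffMap (frobenius k q) (T.rho1 ⟨u, hu.1⟩) := by
  letI := T.be.toAlgebra
  exact norm_red_core q hfr T.e2 T.e1 (fun c => T.e2_be c) (fun c => rfl)
    (T.al D.jF) rfl ζ hζ u hu.2 hu.1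

end

end Fermat.Agent.S35
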