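import Fermat.Agent.S35.GNormBC
import Fermat.Agent.S34.NTau
import Fermat.Agent.S34.QVal

/-!
# S35, geometry : the field `norm` of `GDefs.Lvl0` for `T : Two D q`
-/

set_option autoImplicit false
set_option linter.unusedSectionVars false

noncomputable section

namespace Fermat.Agent.S35

open ModularCurve Polynomial Finset
open Fermat.Agent.ES Fermat.Agent.ES.QE Fermat.Agent.ES.Model Fermat.Agent.S34

variable {R K k : Type*} [CommRing R] [IsDomain R] [IsNoetherianRing R] [IsIntegrallyClosed R]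
  [Field K] [Algebra R K] [IsFractionRing R K] [Field k]
  {D : QData R K k} {q : ℕ} [Fact q.Prime] [CharP k q] (T : Two D q)

namespace GNormL0

/-- `ρ₁ u = ρ a` if `u ≡ α a` modulo `ϖ O₁`. -/
theorem rho1_eq (u : T.F) (hu : u ∈ T.O1) (a : D.F0) (ha : a ∈ D.gaussO)
    (h : DivS T.O1 T.ϖF 1 (u - T.al a)) : T.rho1 ⟨u, hu⟩ = D.rhoO ⟨a, ha⟩ := by
  have h1 : T.al a ∈ T.O1 := (T.al_mem_O ha).1
  have h2 : T.rho1 (⟨u, hu⟩ - ⟨T.al a, h1⟩) = 0 := (T.rho1_eq_zero_iff _).2 h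
  rw [map_sub, sub_eq_zero] at h2
  rw [h2]
  exact rho1_al T ⟨a, ha⟩

/-- `ρ₂ u = ρ b` if `u ≡ β b` modulo `ϖ O₂`. -/
theorem rho2_eq (u : T.F) (hu : u ∈ T.O2) (b : D.F0) (hb : b ∈ D.gaussO)
    (h : DivS T.O2 T.ϖF 1 (u - T.be b)) : T.rho2 ⟨u, hu⟩ = D.rhoO ⟨b, hb⟩ := by
  have h1 : T.be b ∈ T.O2 := (T.be_mem_O hb).2
  have h2 : T.rho2 (⟨u, hu⟩ - ⟨T.be b, h1⟩) = 0 := (T.rho2_eq_zero_iff _).2 h
  rw [map_sub, sub_eq_zero] at h2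
  rw [h2]
  exact rho2_be T ⟨b, hb⟩

theorem toF0_mem (Φ : TAut T) {b : D.F0} (hb : b ∈ D.gaussO) : Φ.toF0 b ∈ D.gaussO :=
  Φ.map_mem_LamRing hb

/-- reduction of a Frobenius lift. -/
theorem rhoO_toF0 (Φ : TAut T) (hΦ : ∀ c, Φ.sk c = c ^ q) (b : D.F0) (hb : b ∈ D.gaussO) :
    D.rhoO ⟨Φ.toF0 b, toF0_mem T Φ hb⟩ = coeffMap (frobenius k q) (D.rhoO ⟨b, hb⟩) := by
  have h1 : D.rhoO ⟨Φ.toF0 b, toF0_mem T Φ hb⟩ = Φ.ck (D.rhoO ⟨b, hb⟩) := Φ.rho_map hb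
  rw [h1]
  exact coeffMap_congr (RingHom.ext fun c => hΦ c) _

theorem divS_of_rhoO_eq (x y : D.F0) (hx : x ∈ D.gaussO) (hy : y ∈ D.gaussO)
    (h : D.rhoO ⟨x, hx⟩ = D.rhoO ⟨y, hy⟩) : DivS D.gaussO.toSubring D.ϖF 1 (x - y) := by
  have h1 : D.rhoO (⟨x, hx⟩ - ⟨y, hy⟩) = 0 := by rw [map_sub, h, sub_self]
  exact (D.rhoO_eq_zero_iff _).1 h1

end GNormL0

open GNormL0

/-- **The field `norm` of `Lvl0`.** -/
theorem norm_field [CharZero K] (ζ : Rˣ) (hζ : IsPrimitiveRoot ζ q) (Φ : TAut T)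
    (hΦ : ∀ c, Φ.sk c = c ^ q) :
    ∀ u ∈ T.O1 ⊓ T.O2, ∀ a ∈ D.gaussO.toSubring, ∀ b ∈ D.gaussO.toSubring,
      DivS T.O1 T.ϖF 1 (u - T.al a) → DivS T.O2 T.ϖF 1 (u - T.be b) →
      DivS D.gaussO.toSubring D.ϖF 1 (GNorm.nA T u - a * Φ.toF0 b) ∧
        DivS D.gaussO.toSubring D.ϖF 1 (GNorm.nB T u - b * Φ.toF0 a) := by
  intro u hu a ha b hb h1 h2
  have ha' : a ∈ D.gaussO := ha
  have hb' : b ∈ D.gaussO := hb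
  have e1 := rho1_eq T u hu.1 a ha' h1
  have e2 := rho2_eq T u hu.2 b hb' h2
  obtain ⟨hA, eA⟩ := nA_red T ζ hζ u hu
  obtain ⟨hB, eB⟩ := nB_red T ζ hζ (finrank_be T) u hu
  constructor
  · refine divS_of_rhoO_eq _ _ hA (D.gaussO.mul_mem _ _ ha' (toF0_mem T Φ hb')) ?_
    have : (⟨a * Φ.toF0 b, D.gaussO.mul_mem _ _ ha' (toF0_mem T Φ hb')⟩ : D.gaussO)
        = ⟨a, ha'⟩ * ⟨Φ.toF0 b, toF0_mem T Φ hb'⟩ := rfl
    rw [eA, this, map_mul, rhoO_toF0 T Φ hΦ b hb', e1, e2]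
  · refine divS_of_rhoO_eq _ _ hB (D.gaussO.mul_mem _ _ hb' (toF0_mem T Φ ha')) ?_
    have : (⟨b * Φ.toF0 a, D.gaussO.mul_mem _ _ hb' (toF0_mem T Φ ha')⟩ : D.gaussO)
        = ⟨b, hb'⟩ * ⟨Φ.toF0 a, toF0_mem T Φ ha'⟩ := rfl
    rw [eB, this, map_mul, rhoO_toF0 T Φ hΦ a ha', e1, e2]

end Fermat.Agent.S35
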