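import Fermat.Agent.S35.GDefs
import Fermat.Agent.S34.Loc

/-!
# S35, geometry, abstract block : THE PLAN (typechecked stubs).  Never import this file from a
finished file.  Real files: ns `Fermat.Agent.S35`, statements VERBATIM.
-/

set_option autoImplicit false
set_option linter.unusedVariables false

namespace Fermat.Agent.S35.GPlan

open Fermat.Agent.S34 Fermat.Agent.ES.Model

variable {F : Type*} [Field F]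

/-! ### [GA-DV] `S35/GDV.lean` : discrete valuation rings as subrings -/

section DV

variable {O O1 O2 : Subring F} {ϖ : F}

theorem IsU.ne_zero {x : F} (h : IsU O x) : x ≠ 0 := sorry
theorem IsU.mul {x y : F} (hx : IsU O x) (hy : IsU O y) : IsU O (x * y) := sorry
theorem IsU.inv {x : F} (hx : IsU O x) : IsU O x⁻¹ := sorry
theorem IsU.div {x y : F} (hx : IsU O x) (hy : IsU O y) : IsU O (x / y) := sorry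
theorem IsU.pow {x : F} (hx : IsU O x) (n : ℕ) : IsU O (x ^ n) := sorry
theorem IsU.inf {x : F} (h1 : IsU O1 x) (h2 : IsU O2 x) : IsU (O1 ⊓ O2) x := sorry
theorem IsU.left {x : F} (h : IsU (O1 ⊓ O2) x) : IsU O1 x := sorry
theorem IsU.right {x : F} (h : IsU (O1 ⊓ O2) x) : IsU O2 x := sorry
/-- `O` is local with maximal ideal `ϖ O`. -/
theorem IsDV.isU_or (h : IsDV O ϖ) {x : F} (hx : x ∈ O) : IsU O x ∨ DivS O ϖ 1 x := sorry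
theorem IsDV.not_divS (h : IsDV O ϖ) {x : F} (hx : IsU O x) : ¬ DivS O ϖ 1 x := sorry
theorem IsDV.isU_of_sub (h : IsDV O ϖ) {x y : F} (hx : IsU O x) (hy : DivS O ϖ 1 (y - x)) :
    IsU O y := sorry
theorem IsDV.mem_or_inv_mem (h : IsDV O ϖ) (x : F) : x ∈ O ∨ x⁻¹ ∈ O := sorry
theorem IsDV.divS_or (h : IsDV O ϖ) {x y : F} (hx : x ∈ O) (hy : y ∈ O)
    (hxy : DivS O ϖ 1 (x * y)) : DivS O ϖ 1 x ∨ DivS O ϖ 1 y := sorry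
theorem IsDV.root (h : IsDV O ϖ) {x : F} {n : ℕ} (hn : 0 < n) (hx : x ^ n ∈ O) : x ∈ O := sorry
theorem IsDV.isU_root (h : IsDV O ϖ) {x : F} {n : ℕ} (hn : 0 < n) (hx : IsU O (x ^ n)) :
    IsU O x := sorry
/-- normalisation by a power of `ϖ`. -/
theorem IsDV.exists_zpow (h : IsDV O ϖ) {x : F} (hx : x ≠ 0) : ∃ a : ℤ, IsU O (x * ϖ ^ a) := sorry
/-- a topologically nilpotent element kills denominators. -/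
theorem IsDV.exists_pow_mul (h : IsDV O ϖ) {θ : F} (hθ : DivS O ϖ 1 θ) (x : F) :
    ∃ j : ℕ, 0 < j ∧ DivS O ϖ 1 (θ ^ j * x) := sorry
theorem IsDV.isSemi_inf (h1 : IsDV O1 ϖ) (h2 : IsDV O2 ϖ) : IsSemi (O1 ⊓ O2) ϖ := sorry
theorem divS_inf {n : ℕ} {x : F} (hϖ : ϖ ≠ 0) :
    DivS (O1 ⊓ O2) ϖ n x ↔ DivS O1 ϖ n x ∧ DivS O2 ϖ n x := sorry
/-- `Ψ` preserves the valuation. -/
theorem IsDV.dl_isU (h : IsDV O ϖ) {Ψ : F ≃+* F} (hΨ : IsAutDV O Ψ)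
    (hc : ∃ c, IsU O c ∧ Ψ ϖ = c * ϖ) {x : F} (hx : x ≠ 0) : IsU O (dl Ψ x) := sorry
theorem IsAutDV.isU {Ψ : F ≃+* F} (hΨ : IsAutDV O Ψ) {x : F} (hx : IsU O x) : IsU O (Ψ x) := sorry
theorem IsAutDV.divS {Ψ : F ≃+* F} (hΨ : IsAutDV O Ψ) (hc : ∃ c, IsU O c ∧ Ψ ϖ = c * ϖ) {x : F}
    (hx : DivS O ϖ 1 x) : DivS O ϖ 1 (Ψ x) := sorry
/-- congruences: `x ≡ x'`, `y ≡ y'` ⟹ `x y ≡ x' y'`; powers; quotients by units. -/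
theorem cong_mul {x x' y y' : F} (hx' : x' ∈ O) (hy : y ∈ O) (h1 : DivS O ϖ 1 (x - x'))
    (h2 : DivS O ϖ 1 (y - y')) : DivS O ϖ 1 (x * y - x' * y') := sorry
theorem cong_pow {x x' : F} (hx : x ∈ O) (hx' : x' ∈ O) (h1 : DivS O ϖ 1 (x - x')) (n : ℕ) :
    DivS O ϖ 1 (x ^ n - x' ^ n) := sorry
theorem cong_div {x x' y : F} (hy : IsU O y) (h1 : DivS O ϖ 1 (x - x' * y)) :
    DivS O ϖ 1 (x / y - x') := sorry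
theorem Chart2.swap {m : ℕ} {B : Subring F} {p1 p2 : Ideal B} (h : Chart2 O1 O2 ϖ m B p1 p2) :
    Chart2 O2 O1 ϖ m B p2 p1 := sorry
/-- `p1 ⊓ p2 = (ϖ)` (from `sat`). -/
theorem Chart2.inf_eq {m : ℕ} {B : Subring F} {p1 p2 : Ideal B} (h : Chart2 O1 O2 ϖ m B p1 p2)
    (hϖ : ϖ ≠ 0) : p1 ⊓ p2 = Ideal.span {(⟨ϖ, h.chart.unif_mem⟩ : B)} := sorry
/-- (I1') on a tube : `B_n[1/ϖ] ∩ O = B_n`. -/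
theorem Chart2.tube_mem {m : ℕ} {B : Subring F} {p1 p2 : Ideal B} (h : Chart2 O1 O2 ϖ m B p1 p2)
    (hϖ : ϖ ≠ 0) (n : Ideal B) {z : F} (hz : z ∈ O1 ⊓ O2)
    (ht : InTube (⟨ϖ, h.chart.unif_mem⟩ : B) n z) : ∃ s : B, s ∉ n ∧ (s : F) * z ∈ B := sorry

end DV

/-! ### [GA-LP] `S35/GLP.lean` : stability of (LP) -/

section LPs

variable {ϖ : F} {m : ℕ} {B : Subring F} {hϖ : ϖ ∈ B}

theorem LP.mul {n : Ideal B} (hn : n.IsPrime) {u v : F} (hu : LP ϖ m B hϖ n u)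
    (hv : LP ϖ m B hϖ n v) : LP ϖ m B hϖ n (u * v) := sorry
theorem LP.inv {n : Ideal B} {u : F} (hu : LP ϖ m B hϖ n u) : LP ϖ m B hϖ n u⁻¹ := sorry
theorem LP.div {n : Ideal B} (hn : n.IsPrime) {u v : F} (hu : LP ϖ m B hϖ n u)
    (hv : LP ϖ m B hϖ n v) : LP ϖ m B hϖ n (u / v) := sorry
theorem LP.pow {n : Ideal B} (hn : n.IsPrime) {u : F} (hu : LP ϖ m B hϖ n u) (k : ℕ) :
    LP ϖ m B hϖ n (u ^ k) := sorry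
theorem LP.div_mpow {n : Ideal B} {u h : F} (hu : LP ϖ m B hϖ n u) (hh : h ≠ 0) :
    LP ϖ m B hϖ n (u / h ^ m) := sorry
/-- transport by `Ψ` (uses (LP) at `Ψ⁻¹ n`). -/
theorem LPall.map {Ψ : F ≃+* F} (h1 : ∀ x, x ∈ B → Ψ x ∈ B) (h2 : ∀ x, x ∈ B → Ψ.symm x ∈ B)
    (hc : ∃ c ∈ B, c⁻¹ ∈ B ∧ Ψ ϖ = c * ϖ) {u : F} (hu : LPall ϖ m B hϖ u) :
    LPall ϖ m B hϖ (Ψ u) := sorry
theorem LPall.delta {Ψ : F ≃+* F} (h1 : ∀ x, x ∈ B → Ψ x ∈ B) (h2 : ∀ x, x ∈ B → Ψ.symm x ∈ B)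
    (hc : ∃ c ∈ B, c⁻¹ ∈ B ∧ Ψ ϖ = c * ϖ) {u : F} (hu : LPall ϖ m B hϖ u) :
    LPall ϖ m B hϖ (dl Ψ u) := sorry
theorem LPall.deltaQ {Ψ : F ≃+* F} (h1 : ∀ x, x ∈ B → Ψ x ∈ B) (h2 : ∀ x, x ∈ B → Ψ.symm x ∈ B)
    (hc : ∃ c ∈ B, c⁻¹ ∈ B ∧ Ψ ϖ = c * ϖ) (Q : ℕ) {u h : F} (hu : LPall ϖ m B hϖ u) (hh : h ≠ 0) :
    LPall ϖ m B hϖ (dQ Ψ Q (dl Ψ u / h ^ m)) := sorry

end LPs

/-! ### [GA-IC] `S35/GIC.lean` : the special fibre is integrally closed in the residue field -/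

/-- `f ∈ O`, `f ^ m ≡ e ∈ B` mod `ϖ O` ⟹ `f ≡ c ∈ B` mod `ϖ O`.
[`f = a / b`; by `θ` reduce to `b ∉ p`; `(a/b)^m = e` in `Frac (B/p)`, `B/p` integrally closed.] -/
theorem ic {O : Subring F} {ϖ : F} (hO : IsDV O ϖ) {B : Subring F} (hBO : ∀ x ∈ B, x ∈ O)
    (hfrac : ∀ f : F, ∃ a ∈ B, ∃ b ∈ B, b ≠ 0 ∧ f * b = a)
    (p : Ideal B) [p.IsPrime] [IsDedekindDomain (B ⧸ p)]
    (hp : ∀ b : B, b ∈ p ↔ DivS O ϖ 1 (b : F))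
    (θ : B) (hθ : θ ∉ p) (hθ' : ∀ b ∈ p, ∃ b' : B, (θ : F) * (b : F) = ϖ * (b' : F))
    {m : ℕ} (hm : 0 < m) (f : F) (hf : f ∈ O) (e : B) (he : DivS O ϖ 1 (f ^ m - (e : F))) :
    ∃ c : B, DivS O ϖ 1 (f - (c : F)) := sorry

/-- the same on a `Chart2`, first component. -/
theorem Chart2.ic1 {O1 O2 : Subring F} {ϖ : F} (h1 : IsDV O1 ϖ) (h2 : IsDV O2 ϖ) {m : ℕ}
    {B : Subring F} {p1 p2 : Ideal B} [p1.IsPrime] [IsDedekindDomain (B ⧸ p1)]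
    (hB : Chart2 O1 O2 ϖ m B p1 p2) {k : ℕ} (hk : 0 < k) (f : F) (hf : f ∈ O1) (e : B)
    (he : DivS O1 ϖ 1 (f ^ k - (e : F))) : ∃ c : B, DivS O1 ϖ 1 (f - (c : F)) := sorry

/-! ### [GA-SM] `S35/GSmooth.lean` : the local step at a point lying on one component only -/

theorem smooth_step {O1 O2 : Subring F} {ϖ : F} (h1 : IsDV O1 ϖ) (h2 : IsDV O2 ϖ) {m : ℕ}
    (hm : 0 < m) {B : Subring F} {p1 p2 : Ideal B} [p1.IsPrime] [IsDedekindDomain (B ⧸ p1)]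
    (hB : Chart2 O1 O2 ϖ m B p1 p2) (n : Ideal B) (hn : n.IsMaximal)
    (hϖn : (⟨ϖ, hB.chart.unif_mem⟩ : B) ∈ n) (hp2 : ¬ p2 ≤ n)
    (w : F) (hw : DivS (O1 ⊓ O2) ϖ 1 (w - 1)) (hlp : LP ϖ m B hB.chart.unif_mem n w) :
    ∃ f ∈ MM m w B, ∃ b : B, b ∉ n ∧ DivS (O1 ⊓ O2) ϖ 1 (f - (b : F)) := sorry

/-! ### [GA-ND] `S35/GNode.lean` : the local step at a node -/

/-- at a node `Ψ b ≡ b ^ Q` mod `n`. -/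
theorem frob_node {O1 O2 : Subring F} {ϖ : F} {m : ℕ} {B : Subring F} {p1 p2 : Ideal B}
    (hB : Chart2 O1 O2 ϖ m B p1 p2) {Ψ : F ≃+* F} {Q : ℕ} (hΨB : FrobB O1 ϖ B p2 Ψ Q)
    (n : Ideal B) (hp1 : p1 ≤ n) (hp2 : p2 ≤ n) (b : B) :
    (⟨Ψ (b : F), hΨB.map _ b.2⟩ : B) - b ^ Q ∈ n := sorry

theorem node_step {O1 O2 : Subring F} {ϖ : F} (h1 : IsDV O1 ϖ) (h2 : IsDV O2 ϖ) {m : ℕ}
    (hm : 0 < m) {B : Subring F} {p1 p2 : Ideal B} [p1.IsPrime] [p2.IsPrime]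
    [IsDedekindDomain (B ⧸ p1)] [IsDedekindDomain (B ⧸ p2)]
    (hB : Chart2 O1 O2 ϖ m B p1 p2) (Ψ : F ≃+* F) (Q : ℕ) (hQ : 0 < Q)
    (hΨ1 : IsAutDV O1 Ψ) (hΨ2 : IsAutDV O2 Ψ) (hΨB : FrobB O1 ϖ B p2 Ψ Q)
    (n : Ideal B) (hn : n.IsMaximal) (hp1 : p1 ≤ n) (hp2 : p2 ≤ n)
    (u h : F) (hu : u ≠ 0) (hlp : LP ϖ m B hB.chart.unif_mem n u) (hh : IsU (O1 ⊓ O2) h)
    (hv : DivS (O1 ⊓ O2) ϖ 1 (dl Ψ u / h ^ m - 1)) :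
    ∃ f ∈ MM m (dQ Ψ Q (dl Ψ u / h ^ m)) B, ∃ b : B, b ∉ n ∧ DivS (O1 ⊓ O2) ϖ 1 (f - (b : F)) :=
  sorry

/-! ### [GA-TOR] `S35/GTor.lean` : `(Ψ - Q)` kills the toric part -/

theorem tor_abs {O1 O2 : Subring F} {ϖ : F} (h1 : IsDV O1 ϖ) (h2 : IsDV O2 ϖ) (m : ℕ) (hm : 0 < m)
    (R B1 B2 B12 : Subring F) [IsNoetherianRing R] (hR1 : R ≤ B1) (hR2 : R ≤ B2) (hϖR : ϖ ∈ R)
    (p1 p2 : Ideal B1) [p1.IsPrime] [p2.IsPrime]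
    [IsDedekindDomain (B1 ⧸ p1)] [IsDedekindDomain (B1 ⧸ p2)]
    (hB1 : Chart2 O1 O2 ϖ m B1 p1 p2)
    (q1 q2 : Ideal B2) [q1.IsPrime] [q2.IsPrime]
    [IsDedekindDomain (B2 ⧸ q1)] [IsDedekindDomain (B2 ⧸ q2)]
    (hB2 : Chart2 O1 O2 ϖ m B2 q1 q2)
    (h12 : IsChartS (O1 ⊓ O2) ϖ m B12) (h1le : B1 ≤ B12) (h2le : B2 ≤ B12)
    (t : F) (ht : t ≠ 0) (ht1 : t ∈ B1) (ht2 : t⁻¹ ∈ B2)
    (h12a : ∀ x ∈ B12, ∃ n : ℕ, t ^ n * x ∈ B1) (h12b : ∀ x ∈ B12, ∃ n : ℕ, t⁻¹ ^ n * x ∈ B2)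
    (hfin : ∃ S : Finset F, ∀ x ∈ B1,
      x ∈ Submodule.span (Subring.closure ((R : Set F) ∪ {t})) (S : Set F))
    (Ψ : F ≃+* F) (Q : ℕ) (hQ : 0 < Q) (hΨ1 : IsAutDV O1 Ψ) (hΨ2 : IsAutDV O2 Ψ)
    (hΨB1 : FrobB O1 ϖ B1 p2 Ψ Q) (hΨB2 : FrobB O1 ϖ B2 q2 Ψ Q)
    (u h : F) (hu : u ≠ 0) (hlp1 : LPall ϖ m B1 hB1.chart.unif_mem u)
    (hlp2 : LPall ϖ m B2 hB2.chart.unif_mem u) (hh : IsU (O1 ⊓ O2) h)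
    (hv : DivS (O1 ⊓ O2) ϖ 1 (dl Ψ u / h ^ m - 1)) :
    ∃ z : F, z ≠ 0 ∧ z ^ m * dQ Ψ Q (dl Ψ u / h ^ m) ∈ B1 ∧
      z ^ m * dQ Ψ Q (dl Ψ u / h ^ m) ∈ B2 := sorry

/-! ### [GA-NEW] `S35/GNew.lean` : the norm relations, weak approximation, and the output -/

/-- steps A, B, C : `(Ψ - 1)² u ≡ h ^ m` mod `ϖ O` with `h ∈ Oˣ`. -/
theorem exists_root_mod {F0 : Type*} [Field F0] {O1 O2 : Subring F} {ϖ : F} (h1 : IsDV O1 ϖ)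
    (h2 : IsDV O2 ϖ) {O0 : Subring F0} {ϖ0 : F0} {al be : F0 →+* F} {nA nB : F →* F0}
    {Ψ : F ≃+* F} {φ0 : F0 ≃+* F0} (L : Lvl0 O1 O2 ϖ O0 ϖ0 al be nA nB Ψ φ0)
    (hΨ1 : IsAutDV O1 Ψ) (hΨ2 : IsAutDV O2 Ψ) (hc : ∃ c, IsU (O1 ⊓ O2) c ∧ Ψ ϖ = c * ϖ)
    {m : ℕ} (hm : 0 < m) (u : F) (hu : u ≠ 0) (hA : ∃ z, nA u = z ^ m) (hB : ∃ z, nB u = z ^ m) :
    ∃ h : F, IsU (O1 ⊓ O2) h ∧ DivS (O1 ⊓ O2) ϖ 1 (dl Ψ (dl Ψ u) / h ^ m - 1) := sorry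

/-- **OUTPUT of the abstract block.** -/
theorem new_abs {F0 : Type*} [Field F0] {O1 O2 : Subring F} {ϖ : F} (h1 : IsDV O1 ϖ)
    (h2 : IsDV O2 ϖ) (m : ℕ) (hm : 0 < m)
    (R B1 B2 B12 : Subring F) [IsNoetherianRing R] (hR1 : R ≤ B1) (hR2 : R ≤ B2) (hϖR : ϖ ∈ R)
    (p1 p2 : Ideal B1) [p1.IsPrime] [p2.IsPrime]
    [IsDedekindDomain (B1 ⧸ p1)] [IsDedekindDomain (B1 ⧸ p2)]
    (hB1 : Chart2 O1 O2 ϖ m B1 p1 p2)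
    (q1 q2 : Ideal B2) [q1.IsPrime] [q2.IsPrime]
    [IsDedekindDomain (B2 ⧸ q1)] [IsDedekindDomain (B2 ⧸ q2)]
    (hB2 : Chart2 O1 O2 ϖ m B2 q1 q2)
    (h12 : IsChartS (O1 ⊓ O2) ϖ m B12) (h1le : B1 ≤ B12) (h2le : B2 ≤ B12)
    (t : F) (ht : t ≠ 0) (ht1 : t ∈ B1) (ht2 : t⁻¹ ∈ B2)
    (h12a : ∀ x ∈ B12, ∃ n : ℕ, t ^ n * x ∈ B1) (h12b : ∀ x ∈ B12, ∃ n : ℕ, t⁻¹ ^ n * x ∈ B2)
    (hfin : ∃ S : Finset F, ∀ x ∈ B1,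
      x ∈ Submodule.span (Subring.closure ((R : Set F) ∪ {t})) (S : Set F))
    (Ψ : F ≃+* F) (Q : ℕ) (hQ : 0 < Q) (hΨ1 : IsAutDV O1 Ψ) (hΨ2 : IsAutDV O2 Ψ)
    (hΨB1 : FrobB O1 ϖ B1 p2 Ψ Q) (hΨB2 : FrobB O1 ϖ B2 q2 Ψ Q)
    {O0 : Subring F0} {ϖ0 : F0} {al be : F0 →+* F} {nA nB : F →* F0} {φ0 : F0 ≃+* F0}
    (L : Lvl0 O1 O2 ϖ O0 ϖ0 al be nA nB Ψ φ0)
    (u : F) (hu : u ≠ 0) (hlp1 : LPall ϖ m B1 hB1.chart.unif_mem u)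
    (hlp2 : LPall ϖ m B2 hB2.chart.unif_mem u)
    (hA : ∃ z, nA u = z ^ m) (hB : ∃ z, nB u = z ^ m) :
    ∃ z : F, z ≠ 0 ∧ z ^ m * dQ Ψ Q (dl Ψ (dl Ψ u)) ∈ B1 ∧
      z ^ m * dQ Ψ Q (dl Ψ (dl Ψ u)) ∈ B2 := sorry

end Fermat.Agent.S35.GPlan
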