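import Fermat.Agent.S35.GDV
import Fermat.Agent.S35.GIC

/-!
# S35, geometry, abstract block : [GA-SM] the local step at a point lying on one component only
-/

set_option autoImplicit false

namespace Fermat.Agent.S35

open Fermat.Agent.S34 Fermat.Agent.ES.Model

variable {F : Type*} [Field F]

namespace GSm

variable {B : Subring F} {ϖ : B} {n : Ideal B}

theorem inTube_iff {z : F} :
    InTube ϖ n z ↔ ∃ s : B, s ∉ n ∧ ∃ (k : ℕ) (b : B), (s : F) * (ϖ : F) ^ k * z = (b : F) :=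
  Iff.rfl

theorem inTube_mul_mem {z : F} (hz : InTube ϖ n z) (c : B) : InTube ϖ n ((c : F) * z) := by
  obtain ⟨s, hs, k, b, hb⟩ := inTube_iff.1 hz
  refine inTube_iff.2 ⟨s, hs, k, c * b, ?_⟩
  push_cast
  rw [← hb]; ring

theorem inTube_mul_zpow (hϖ : (ϖ : F) ≠ 0) {z : F} (hz : InTube ϖ n z) (a : ℤ) :
    InTube ϖ n (z * (ϖ : F) ^ a) := by
  obtain ⟨s, hs, k, b, hb⟩ := inTube_iff.1 hz
  obtain ⟨j, hj⟩ : ∃ j : ℕ, 0 ≤ a + j := ⟨a.natAbs, by omega⟩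
  obtain ⟨i, hi⟩ := Int.eq_ofNat_of_zero_le hj
  refine inTube_iff.2 ⟨s, hs, k + j, b * ϖ ^ i, ?_⟩
  push_cast
  rw [← hb, ← zpow_natCast (ϖ : F) i, ← hi, zpow_add₀ hϖ, zpow_natCast]
  ring

end GSm

theorem smooth_step {O1 O2 : Subring F} {ϖ : F} (h1 : IsDV O1 ϖ) (h2 : IsDV O2 ϖ) {m : ℕ}
    (hm : 0 < m) {B : Subring F} {p1 p2 : Ideal B} [p1.IsPrime] [IsDedekindDomain (B ⧸ p1)]
    (hB : Chart2 O1 O2 ϖ m B p1 p2) (n : Ideal B) (hn : n.IsMaximal)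
    (hϖn : (⟨ϖ, hB.chart.unif_mem⟩ : B) ∈ n) (hp2 : ¬ p2 ≤ n)
    (w : F) (hw : DivS (O1 ⊓ O2) ϖ 1 (w - 1)) (hlp : LP ϖ m B hB.chart.unif_mem n w) :
    ∃ f ∈ MM m w B, ∃ b : B, b ∉ n ∧ DivS (O1 ⊓ O2) ϖ 1 (f - (b : F)) := by
  have hϖ0 : ϖ ≠ 0 := h1.ne_zero
  have hnp : n.IsPrime := hn.isPrime
  -- `θ ∈ p2 ∖ n`
  obtain ⟨θ, hθ2, hθn⟩ := SetLike.not_le_iff_exists.1 hp2
  have hθO2 : DivS O2 ϖ 1 (θ : F) := (hB.mem2 θ).1 hθ2
  have hBO : ∀ x ∈ B, x ∈ O1 ⊓ O2 := hB.chart.le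
  -- `p1 ≤ n`
  have hp1 : p1 ≤ n := by
    intro x hx
    have : x * θ ∈ p1 ⊓ p2 := ⟨p1.mul_mem_right _ hx, p2.mul_mem_left _ hθ2⟩
    rw [hB.inf_eq hϖ0] at this
    have h3 : x * θ ∈ n := (Ideal.span_singleton_le_iff_mem _).2 hϖn this
    exact (hnp.mem_or_mem h3).resolve_right hθn
  -- `w` is a unit of `O1`, and lies in `O`
  have hwO : w ∈ O1 ⊓ O2 := by
    obtain ⟨y, hy, h⟩ := hw
    have : w = 1 + ϖ ^ 1 * y := by linear_combination h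
    rw [this]
    have hϖO : ϖ ∈ O1 ⊓ O2 := ⟨h1.mem, h2.mem⟩
    exact add_mem (one_mem _) (mul_mem (pow_mem hϖO _) hy)
  have hw1 : DivS O1 ϖ 1 (w - 1) := ((divS_inf hϖ0).1 hw).1
  have hwU : IsU O1 w := h1.isU_of_sub (x := 1) ⟨one_ne_zero, one_mem _, by simp⟩ hw1
  obtain ⟨G, b1, hG, hwb, ht, ht'⟩ := hlp
  obtain ⟨a, ha⟩ := h1.exists_zpow hG
  set G1 : F := G * ϖ ^ a with hG1
  have hG10 : G1 ≠ 0 := ha.ne_zero
  set b1' : F := b1 * ϖ ^ (-(m * a : ℤ)) with hb1'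
  have hwb' : w = b1' * G1 ^ m := by
    rw [hwb, hb1', hG1, mul_pow, ← zpow_natCast (ϖ ^ a) m, ← zpow_mul, zpow_neg, mul_comm a]
    have : ϖ ^ ((m : ℤ) * a) ≠ 0 := zpow_ne_zero _ hϖ0
    field_simp
  have hw0 : w ≠ 0 := hwU.ne_zero
  have hb10 : b1' ≠ 0 := by
    intro h
    rw [h, zero_mul] at hwb'
    exact hw0 hwb'
  have htb : InTube (⟨ϖ, hB.chart.unif_mem⟩ : B) n b1' := GSm.inTube_mul_zpow hϖ0 ht _
  have htb' : InTube (⟨ϖ, hB.chart.unif_mem⟩ : B) n b1'⁻¹ := by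
    have : b1'⁻¹ = b1⁻¹ * ϖ ^ ((m * a : ℤ)) := by
      rw [hb1', mul_inv, zpow_neg, inv_inv]
    rw [this]
    exact GSm.inTube_mul_zpow hϖ0 ht' _
  have hb1U : IsU O1 b1' := by
    have : b1' = w / G1 ^ m := by
      rw [hwb']; field_simp
    rw [this]
    exact hwU.div (ha.pow m)
  -- kill the second branch
  obtain ⟨K, hK, hKd⟩ := h2.exists_pow_mul hθO2 G1⁻¹
  set f2 : F := (θ : F) ^ K * G1⁻¹ with hf2
  have hθO : (θ : F) ∈ O1 ⊓ O2 := hBO _ θ.2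
  have hdiv_mem : ∀ {O : Subring F}, ϖ ∈ O → ∀ {x : F}, DivS O ϖ 1 x → x ∈ O := by
    rintro O hO x ⟨y, hy, rfl⟩
    exact mul_mem (pow_mem hO _) hy
  have hf2O : f2 ∈ O1 ⊓ O2 :=
    ⟨mul_mem (pow_mem hθO.1 _) ha.inv.2.1, hdiv_mem h2.mem hKd⟩
  have hE : f2 ^ m * w = ((θ ^ (K * m) : B) : F) * b1' := by
    rw [hf2, hwb']
    push_cast
    rw [mul_pow, inv_pow, pow_mul]
    field_simp
  obtain ⟨s, hs, hsE⟩ := hB.tube_mem hϖ0 n (z := f2 ^ m * w) (mul_mem (pow_mem hf2O _) hwO)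
    (by rw [hE]; exact GSm.inTube_mul_mem htb _)
  -- the inverse
  obtain ⟨K', -, hK'd⟩ := h2.exists_pow_mul hθO2 b1'⁻¹
  obtain ⟨s', hs', hsE'⟩ := hB.tube_mem hϖ0 n (z := ((θ ^ K' : B) : F) * b1'⁻¹)
    ⟨mul_mem (hBO _ (θ ^ K' : B).2).1 hb1U.inv.2.1, by push_cast; exact hdiv_mem h2.mem hK'd⟩
    (GSm.inTube_mul_mem htb' _)
  set e1 : B := ⟨(s : F) * (f2 ^ m * w), hsE⟩ with he1
  set e2 : B := ⟨(s' : F) * (((θ ^ K' : B) : F) * b1'⁻¹), hsE'⟩ with he2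
  have he12 : e1 * e2 = s * s' * θ ^ (K * m + K') := by
    apply Subtype.ext
    push_cast
    rw [he1, he2]
    simp only
    rw [hE]
    push_cast
    field_simp
    ring
  have he1n : e1 ∉ n := by
    intro h
    have : s * s' * θ ^ (K * m + K') ∈ n := he12 ▸ n.mul_mem_right _ h
    rcases hnp.mem_or_mem this with h | h
    · rcases hnp.mem_or_mem h with h | h
      · exact hs h
      · exact hs' h
    · exact hθn (hnp.mem_of_pow_mem _ h)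
  -- `f3 := s f2`
  set f3 : F := (s : F) * f2 with hf3
  have hf3O : f3 ∈ O1 ⊓ O2 := mul_mem (hBO _ s.2) hf2O
  have hf3m : f3 ^ m * w = ((s ^ (m - 1) * e1 : B) : F) := by
    push_cast
    rw [he1, hf3]
    simp only
    obtain ⟨m', rfl⟩ : ∃ m', m = m' + 1 := ⟨m - 1, by omega⟩
    simp only [Nat.add_sub_cancel]
    ring
  have hcong : DivS O1 ϖ 1 (f3 ^ m - ((s ^ (m - 1) * e1 : B) : F)) := by
    rw [← hf3m]
    obtain ⟨y, hy, h⟩ := hw1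
    refine ⟨-(f3 ^ m * y), neg_mem (mul_mem (pow_mem hf3O.1 _) hy), ?_⟩
    linear_combination (-(f3 ^ m)) * h
  obtain ⟨c, hc⟩ := hB.ic1 h1 h2 hm f3 hf3O.1 _ hcong
  have hcn : c ∉ n := by
    intro h
    have h5 : c ^ m - s ^ (m - 1) * e1 ∈ p1 := by
      rw [hB.mem1]
      push_cast
      have h6 := cong_pow (O := O1) (ϖ := ϖ) hf3O.1 (hBO _ c.2).1 hc m
      obtain ⟨y, hy, h7⟩ := h6
      obtain ⟨y', hy', h8⟩ := hcong
      refine ⟨y' - y, sub_mem hy' hy, ?_⟩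
      push_cast at h8
      linear_combination h8 - h7
    have h6 : s ^ (m - 1) * e1 ∈ n := by
      have := n.sub_mem (n.pow_mem_of_mem h m hm) (hp1 h5)
      simpa using this
    rcases hnp.mem_or_mem h6 with h | h
    · exact hs (hnp.mem_of_pow_mem _ h)
    · exact he1n h
  refine ⟨(θ : F) * f3, ?_, θ * c, ?_, ?_⟩
  · rw [mem_MM, mul_pow, mul_assoc, hf3m]
    exact mul_mem (pow_mem θ.2 _) (Subtype.mem _)
  · intro h
    rcases hnp.mem_or_mem h with h | h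
    · exact hθn h
    · exact hcn h
  · rw [divS_inf hϖ0]
    push_cast
    constructor
    · obtain ⟨y, hy, h⟩ := hc
      exact ⟨(θ : F) * y, mul_mem hθO.1 hy, by linear_combination (θ : F) * h⟩
    · obtain ⟨y, hy, h⟩ := hθO2
      exact ⟨y * (f3 - c), mul_mem hy (sub_mem hf3O.2 (hBO _ c.2).2), by
        linear_combination (f3 - c) * h⟩

end Fermat.Agent.S35
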