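import Fermat.Agent.S34.UCoord
import Fermat.Agent.S35.GCoreT
import Fermat.Agent.S35.GZeta
import Fermat.Agent.S35.GDesc
import Fermat.Agent.S35.NewLvl

/-!
# S35 : the relation `NEW` at level `N = M₀ q` for a level `M₀` with a good coordinate
-/

set_option autoImplicit false

noncomputable section

namespace Fermat.Agent.S35.GU2

open ModularCurve AlgebraicCurve Polynomial IntermediateField
open Fermat.Agent.S24 Fermat.Agent.S28 Fermat.Agent.ES Fermat.Agent.ES.QE Fermat.Agent.ES.Model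
  Fermat.Agent.ES.IDvr Fermat.Agent.ES.Inst Fermat.Agent.S37.Rat
open Fermat.Agent.ES.Inst.InstFinal Fermat.Agent.ES.Inst.InstCoord
open Fermat.Agent.S34 Fermat.Agent.S34.UAux Fermat.Agent.S35

theorem alg_aux {F : Type*} [Field F] (a6 a4 a2 u Z : F) (h4 : a4 ≠ 0) (_h2 : a2 ≠ 0) (hu : u ≠ 0)
    (hZ : Z ≠ 0) (Q : ℕ) :
    a6 * a2 ^ (2 * Q + 1) / (a4 ^ (Q + 2) * u ^ Q)
      = Z * (a6 / a4 / (a4 / a2) / (a4 / a2 / (a2 / u)) ^ Q) / Z := by
  rw [mul_div_cancel_left₀ _ hZ]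
  simp only [div_pow, div_div_eq_mul_div, mul_pow]
  field_simp
  ring

set_option maxHeartbeats 4000000 in
/-- **NEW** at level `M₀ q` for a level `M₀` which carries a good coordinate. -/
theorem new_of_coord (m M0 q : ℕ) [NeZero M0] [NeZero q] (hq : q.Prime) (hqM : ¬ q ∣ M0)
    (hqm : ¬ q ∣ m) (A : ValuationSubring Kb) (hA : A.LiesOverPrime q) (Z : ZCoord M0 q)
    (hU : Z.Unram) (hW : WGood M0 q Z.xF) : NEW m M0 q A := by
  classical
  intro φ hφ u hu hnA hnB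
  obtain ⟨zA, hzA⟩ := hnA
  obtain ⟨zB, hzB⟩ := hnB
  have hqF : Fact q.Prime := ⟨hq⟩
  have hm0 : 0 < m := Nat.pos_of_ne_zero (by rintro rfl; exact hqm (dvd_zero _))
  obtain ⟨W, hWα, hWβ⟩ := Fermat.Agent.S37.KT.exists_W M0 q hqM
  -- the coordinate at level `N`
  have hmemN : zS Kb Z.xZ ∈ modularFunctionFieldBar (M0 * q) := by
    have h := (heckeAlphaBar Kb M0 q Z.xF).2
    rwa [coe_heckeAlphaBar] at h
  obtain ⟨ZN, hZN⟩ : ∃ ZN : ZCoord (M0 * q) q, ZN.xF = heckeAlphaBar Kb M0 q Z.xF :=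
    ⟨{ Z with mem := hmemN }, Subtype.ext (coe_heckeAlphaBar M0 q Z.xF).symm⟩
  have hxt0 := transcendental_xF Z
  have hxt0' : Transcendental Kb Z.xF⁻¹ := FF.transcendental_inv hxt0
  have hfd0 := finiteDimensional_xF Z
  have hfd0' := finiteDimensional_xF_inv Z
  have hxt := transcendental_xF ZN
  have hxt' : Transcendental Kb ZN.xF⁻¹ := FF.transcendental_inv hxt
  have hfd := finiteDimensional_xF ZN
  have hfd' := finiteDimensional_xF_inv ZN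
  obtain ⟨S1, hS1⟩ := exists_hdiv_mem (M0 * q) m ZN.xF hxt u hu
  obtain ⟨S2, hS2⟩ := exists_hdiv_mem (M0 * q) m ZN.xF⁻¹ hxt' u hu
  -- the number field
  obtain ⟨K1, hK1, hQD⟩ := exists_QData M0 q hq hqM A hA
  obtain ⟨K2, hK2, hDed⟩ := hDed M0 q hq hqM A hA
  obtain ⟨K3, hK3, hTwo⟩ := exists_two M0 q hq hqM A W hWα hWβ
  obtain ⟨K4, hK4, hrat⟩ := Hrat.exists_field_rational u hu.1
  obtain ⟨K6, hK6, hzeta⟩ := exists_K1_zeta q A
  obtain ⟨K7, hK7, hdef⟩ := exists_K1_isDef M0 ({zA, zB} : Finset (FF M0))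
  obtain ⟨K5, hK5, hle5, hS5⟩ := exists_K0 M0 (K1 ⊔ K2 ⊔ K3 ⊔ K4 ⊔ K6 ⊔ K7) {Z.xF}
  obtain ⟨K0, hK0, hnorm, hle, hS⟩ := exists_K0_normal (M0 * q) K5
    (({u} : Finset (FF (M0 * q))) ∪ S1 ∪ S2)
  have hle0 : K1 ⊔ K2 ⊔ K3 ⊔ K4 ≤ K0 := (le_sup_left.trans le_sup_left).trans (hle5.trans hle)
  have hle1 : K1 ≤ K0 := (le_sup_left.trans (le_sup_left.trans le_sup_left)).trans hle0
  have hle2 : K2 ≤ K0 := (le_sup_right.trans (le_sup_left.trans le_sup_left)).trans hle0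
  have hle3 : K3 ≤ K0 := (le_sup_right.trans le_sup_left).trans hle0
  have hle4 : K4 ≤ K0 := le_sup_right.trans hle0
  have hle6 : K6 ≤ K0 := (le_sup_right.trans le_sup_left).trans (hle5.trans hle)
  have hle7 : K7 ≤ K0 := le_sup_right.trans (hle5.trans hle)
  have hdvr := isDVR K0 A hq hA
  have hchar : CharP (kA A) q := ResField.charP hq hA
  obtain ⟨D, hF, hres⟩ := hQD K0 hK0 hle1
  obtain ⟨T, hT, hTW⟩ := hTwo K0 hK0 hle3 D hF
  -- the embeddings into `FF M0` and `FF (M0 * q)`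
  let ι0 : D.F0 →+* FF M0 :=
    ((bc K0).comp (algebraMap D.F0 (LaurentSeries K0))).codRestrict (modularFunctionFieldBar M0)
      (fun f => bc_mem K0 M0 (hF ▸ f.2))
  have hι0 : ∀ f : D.F0, ((ι0 f : FF M0) : LaurentSeries Kb) = bc K0 (f : LaurentSeries K0) :=
    fun _ => rfl
  set ι : T.F →+* FF (M0 * q) := iotaT T hT with hιdef
  have hι : ∀ f : T.F, ((ι f : FF (M0 * q)) : LaurentSeries Kb) = bc K0 (f : LaurentSeries K0) :=
    fun _ => rfl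
  have hιinj : Function.Injective ι := ι.injective
  have lift : ∀ f ∈ (({u} : Finset (FF (M0 * q))) ∪ S1 ∪ S2), ∃ f0 : T.F, ι f0 = f := by
    intro f hf
    obtain ⟨f0, hf0, h⟩ := hS f hf
    exact ⟨⟨f0, hT ▸ hf0⟩, Subtype.ext h⟩
  obtain ⟨u0, hu0⟩ := lift u (by simp)
  have hu00 : u0 ≠ 0 := by
    rintro rfl
    exact hu.1 (by rw [← hu0, map_zero])
  -- the coordinate
  have hx : zS K0 Z.xZ ∈ D.F0 := by
    obtain ⟨x5, hx5, h5⟩ := hS5 Z.xF (Finset.mem_singleton_self _)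
    obtain ⟨x0, hx0, h0⟩ := InstUp.IsDef.mono hle (⟨x5, hx5, h5⟩ : InstUp.IsDef M0 K5 _)
    have h1 : bc K0 x0 = bc K0 (zS K0 Z.xZ) := by
      rw [h0]
      exact (coeffMap_zS (algebraMap K0 Kb) Z.xZ).symm
    have h2 : x0 = zS K0 Z.xZ := QE.coeffMap_injective (algebraMap K0 Kb).injective h1
    rw [← h2, hF]
    exact hx0
  set X := toCoord Z D hx with hX
  set y := zS (R0 K0 A) Z.yZ with hy
  have hxy : X.xW * y = 1 := toCoord_mul Z D hx
  have hι0x : ι0 X.x = Z.xF := by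
    apply Subtype.ext
    rw [hι0, coe_toCoord_x]
    exact coeffMap_zS (algebraMap K0 Kb) Z.xZ
  have hι0x' : ι0 (X.inv y hxy).x = Z.xF⁻¹ := by rw [X.inv_x y hxy, map_inv₀, hι0x]
  have hιx : ι (T.x X) = ZN.xF := by
    rw [hZN]
    apply Subtype.ext
    rw [coe_heckeAlphaBar, ← hι0x]
    rfl
  have hm : IsUnit (m : R0 K0 A) := natCast_isUnit_R0 K0 A hq hA hqm
  have ha0 : (Z.a : kA A) ≠ 0 := intCast_ne_zero (kA A) Z.a_prim
  -- normality at level `M0`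
  have hded1 : IsDedekindDomain (X.chart ⧸ Ideal.span {Inst.ϖB X}) := by
    refine hDed K0 hK0 hle2 D hF hres X ι0 hι0 (by rw [hι0x]; exact hxt0)
      (by rw [hι0x]; exact hfd0) (gFin _ Z.a) (by rw [gFin_map]; exact separable_gFin _ _ ha0) ?_
    intro a ha v hv
    rw [gFin_map] at ha
    rw [hι0x] at hv ⊢
    exact unram_fin Z hU a ha v hv
  have hded2 : IsDedekindDomain ((X.inv y hxy).chart ⧸ Ideal.span {Inst.ϖB (X.inv y hxy)}) := by
    refine hDed K0 hK0 hle2 D hF hres (X.inv y hxy) ι0 hι0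
      (by rw [hι0x']; exact hxt0') (by rw [hι0x']; exact hfd0') (gInf _ Z.a)
      (by rw [gInf_map]; exact separable_gInf _ _) ?_
    intro a ha v hv
    rw [gInf_map] at ha
    rw [hι0x'] at hv ⊢
    exact unram_inf Z hU a ha v hv
  -- Frobenius congruences for the coordinate
  have hXW : X.xW = zS (R0 K0 A) Z.xZ := rfl
  have hxq : qExpand (kA A) q (D.red X.xW) = D.red X.xW ^ q := by
    rw [hXW, QData.red, coeffMap_zS]
    exact qExpand_zS (kA A) q hq Z.xZ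
  have hyq : qExpand (kA A) q (D.red y) = D.red y ^ q := by
    rw [hy, QData.red, coeffMap_zS]
    exact qExpand_zS (kA A) q hq Z.yZ
  -- the Frobenius and the inertia element
  obtain ⟨Φ, hΦK, hΦk⟩ := exists_tAut φ hφ.mem_decompositionSubgroup D hF hres T hT
  have hΦ := sk_of_frobenius φ hφ Φ hΦk
  -- the functions `θ`, `X_u`, `Y_u`
  have hαx : heckeAlphaBar Kb M0 q Z.xF = ZN.xF := hZN.symm
  have hαx' : heckeAlphaBar Kb M0 q Z.xF⁻¹ = ZN.xF⁻¹ := by rw [map_inv₀, hαx]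
  have hfdα : FiniteDimensional Kb⟮heckeAlphaBar Kb M0 q Z.xF⟯ (FF (M0 * q)) := by
    rw [hαx]; exact hfd
  have hfdα' : FiniteDimensional Kb⟮heckeAlphaBar Kb M0 q Z.xF⁻¹⟯ (FF (M0 * q)) := by
    rw [hαx']; exact hfd'
  have hxy1 : XYData T X :=
    exists_xy hq hqM hA D hF hres T hT W hWα hWβ hTW X y hxy Z.xF
      (by rw [← hι0x, hι0]) (by rw [hαx]; exact hxt) hW.pos hW.cusp
  have hxy2 : XYData T (X.inv y hxy) :=
    exists_xy hq hqM hA D hF hres T hT W hWα hWβ hTW (X.inv y hxy) X.xW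
      (by rw [mul_comm]; exact hxy) Z.xF⁻¹
      (by rw [← hι0x', hι0]) (by rw [hαx']; exact hxt') hW.inv.pos hW.inv.cusp
  -- the local generators
  have hιx' : ι (T.x (X.inv y hxy)) = ZN.xF⁻¹ := by
    rw [← hιx, ← map_inv₀, x_inv T X y hxy]
  have hdiv1 := hS1 K0 A D q T X ι hι hιx (fun f hf => lift f (by simp [hf])) u0 hu0
  have hdiv2 := hS2 K0 A D q T (X.inv y hxy) ι hι hιx' (fun f hf => lift f (by simp [hf])) u0 hu0
  have hK : ∀ P : Place Kb (FF (M0 * q)), P.ord (ι u0) ≠ 0 →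
      ∀ σ : GQ, (∀ x ∈ K0, σ x = x) → galP (M0 * q) σ P = P := by
    intro P hP σ hσ
    rw [hu0] at hP
    exact hrat P hP σ (fun x hx => hσ x (hle4 hx))
  have hfdι : FiniteDimensional Kb⟮ι (T.x X)⟯ (FF (M0 * q)) := by rw [hιx]; exact hfd
  have hfdι' : FiniteDimensional Kb⟮(ι (T.x X))⁻¹⟯ (FF (M0 * q)) := by rw [hιx]; exact hfd'
  obtain ⟨ζ, hζ⟩ := hzeta K0 hle6
  have hA' : ∃ z, GNorm.nA T u0 = z ^ m :=
    exists_nA_root T hT hF hqM u0 m zA (hdef K0 hle7 zA (by simp)) (by rw [← hzA, ← hu0])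
  have hB' : ∃ z, GNorm.nB T u0 = z ^ m :=
    exists_nB_root T hT hF hqM u0 m zB (hdef K0 hle7 zB (by simp)) (by rw [← hzB, ← hu0])
  obtain ⟨z, c, hz, hzc⟩ := GCoreT.new_core hq D T X y hxy m hm hded1 hded2 hxq hyq Φ hΦ
    (sR_zS Φ Z.xZ) (sR_zS Φ Z.yZ) hxy1 hxy2 ζ hζ (M0 * q) ι hι
    (by rw [hιx]; exact hxt) u0 hu00 hdiv1 hdiv2 hK hA' hB'
  -- the end
  have hιz : ι z ≠ 0 := (_root_.map_ne_zero ι).2 hz
  have hg : ∀ f : T.F, ι (Φ.toF f) = gal (M0 * q) φ (ι f) := fun f => iotaT_toF T hT Φ φ hΦK f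
  have h3 := congrArg ι hzc
  rw [show ι (algebraMap K0 T.F c) = algebraMap Kb (FF (M0 * q)) (c : Kb) from
    iotaT_algebraMap T hT c] at h3
  simp only [dQ, dl, RingEquiv.trans_apply, map_mul, map_div₀, map_pow, hg, hu0] at h3
  obtain ⟨c', hc'⟩ := IsAlgClosed.exists_pow_nat_eq (c : Kb) hm0
  rw [show NewRel (gal (M0 * q) φ) q m u ↔ _ from
    NewLvl.newRel_iff (gal (M0 * q) φ : FF (M0 * q) →+* FF (M0 * q)) q m hu.1]
  refine ⟨algebraMap Kb (FF (M0 * q)) c' / ι z, ?_⟩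
  rw [div_pow, ← map_pow (algebraMap Kb (FF (M0 * q))), hc', ← h3]
  have hgu : ∀ f : FF (M0 * q), f ≠ 0 → gal (M0 * q) φ f ≠ 0 :=
    fun f hf => (_root_.map_ne_zero _).2 hf
  exact alg_aux _ _ _ _ _ (hgu _ (hgu _ (hgu _ (hgu _ hu.1)))) (hgu _ (hgu _ hu.1)) hu.1
    (pow_ne_zero _ hιz) _

end Fermat.Agent.S35.GU2
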