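import Fermat.Agent.S35.GCore
import Fermat.Agent.S35.GDesc
import Fermat.Agent.S35.GZeta
import Fermat.Agent.S35.NewLvl
import Fermat.Agent.S34.UCoord

/-!
# S35 : `NEW m M₀ q A` for a level `M₀` with a good coordinate  ([G-U])
-/

set_option autoImplicit false
set_option linter.unusedVariables false
set_option linter.style.haveILetI false
set_option synthInstance.maxHeartbeats 400000
set_option maxHeartbeats 4000000

noncomputable section

namespace Fermat.Agent.S35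

open ModularCurve AlgebraicCurve Polynomial IntermediateField
open Fermat.Agent.S24 Fermat.Agent.S28 Fermat.Agent.ES Fermat.Agent.ES.QE Fermat.Agent.ES.Model
  Fermat.Agent.ES.IDvr Fermat.Agent.ES.Inst Fermat.Agent.S37.Rat Fermat.Agent.S34
open Fermat.Agent.ES.Inst.InstFinal Fermat.Agent.ES.Inst.InstCoord

namespace GUB

/-- integral series: `x(T^q) ≡ x(T)^q` modulo `q`. -/
theorem qExpand_zS (k : Type*) [Field k] (q : ℕ) [Fact q.Prime] [CharP k q] (x : LaurentSeries ℤ) :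
    qExpand k q (zS k x) = zS k x ^ q := by
  rw [KCong.pow_char q (zS k x)]
  congr 1
  exact (coeffMap_zS (frobenius k q) x).symm

theorem transcendental_alpha (M0 q : ℕ) [NeZero M0] [NeZero q] {x : FF M0}
    (hx : Transcendental Kb x) : Transcendental Kb (heckeAlphaBar Kb M0 q x) :=
  fun h => hx ((isAlgebraic_algHom_iff _ (heckeAlphaBar Kb M0 q).injective).1 h)

/-- the algebra at the end. -/
theorem newRel_of {F : Type*} [Field F] (g : F ≃+* F) (q m : ℕ) {u z c : F} (hu : u ≠ 0)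
    (hz : z ≠ 0)
    (h : z ^ m * (g (g (g (g (g (g u))))) * (g (g u)) ^ (2 * q ^ 2 + 1)
      / ((g (g (g (g u)))) ^ (q ^ 2 + 2) * u ^ (q ^ 2))) = c ^ m) : NewRel g q m u := by
  have h4 : g (g (g (g u))) ≠ 0 := by simpa using hu
  have hd : (g (g (g (g u)))) ^ (q ^ 2 + 2) * u ^ (q ^ 2) ≠ 0 :=
    mul_ne_zero (pow_ne_zero _ h4) (pow_ne_zero _ hu)
  refine ⟨c / z, ?_⟩
  rw [div_pow, ← h]
  field_simp

theorem field_aux {F : Type*} [Field F] {a b c d : F} (ha : a ≠ 0) (hb : b ≠ 0) (hc : c ≠ 0)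
    (Q : ℕ) : (d / c / (c / b)) / ((c / b) / (b / a)) ^ Q
      = d * b ^ (2 * Q + 1) / (c ^ (Q + 2) * a ^ Q) := by
  have e1 : b ^ (2 * Q + 1) = (b ^ Q) ^ 2 * b := by ring
  have e2 : c ^ (Q + 2) = c ^ Q * c ^ 2 := by ring
  rw [e1, e2, div_pow, div_pow, div_pow]
  have hA : a ^ Q ≠ 0 := pow_ne_zero _ ha
  have hB : b ^ Q ≠ 0 := pow_ne_zero _ hb
  have hC : c ^ Q ≠ 0 := pow_ne_zero _ hc
  generalize a ^ Q = A at *
  generalize b ^ Q = B at *
  generalize c ^ Q = C at *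
  field_simp

theorem dQ_dl_dl {F : Type*} [Field F] (g : F ≃+* F) (q : ℕ) {u : F} (hu : u ≠ 0) :
    dQ (g.trans g) (q ^ 2) (dl (g.trans g) (dl (g.trans g) u))
      = g (g (g (g (g (g u))))) * (g (g u)) ^ (2 * q ^ 2 + 1)
      / ((g (g (g (g u)))) ^ (q ^ 2 + 2) * u ^ (q ^ 2)) := by
  have h2 : g (g u) ≠ 0 := by simpa using hu
  have h4 : g (g (g (g u))) ≠ 0 := by simpa using hu
  simp only [dQ, dl, RingEquiv.trans_apply, map_div₀]
  exact field_aux hu h2 h4 (q ^ 2)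

/-- **[G-U]** : `NEW` at level `M₀ q` for a level `M₀` which carries a good coordinate. -/
theorem new_of_coord (m M0 q : ℕ) [NeZero M0] [NeZero q] (hq : q.Prime) (hqM : ¬ q ∣ M0)
    (hqm : ¬ q ∣ m) (A : ValuationSubring Kb) (hA : A.LiesOverPrime q) (Z : ZCoord M0 q)
    (hU : Z.Unram) (hW : WGood M0 q Z.xF) : NEW m M0 q A := by
  classical
  intro φ hφ u hu ⟨z1, hz1⟩ ⟨z2, hz2⟩
  haveI : Fact q.Prime := ⟨hq⟩
  have hm0 : 0 < m := Nat.pos_of_ne_zero (by rintro rfl; exact hqm (dvd_zero _))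
  have hxt := transcendental_xF Z
  have hat : Transcendental Kb (heckeAlphaBar Kb M0 q Z.xF) := transcendental_alpha M0 q hxt
  have hat' : Transcendental Kb (heckeAlphaBar Kb M0 q Z.xF)⁻¹ := FF.transcendental_inv hat
  haveI hfd : FiniteDimensional Kb⟮heckeAlphaBar Kb M0 q Z.xF⟯ (FF (M0 * q)) :=
    FF.finiteDimensional_adjoin hat
  haveI hfd' : FiniteDimensional Kb⟮(heckeAlphaBar Kb M0 q Z.xF)⁻¹⟯ (FF (M0 * q)) :=
    FF.finiteDimensional_adjoin hat'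
  obtain ⟨S1, hS1⟩ := exists_hdiv_mem (M0 * q) m _ hat u hu
  obtain ⟨S2, hS2⟩ := exists_hdiv_mem (M0 * q) m _ hat' u hu
  obtain ⟨K1, hK1, hQD⟩ := exists_QData M0 q hq hqM A hA
  obtain ⟨K2, hK2, hTh⟩ := exists_K1_theta M0 q hq hqM A hA
  obtain ⟨K3, hK3, hTwo⟩ := exists_two M0 q hq hqM A (WK.Wb M0 q hqM) (WK.Wb_alpha M0 q hqM)
    (WK.Wb_beta M0 q hqM)
  obtain ⟨K4, hK4, hrat⟩ := Hrat.exists_field_rational u hu.1
  obtain ⟨K6, hK6, hzeta⟩ := exists_K1_zeta q A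
  obtain ⟨K5, hK5, hle5, hS5⟩ := exists_K0 M0 (K1 ⊔ K2 ⊔ K3 ⊔ K4 ⊔ K6) {Z.xF, z1, z2}
  obtain ⟨K0, hK0, hnorm, hle, hS⟩ := exists_K0_normal (M0 * q) K5 ({u} ∪ S1 ∪ S2)
  have le5 : K1 ⊔ K2 ⊔ K3 ⊔ K4 ⊔ K6 ≤ K0 := hle5.trans hle
  have le1 : K1 ≤ K0 :=
    (((le_sup_left.trans le_sup_left).trans le_sup_left).trans le_sup_left).trans le5
  have le2 : K2 ≤ K0 :=
    (((le_sup_right.trans le_sup_left).trans le_sup_left).trans le_sup_left).trans le5
  have le3 : K3 ≤ K0 := ((le_sup_right.trans le_sup_left).trans le_sup_left).trans le5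
  have le4 : K4 ≤ K0 := (le_sup_right.trans le_sup_left).trans le5
  have le6 : K6 ≤ K0 := le_sup_right.trans le5
  haveI hdvr := isDVR K0 A hq hA
  haveI hchar : CharP (kA A) q := ResField.charP hq hA
  obtain ⟨D, hF, hres⟩ := hQD K0 hK0 le1
  obtain ⟨Th⟩ := hTh K0 hK0 le2 D hF hres
  obtain ⟨T, hT, hTW⟩ := hTwo K0 hK0 le3 D hF
  obtain ⟨ζ, hζ⟩ := hzeta K0 le6
  -- the coordinate
  have hx : zS K0 Z.xZ ∈ D.F0 := by
    obtain ⟨x0, hx0, h⟩ := InstUp.IsDef.mono hle (hS5 Z.xF (by simp))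
    have h1 : bc K0 x0 = bc K0 (zS K0 Z.xZ) := by
      rw [h]
      exact (coeffMap_zS (algebraMap K0 Kb) Z.xZ).symm
    have h2 : x0 = zS K0 Z.xZ := QE.coeffMap_injective (algebraMap K0 Kb).injective h1
    rw [← h2, hF]
    exact hx0
  set X := toCoord Z D hx with hX
  set y := zS (R0 K0 A) Z.yZ with hy
  have hxy : X.xW * y = 1 := toCoord_mul Z D hx
  have hm : IsUnit (m : R0 K0 A) := natCast_isUnit_R0 K0 A hq hA hqm
  have hded1 : IsDedekindDomain (X.chart ⧸ Ideal.span {Inst.ϖB X}) := hded_fin Z hU D hF Th hx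
  have hded2 : IsDedekindDomain ((X.inv y hxy).chart ⧸ Ideal.span {Inst.ϖB (X.inv y hxy)}) :=
    hded_inf Z hU D hF Th hx
  have hxq : qExpand (kA A) q (D.red X.xW) = D.red X.xW ^ q := by
    have : D.red X.xW = zS (kA A) Z.xZ := coeffMap_zS _ _
    rw [this]
    exact qExpand_zS _ q _
  have hyq : qExpand (kA A) q (D.red y) = D.red y ^ q := by
    have : D.red y = zS (kA A) Z.yZ := coeffMap_zS _ _
    rw [this]
    exact qExpand_zS _ q _
  -- Frobenius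
  obtain ⟨Φ, hΦK, hΦk⟩ := exists_tAut φ hφ.mem_decompositionSubgroup D hF hres T hT
  have hΦ := sk_of_frobenius φ hφ Φ hΦk
  -- the data at the cusps and the nodes
  have hbx : bc K0 (X.x : LaurentSeries K0) = (Z.xF : LaurentSeries Kb) := by
    rw [coe_toCoord_x]
    exact coeffMap_zS _ _
  have hxy1 : XYData T X := exists_xy hq hqM hA D hF hres T hT (WK.Wb M0 q hqM)
    (WK.Wb_alpha M0 q hqM) (WK.Wb_beta M0 q hqM) hTW X y hxy Z.xF hbx hat hW.pos hW.cusp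
  have hyx : (X.inv y hxy).xW * X.xW = 1 := by
    rw [mul_comm]
    exact hxy
  have hbx' : bc K0 ((X.inv y hxy).x : LaurentSeries K0) = ((Z.xF⁻¹ : FF M0) : LaurentSeries Kb) := by
    rw [X.inv_x y hxy, IntermediateField.coe_inv, map_inv₀, hbx, IntermediateField.coe_inv]
  have hai : heckeAlphaBar Kb M0 q Z.xF⁻¹ = (heckeAlphaBar Kb M0 q Z.xF)⁻¹ := map_inv₀ _ _
  haveI : FiniteDimensional Kb⟮heckeAlphaBar Kb M0 q Z.xF⁻¹⟯ (FF (M0 * q)) := by
    rw [hai]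
    exact hfd'
  have hxy2 : XYData T (X.inv y hxy) := exists_xy hq hqM hA D hF hres T hT (WK.Wb M0 q hqM)
    (WK.Wb_alpha M0 q hqM) (WK.Wb_beta M0 q hqM) hTW (X.inv y hxy) X.xW hyx Z.xF⁻¹ hbx'
    (by rw [hai]; exact hat') hW.inv.pos hW.inv.cusp
  -- the embedding
  have hιx : iotaT T hT (T.x X) = heckeAlphaBar Kb M0 q Z.xF := by
    rw [Two.x, iotaT_al T hT hF, iotaF_toCoord_x]
  have lift : ∀ f ∈ ({u} ∪ S1 ∪ S2 : Finset (FF (M0 * q))), ∃ f0 : T.F, iotaT T hT f0 = f := by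
    intro f hf
    obtain ⟨f0, hf0, h⟩ := hS f hf
    exact ⟨⟨f0, hT ▸ hf0⟩, Subtype.ext h⟩
  obtain ⟨u0, hu0⟩ := lift u (by simp)
  have hu00 : u0 ≠ 0 := by
    rintro rfl
    rw [map_zero] at hu0
    exact hu.1 hu0.symm
  have hdiv1 := hS1 K0 A D q T X (iotaT T hT) (coe_iotaT T hT) hιx
    (fun f hf => lift f (by simp [hf])) u0 hu0
  have hdiv2 := hS2 K0 A D q T (X.inv y hxy) (iotaT T hT) (coe_iotaT T hT)
    (by rw [x_inv, map_inv₀, hιx]) (fun f hf => lift f (by simp [hf])) u0 hu0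
  have hK : ∀ P : Place Kb (FF (M0 * q)), P.ord (iotaT T hT u0) ≠ 0 →
      ∀ σ : GQ, (∀ x ∈ K0, σ x = x) → galP (M0 * q) σ P = P := by
    intro P hP σ hσ
    rw [hu0] at hP
    exact hrat P hP σ (fun x hx => hσ x (le4 hx))
  haveI : FiniteDimensional Kb⟮iotaT T hT (T.x X)⟯ (FF (M0 * q)) := by
    rw [hιx]
    exact hfd
  haveI : FiniteDimensional Kb⟮(iotaT T hT (T.x X))⁻¹⟯ (FF (M0 * q)) := by
    rw [hιx]
    exact hfd'
  -- the norms
  have hnA : ∃ z, GNorm.nA T u0 = z ^ m := exists_nA_root T hT hF hqM u0 m z1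
    (InstUp.IsDef.mono hle (hS5 z1 (by simp))) (by rw [hu0]; exact hz1)
  have hnB : ∃ z, GNorm.nB T u0 = z ^ m := exists_nB_root T hT hF hqM u0 m z2
    (InstUp.IsDef.mono hle (hS5 z2 (by simp))) (by rw [hu0]; exact hz2)
  obtain ⟨z, c, hz, h⟩ := new_core hq D T X y hxy m hm hded1 hded2 hxq hyq Φ hΦ (sR_zS Φ _)
    (sR_zS Φ _) hxy1 hxy2 ζ hζ (M0 * q) (iotaT T hT) (coe_iotaT T hT)
    (by rw [hιx]; exact hat) u0 hu00 hdiv1 hdiv2 hK hnA hnB
  -- conclusion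
  obtain ⟨c', hc'⟩ := IsAlgClosed.exists_pow_nat_eq ((c : K0) : Kb) hm0
  have h' : z ^ m * dQ (Φ.toF.trans Φ.toF) (q ^ 2)
      (dl (Φ.toF.trans Φ.toF) (dl (Φ.toF.trans Φ.toF) u0)) = algebraMap K0 T.F c :=
    Subtype.ext (h.trans (algebraMap_eq_C _).symm)
  rw [dQ_dl_dl Φ.toF q hu00] at h'
  have h'' := congrArg (iotaT T hT) h'
  simp only [map_mul, map_pow, map_div₀, iotaT_toF T hT Φ φ hΦK, hu0, iotaT_algebraMap] at h''
  have hz' : iotaT T hT z ≠ 0 := (_root_.map_ne_zero _).2 hz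
  refine newRel_of (gal (M0 * q) φ) q m (z := iotaT T hT z)
    (c := algebraMap Kb (FF (M0 * q)) c') hu.1 hz' ?_
  rw [h'', ← map_pow, hc']

end GUB

end Fermat.Agent.S35
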