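import Fermat.Agent.S35.NRAbs
import Fermat.Agent.S34.QVal

/-!
# S35, geometry : the norm-reduction formula [NR] at the level of `T : Two D q`

For `u ∈ O = O₁ ∩ O₂` the determinant of the multiplication by `u` on `O = ⊕ gaussO f_i`
reduces to `ρ₁(u) · σ(ρ₂(u))`, `σ` the coefficientwise Frobenius.
-/

set_option autoImplicit false
set_option linter.unusedSectionVars false
set_option linter.unusedVariables false

noncomputable section

namespace Fermat.Agent.S35.NR

open ModularCurve Polynomial Fermat.Agent.S34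
open Fermat.Agent.ES.QE Fermat.Agent.ES.Model

variable {R K k : Type*} [CommRing R] [IsDomain R] [IsNoetherianRing R] [IsIntegrallyClosed R]
  [Field K] [Algebra R K] [IsFractionRing R K] [Field k]
  {D : QData R K k} {q : ℕ}

section basic

variable [NeZero q] (T : Two D q)

/-- the first reduction on `O`. -/
def R1 : T.O →+* LaurentSeries k := T.rho1.comp (Subring.inclusion inf_le_left)

/-- the second reduction on `O`. -/
def R2 : T.O →+* LaurentSeries k := T.rho2.comp (Subring.inclusion inf_le_right)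

/-- `α` on the Gauss rings. -/
def alO : D.gaussO →+* T.O :=
  (T.al.comp D.gaussO.subtype).codRestrict T.O (fun u => T.al_mem_O u.2)

/-- `β` on the Gauss rings. -/
def beO : D.gaussO →+* T.O :=
  (T.be.comp D.gaussO.subtype).codRestrict T.O (fun u => T.be_mem_O u.2)

@[simp] lemma coe_alO (c : D.gaussO) : ((alO T c : T.O) : T.F) = T.al (c : D.F0) := rfl

@[simp] lemma coe_beO (c : D.gaussO) : ((beO T c : T.O) : T.F) = T.be (c : D.F0) := rfl

lemma R1_alO (c : D.gaussO) : R1 T (alO T c) = D.rhoO c := rho1_al T c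

lemma R2_alO (c : D.gaussO) : R2 T (alO T c) = qExpand k q (D.rhoO c) := rho2_al T c

lemma R1_beO (c : D.gaussO) : R1 T (beO T c) = qExpand k q (D.rhoO c) := rho1_be T c

lemma R2_beO (c : D.gaussO) : R2 T (beO T c) = D.rhoO c := rho2_be T c

/-- `j` in the Gauss ring. -/
def jO (D : QData R K k) : D.gaussO := ⟨D.jF, NOrth.j_mem_LamRing⟩

lemma rhoO_jO : D.rhoO (jO D) = jqModC k := NOrth.rho_j

/-- the adapted basis of `O` over the Gauss ring of level `M₀`. -/
def fO : Fin (q + 1) → T.O := NRAbs.fam (beO T (jO D)) (alO T (jO D ^ q)) q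

end basic

variable [Fact q.Prime] [CharP k q] (T : Two D q)

lemma R1_fO_zero : R1 T (fO T 0) = 1 := map_one _

lemma R1_fO_succ (l : Fin q) : R1 T (fO T l.succ) = 0 := by
  rw [fO, NRAbs.map_fam, NRAbs.fam_succ, R1_beO, R1_alO, map_pow, rhoO_jO, NOrth.qExpand_jq_char,
    sub_self, zero_mul]

lemma R2_fO_zero : R2 T (fO T 0) = 1 := map_one _

/-- `δ = j - j ^ (q ^ 2)`. -/
def del (k : Type*) [Field k] (q : ℕ) : LaurentSeries k := jqModC k - (jqModC k ^ q) ^ q

lemma del_ne_zero : del k q ≠ 0 := by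
  intro h
  have h1 : jqModC k = (jqModC k ^ q) ^ q := sub_eq_zero.mp h
  have h2 := congrArg HahnSeries.order h1
  rw [HahnSeries.order_pow, HahnSeries.order_pow, Fermat.Agent.S28.Ord.order_jqModC] at h2
  have hq : 2 ≤ q := (Fact.out : q.Prime).two_le
  have h3 : (q : ℤ) * q = 1 := by
    simp only [nsmul_eq_mul] at h2
    linarith
  have h4 : (2 : ℤ) ≤ q := by exact_mod_cast hq
  nlinarith

lemma R2_fO_succ (l : Fin q) : R2 T (fO T l.succ) = del k q * jqModC k ^ (l : ℕ) := by
  rw [fO, NRAbs.map_fam, NRAbs.fam_succ, R2_beO, R2_alO, map_pow, map_pow, rhoO_jO,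
    NOrth.qExpand_jq_char, del]

/-- every element of `O` is a combination of the adapted basis, with coefficients in the Gauss
ring. -/
theorem exists_coord (f : T.O) :
    ∃ c : Fin (q + 1) → D.gaussO, f = ∑ i, alO T (c i) * fO T i := by
  let _ : Algebra D.gaussO T.O := (alO T).toAlgebra
  obtain ⟨a, ha, hf⟩ := T.exists_rep_of_mem_O f.2
  have hf' : f = ∑ i : Fin (q + 1), (⟨a i, ha i⟩ : D.gaussO) • (beO T (jO D)) ^ (i : ℕ) := by
    apply Subtype.ext
    rw [hf]
    have : ((∑ i : Fin (q + 1), (⟨a i, ha i⟩ : D.gaussO) • (beO T (jO D)) ^ (i : ℕ) : T.O) : T.F)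
        = ∑ i : Fin (q + 1),
          (((⟨a i, ha i⟩ : D.gaussO) • (beO T (jO D)) ^ (i : ℕ) : T.O) : T.F) :=
      map_sum T.O.subtype _ _
    rw [this]
    rfl
  have hmem : f ∈ Submodule.span D.gaussO (Set.range (fO T)) := by
    rw [hf']
    refine Submodule.sum_mem _ fun i _ => Submodule.smul_mem _ _ ?_
    exact NRAbs.pow_mem_span (beO T (jO D)) (jO D ^ q) q i (Nat.lt_succ_iff.mp i.2)
  obtain ⟨c, hc⟩ := (Submodule.mem_span_range_iff_exists_fun D.gaussO).mp hmem
  exact ⟨c, hc.symm⟩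

/-- **[NR]** : the norm-reduction formula. -/
theorem norm_red (u : T.O) :
    ∃ b : Matrix (Fin (q + 1)) (Fin (q + 1)) D.gaussO,
      (∀ l, u * fO T l = ∑ i, alO T (b i l) * fO T i) ∧
      D.rhoO b.det = R1 T u * coeffMap (frobenius k q) (R2 T u) := by
  classical
  have h := fun l => exists_coord T (u * fO T l)
  choose c hc using h
  refine ⟨fun i l => c l i, hc, ?_⟩
  set b : Matrix (Fin (q + 1)) (Fin (q + 1)) D.gaussO := fun i l => c l i with hb
  set bb : Matrix (Fin (q + 1)) (Fin (q + 1)) (LaurentSeries k) := D.rhoO.mapMatrix b with hbb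
  have hbb' : ∀ i l, bb i l = D.rhoO (c l i) := fun i l => rfl
  rw [RingHom.map_det, ← hbb]
  -- first reduction
  have e1 : ∀ l, R1 T u * R1 T (fO T l) = bb 0 l := by
    intro l
    have := congrArg (R1 T) (hc l)
    rw [map_mul, map_sum, Fin.sum_univ_succ] at this
    rw [this, map_mul, R1_alO, R1_fO_zero, mul_one, hbb']
    have h0 : ∑ i : Fin q, R1 T (alO T (c l i.succ) * fO T i.succ) = 0 :=
      Finset.sum_eq_zero fun i _ => by rw [map_mul, R1_fO_succ, mul_zero]
    rw [h0, add_zero]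
  have e00 : bb 0 0 = R1 T u := by rw [← e1 0, R1_fO_zero, mul_one]
  have e0s : ∀ l : Fin q, bb 0 l.succ = 0 := fun l => by rw [← e1 l.succ, R1_fO_succ, mul_zero]
  rw [NRAbs.det_of_row_zero bb e0s, e00]
  congr 1
  -- second reduction
  refine NRAbs.det_eq_frob q (jqModC k) (Fermat.Agent.S28.Ord.order_jqModC k) (R2 T u) _ ?_
  intro l
  have := congrArg (R2 T) (hc l.succ)
  rw [map_mul, map_sum, Fin.sum_univ_succ, map_mul, R2_alO, R2_fO_zero, mul_one, R2_fO_succ,
    ← hbb' 0 l.succ, e0s l, map_zero, zero_add] at this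
  apply mul_left_cancel₀ (del_ne_zero (k := k) (q := q))
  rw [Finset.mul_sum]
  have e3 : R2 T u * (del k q * jqModC k ^ (l : ℕ)) = del k q * (R2 T u * jqModC k ^ (l : ℕ)) := by
    ring
  rw [← e3, this]
  refine Finset.sum_congr rfl fun i _ => ?_
  rw [map_mul, R2_alO, R2_fO_succ, Matrix.submatrix_apply, hbb']
  ring

end Fermat.Agent.S35.NR
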