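import Fermat.Agent.S34.OrthL
import Fermat.Agent.ES.KCong

/-!
# S35, geometry : the norm-reduction formula [NR], abstract lemmas
-/

set_option autoImplicit false
set_option linter.unusedSectionVars false
set_option linter.unusedVariables false

noncomputable section

namespace Fermat.Agent.S35.NRAbs

open ModularCurve Finset

/-! ### the adapted family `1, (Y - J) Y ^ l` -/

section Fam

variable {A E : Type*} [CommRing A] [CommRing E] [Algebra A E]

/-- the family `1, (Y - J), (Y - J) Y, …, (Y - J) Y ^ (q - 1)`. -/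
def fam (Y : E) (J : E) (q : ℕ) : Fin (q + 1) → E :=
  Fin.cons 1 (fun l : Fin q => (Y - J) * Y ^ (l : ℕ))

@[simp] lemma fam_zero (Y J : E) (q : ℕ) : fam Y J q 0 = 1 := rfl

@[simp] lemma fam_succ (Y J : E) (q : ℕ) (l : Fin q) :
    fam Y J q l.succ = (Y - J) * Y ^ (l : ℕ) := rfl

lemma map_fam {E' : Type*} [CommRing E'] (g : E →+* E') (Y J : E) (q : ℕ) (i : Fin (q + 1)) :
    g (fam Y J q i) = fam (g Y) (g J) q i := by
  refine Fin.cases ?_ (fun l => ?_) i
  · rw [fam_zero, fam_zero, map_one]
  · rw [fam_succ, fam_succ, map_mul, map_sub, map_pow]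

/-- `Y ^ i`, `i ≤ q`, lies in the span of the adapted family. -/
lemma pow_mem_span (Y : E) (J : A) (q : ℕ) :
    ∀ i, i ≤ q → Y ^ i ∈ Submodule.span A (Set.range (fam Y (algebraMap A E J) q)) := by
  intro i
  induction i with
  | zero =>
    intro _
    rw [pow_zero]
    exact Submodule.subset_span ⟨0, rfl⟩
  | succ i ih =>
    intro hi
    have h1 : Y ^ (i + 1) = fam Y (algebraMap A E J) q (Fin.succ ⟨i, hi⟩) + J • Y ^ i := by
      rw [fam_succ, Algebra.smul_def]
      simp only
      ring
    rw [h1]
    exact Submodule.add_mem _ (Submodule.subset_span ⟨_, rfl⟩)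
      (Submodule.smul_mem _ _ (ih (Nat.le_of_succ_le hi)))

end Fam

/-! ### determinants -/

/-- a matrix whose first row is `(a, 0, …, 0)`. -/
lemma det_of_row_zero {S : Type*} [CommRing S] {n : ℕ} (M : Matrix (Fin (n + 1)) (Fin (n + 1)) S)
    (h : ∀ l : Fin n, M 0 l.succ = 0) :
    M.det = M 0 0 * (M.submatrix Fin.succ Fin.succ).det := by
  rw [Matrix.det_succ_row_zero, Fin.sum_univ_succ]
  have : ∑ l : Fin n, (-1 : S) ^ ((l.succ : Fin (n + 1)) : ℕ) * M 0 l.succ *
      (M.submatrix Fin.succ l.succ.succAbove).det = 0 :=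
    Finset.sum_eq_zero fun l _ => by rw [h l, mul_zero, zero_mul]
  rw [this, add_zero, Fin.val_zero, pow_zero, one_mul]
  congr 2

/-! ### the purely inseparable part -/

section PI

variable {k : Type*} [Field k] (q : ℕ) [Fact q.Prime] [CharP k q]

/-- **(PI)** the determinant of the multiplication by `r` on `V(Ω)[θ]`, `θ ^ q ∈ V(Ω)`. -/
theorem det_eq_frob (θ : LaurentSeries k) (hθ : θ.order = -1) (r : LaurentSeries k)
    (c : Matrix (Fin q) (Fin q) (LaurentSeries k))
    (h : ∀ l : Fin q, ∑ i : Fin q, qExpand k q (c i l) * θ ^ (i : ℕ) = r * θ ^ (l : ℕ)) :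
    c.det = coeffMap (frobenius k q) r := by
  classical
  -- powers
  have hpow : ∀ (n : ℕ) (l : Fin q),
      ∑ i : Fin q, qExpand k q ((c ^ n) i l) * θ ^ (i : ℕ) = r ^ n * θ ^ (l : ℕ) := by
    intro n
    induction n with
    | zero =>
      intro l
      rw [pow_zero, pow_zero, one_mul, Finset.sum_eq_single l]
      · rw [Matrix.one_apply_eq, map_one, one_mul]
      · intro i _ hi
        rw [Matrix.one_apply_ne hi, map_zero, zero_mul]
      · intro hl
        exact absurd (Finset.mem_univ l) hl
    | succ n ih =>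
      intro l
      have e1 : ∀ i : Fin q, qExpand k q ((c ^ (n + 1)) i l) * θ ^ (i : ℕ)
          = ∑ s : Fin q, qExpand k q (c s l) * (qExpand k q ((c ^ n) i s) * θ ^ (i : ℕ)) := by
        intro i
        rw [pow_succ, Matrix.mul_apply, map_sum, Finset.sum_mul]
        refine Finset.sum_congr rfl fun s _ => ?_
        rw [map_mul]; ring
      rw [Finset.sum_congr rfl fun i _ => e1 i, Finset.sum_comm]
      have e2 : ∀ s : Fin q, ∑ i : Fin q,
          qExpand k q (c s l) * (qExpand k q ((c ^ n) i s) * θ ^ (i : ℕ))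
          = r ^ n * (qExpand k q (c s l) * θ ^ (s : ℕ)) := by
        intro s
        rw [← Finset.mul_sum, ih s]; ring
      rw [Finset.sum_congr rfl fun s _ => e2 s, ← Finset.mul_sum, h l, pow_succ]
      ring
  -- `c ^ q` is scalar
  have hscal : c ^ q = Matrix.scalar (Fin q) (coeffMap (frobenius k q) r) := by
    refine Matrix.ext fun i0 l => ?_
    have h1 := hpow q l
    rw [Fermat.Agent.ES.KCong.pow_char q r] at h1
    let b : ℕ → LaurentSeries k := fun i =>
      if hi : i < q then (c ^ q) ⟨i, hi⟩ l
        - (if i = (l : ℕ) then coeffMap (frobenius k q) r else 0) else 0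
    have h2 : ∑ i ∈ range q, qExpand k q (b i) * θ ^ i = 0 := by
      rw [← Fin.sum_univ_eq_sum_range (fun i => qExpand k q (b i) * θ ^ i) q]
      have e3 : ∀ i : Fin q, qExpand k q (b i) * θ ^ (i : ℕ)
          = qExpand k q ((c ^ q) i l) * θ ^ (i : ℕ)
            - (if i = l then qExpand k q (coeffMap (frobenius k q) r) * θ ^ (l : ℕ) else 0) := by
        intro i
        have : b i = (c ^ q) i l
            - (if (i : ℕ) = (l : ℕ) then coeffMap (frobenius k q) r else 0) := by
          simp only [b, dif_pos i.2]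
        rw [this, map_sub, sub_mul]
        congr 1
        by_cases hil : i = l
        · rw [if_pos hil, if_pos (congrArg Fin.val hil), hil]
        · rw [if_neg hil, if_neg (fun h => hil (Fin.ext h)), map_zero, zero_mul]
      rw [Finset.sum_congr rfl fun i _ => e3 i, Finset.sum_sub_distrib, h1,
        Finset.sum_ite_eq' Finset.univ l, if_pos (Finset.mem_univ l), sub_self]
    have h3 := Fermat.Agent.S34.OrthL.indep q θ hθ b h2 i0 i0.2
    simp only [b, dif_pos i0.2] at h3
    rw [Matrix.scalar_apply, Matrix.diagonal_apply]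
    by_cases hil : i0 = l
    · rw [if_pos hil]
      rw [if_pos (congrArg Fin.val hil)] at h3
      exact sub_eq_zero.mp h3
    · rw [if_neg hil]
      rw [if_neg (fun h => hil (Fin.ext h)), sub_zero] at h3
      exact h3
  have hdet : c.det ^ q = (coeffMap (frobenius k q) r) ^ q := by
    rw [← Matrix.det_pow, hscal, Matrix.scalar_apply, Matrix.det_diagonal, Finset.prod_const,
      Finset.card_univ, Fintype.card_fin]
  have : CharP (LaurentSeries k) q :=
    charP_of_injective_ringHom (HahnSeries.C : k →+* LaurentSeries k).injective q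
  exact frobenius_inj (LaurentSeries k) q hdet

end PI

end Fermat.Agent.S35.NRAbs
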