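import Fermat.Agent.S34.NOrth

/-!
# S35, geometry, package G-N2 (NR-FORMAL)

Reduction of `∏_b g(ζ^b T)` for a `q`-th root of unity `ζ` in residue characteristic `q`, and the
formal consequence for the norm formula.
-/

set_option autoImplicit false
set_option linter.unusedSectionVars false

noncomputable section

namespace Fermat.Agent.S35

open ModularCurve Polynomial Finset
open Fermat.Agent.ES.QE Fermat.Agent.S34

variable {R K k : Type*} [CommRing R] [IsDomain R] [IsNoetherianRing R] [IsIntegrallyClosed R]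
  [Field K] [Algebra R K] [IsFractionRing R K] [Field k]

namespace NRFormal

variable {D : QData R K k}

/-- the image of a unit of `R` in `K`. -/
abbrev uK (ω : Rˣ) : Kˣ := Units.map (algebraMap R K : R →* K) ω

theorem inc_twist (ω : Rˣ) (w : LaurentSeries R) :
    D.inc (S28.twist ω w) = S28.twist (uK (K := K) ω) (D.inc w) := by
  ext n
  rw [QData.inc, coeffMap_coeff, S28.twist_coeff, S28.twist_coeff, coeffMap_coeff, map_mul,
    ← map_zpow]
  rfl

theorem red_twist (ω : Rˣ) (hω : D.res ω = 1) (w : LaurentSeries R) :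
    D.red (S28.twist ω w) = D.red w := by
  ext n
  rw [QData.red, coeffMap_coeff, S28.twist_coeff, coeffMap_coeff, map_mul]
  have h1 : Units.map (D.res : R →* k) ω = 1 := Units.ext hω
  have h2 : D.res ((ω ^ n : Rˣ) : R) = ((Units.map (D.res : R →* k) ω ^ n : kˣ) : k) := by
    rw [← map_zpow]
    rfl
  rw [h2, h1, one_zpow, Units.val_one, one_mul]

theorem isFrac_twist (ω : Rˣ) (hω : D.res ω = 1) {f : LaurentSeries K} {t w : LaurentSeries R}
    (h : D.IsFrac f t w) :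
    D.IsFrac (S28.twist (uK (K := K) ω) f) (S28.twist ω t) (S28.twist ω w) := by
  refine ⟨by rw [red_twist ω hω]; exact h.1, ?_⟩
  rw [inc_twist, inc_twist, ← map_mul, h.2]

theorem twist_mem_LamRing (ω : Rˣ) (hω : D.res ω = 1) {f : LaurentSeries K}
    (hf : f ∈ D.LamRing) : S28.twist (uK (K := K) ω) f ∈ D.LamRing := by
  obtain ⟨t, w, h⟩ := hf
  exact ⟨_, _, isFrac_twist ω hω h⟩

theorem rho_twist (ω : Rˣ) (hω : D.res ω = 1) {f : LaurentSeries K} (hf : f ∈ D.LamRing) :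
    D.rho ⟨S28.twist (uK (K := K) ω) f, twist_mem_LamRing ω hω hf⟩ = D.rho ⟨f, hf⟩ := by
  obtain ⟨t, w, h⟩ := hf
  rw [QData.rho_eq (f := ⟨S28.twist (uK (K := K) ω) f, _⟩) (isFrac_twist ω hω h),
    QData.rho_eq (f := ⟨f, _⟩) h, red_twist ω hω, red_twist ω hω]

/-- a `q`-th root of unity reduces to `1` in characteristic `q`. -/
theorem res_eq_one (q : ℕ) [Fact q.Prime] [CharP k q] (ζ : Rˣ) (hζ : ζ ^ q = 1) :
    D.res ζ = 1 := by
  have h1 : (D.res ζ - 1) ^ q = 0 := by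
    rw [sub_pow_char, one_pow, ← map_pow, ← Units.val_pow_eq_pow_val, hζ, Units.val_one, map_one,
      sub_self]
  exact sub_eq_zero.1 (pow_eq_zero_iff (Fact.out : q.Prime).ne_zero |>.1 h1)

theorem res_pow_eq_one (q : ℕ) [Fact q.Prime] [CharP k q] (ζ : Rˣ) (hζ : ζ ^ q = 1) (b : ℕ) :
    D.res ((ζ ^ b : Rˣ) : R) = 1 := by
  rw [Units.val_pow_eq_pow_val, map_pow, res_eq_one q ζ hζ, one_pow]

/-- a root of unity of `K` comes from a unit of the integrally closed ring `R`. -/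
theorem exists_unit (q : ℕ) (hq : q ≠ 0) (ζK : Kˣ) (h : ζK ^ q = 1) :
    ∃ ζ : Rˣ, uK (K := K) ζ = ζK ∧ ζ ^ q = 1 := by
  have h' : (ζK : K) ^ q = 1 := by rw [← Units.val_pow_eq_pow_val, h, Units.val_one]
  have hint : IsIntegral R (ζK : K) :=
    ⟨X ^ q - C 1, monic_X_pow_sub_C 1 hq, by
      rw [eval₂_sub, eval₂_pow, eval₂_X, eval₂_C, map_one, h', sub_self]⟩
  obtain ⟨r, hr⟩ := IsIntegrallyClosed.isIntegral_iff.1 hint
  have hr1 : r ^ q = 1 := IsFractionRing.injective R K (by rw [map_pow, hr, map_one, h'])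
  exact ⟨Units.ofPowEqOne r q hr1 hq, Units.ext hr, Units.pow_ofPowEqOne hr1 hq⟩

end NRFormal

open NRFormal

/-- **NR-FORMAL**, membership. -/
theorem prod_twist_mem_LamRing (D : QData R K k) (q : ℕ) [Fact q.Prime] [CharP k q] (ζ : Rˣ)
    (hζ : ζ ^ q = 1) {g : LaurentSeries K} (hg : g ∈ D.LamRing) :
    ∏ b ∈ range q, S28.twist (uK (K := K) ζ ^ b) g ∈ D.LamRing := by
  refine Subring.prod_mem _ fun b _ => ?_
  rw [← map_pow]
  exact twist_mem_LamRing _ (res_pow_eq_one q ζ hζ b) hg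

/-- **NR-FORMAL**: `ρ (∏_b g(ζ^b T)) = (ρ g) ^ q`. -/
theorem rho_prod_twist (D : QData R K k) (q : ℕ) [Fact q.Prime] [CharP k q] (ζ : Rˣ)
    (hζ : ζ ^ q = 1) {g : LaurentSeries K} (hg : g ∈ D.LamRing) :
    D.rho ⟨∏ b ∈ range q, S28.twist (uK (K := K) ζ ^ b) g, prod_twist_mem_LamRing D q ζ hζ hg⟩
      = D.rho ⟨g, hg⟩ ^ q := by
  have hm : ∀ b, S28.twist (uK (K := K) ζ ^ b) g ∈ D.LamRing := fun b => by
    rw [← map_pow]
    exact twist_mem_LamRing _ (res_pow_eq_one q ζ hζ b) hg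
  have e : (⟨∏ b ∈ range q, S28.twist (uK (K := K) ζ ^ b) g,
      prod_twist_mem_LamRing D q ζ hζ hg⟩ : D.LamRing)
      = ∏ b ∈ range q, (⟨S28.twist (uK (K := K) ζ ^ b) g, hm b⟩ : D.LamRing) := by
    apply Subtype.ext
    exact (map_prod D.LamRing.subtype
      (fun b => (⟨S28.twist (uK (K := K) ζ ^ b) g, hm b⟩ : D.LamRing)) (range q)).symm
  rw [e, map_prod]
  have h1 : ∀ b ∈ range q, D.rho ⟨S28.twist (uK (K := K) ζ ^ b) g, hm b⟩ = D.rho ⟨g, hg⟩ := by
    intro b _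
    have h2 := rho_twist (D := D) (ζ ^ b) (res_pow_eq_one q ζ hζ b) hg
    rw [← h2]
    congr 1
    apply Subtype.ext
    show S28.twist (uK (K := K) ζ ^ b) g = S28.twist (uK (K := K) (ζ ^ b)) g
    have e2 : uK (K := K) (ζ ^ b) = uK (K := K) ζ ^ b :=
      map_pow (Units.map (algebraMap R K : R →* K)) ζ b
    rw [e2]
  rw [Finset.prod_congr rfl h1, Finset.prod_const, card_range]

/-- **NR-FORMAL**, corollary: the reduction of a "norm". -/
theorem rho_of_qExpand_eq (D : QData R K k) (q : ℕ) [Fact q.Prime] [CharP k q] (ζ : Rˣ)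
    (hζ : ζ ^ q = 1) {v f₁ f₂ : LaurentSeries K} (hv : v ∈ D.LamRing) (h₁ : f₁ ∈ D.LamRing)
    (h₂ : f₂ ∈ D.LamRing)
    (h : qExpand K q v = qExpand K q f₁ * ∏ b ∈ range q, S28.twist (uK (K := K) ζ ^ b) f₂) :
    D.rho ⟨v, hv⟩ = D.rho ⟨f₁, h₁⟩ * coeffMap (frobenius k q) (D.rho ⟨f₂, h₂⟩) := by
  have : NeZero q := ⟨(Fact.out : q.Prime).ne_zero⟩
  apply qExpand_injective (R := k) (N := q)
  rw [map_mul, ← Fermat.Agent.ES.KCong.pow_char q, ← NOrth.rho_qExpand q hv,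
    ← NOrth.rho_qExpand q h₁, ← rho_prod_twist D q ζ hζ h₂, ← map_mul]
  congr 1
  exact Subtype.ext h

/-- an element of the function field whose `T ↦ T ^ q` is Gauss integral is Gauss integral. -/
theorem mem_gaussO_of_qExpand (D : QData R K k) (q : ℕ) [NeZero q] (v : D.F0)
    (h : qExpand K q (v : LaurentSeries K) ∈ D.LamRing) : v ∈ D.gaussO := by
  by_contra hv
  have hv0 : v ≠ 0 := by
    rintro rfl
    exact hv D.gaussO.zero_mem
  have hinv : v⁻¹ ∈ D.gaussO := (D.gaussO.mem_or_inv_mem v).resolve_left hv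
  have hdiv := D.isUnif.gen v⁻¹ hinv (by rwa [inv_inv])
  have h0 : D.rhoO ⟨v⁻¹, hinv⟩ = 0 := (D.rhoO_eq_zero_iff _).2 hdiv
  have hm : ((v⁻¹ : D.F0) : LaurentSeries K) ∈ D.LamRing := hinv
  have h1 := NOrth.rho_qExpand q hm
  have h0' : D.rho ⟨((v⁻¹ : D.F0) : LaurentSeries K), hm⟩ = 0 := h0
  rw [h0', map_zero] at h1
  have h2 : D.rho ⟨qExpand K q (v : LaurentSeries K), h⟩ *
      D.rho ⟨qExpand K q ((v⁻¹ : D.F0) : LaurentSeries K), NOrth.qExpand_mem_LamRing q hm⟩ = 1 := by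
    rw [← map_mul, ← map_one D.rho]
    congr 1
    apply Subtype.ext
    show qExpand K q (v : LaurentSeries K) * qExpand K q ((v⁻¹ : D.F0) : LaurentSeries K) = 1
    rw [← map_mul, ← IntermediateField.coe_mul, mul_inv_cancel₀ hv0, IntermediateField.coe_one,
      map_one]
  rw [h1, mul_zero] at h2
  exact zero_ne_one h2

/-- **NR-FORMAL**, final form (`ζ` a `q`-th root of unity of `K`, `v` in the function field). -/
theorem rhoO_of_qExpand_eq (D : QData R K k) (q : ℕ) [Fact q.Prime] [CharP k q] (ζK : Kˣ)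
    (hζ : ζK ^ q = 1) (v : D.F0) {f₁ f₂ : LaurentSeries K} (h₁ : f₁ ∈ D.LamRing)
    (h₂ : f₂ ∈ D.LamRing)
    (h : qExpand K q (v : LaurentSeries K)
      = qExpand K q f₁ * ∏ b ∈ range q, S28.twist (ζK ^ b) f₂) :
    ∃ hv : v ∈ D.gaussO,
      D.rhoO ⟨v, hv⟩ = D.rho ⟨f₁, h₁⟩ * coeffMap (frobenius k q) (D.rho ⟨f₂, h₂⟩) := by
  have : NeZero q := ⟨(Fact.out : q.Prime).ne_zero⟩
  obtain ⟨ζ, rfl, hζ'⟩ := exists_unit (R := R) q (Fact.out : q.Prime).ne_zero ζK hζ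
  have hv : v ∈ D.gaussO := by
    apply mem_gaussO_of_qExpand D q
    rw [h]
    exact D.LamRing.mul_mem (NOrth.qExpand_mem_LamRing q h₁) (prod_twist_mem_LamRing D q ζ hζ' h₂)
  exact ⟨hv, rho_of_qExpand_eq D q ζ hζ' hv h₁ h₂ h⟩

end Fermat.Agent.S35
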