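import Fermat.Agent.S35.GNorm
import Fermat.Agent.S35.GW
import Fermat.Agent.S35.Defs
import Fermat.Agent.S34.NSpan
import Fermat.Agent.S34.WK

/-!
# S35, geometry : the norms at the level `K0` and at the level `Kb` (bridge)
-/

set_option autoImplicit false
set_option linter.unusedSectionVars false
set_option linter.unusedVariables false

noncomputable section

namespace Fermat.Agent.S35

open ModularCurve AlgebraicCurve Polynomial
open Fermat.Agent.S24 Fermat.Agent.ES Fermat.Agent.ES.QE Fermat.Agent.ES.Model Fermat.Agent.S34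

namespace NRKb

/-- **(B0)** the norm commutes with a base change which maps a basis to a basis. -/
theorem norm_map {F0 F E0 E : Type*} [Field F0] [Field F] [Field E0] [Field E] [Algebra F0 F]
    [Algebra E0 E] (ι0 : F0 →+* E0) (ι : F →+* E)
    (hcomp : ∀ c, ι (algebraMap F0 F c) = algebraMap E0 E (ι0 c)) {n : ℕ} (v : Fin n → F)
    (hv : ⊤ ≤ Submodule.span F0 (Set.range v)) (hF : Module.finrank F0 F = n)
    (hv' : ⊤ ≤ Submodule.span E0 (Set.range fun i => ι (v i))) (hE : Module.finrank E0 E = n)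
    (x : F) : ι0 (Algebra.norm F0 x) = Algebra.norm E0 (ι x) := by
  classical
  let b := basisOfTopLeSpanOfCardEqFinrank v hv (by rw [Fintype.card_fin, hF])
  let b' := basisOfTopLeSpanOfCardEqFinrank (fun i => ι (v i)) hv' (by rw [Fintype.card_fin, hE])
  have hb : ∀ i, b i = v i := fun i => by
    rw [coe_basisOfTopLeSpanOfCardEqFinrank]
  have hb' : ∀ i, b' i = ι (v i) := fun i => by
    rw [coe_basisOfTopLeSpanOfCardEqFinrank]
  rw [Algebra.norm_eq_matrix_det b x, Algebra.norm_eq_matrix_det b' (ι x), RingHom.map_det]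
  congr 1
  refine Matrix.ext fun i j => ?_
  rw [RingHom.mapMatrix_apply, Matrix.map_apply, Algebra.leftMulMatrix_eq_repr_mul,
    Algebra.leftMulMatrix_eq_repr_mul]
  have h1 : x * b j = ∑ l, b.repr (x * b j) l • b l := (b.sum_repr _).symm
  have h2 : ι x * b' j = ∑ l, ι0 (b.repr (x * b j) l) • b' l := by
    rw [hb', ← hb, ← map_mul, h1, map_sum]
    refine Finset.sum_congr rfl fun l _ => ?_
    rw [← h1, Algebra.smul_def, Algebra.smul_def, map_mul, hcomp, hb' l, hb l]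
  rw [h2, b'.repr_sum_self]

end NRKb

variable {R K k : Type*} [CommRing R] [IsDomain R] [IsNoetherianRing R] [IsIntegrallyClosed R]
  [Field K] [Algebra R K] [IsFractionRing R K] [Field k]
  {D : QData R K k} {q : ℕ} [Fact q.Prime] [CharP k q] (T : Two D q)
  {M0 : ℕ} [NeZero M0]

/-- **(B1)** the norm along `α`. -/
theorem iota_nA (hqM : ¬ q ∣ M0) (ι0 : D.F0 →+* FF M0) (ι : T.F →+* FF (M0 * q))
    (hα : ∀ c, ι (T.al c) = heckeAlphaBar Kb M0 q (ι0 c))
    (hβ : ∀ c, ι (T.be c) = heckeBetaBar Kb M0 q (ι0 c)) (hj : ι0 D.jF = jF M0) (u : T.F) :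
    ι0 (GNorm.nA T u) = normA M0 q (ι u) := by
  let _ := T.al.toAlgebra
  let _ := algebraAlong (heckeAlphaBar Kb M0 q)
  refine NRKb.norm_map ι0 ι hα (fun i : Fin (q + 1) => T.be D.jF ^ (i : ℕ)) ?_
    (GNorm.finrank_al T) ?_ (finrank_heckeAlpha M0 q hqM) u
  · intro f _
    obtain ⟨c, rfl⟩ := T.exists_rep f
    refine Submodule.sum_mem _ fun i _ => ?_
    have : T.al (c i) * T.be D.jF ^ (i : ℕ) = c i • T.be D.jF ^ (i : ℕ) :=
      (Algebra.smul_def _ _).symm
    rw [this]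
    exact Submodule.smul_mem _ _ (Submodule.subset_span ⟨i, rfl⟩)
  · intro f _
    obtain ⟨c, rfl⟩ := span_Kb M0 q Fact.out hqM f
    refine Submodule.sum_mem _ fun i _ => ?_
    have : heckeAlphaBar Kb M0 q (c i) * heckeBetaBar Kb M0 q (jF M0) ^ (i : ℕ)
        = c i • heckeBetaBar Kb M0 q (jF M0) ^ (i : ℕ) := (Algebra.smul_def _ _).symm
    rw [this]
    refine Submodule.smul_mem _ _ (Submodule.subset_span ⟨i, ?_⟩)
    simp only
    rw [map_pow, hβ, hj]

/-- **(B2)** the norm along `β`. -/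
theorem iota_nB (hqM : ¬ q ∣ M0) (ι0 : D.F0 →+* FF M0) (ι : T.F →+* FF (M0 * q))
    (hα : ∀ c, ι (T.al c) = heckeAlphaBar Kb M0 q (ι0 c))
    (hβ : ∀ c, ι (T.be c) = heckeBetaBar Kb M0 q (ι0 c)) (hj : ι0 D.jF = jF M0) (u : T.F) :
    ι0 (GNorm.nB T u) = normB M0 q (ι u) := by
  let _ := T.be.toAlgebra
  let _ := algebraAlong (heckeBetaBar Kb M0 q)
  refine NRKb.norm_map ι0 ι hβ (fun i : Fin (q + 1) => T.al D.jF ^ (i : ℕ)) ?_
    (GNorm.finrank_be T (Wt T) (Wt_al T)) ?_ (S37.KT.finrank_heckeBeta M0 q hqM) u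
  · intro f _
    obtain ⟨c, hc⟩ := T.exists_rep (Wt T f)
    have hf : f = ∑ i, T.be (c i) * T.al D.jF ^ (i : ℕ) := by
      rw [← Wt_Wt T f, hc, map_sum]
      refine Finset.sum_congr rfl fun i _ => ?_
      rw [map_mul, map_pow, Wt_al, Wt_be]
    rw [hf]
    refine Submodule.sum_mem _ fun i _ => ?_
    have : T.be (c i) * T.al D.jF ^ (i : ℕ) = c i • T.al D.jF ^ (i : ℕ) :=
      (Algebra.smul_def _ _).symm
    rw [this]
    exact Submodule.smul_mem _ _ (Submodule.subset_span ⟨i, rfl⟩)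
  · intro f _
    obtain ⟨c, hc⟩ := span_Kb M0 q Fact.out hqM (WK.Wb M0 q hqM f)
    have hf : f = ∑ i, heckeBetaBar Kb M0 q (c i) * heckeAlphaBar Kb M0 q (jF M0) ^ (i : ℕ) := by
      rw [← WK.Wb_Wb M0 q hqM f, hc, map_sum]
      refine Finset.sum_congr rfl fun i _ => ?_
      rw [map_mul, map_pow, WK.Wb_alpha, WK.Wb_beta]
    rw [hf]
    refine Submodule.sum_mem _ fun i _ => ?_
    have : heckeBetaBar Kb M0 q (c i) * heckeAlphaBar Kb M0 q (jF M0) ^ (i : ℕ)
        = c i • heckeAlphaBar Kb M0 q (jF M0) ^ (i : ℕ) := (Algebra.smul_def _ _).symm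
    rw [this]
    refine Submodule.smul_mem _ _ (Submodule.subset_span ⟨i, ?_⟩)
    simp only
    rw [map_pow, hα, hj]

end Fermat.Agent.S35
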