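import Fermat.Agent.S35.Defs
import Fermat.Agent.S37.KT
import Fermat.Agent.ES.KQExp
import Fermat.Agent.ES.KEmb

/-!
# S35, package G-N1 (NORMQ) : the `q`-expansion of the norm `FF (N ℓ) → FF N`

`Norm_α y = y · ∏_b (W y)(ζ^b T^{1/ℓ})` where `W` is the Atkin-Lehner involution.
-/

set_option autoImplicit false
set_option linter.style.haveILetI false
set_option linter.unusedSectionVars false

noncomputable section

namespace Fermat.Agent.S35.NormQ

open ModularCurve AlgebraicCurve Fermat.Agent.S24 Fermat.Agent.ES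
open P2MW.S_ModularForm_heckeT_slash_eq_self_of_mem_Gamma0.ModularForm.HeckeSlashInvariance
open UpperHalfPlane ModularForm Matrix.SpecialLinearGroup
open scoped MatrixGroups

section mer

variable {ℓ : ℕ}

/-- `F(ℓ (τ + b)/ℓ) = F(τ + b)`. -/
lemma merMap_heckeMatrix_diag (hℓ : ℓ ≠ 0) (b : ℕ) (x : Mer) :
    merMap (heckeMatrix ℓ b) (det_heckeMatrix_pos ℓ b)
      (merMap (heckeDiagMatrix ℓ) (det_heckeDiagMatrix_pos ℓ) x)
      = merMap (mapGL ℝ (ModularGroup.T ^ (b : ℤ))) (KEmb.det_mapGL_pos _) x := by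
  have : (merMap (heckeMatrix ℓ b) (det_heckeMatrix_pos ℓ b)).comp
      (merMap (heckeDiagMatrix ℓ) (det_heckeDiagMatrix_pos ℓ))
      = merMap (mapGL ℝ (ModularGroup.T ^ (b : ℤ))) (KEmb.det_mapGL_pos _) := by
    apply Mer_ringHom_ext
    intro F
    rw [RingHom.comp_apply, merMap_toMer, merMap_toMer, merMap_toMer]
    apply congrArg toMer
    apply Subtype.ext
    funext τ
    rw [compHom_apply, compHom_apply, compHom_apply]
    apply congrArg (F : ℍ → ℂ)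
    apply UpperHalfPlane.ext
    rw [coe_heckeDiagMatrix_smul hℓ, coe_heckeMatrix_smul hℓ]
    have h1 : ((mapGL ℝ (ModularGroup.T ^ (b : ℤ)) • τ : ℍ) : ℂ) = (τ : ℂ) + ((b : ℤ) : ℂ) :=
      ModularGroup.coe_T_zpow_smul_eq τ
    rw [h1]
    have : (ℓ : ℂ) ≠ 0 := by exact_mod_cast hℓ
    push_cast
    field_simp
  exact DFunLike.congr_fun this x

end mer

variable (N ℓ : ℕ) [NeZero N] [Fact ℓ.Prime]

lemma T_zpow_mem (b : ℤ) : ModularGroup.T ^ b ∈ CongruenceSubgroup.Gamma0 N := by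
  rw [CongruenceSubgroup.Gamma0_mem, ModularGroup.coe_T_zpow]
  simp

variable {N ℓ} (hℓN : ¬ ℓ ∣ N) (W : FF (N * ℓ) ≃ₐ[Kb] FF (N * ℓ))
  (hWα : ∀ y : FF N, W (heckeAlphaBar Kb N ℓ y) = heckeBetaBar Kb N ℓ y)
  (hWβ : ∀ y : FF N, W (heckeBetaBar Kb N ℓ y) = heckeAlphaBar Kb N ℓ y)

include hℓN hWα hWβ

/-- the finite embeddings in terms of `W`. -/
lemma tau_coe (b : ZMod ℓ) (y : FF (N * ℓ)) :
    KEmb.tau N ℓ (b : OnePoint (ZMod ℓ)) y
      = merMap (heckeMatrix ℓ b.val) (det_heckeMatrix_pos ℓ b.val) (Psi (N * ℓ) (W y)) := by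
  have hℓ : ℓ ≠ 0 := (Fact.out : ℓ.Prime).ne_zero
  have : KEmb.tau N ℓ (b : OnePoint (ZMod ℓ))
      = (merMap (heckeMatrix ℓ b.val) (det_heckeMatrix_pos ℓ b.val)).comp
        ((Psi (N * ℓ)).comp (W : FF (N * ℓ) →+* FF (N * ℓ))) := by
    apply Fermat.Agent.S37.KT.ringHom_ext N ℓ
    · intro u
      rw [KEmb.tau_alpha, RingHom.comp_apply, RingHom.comp_apply, RingHom.coe_coe, hWα,
        KEmb.Psi_beta, merMap_heckeMatrix_diag hℓ, ← KEmb.act_eq_merMap,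
        KEmb.act_Psi_of_mem N (inv_mem (T_zpow_mem N _))]
    · intro u
      rw [KEmb.tau_beta hℓN, RingHom.comp_apply, RingHom.comp_apply, RingHom.coe_coe, hWβ,
        KEmb.Psi_alpha]
      rfl
  exact DFunLike.congr_fun this y

/-- the analytic product formula for the norm. -/
theorem Psi_normA (y : FF (N * ℓ)) :
    Psi N (normA N ℓ y) = Psi (N * ℓ) y
      * ∏ b : ZMod ℓ, merMap (heckeMatrix ℓ b.val) (det_heckeMatrix_pos ℓ b.val)
          (Psi (N * ℓ) (W y)) := by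
  haveI : NeZero (N * ℓ) := ⟨mul_ne_zero (NeZero.ne N) (Fact.out : ℓ.Prime).ne_zero⟩
  change Psi N (@Algebra.norm (FF N) (FF (N * ℓ)) _ _ (algebraAlong (heckeAlphaBar Kb N ℓ)) y) = _
  letI := algebraAlong (heckeAlphaBar Kb N ℓ)
  have hfr : Module.finrank (FF N) (FF (N * ℓ)) = ℓ + 1 := finrank_heckeAlpha N ℓ hℓN
  haveI : FiniteDimensional (FF N) (FF (N * ℓ)) :=
    Module.finite_of_finrank_pos (by rw [hfr]; exact Nat.succ_pos _)
  have hcard : Fintype.card (OnePoint (ZMod ℓ)) = Module.finrank (FF N) (FF (N * ℓ)) := by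
    rw [hfr]
    exact (Fintype.card_option (α := ZMod ℓ)).trans (by rw [ZMod.card])
  rw [KEmb.norm_eq_prod (Psi N) (KEmb.tau N ℓ) (KEmb.tau_injective hℓN)
    (fun x c => KEmb.tau_alpha N ℓ x c) hcard]
  have : ∀ f : OnePoint (ZMod ℓ) → Mer, ∏ x, f x = f OnePoint.infty * ∏ j : ZMod ℓ, f j :=
    fun f => Fintype.prod_option f
  rw [this]
  congr 1
  · rw [KEmb.tau, KEmb.gx_infty, inv_one, sigma_one]
  · exact Finset.prod_congr rfl fun b _ => tau_coe hℓN W hWα hWβ b y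

open KQExp in
/-- The product formula over `ℂ`, in the variable `t = q^(1/ℓ)`. -/
theorem formula_C (y : FF (N * ℓ)) :
    qExpand ℂ ℓ (iotaL N (normA N ℓ y))
      = qExpand ℂ ℓ (iotaL (N * ℓ) y)
        * ∏ b ∈ Finset.range ℓ, S28.twist (om 1 ℓ ^ b) (iotaL (N * ℓ) (W y)) := by
  haveI : NeZero (N * ℓ) := ⟨mul_ne_zero (NeZero.ne N) (Fact.out : ℓ.Prime).ne_zero⟩
  have hℓ : 0 < (ℓ : ℤ) := by exact_mod_cast (Fact.out : ℓ.Prime).pos
  have k1 : (1 : ℤ) * (ℓ : ℕ) = 1 * (ℓ : ℕ) := rfl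
  have k3 : (1 : ℤ) * (ℓ : ℕ) = (ℓ : ℤ) * ((1 : ℕ) : ℤ) := by push_cast; ring
  have key : utFrac 1 0 1 one_pos one_pos ℓ ⟨_, k1⟩ (Psi1 N (normA N ℓ y))
      = utFrac 1 0 1 one_pos one_pos ℓ ⟨_, k1⟩ (Psi1 (N * ℓ) y)
        * ∏ b ∈ Finset.range ℓ, utFrac 1 b ℓ one_pos hℓ ℓ ⟨_, k3⟩ (Psi1 (N * ℓ) (W y)) := by
    apply (niceToMer ℓ).injective
    rw [map_mul, map_prod, niceToMer_utFrac, niceToMer_utFrac, ← Psi_apply, ← Psi_apply,
      KQExp.merMap_congr utZ_one _ (by simp), merMap_one, RingHom.id_apply, RingHom.id_apply,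
      Psi_normA hℓN W hWα hWβ]
    congr 1
    rw [← prod_zmod ℓ (fun b => niceToMer ℓ (utFrac 1 b ℓ one_pos hℓ ℓ ⟨_, k3⟩
      (Psi1 (N * ℓ) (W y))))]
    refine Finset.prod_congr rfl fun j _ => ?_
    rw [niceToMer_utFrac, ← Psi_apply]
    exact congrArg (fun φ => φ (Psi (N * ℓ) (W y)))
      (KQExp.merMap_congr (heckeMatrix_eq ℓ j.val hℓ) _ _)
  have := congrArg (niceToLaurent ℓ) key
  rw [map_mul, map_prod, niceToLaurent_utFrac 1 0 1 one_pos one_pos ℓ ℓ k1,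
    niceToLaurent_utFrac 1 0 1 one_pos one_pos ℓ ℓ k1, om_zero, S28.Ord.twist_one,
    S28.Ord.twist_one, niceToLaurent_Psi1, niceToLaurent_Psi1] at this
  rw [this]
  congr 1
  refine Finset.prod_congr rfl fun b _ => ?_
  rw [niceToLaurent_utFrac 1 b ℓ one_pos hℓ ℓ 1 k3, qExpand_one_apply, niceToLaurent_Psi1,
    om_natCast]

/-- **NORMQ** : the `q`-expansion of the norm along `α`. -/
theorem normA_qExpand_of :
    ∃ ζ : Kbˣ, ζ ^ ℓ = 1 ∧ ∀ y : FF (N * ℓ),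
      qExpand Kb ℓ ((normA N ℓ y : FF N) : LaurentSeries Kb)
        = qExpand Kb ℓ ((y : FF (N * ℓ)) : LaurentSeries Kb)
          * ∏ b ∈ Finset.range ℓ, S28.twist (ζ ^ b) ((W y : FF (N * ℓ)) : LaurentSeries Kb) := by
  obtain ⟨ζ, hζ, hζ'⟩ := KQExp.exists_zeta ℓ
  refine ⟨ζ, hζ, fun y => ?_⟩
  have hinj : Function.Injective (coeffMap iotaC) := by
    intro x y hxy
    ext n
    have := congrArg (fun s => s.coeff n) hxy
    simp only [coeffMap_coeff] at this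
    exact iotaC.injective this
  apply hinj
  rw [coeffMap_qExpand, map_mul, coeffMap_qExpand, map_prod]
  have := formula_C hℓN W hWα hWβ y
  rw [iotaL_apply, iotaL_apply, iotaL_apply] at this
  rw [this]
  congr 1
  refine Finset.prod_congr rfl fun b _ => ?_
  rw [S28.Ord.coeffMap_twist, map_pow, hζ']

omit hℓN hWα in
/-- the norm along `β` is the norm along `α` composed with `W`. -/
theorem normB_eq (y : FF (N * ℓ)) : normB N ℓ y = normA N ℓ (W y) :=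
  @Algebra.norm_eq_of_equiv_equiv (FF N) (FF (N * ℓ)) (FF N) (FF (N * ℓ)) _ _ _ _
    (algebraAlong (heckeBetaBar Kb N ℓ)) (algebraAlong (heckeAlphaBar Kb N ℓ))
    (RingEquiv.refl _) (W : FF (N * ℓ) ≃+* FF (N * ℓ)) (by
      apply RingHom.ext
      intro y
      exact (hWβ y).symm) y

end Fermat.Agent.S35.NormQ
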