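import Fermat.Agent.S35.Defs
import Fermat.Agent.ES.InjAll
import Fermat.Agent.ES.EEig
import Fermat.Statements.S35

/-!
# S35 : THE SPEC (stubs).  Never import this file from a finished file.
-/

set_option autoImplicit false
set_option linter.overlappingInstances false

noncomputable section

namespace Fermat.Agent.S35.Plan

open Fermat.Agent.ES Fermat.Agent.S24 Fermat.Agent.S16 Fermat.Agent.S31 Fermat.Agent.S30
  Fermat.Agent.S30.FinLvl CuspForm CongruenceSubgroup ModularCurve AlgebraicCurve Polynomial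

/-! ## GEOMETRY (architect helper10) -/

/-- **NEW** : `(φ² - q²)(φ² - 1)² [u] = 0` if both norms of `u` to level `M0` are `m`-th powers
(`(X - Q)(X - 1)² = X³ - (Q + 2) X² + (2 Q + 1) X - Q`, `X = φ²`, `Q = q²`). -/
theorem new_rel (m M0 q : ℕ) [NeZero M0] [NeZero q] (hq : q.Prime) (hqM0 : ¬ q ∣ M0)
    (hqm : ¬ q ∣ m) (A : ValuationSubring Kb) (hA : A.LiesOverPrime q) (φ : GQ)
    (hφ : A.IsFrobeniusAt φ q) (u : FF (M0 * q)) (hu : IsPDiv m (M0 * q) u)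
    (h1 : ∃ z, normA M0 q u = z ^ m) (h2 : ∃ z, normB M0 q u = z ^ m) :
    ∃ z : FF (M0 * q),
      gal (M0 * q) φ (gal (M0 * q) φ (gal (M0 * q) φ (gal (M0 * q) φ
          (gal (M0 * q) φ (gal (M0 * q) φ u))))) * (gal (M0 * q) φ (gal (M0 * q) φ u)) ^ (2 * q ^ 2 + 1)
        = (gal (M0 * q) φ (gal (M0 * q) φ (gal (M0 * q) φ (gal (M0 * q) φ u)))) ^ (q ^ 2 + 2)
          * u ^ (q ^ 2) * z ^ m := sorry

/-! ## HK : the norms and the Hecke operators -/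

theorem isPDiv_normA (m M0 q : ℕ) [NeZero M0] [Fact q.Prime] (hqM0 : ¬ q ∣ M0) {u : FF (M0 * q)}
    (hu : IsPDiv m (M0 * q) u) : IsPDiv m M0 (normA M0 q u) := sorry

theorem isPDiv_normB (m M0 q : ℕ) [NeZero M0] [Fact q.Prime] (hqM0 : ¬ q ∣ M0) {u : FF (M0 * q)}
    (hu : IsPDiv m (M0 * q) u) : IsPDiv m M0 (normB M0 q u) := sorry

theorem normA_gal (M0 q : ℕ) [NeZero M0] [Fact q.Prime] (hqM0 : ¬ q ∣ M0) (σ : GQ)
    (u : FF (M0 * q)) : normA M0 q (gal (M0 * q) σ u) = gal M0 σ (normA M0 q u) := sorry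

theorem normB_gal (M0 q : ℕ) [NeZero M0] [Fact q.Prime] (hqM0 : ¬ q ∣ M0) (σ : GQ)
    (u : FF (M0 * q)) : normB M0 q (gal (M0 * q) σ u) = gal M0 σ (normB M0 q u) := sorry

theorem normA_heckeMul (M0 q ℓ : ℕ) [NeZero M0] [NeZero (M0 * q)] [Fact q.Prime] [Fact ℓ.Prime]
    (hqM0 : ¬ q ∣ M0) (hℓ : ¬ ℓ ∣ M0 * q) (u : FF (M0 * q)) :
    normA M0 q (heckeMul (M0 * q) ℓ u) = heckeMul M0 ℓ (normA M0 q u) := sorry

theorem normB_heckeMul (M0 q ℓ : ℕ) [NeZero M0] [NeZero (M0 * q)] [Fact q.Prime] [Fact ℓ.Prime]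
    (hqM0 : ¬ q ∣ M0) (hℓ : ¬ ℓ ∣ M0 * q) (u : FF (M0 * q)) :
    normB M0 q (heckeMul (M0 * q) ℓ u) = heckeMul M0 ℓ (normB M0 q u) := sorry

/-! ## FIND : the matrix identity at finite level -/

theorem good_h3 (p : ℕ) [Fact p.Prime] (M0 q : ℕ) [NeZero M0] [NeZero (M0 * q)] (hq : q.Prime)
    (hqM0 : ¬ q ∣ M0) (hqp : q ≠ p) (t0 : TN M0 q) (ht0 : (t0, 0) ∈ PP M0 q) (r : ℕ)
    (A : ValuationSubring Kb) (hA : A.LiesOverPrime q) (φ : GQ) (hφ : A.IsFrobeniusAt φ q) :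
    haveI : NeZero (p ^ r) := ⟨pow_ne_zero _ (Fact.out : p.Prime).ne_zero⟩
    (alpha (bN (M0 * q)) (p ^ r) φ * alpha (bN (M0 * q)) (p ^ r) φ
        - ((q ^ 2 : ℕ) : Matrix (Fin (dN (M0 * q))) (Fin (dN (M0 * q))) (ZMod (p ^ r))))
      * ((alpha (bN (M0 * q)) (p ^ r) φ * alpha (bN (M0 * q)) (p ^ r) φ - 1)
        * (alpha (bN (M0 * q)) (p ^ r) φ * alpha (bN (M0 * q)) (p ^ r) φ - 1))
      * toO (ZMod (p ^ r)) (tau (bN (M0 * q)) (S0 (M0 * q)) t0) = 0 := sorry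

/-! ## NF : the newform input -/

/-- NF-CHI : the eigensystem of a normalised eigenform. -/
theorem exists_chi0 {N : ℕ} [NeZero N] {g : CuspForm (Gamma0 N) 2} (hg : g.IsNormalizedEigenform)
    (S : Set ℕ) (hNS : ∀ q : ℕ, q.Prime → q ∣ N → q ∈ S) :
    ∃ c : heckeAlgebra N 2 S →+* ℂ, (∀ t : heckeAlgebra N 2 S, t.1 g = c t • g) ∧
      ∀ (ℓ : ℕ) (hℓ : ℓ.Prime) (hℓN : ¬ ℓ ∣ N) (hℓS : ℓ ∉ S),
        c (heckeAlgebra.T hℓ hℓN hℓS) = ModularFormClass.qCoeff g ℓ := sorry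

/-- NF-OLD : an eigensystem of `𝕋(M0)` (all `T_ℓ`, `ℓ ∤ M0 q`) with values in `ℂ` comes from a
normalised eigenform of level `M0`. -/
theorem exists_eigenform (M0 q : ℕ) [NeZero M0] (ψ : TM M0 q →+* ℂ) :
    ∃ h : CuspForm (Gamma0 M0) 2, h.IsNormalizedEigenform ∧
      ∀ (ℓ : ℕ) (hℓ : ℓ.Prime) (hℓN : ¬ ℓ ∣ M0 * q),
        ModularFormClass.qCoeff h ℓ
          = ψ (heckeAlgebra.T hℓ (not_dvd_left hℓN) (notMem_S0 hℓN)) := sorry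

/-- NF-DICH (pure algebra). -/
theorem dichotomy {T1 T2 K : Type*} [CommRing T1] [CommRing T2] [CommRing K]
    (P : Subring (T1 × T2)) (h1 : ∀ t : T1, ∃ z ∈ P, z.1 = t) (h2 : ∀ t : T2, ∃ z ∈ P, z.2 = t)
    (c : T1 →+* K) :
    (∃ t : T1, (t, 0) ∈ P ∧ c t ≠ 0) ∨ ∃ ψ : T2 →+* K, ∀ z ∈ P, ψ z.2 = c z.1 := sorry

/-- NF-SURJ. -/
theorem PP_fst_surjective (M0 q : ℕ) [NeZero M0] [NeZero (M0 * q)] (t : TN M0 q) :
    ∃ z ∈ PP M0 q, z.1 = t := sorry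

theorem PP_snd_surjective (M0 q : ℕ) [NeZero M0] [NeZero (M0 * q)] (t : TM M0 q) :
    ∃ z ∈ PP M0 q, z.2 = t := sorry

/-- NF-TRANSFER (pure algebra, Mathlib + `S30.Base`). -/
theorem transfer {T : Type*} [CommRing T] {d : ℕ} (τ : T →+* Matrix (Fin d) (Fin d) ℤ)
    (hτ : Function.Injective τ) (θ : Matrix (Fin d) (Fin d) ℤ) (c : T →+* ℂ) (v : Fin d → ℂ)
    (hv : ∀ t, (toO ℂ (τ t)).mulVec v = c t • v) (hθ : (toO ℂ θ).mulVec v ≠ 0)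
    {𝒪 : Type*} [CommRing 𝒪] [IsDomain 𝒪] [CharZero 𝒪] (iota : c.range →+* 𝒪) :
    ∃ w : Fin d → 𝒪, (∀ t, (toO 𝒪 (τ t)).mulVec w = (iota.comp c.rangeRestrict) t • w) ∧
      (toO 𝒪 θ).mulVec w ≠ 0 := sorry

/-! ## MAIN -/

theorem main35_of (p : ℕ) [Fact p.Prime] (N : ℕ) [NeZero N] (S : Finset ℕ)
    (hpS : p ∈ S) (hNS : ∀ q : ℕ, q.Prime → q ∣ N → q ∈ S) (D : FinData p N (↑S : Set ℕ))
    (𝒪' : Type) [CommRing 𝒪'] [IsDomain 𝒪'] [IsDiscreteValuationRing 𝒪']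
    [IsAdicComplete (IsLocalRing.maximalIdeal 𝒪') 𝒪'] [Finite (IsLocalRing.ResidueField 𝒪')]
    [CharZero 𝒪'] (hp : (p : 𝒪') ∈ IsLocalRing.maximalIdeal 𝒪')
    (χ : CuspForm.heckeAlgebra N 2 (↑S : Set ℕ) →+* 𝒪')
    (hG : ∀ q : ℕ, q.Prime → q ≠ p → q ∣ N → ¬ q ^ 2 ∣ N → Good D 𝒪' χ q) :
    ∃ (O'' : Type) (_ : CommRing O'') (_ : IsDomain O'') (_ : IsDiscreteValuationRing O'')
      (_ : IsAdicComplete (IsLocalRing.maximalIdeal O'') O'') (_ : Finite (IsLocalRing.ResidueField O''))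
      (_ : CharZero O'') (_ : Algebra 𝒪' O'') (_ : Module.Finite 𝒪' O'') (_ : IsLocalHom (algebraMap 𝒪' O'')),
      Function.Injective (algebraMap 𝒪' O'') ∧
      ∃ ρ : GaloisRepAdic O'',
        (∀ (ℓ : ℕ) (hℓ : ℓ.Prime) (hℓM : ¬ ℓ ∣ N) (hℓS : ℓ ∉ (↑S : Set ℕ)),
          ∀ A : ValuationSubring (AlgebraicClosure ℚ), A.LiesOverPrime ℓ →
            ∀ σ : AlgebraicClosure ℚ ≃ₐ[ℚ] AlgebraicClosure ℚ, A.IsFrobeniusAt σ ℓ →
              LinearMap.charpoly (ρ.ρ σ) =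
                X ^ 2 - C (algebraMap 𝒪' O'' (χ (CuspForm.heckeAlgebra.T hℓ hℓM hℓS))) * X
                  + C ((ℓ : O''))) ∧
        (∀ q : ℕ, q.Prime → q ≠ p → q ∣ N → ¬ q ^ 2 ∣ N →
          ∀ A : ValuationSubring (AlgebraicClosure ℚ), A.LiesOverPrime q →
            ∀ σ : AlgebraicClosure ℚ ≃ₐ[ℚ] AlgebraicClosure ℚ, A.IsFrobeniusAt σ q →
              LinearMap.charpoly (ρ.ρ σ) = X ^ 2 - C ((q : O'') + 1) * X + C ((q : O'')) ∨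
              LinearMap.charpoly (ρ.ρ σ) = X ^ 2 + C ((q : O'') + 1) * X + C ((q : O''))) := sorry

end Fermat.Agent.S35.Plan
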